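import Fermat.Agent.Lib.S16.Iface

/-!
# S16 — assembly: `Gen + UB + LB ⇒ #(𝕋 ⧸ I) = n`
-/

set_option autoImplicit false

open ModularCurve CuspForm

namespace Fermat.Agent.Lib.S16

variable (p : ℕ) [Fact p.Prime]

theorem s16_eisensteinNumerator_pos : 0 < eisensteinNumerator p := by
  have hp : 2 ≤ p := (Fact.out : p.Prime).two_le
  unfold eisensteinNumerator
  have h1 : 0 < p - 1 := by omega
  have hg : Nat.gcd (p - 1) 12 ∣ p - 1 := Nat.gcd_dvd_left _ _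
  exact Nat.div_pos (Nat.le_of_dvd h1 hg) (Nat.gcd_pos_of_pos_left _ h1)

/-- `Gen + UB + LB ⇒ #(𝕋 ⧸ I) = n`. -/
theorem s16_of_iface (hgen : s16_IfaceGen p) (hub : s16_IfaceUB p) (hlb : s16_IfaceLB p) :
    Nat.card (↥(heckeLatticeAlgebra p ∅) ⧸ s16_I p) = eisensteinNumerator p := by
  classical
  set n := eisensteinNumerator p with hn
  -- the additive map `ℤ → 𝕋 ⧸ I`
  let π : ℤ →+ (↥(heckeLatticeAlgebra p ∅) ⧸ s16_I p) :=
    (Ideal.Quotient.mk (s16_I p)).toAddMonoidHom.comp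
      (algebraMap ℤ ↥(heckeLatticeAlgebra p ∅)).toAddMonoidHom
  have hπ : ∀ a : ℤ, π a = Ideal.Quotient.mk (s16_I p)
      (algebraMap ℤ ↥(heckeLatticeAlgebra p ∅) a) := fun a => rfl
  have hsurj : Function.Surjective π := by
    intro x
    obtain ⟨t, rfl⟩ := Ideal.Quotient.mk_surjective x
    obtain ⟨a, ha⟩ := hgen t
    refine ⟨a, ?_⟩
    rw [hπ]
    exact ((Ideal.Quotient.mk_eq_mk_iff_sub_mem _ _).mpr ha).symm
  have hker : π.ker = AddSubgroup.zmultiples (n : ℤ) := by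
    ext M
    rw [AddMonoidHom.mem_ker, hπ, Ideal.Quotient.eq_zero_iff_mem, Int.mem_zmultiples_iff]
    constructor
    · intro h
      exact hlb M h
    · rintro ⟨c, rfl⟩
      have : algebraMap ℤ ↥(heckeLatticeAlgebra p ∅) ((n : ℤ) * c) =
          algebraMap ℤ ↥(heckeLatticeAlgebra p ∅) (n : ℤ) *
            algebraMap ℤ ↥(heckeLatticeAlgebra p ∅) c := map_mul _ _ _
      rw [this]
      exact Ideal.mul_mem_right _ _ hub
  have e1 : (ℤ ⧸ π.ker) ≃+ (↥(heckeLatticeAlgebra p ∅) ⧸ s16_I p) :=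
    QuotientAddGroup.quotientKerEquivOfSurjective π hsurj
  have e2 : (ℤ ⧸ AddSubgroup.zmultiples (n : ℤ)) ≃+ ZMod n :=
    Int.quotientZMultiplesNatEquivZMod n
  have hn0 : NeZero n := ⟨(s16_eisensteinNumerator_pos p).ne'⟩
  calc Nat.card (↥(heckeLatticeAlgebra p ∅) ⧸ s16_I p)
      = Nat.card (ℤ ⧸ π.ker) := (Nat.card_congr e1.toEquiv).symm
    _ = Nat.card (ℤ ⧸ AddSubgroup.zmultiples (n : ℤ)) := by rw [hker]
    _ = Nat.card (ZMod n) := Nat.card_congr e2.toEquiv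
    _ = n := Nat.card_zmod n

end Fermat.Agent.Lib.S16
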