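import Fermat.Prelude.Def_CuspForm_HeckeLocal
import Fermat.Prelude.Def_CuspForm_HeckeEvalForms
import Fermat.Prelude.Def_HeckeGalois_EichlerShimura
import Fermat.Prelude.Def_ModularCurve_ModularUnit
import Fermat.Prelude.Def_ModularCurve_PeriodMap

/-!
# S16 (Mazur: index of the Eisenstein ideal) — interfaces

`𝕋 = heckeLatticeAlgebra p ∅`, `I = s16_I p` the image of the Eisenstein ideal,
`n = eisensteinNumerator p = (p - 1) / gcd (p - 1) 12`.

* `s16_IfaceGen`  : `ℤ → 𝕋 ⧸ I` is onto.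
* `s16_IfaceUB`   : `n ∈ I`.
* `s16_IfaceLB`   : `M ∈ I ∩ ℤ → n ∣ M`.
* `s16_IfaceForms`: a cusp form with integral coefficients congruent to the Eisenstein series
  `δ = ∑ σ'(k) q^k` modulo `M` forces `M ∣ n`.
* `s16_NoF p r e` : there is no `F ∈ M₂(Γ₀(p))` with `a₀ = 1` and `r`-integral rational higher
  coefficients all divisible by `r ^ e`.
* `s16_IfaceLift` : parabolic, torsion-killing homs `Γ₀(p) → ℤ/m` lift to parabolic homs to `ℤ`.
-/

set_option autoImplicit false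

open ModularCurve CuspForm ModularFormClass CongruenceSubgroup

namespace Fermat.Agent.Lib.S16

variable (p : ℕ) [Fact p.Prime]

/-- The image of the Eisenstein ideal in the lattice Hecke algebra of level `p`. -/
noncomputable def s16_I : Ideal ↥(heckeLatticeAlgebra p ∅) :=
  Ideal.map ((latticeRestrictHom p ∅).toRingHom.comp (heckeEvalForms p 2)) (eisensteinIdeal p)

/-- `ℤ → 𝕋 ⧸ I` is onto. -/
def s16_IfaceGen : Prop :=
  ∀ t : ↥(heckeLatticeAlgebra p ∅), ∃ a : ℤ,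
    t - algebraMap ℤ ↥(heckeLatticeAlgebra p ∅) a ∈ s16_I p

/-- Upper bound: `n ∈ I`. -/
def s16_IfaceUB : Prop :=
  algebraMap ℤ ↥(heckeLatticeAlgebra p ∅) (eisensteinNumerator p : ℤ) ∈ s16_I p

/-- Lower bound: an integer lying in `I` is divisible by `n`. -/
def s16_IfaceLB : Prop :=
  ∀ M : ℤ, algebraMap ℤ ↥(heckeLatticeAlgebra p ∅) M ∈ s16_I p →
    (eisensteinNumerator p : ℤ) ∣ M

/-- `σ'(k)`: the sum of the divisors of `k` prime to `p`. -/
def s16_sigma (k : ℕ) : ℕ := ∑ d ∈ k.divisors with ¬ p ∣ d, d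

/-- (F): a cusp form of level `p` with integral `q`-expansion congruent to `∑ σ'(k) q^k`
modulo `M` forces `M ∣ n`. -/
def s16_IfaceForms : Prop :=
  ∀ (f : CuspForm (Gamma0 p) 2) (M : ℕ), 0 < M →
    (∀ k : ℕ, ∃ c : ℤ, qCoeff f k = (c : ℂ)) →
    (∀ k : ℕ, 1 ≤ k → ∃ c : ℤ, qCoeff f k = (s16_sigma p k : ℂ) + (M : ℂ) * (c : ℂ)) →
    M ∣ eisensteinNumerator p

/-- `NoF p r e`: no `F ∈ M₂(Γ₀(p))` with constant term `1` whose higher `q`-coefficients are
rational, `r`-integral and divisible by `r ^ e` (`s * a_k = r ^ e * a` with `r ∤ s`). -/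
def s16_NoF (r e : ℕ) : Prop :=
  ¬ ∃ F : ModularForm (Gamma0 p) 2, qCoeff F 0 = 1 ∧
    ∀ k : ℕ, 1 ≤ k → ∃ (a s : ℤ), ¬ (r : ℤ) ∣ s ∧ (s : ℂ) * qCoeff F k = (r : ℂ) ^ e * (a : ℂ)

/-- Lifting theorem: a hom `Γ₀(p) → ℤ/m` killing the parabolic elements (`tr² = 4`) and the
elements of finite order lifts to a parabolic hom `Γ₀(p) → ℤ`. -/
def s16_IfaceLift : Prop :=
  ∀ (m : ℕ), 0 < m → ∀ ψ : Additive (Gamma0 p) →+ ZMod m,
    Period.IsParabolicHom (Gamma0 p) ψ →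
    (∀ γ : Gamma0 p, IsOfFinOrder γ → ψ (Additive.ofMul γ) = 0) →
    ∃ φ : Additive (Gamma0 p) →+ ℤ, Period.IsParabolicHom (Gamma0 p) φ ∧
      ∀ γ : Gamma0 p, ((φ (Additive.ofMul γ) : ℤ) : ZMod m) = ψ (Additive.ofMul γ)

end Fermat.Agent.Lib.S16
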