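import Fermat.Agent.Lib.S16.Iface
import Fermat.Agent.Lib.Hecke.QCoeff

/-!
# S16 — interfaces, part 2: the integer form `s16_NoG` of the "no `F ≡ 1`" lemmas, the Eisenstein
series interface `s16_IfaceEis`, and the (F) assembly `s16_forms_of_noG`.
-/

set_option autoImplicit false

open ModularCurve CuspForm ModularFormClass CongruenceSubgroup

namespace Fermat.Agent.Lib.S16

variable (p : ℕ) [Fact p.Prime]

/-- `NoG p r e`: there is no `G ∈ M₂(Γ₀(p))` with integer `q`-expansion `g`, `r ^ j ∥ g 0`, and all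
higher coefficients divisible by `r ^ (j + e)`. -/
def s16_NoG (r e : ℕ) : Prop :=
  ¬ ∃ (G : ModularForm (Gamma0 p) 2) (g : ℕ → ℤ) (j : ℕ),
    (∀ n : ℕ, qCoeff G n = (g n : ℂ)) ∧ (r : ℤ) ^ j ∣ g 0 ∧ ¬ (r : ℤ) ^ (j + 1) ∣ g 0 ∧
      ∀ n : ℕ, 1 ≤ n → (r : ℤ) ^ (j + e) ∣ g n

/-- The Eisenstein series `e_p = (p - 1)/24 + ∑ σ'(k) q^k ∈ M₂(Γ₀(p))`. -/
def s16_IfaceEis : Prop :=
  ∃ E : ModularForm (Gamma0 p) 2, qCoeff E 0 = ((p : ℂ) - 1) / 24 ∧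
    ∀ k : ℕ, 1 ≤ k → qCoeff E k = (s16_sigma p k : ℂ)

end Fermat.Agent.Lib.S16
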