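import Fermat.Agent.Lib.S16.FPsi
import Fermat.Agent.Lib.ES.HeckeFamilies

/-!
# S16, package (F), part 2: the Shimura character is Eisenstein along the Hecke coset families

For a family `α_x γ = γ'_x α_{σ x}` (`σ` a permutation of the index set, all `α_x` upper
triangular, `γ, γ'_x ∈ Γ₀(p)`):

* `s16f_psi_sum_family_d`: if the lower right entries of the `α_x` are units modulo `p`, then
  `∑_x ψ(γ'_x) = |ι| • ψ(γ)`;
* `s16f_psi_sum_family_a`: if the upper left entries of the `α_x` are `1`, then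
  `ψ(γ'_x) = ψ(γ)` for all `x`.

Specialisations: `s16f_psi_eis_T` (`T_ℓ`, `ℓ ≠ p`: the sum is `(ℓ + 1) ψ(γ)`) and `s16f_psi_eis_U`
(`U_p`: the sum is `ψ(γ)`).
-/

set_option autoImplicit false

namespace Fermat.Agent.Lib.S16

open CongruenceSubgroup ModularCurve ModularCurve.Period Fermat.Agent.Lib.ES
open scoped MatrixGroups

variable (p : ℕ) [Fact p.Prime]

/-! ### Entries of the coset relation modulo `p` -/

/-- Lower right entries of `α γ = γ' α'` modulo `p` (`α` upper triangular, `γ' ∈ Γ₀(p)`). -/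
theorem s16f_rel_d (α α' : Matrix (Fin 2) (Fin 2) ℤ) (hut : α 1 0 = 0) (γ γ' : Gamma0 p)
    (h : α * ((γ : SL(2, ℤ)) : Matrix (Fin 2) (Fin 2) ℤ) =
      ((γ' : SL(2, ℤ)) : Matrix (Fin 2) (Fin 2) ℤ) * α') :
    ((α 1 1 : ℤ) : ZMod p) * (((γ : SL(2, ℤ)) 1 1 : ℤ) : ZMod p) =
      (((γ' : SL(2, ℤ)) 1 1 : ℤ) : ZMod p) * ((α' 1 1 : ℤ) : ZMod p) := by
  have h1 := congrFun (congrFun h 1) 1
  rw [Matrix.mul_apply, Matrix.mul_apply, Fin.sum_univ_two, Fin.sum_univ_two, hut, zero_mul,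
    zero_add] at h1
  have hc : ((((γ' : SL(2, ℤ)) 1 0 : ℤ)) : ZMod p) = 0 := Gamma0_mem.mp γ'.2
  have h2 := congrArg (fun z : ℤ => (z : ZMod p)) h1
  simp only [Int.cast_add, Int.cast_mul] at h2
  rw [hc, zero_mul, zero_add] at h2
  exact h2

/-- Upper left entries of `α γ = γ' α'` modulo `p` (`α'` upper triangular, `γ ∈ Γ₀(p)`). -/
theorem s16f_rel_a (α α' : Matrix (Fin 2) (Fin 2) ℤ) (hut : α' 1 0 = 0) (γ γ' : Gamma0 p)
    (h : α * ((γ : SL(2, ℤ)) : Matrix (Fin 2) (Fin 2) ℤ) =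
      ((γ' : SL(2, ℤ)) : Matrix (Fin 2) (Fin 2) ℤ) * α') :
    ((α 0 0 : ℤ) : ZMod p) * (((γ : SL(2, ℤ)) 0 0 : ℤ) : ZMod p) =
      (((γ' : SL(2, ℤ)) 0 0 : ℤ) : ZMod p) * ((α' 0 0 : ℤ) : ZMod p) := by
  have h1 := congrFun (congrFun h 0) 0
  rw [Matrix.mul_apply, Matrix.mul_apply, Fin.sum_univ_two, Fin.sum_univ_two, hut, mul_zero,
    add_zero] at h1
  have hc : ((((γ : SL(2, ℤ)) 1 0 : ℤ)) : ZMod p) = 0 := Gamma0_mem.mp γ.2
  have h2 := congrArg (fun z : ℤ => (z : ZMod p)) h1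
  simp only [Int.cast_add, Int.cast_mul] at h2
  rw [hc, mul_zero, add_zero] at h2
  exact h2

/-! ### Generic families -/

/-- **Eisenstein property, lower right version.**  If the lower right entries of the `α_x` are
units modulo `p`, the sum of `ψ` over the family is `|ι| • ψ(γ)`. -/
theorem s16f_psi_sum_family_d {ι : Type*} [Fintype ι] (α : ι → Matrix (Fin 2) (Fin 2) ℤ)
    (hut : ∀ x, α x 1 0 = 0) (δ : ι → (ZMod p)ˣ)
    (hδ : ∀ x, ((δ x : (ZMod p)ˣ) : ZMod p) = ((α x 1 1 : ℤ) : ZMod p))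
    (γ : Gamma0 p) (γ' : ι → Gamma0 p) (σ : Equiv.Perm ι)
    (hσ : ∀ x, α x * ((γ : SL(2, ℤ)) : Matrix (Fin 2) (Fin 2) ℤ) =
      ((γ' x : SL(2, ℤ)) : Matrix (Fin 2) (Fin 2) ℤ) * α (σ x)) :
    ∑ x, s16f_psi p (Additive.ofMul (γ' x)) = Fintype.card ι • s16f_psi p (Additive.ofMul γ) := by
  -- the relation in the unit group
  have hrel : ∀ x, δ x * s16f_dUnit p γ = s16f_dUnit p (γ' x) * δ (σ x) := by
    intro x
    apply Units.ext
    rw [Units.val_mul, Units.val_mul, hδ, hδ, s16f_dUnit_coe, s16f_dUnit_coe]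
    exact s16f_rel_d p (α x) (α (σ x)) (hut x) γ (γ' x) (hσ x)
  set c : ι → ZMod (eisensteinNumerator p) := fun x => Multiplicative.toAdd (s16f_chi p (δ x))
    with hc
  have hψ : ∀ x, s16f_psi p (Additive.ofMul (γ' x)) =
      s16f_psi p (Additive.ofMul γ) + c x - c (σ x) := by
    intro x
    have h1 := congrArg (fun u => Multiplicative.toAdd (s16f_chi p u)) (hrel x)
    simp only [map_mul, toAdd_mul] at h1
    rw [s16f_psi_apply, s16f_psi_apply]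
    simp only [hc]
    linear_combination -h1
  rw [Finset.sum_congr rfl fun x _ => hψ x, Finset.sum_sub_distrib, Finset.sum_add_distrib,
    Equiv.sum_comp σ c, add_sub_cancel_right, Finset.sum_const, Finset.card_univ]

/-- **Eisenstein property, upper left version.**  If the upper left entries of the `α_x` are `1`,
then `ψ` is constant along the family. -/
theorem s16f_psi_family_a {ι : Type*} (α : ι → Matrix (Fin 2) (Fin 2) ℤ)
    (hut : ∀ x, α x 1 0 = 0) (hone : ∀ x, α x 0 0 = 1)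
    (γ : Gamma0 p) (γ' : ι → Gamma0 p) (σ : ι → ι)
    (hσ : ∀ x, α x * ((γ : SL(2, ℤ)) : Matrix (Fin 2) (Fin 2) ℤ) =
      ((γ' x : SL(2, ℤ)) : Matrix (Fin 2) (Fin 2) ℤ) * α (σ x)) (x : ι) :
    s16f_psi p (Additive.ofMul (γ' x)) = s16f_psi p (Additive.ofMul γ) := by
  apply s16f_psi_eq_of_dUnit_eq
  apply s16f_dUnit_eq_of_a_eq
  have h := s16f_rel_a p (α x) (α (σ x)) (hut (σ x)) γ (γ' x) (hσ x)
  rw [hone, hone, Int.cast_one, one_mul, mul_one] at h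
  exact h.symm

/-! ### The Hecke operators -/

/-- **`ψ` is Eisenstein for `T_ℓ`, `ℓ ≠ p`**: along any coset family for `γ`,
`∑_x ψ(γ'_x) = (ℓ + 1) ψ(γ)`. -/
theorem s16f_psi_eis_T {ℓ : ℕ} (hℓ : ℓ.Prime) (hℓp : ¬ ℓ ∣ p) (γ : Gamma0 p)
    (γ' : OnePoint (ZMod ℓ) → Gamma0 p) (σ : Equiv.Perm (OnePoint (ZMod ℓ)))
    [Fintype (OnePoint (ZMod ℓ))]
    (hσ : ∀ x, heckeRepZ ℓ x * ((γ : SL(2, ℤ)) : Matrix (Fin 2) (Fin 2) ℤ) =
      ((γ' x : SL(2, ℤ)) : Matrix (Fin 2) (Fin 2) ℤ) * heckeRepZ ℓ (σ x)) :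
    ∑ x, s16f_psi p (Additive.ofMul (γ' x)) =
      ((ℓ : ZMod (eisensteinNumerator p)) + 1) * s16f_psi p (Additive.ofMul γ) := by
  have : NeZero ℓ := ⟨hℓ.ne_zero⟩
  -- `ℓ` is a unit modulo `p`
  have hcop : Nat.Coprime ℓ p := by
    rw [Nat.coprime_primes hℓ (Fact.out : p.Prime)]
    rintro rfl
    exact hℓp dvd_rfl
  let uℓ : (ZMod p)ˣ := ZMod.unitOfCoprime ℓ hcop
  have huℓ : ((uℓ : (ZMod p)ˣ) : ZMod p) = (ℓ : ZMod p) := ZMod.coe_unitOfCoprime ℓ hcop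
  let δ : OnePoint (ZMod ℓ) → (ZMod p)ˣ := fun x => x.elim 1 (fun _ => uℓ)
  have hδ : ∀ x, ((δ x : (ZMod p)ˣ) : ZMod p) = ((heckeRepZ ℓ x 1 1 : ℤ) : ZMod p) := by
    intro x
    induction x using OnePoint.rec with
    | infty =>
      show ((1 : (ZMod p)ˣ) : ZMod p) = ((heckeDiagZ ℓ 1 1 : ℤ) : ZMod p)
      simp [heckeDiagZ]
    | coe j =>
      show ((uℓ : (ZMod p)ˣ) : ZMod p) = ((heckeMatZ ℓ j.val 1 1 : ℤ) : ZMod p)
      rw [huℓ]
      simp [heckeMatZ]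
  have h := s16f_psi_sum_family_d p (heckeRepZ ℓ) (heckeRepZ_apply_one_zero ℓ) δ hδ γ γ' σ hσ
  have hcard : Fintype.card (OnePoint (ZMod ℓ)) = ℓ + 1 := by
    have h1 : Fintype.card (OnePoint (ZMod ℓ)) = Fintype.card (Option (ZMod ℓ)) :=
      Fintype.card_congr (Equiv.refl _)
    rw [h1, Fintype.card_option, ZMod.card]
  rw [h, hcard, nsmul_eq_mul]
  push_cast
  ring

/-- **`ψ` is Eisenstein for `U_p`**: along any coset family for `γ`, `∑_x ψ(γ'_x) = ψ(γ)`. -/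
theorem s16f_psi_eis_U (γ : Gamma0 p) (γ' : ZMod p → Gamma0 p) (σ : ZMod p → ZMod p)
    (hσ : ∀ x : ZMod p, heckeMatZ p x.val * ((γ : SL(2, ℤ)) : Matrix (Fin 2) (Fin 2) ℤ) =
      ((γ' x : SL(2, ℤ)) : Matrix (Fin 2) (Fin 2) ℤ) * heckeMatZ p (σ x).val) :
    ∑ x, s16f_psi p (Additive.ofMul (γ' x)) = s16f_psi p (Additive.ofMul γ) := by
  have h := s16f_psi_family_a p (fun x : ZMod p => heckeMatZ p x.val)
    (fun x => heckeMatZ_apply_one_zero p x.val) (fun x => by simp [heckeMatZ]) γ γ' σ hσ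
  rw [Finset.sum_congr rfl fun x _ => h x, Finset.sum_const, Finset.card_univ, ZMod.card,
    nsmul_eq_mul, s16f_p_eq_one, one_mul]

end Fermat.Agent.Lib.S16
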