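import Fermat.Agent.Lib.S16.FPsi

/-!
# S16, package (F), part 1b: `ψ` kills all elements of finite order

An element of `SL₂(ℤ)` of finite order has `|tr| ≤ 2` (if `|t| ≥ 3` the traces `t_k = tr γ^k`
satisfy `t_{k+2} = t t_{k+1} - t_k` and `|t_k|` is strictly increasing), hence is killed by `ψ`.
-/

set_option autoImplicit false

namespace Fermat.Agent.Lib.S16

open CongruenceSubgroup ModularCurve ModularCurve.Period
open scoped MatrixGroups

/-- Cayley–Hamilton for `2 × 2` integer matrices of determinant `1`. -/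
theorem s16f_cayley_hamilton (A : Matrix (Fin 2) (Fin 2) ℤ) (hA : A.det = 1) :
    A * A = A.trace • A - 1 := by
  rw [Matrix.det_fin_two] at hA
  ext i j
  fin_cases i <;> fin_cases j <;>
    simp [Matrix.mul_apply, Fin.sum_univ_two, Matrix.trace_fin_two, Matrix.smul_apply,
      -zsmul_eq_mul] <;>
    first | linear_combination -hA | linear_combination hA | linear_combination (0 : ℤ) * hA

/-- The trace recursion `tr A^{k+2} = tr A · tr A^{k+1} - tr A^k`. -/
theorem s16f_trace_pow_rec (A : Matrix (Fin 2) (Fin 2) ℤ) (hA : A.det = 1) (k : ℕ) :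
    (A ^ (k + 2)).trace = A.trace * (A ^ (k + 1)).trace - (A ^ k).trace := by
  have h : A ^ (k + 2) = A.trace • A ^ (k + 1) - A ^ k := by
    rw [pow_add, pow_two, s16f_cayley_hamilton A hA, mul_sub, mul_one, Matrix.mul_smul, pow_succ]
  rw [h, Matrix.trace_sub, Matrix.trace_smul, smul_eq_mul]

/-- If `|tr A| ≥ 3` then `|tr A^k|` is strictly increasing; in particular `|tr A^k| ≥ 3` for
`k ≥ 1`. -/
theorem s16f_abs_trace_pow_ge (A : Matrix (Fin 2) (Fin 2) ℤ) (hA : A.det = 1)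
    (ht : 3 ≤ |A.trace|) (k : ℕ) :
    |(A ^ k).trace| < |(A ^ (k + 1)).trace| ∧ 3 ≤ |(A ^ (k + 1)).trace| := by
  induction k with
  | zero =>
    simp only [pow_zero, zero_add, pow_one, Matrix.trace_one, Fintype.card_fin]
    refine ⟨?_, ht⟩
    have : |((2 : ℕ) : ℤ)| = 2 := by norm_num
    rw [this]
    omega
  | succ k ih =>
    obtain ⟨ih1, ih2⟩ := ih
    have hrec := s16f_trace_pow_rec A hA k
    have h1 : |A.trace * (A ^ (k + 1)).trace| = |A.trace| * |(A ^ (k + 1)).trace| := abs_mul _ _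
    have h2 : |A.trace * (A ^ (k + 1)).trace| - |(A ^ k).trace| ≤ |(A ^ (k + 2)).trace| := by
      rw [hrec]
      exact abs_sub_abs_le_abs_sub _ _
    have h3 : 3 * |(A ^ (k + 1)).trace| ≤ |A.trace| * |(A ^ (k + 1)).trace| :=
      mul_le_mul_of_nonneg_right ht (abs_nonneg _)
    have h4 : |(A ^ (k + 1)).trace| < |(A ^ (k + 1 + 1)).trace| := by
      have : k + 1 + 1 = k + 2 := rfl
      rw [this]
      omega
    exact ⟨h4, by omega⟩

/-- A `2 × 2` integer matrix of determinant `1` and finite order has `|tr| ≤ 2`. -/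
theorem s16f_abs_trace_le_of_pow_eq_one (A : Matrix (Fin 2) (Fin 2) ℤ) (hA : A.det = 1)
    (k : ℕ) (hk : 0 < k) (h : A ^ k = 1) : |A.trace| ≤ 2 := by
  by_contra hcon
  have ht : 3 ≤ |A.trace| := by omega
  obtain ⟨j, rfl⟩ : ∃ j, k = j + 1 := ⟨k - 1, by omega⟩
  have h1 := (s16f_abs_trace_pow_ge A hA ht j).2
  rw [h, Matrix.trace_one, Fintype.card_fin] at h1
  norm_num at h1

/-- An element of finite order of `Γ₀(p)` has `|tr| ≤ 2`. -/
theorem s16f_abs_trace_le_of_isOfFinOrder (p : ℕ) (γ : Gamma0 p) (h : IsOfFinOrder γ) :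
    |(((γ : SL(2, ℤ)) : Matrix (Fin 2) (Fin 2) ℤ).trace)| ≤ 2 := by
  obtain ⟨k, hk, hγ⟩ := isOfFinOrder_iff_pow_eq_one.mp h
  refine s16f_abs_trace_le_of_pow_eq_one _ (γ : SL(2, ℤ)).2 k hk ?_
  have h1 := congrArg (fun g : Gamma0 p => (((g : SL(2, ℤ)) : Matrix (Fin 2) (Fin 2) ℤ))) hγ
  simpa using h1

variable (p : ℕ) [Fact p.Prime]

/-- **`ψ` kills every element of finite order.** -/
theorem s16f_psi_finOrder (γ : Gamma0 p) (h : IsOfFinOrder γ) :
    s16f_psi p (Additive.ofMul γ) = 0 :=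
  s16f_psi_eq_zero_of_abs_trace_le p γ (s16f_abs_trace_le_of_isOfFinOrder p γ h)

end Fermat.Agent.Lib.S16
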