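import Fermat.Agent.Lib.S16.FHecke
import Fermat.Agent.Lib.S16.FEis
import Fermat.Agent.Lib.S16.FTors
import Fermat.Agent.Lib.S16.Iface
import Fermat.Agent.S23

/-!
# S16, package (F), part 4: the lower bound `I ∩ ℤ ⊆ nℤ` from the lifting theorem

`s16f_LB_of_lift : s16_IfaceLift p → s16_IfaceLB p`.

Let `φ : Γ₀(p) → ℤ` be a parabolic lift of the Shimura character `ψ : Γ₀(p) → ℤ/n`.  The set
`J = {u ∈ 𝕋' : u · φ ∈ n · Hom_par(Γ₀(p), ℤ)}` is an ideal of `𝕋' = heckeAlgebra p 2 ∅` (the Hecke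
algebra preserves `n · Hom_par(Γ₀(p), ℤ)`), and it contains `T_ℓ - (1 + ℓ)` and `U_p - 1` because `ψ`
is Eisenstein along the coset families.  Hence it contains the image of the Eisenstein ideal, and
`M ∈ J` for an integer `M` means `M ψ = 0`, i.e. `n ∣ M` (`ψ` is onto).
-/

set_option autoImplicit false

namespace Fermat.Agent.Lib.S16

open UpperHalfPlane CongruenceSubgroup ModularCurve ModularCurve.Period Matrix
  Matrix.SpecialLinearGroup CuspForm
open Fermat.Agent.Lib.ES Fermat.Agent.Lib.Period Fermat.Agent.Lib.Integral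
open scoped MatrixGroups ModularForm

variable (p : ℕ) [Fact p.Prime]

/-- The complexification of a parabolic hom `Γ₀(p) → ℤ`. -/
noncomputable def s16f_toC (φ : Additive (Gamma0 p) →+ ℤ) (hφ : IsParabolicHom (Gamma0 p) φ) :
    parabolicHoms ℂ (Gamma0 p) ℂ :=
  ⟨(Int.castAddHom ℂ).comp φ, by
    intro γ hγ
    show ((φ (Additive.ofMul γ) : ℤ) : ℂ) = 0
    rw [hφ γ hγ, Int.cast_zero]⟩

omit [Fact p.Prime] in
theorem s16f_toC_apply (φ : Additive (Gamma0 p) →+ ℤ) (hφ : IsParabolicHom (Gamma0 p) φ)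
    (γ : Gamma0 p) :
    ((s16f_toC p φ hφ : parabolicHoms ℂ (Gamma0 p) ℂ) : Additive (Gamma0 p) →+ ℂ)
      (Additive.ofMul γ) = ((φ (Additive.ofMul γ) : ℤ) : ℂ) := rfl

/-! ### The Eisenstein generators kill the lift modulo `n` -/

/-- `T_ℓ - (1 + ℓ)` maps the lift of `ψ` into `n · Hom_par(Γ₀(p), ℤ)`. -/
theorem s16f_eta_T {ℓ : ℕ} (hℓ : ℓ.Prime) (hℓp : ¬ ℓ ∣ p)
    (φ : Additive (Gamma0 p) →+ ℤ) (hφ : IsParabolicHom (Gamma0 p) φ)
    (hlift : ∀ γ : Gamma0 p, ((φ (Additive.ofMul γ) : ℤ) : ZMod (eisensteinNumerator p)) =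
      s16f_psi p (Additive.ofMul γ)) :
    s16f_Div p (eisensteinNumerator p : ℤ)
      (s16f_act p (heckeTLin 2 hℓ hℓp -
        algebraMap ℤ (Module.End ℂ (CuspForm (Gamma0 p) 2)) (1 + (ℓ : ℤ))) (s16f_toC p φ hφ)) := by
  have : Fact ℓ.Prime := ⟨hℓ⟩
  have : NeZero ℓ := ⟨hℓ.ne_zero⟩
  intro γ
  obtain ⟨γ₀, h1, h2⟩ := exists_family_heckeRepZ hℓp (γ : SL(2, ℤ)) γ.2
  set γ' : OnePoint (ZMod ℓ) → Gamma0 p := fun x => ⟨γ₀ x, h1 x⟩ with hγ'
  have hval := s16f_act_T p hℓ hℓp γ γ' (heckePermT ℓ γ) h2 (s16f_toC p φ hφ)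
  have heis := s16f_psi_eis_T p hℓ hℓp γ γ' (heckePermT ℓ γ) h2
  -- the integer value
  set m : ℤ := ∑ x, φ (Additive.ofMul (γ' x)) - (1 + (ℓ : ℤ)) * φ (Additive.ofMul γ) with hm
  have hm0 : ((m : ℤ) : ZMod (eisensteinNumerator p)) = 0 := by
    rw [hm]
    push_cast
    rw [Finset.sum_congr rfl fun x _ => hlift (γ' x), hlift γ, heis]
    ring
  obtain ⟨m', hm'⟩ := (ZMod.intCast_zmod_eq_zero_iff_dvd m (eisensteinNumerator p)).mp hm0
  refine ⟨m', ?_⟩
  rw [map_sub, LinearMap.sub_apply, Submodule.coe_sub, AddMonoidHom.sub_apply, hval,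
    s16f_act_algebraMap, Submodule.coe_smul, AddMonoidHom.smul_apply]
  simp only [s16f_toC_apply, smul_eq_mul]
  have h3 : ((m : ℤ) : ℂ) = ((eisensteinNumerator p : ℤ) : ℂ) * (m' : ℂ) := by
    rw [hm']
    push_cast
    ring
  rw [← h3, hm]
  push_cast
  ring

/-- `U_p - 1` maps the lift of `ψ` into `n · Hom_par(Γ₀(p), ℤ)`. -/
theorem s16f_eta_U {q : ℕ} (hq : q.Prime) (hqp : q ∣ p)
    (φ : Additive (Gamma0 p) →+ ℤ) (hφ : IsParabolicHom (Gamma0 p) φ)
    (hlift : ∀ γ : Gamma0 p, ((φ (Additive.ofMul γ) : ℤ) : ZMod (eisensteinNumerator p)) =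
      s16f_psi p (Additive.ofMul γ)) :
    s16f_Div p (eisensteinNumerator p : ℤ)
      (s16f_act p (heckeULin 2 hqp -
        algebraMap ℤ (Module.End ℂ (CuspForm (Gamma0 p) 2)) 1) (s16f_toC p φ hφ)) := by
  obtain rfl : q = p := (Nat.prime_dvd_prime_iff_eq hq (Fact.out : p.Prime)).mp hqp
  intro γ
  obtain ⟨σ, γ₀, h1, h2⟩ := exists_family_heckeMatZ hqp (γ : SL(2, ℤ)) γ.2
  set γ' : ZMod q → Gamma0 q := fun x => ⟨γ₀ x, h1 x⟩ with hγ'
  have hval := s16f_act_U q hq hqp γ γ' σ h2 (s16f_toC q φ hφ)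
  have heis := s16f_psi_eis_U q γ γ' σ h2
  set m : ℤ := ∑ x, φ (Additive.ofMul (γ' x)) - φ (Additive.ofMul γ) with hm
  have hm0 : ((m : ℤ) : ZMod (eisensteinNumerator q)) = 0 := by
    rw [hm]
    push_cast
    rw [Finset.sum_congr rfl fun x _ => hlift (γ' x), hlift γ, heis]
    ring
  obtain ⟨m', hm'⟩ := (ZMod.intCast_zmod_eq_zero_iff_dvd m (eisensteinNumerator q)).mp hm0
  refine ⟨m', ?_⟩
  rw [map_sub, LinearMap.sub_apply, Submodule.coe_sub, AddMonoidHom.sub_apply, hval,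
    s16f_act_algebraMap, Submodule.coe_smul, AddMonoidHom.smul_apply]
  simp only [s16f_toC_apply, smul_eq_mul]
  have h3 : ((m : ℤ) : ℂ) = ((eisensteinNumerator q : ℤ) : ℂ) * (m' : ℂ) := by
    rw [hm']
    push_cast
    ring
  rw [← h3, hm]
  push_cast
  ring

/-! ### The ideal `J` -/

/-- The ideal of the Hecke algebra mapping `φ` into the parabolic homs with values in `c ℤ`. -/
noncomputable def s16f_J (c : ℤ) (φ : parabolicHoms ℂ (Gamma0 p) ℂ) :
    Ideal ↥(heckeAlgebra p 2 ∅) where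
  carrier := {u | s16f_Div p c
    (s16f_act p ((u : ↥(heckeAlgebra p 2 ∅)) : Module.End ℂ (CuspForm (Gamma0 p) 2)) φ)}
  add_mem' := by
    intro a b ha hb
    show s16f_Div p c (s16f_act p ((a + b : ↥(heckeAlgebra p 2 ∅)) :
      Module.End ℂ (CuspForm (Gamma0 p) 2)) φ)
    have h : ((a + b : ↥(heckeAlgebra p 2 ∅)) : Module.End ℂ (CuspForm (Gamma0 p) 2)) =
        (a : Module.End ℂ (CuspForm (Gamma0 p) 2)) + (b : Module.End ℂ (CuspForm (Gamma0 p) 2)) :=
      rfl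
    rw [h, map_add, LinearMap.add_apply]
    exact s16f_Div.add ha hb
  zero_mem' := by
    show s16f_Div p c (s16f_act p ((0 : ↥(heckeAlgebra p 2 ∅)) :
      Module.End ℂ (CuspForm (Gamma0 p) 2)) φ)
    have h : ((0 : ↥(heckeAlgebra p 2 ∅)) : Module.End ℂ (CuspForm (Gamma0 p) 2)) = 0 := rfl
    rw [h, map_zero, LinearMap.zero_apply]
    exact s16f_Div.zero c
  smul_mem' := by
    intro a b hb
    show s16f_Div p c (s16f_act p ((a • b : ↥(heckeAlgebra p 2 ∅)) :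
      Module.End ℂ (CuspForm (Gamma0 p) 2)) φ)
    have h : ((a • b : ↥(heckeAlgebra p 2 ∅)) : Module.End ℂ (CuspForm (Gamma0 p) 2)) =
        (a : Module.End ℂ (CuspForm (Gamma0 p) 2)) * (b : Module.End ℂ (CuspForm (Gamma0 p) 2)) :=
      rfl
    rw [h, s16f_act_mul, Module.End.mul_apply]
    exact s16f_act_div p c _ a.2 _ hb

theorem s16f_mem_J (c : ℤ) (φ : parabolicHoms ℂ (Gamma0 p) ℂ) (u : ↥(heckeAlgebra p 2 ∅)) :
    u ∈ s16f_J p c φ ↔ s16f_Div p c
      (s16f_act p ((u : ↥(heckeAlgebra p 2 ∅)) : Module.End ℂ (CuspForm (Gamma0 p) 2)) φ) :=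
  Iff.rfl

/-- The Eisenstein generators lie in `J`. -/
theorem s16f_gen_mem_J (φ : Additive (Gamma0 p) →+ ℤ) (hφ : IsParabolicHom (Gamma0 p) φ)
    (hlift : ∀ γ : Gamma0 p, ((φ (Additive.ofMul γ) : ℤ) : ZMod (eisensteinNumerator p)) =
      s16f_psi p (Additive.ofMul γ)) (ℓ : Nat.Primes) :
    heckeFormsGen p 2 ℓ - algebraMap ℤ ↥(heckeAlgebra p 2 ∅) (eisensteinSystem p ℓ) ∈
      s16f_J p (eisensteinNumerator p : ℤ) (s16f_toC p φ hφ) := by
  rw [s16f_mem_J]
  by_cases h : (ℓ : ℕ) ∣ p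
  · rw [heckeFormsGen_of_dvd h, eisensteinSystem_of_dvd h]
    exact s16f_eta_U p ℓ.2 h φ hφ hlift
  · rw [heckeFormsGen_of_not_dvd h, eisensteinSystem_of_not_dvd h]
    exact s16f_eta_T p ℓ.2 h φ hφ hlift

/-- The image of the Eisenstein ideal in `heckeAlgebra p 2 ∅` lies in `J`. -/
theorem s16f_map_le_J (φ : Additive (Gamma0 p) →+ ℤ) (hφ : IsParabolicHom (Gamma0 p) φ)
    (hlift : ∀ γ : Gamma0 p, ((φ (Additive.ofMul γ) : ℤ) : ZMod (eisensteinNumerator p)) =
      s16f_psi p (Additive.ofMul γ)) :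
    Ideal.map (heckeEvalForms p 2) (eisensteinIdeal p) ≤
      s16f_J p (eisensteinNumerator p : ℤ) (s16f_toC p φ hφ) := by
  set J := s16f_J p (eisensteinNumerator p : ℤ) (s16f_toC p φ hφ) with hJ
  -- `ev t - aeval a t ∈ J` for all `t`
  have key : ∀ t : HeckeAlg, heckeEvalForms p 2 t -
      algebraMap ℤ ↥(heckeAlgebra p 2 ∅) (MvPolynomial.aeval (eisensteinSystem p) t) ∈ J := by
    intro t
    induction t using MvPolynomial.induction_on with
    | C r =>
      rw [heckeEvalForms_C, MvPolynomial.aeval_C]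
      simp
    | add s t hs ht =>
      have h : heckeEvalForms p 2 (s + t) - algebraMap ℤ ↥(heckeAlgebra p 2 ∅)
            (MvPolynomial.aeval (eisensteinSystem p) (s + t)) =
          (heckeEvalForms p 2 s - algebraMap ℤ ↥(heckeAlgebra p 2 ∅)
            (MvPolynomial.aeval (eisensteinSystem p) s)) +
          (heckeEvalForms p 2 t - algebraMap ℤ ↥(heckeAlgebra p 2 ∅)
            (MvPolynomial.aeval (eisensteinSystem p) t)) := by
        rw [map_add, map_add, map_add]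
        ring
      rw [h]
      exact J.add_mem hs ht
    | mul_X t ℓ ht =>
      have h : heckeEvalForms p 2 (t * MvPolynomial.X ℓ) - algebraMap ℤ ↥(heckeAlgebra p 2 ∅)
            (MvPolynomial.aeval (eisensteinSystem p) (t * MvPolynomial.X ℓ)) =
          heckeEvalForms p 2 t * (heckeFormsGen p 2 ℓ -
            algebraMap ℤ ↥(heckeAlgebra p 2 ∅) (eisensteinSystem p ℓ)) +
          (heckeEvalForms p 2 t - algebraMap ℤ ↥(heckeAlgebra p 2 ∅)
            (MvPolynomial.aeval (eisensteinSystem p) t)) *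
            algebraMap ℤ ↥(heckeAlgebra p 2 ∅) (eisensteinSystem p ℓ) := by
        have h1 : heckeEvalForms p 2 (MvPolynomial.X ℓ) = heckeFormsGen p 2 ℓ :=
          heckeEvalForms_heckeGen p 2 ℓ
        rw [map_mul, map_mul, h1, MvPolynomial.aeval_X, map_mul]
        ring
      rw [h]
      exact J.add_mem (J.mul_mem_left _ (s16f_gen_mem_J p φ hφ hlift ℓ)) (J.mul_mem_right _ ht)
  rw [Ideal.map_le_iff_le_comap]
  intro t ht
  rw [Ideal.mem_comap]
  have h0 : MvPolynomial.aeval (eisensteinSystem p) t = 0 := (mem_eigenIdeal_iff _ t).mp ht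
  have h1 := key t
  rw [h0, map_zero, sub_zero] at h1
  exact h1

/-! ### The lower bound -/

/-- **(LB) from a lift of `ψ`.** -/
theorem s16f_LB_of_exists_lift
    (hlift : ∃ φ : Additive (Gamma0 p) →+ ℤ, IsParabolicHom (Gamma0 p) φ ∧
      ∀ γ : Gamma0 p, ((φ (Additive.ofMul γ) : ℤ) : ZMod (eisensteinNumerator p)) =
        s16f_psi p (Additive.ofMul γ)) : s16_IfaceLB p := by
  obtain ⟨φ, hφ, hφψ⟩ := hlift
  intro M hM
  -- pull back to `heckeAlgebra p 2 ∅`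
  have hint : HasIntegralStructure p 2 := Fermat.Agent.S23.result p
  have hbij := latticeRestrictHom_bijective p ∅ hint
  have hM' : algebraMap ℤ ↥(heckeAlgebra p 2 ∅) M ∈
      Ideal.map (heckeEvalForms p 2) (eisensteinIdeal p) := by
    have h1 : s16_I p = Ideal.map (latticeRestrictHom p ∅).toRingHom
        (Ideal.map (heckeEvalForms p 2) (eisensteinIdeal p)) := by
      rw [s16_I, Ideal.map_map]
    rw [h1] at hM
    obtain ⟨x, hx, hxM⟩ := (Ideal.mem_map_iff_of_surjective _ hbij.2).mp hM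
    have h2 : (latticeRestrictHom p ∅).toRingHom (algebraMap ℤ ↥(heckeAlgebra p 2 ∅) M) =
        algebraMap ℤ ↥(heckeLatticeAlgebra p ∅) M := by
      simp
    have h3 : x = algebraMap ℤ ↥(heckeAlgebra p 2 ∅) M := hbij.1 (hxM.trans h2.symm)
    rw [← h3]
    exact hx
  have hJ := s16f_map_le_J p φ hφ hφψ hM'
  rw [s16f_mem_J] at hJ
  -- evaluate at `γ` with `ψ γ = 1`
  obtain ⟨γa, hγa⟩ := s16f_psi_surjective p 1
  obtain ⟨m, hm⟩ := hJ (Additive.toMul γa)
  have h4 : ((algebraMap ℤ ↥(heckeAlgebra p 2 ∅) M : ↥(heckeAlgebra p 2 ∅)) :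
      Module.End ℂ (CuspForm (Gamma0 p) 2)) =
      algebraMap ℤ (Module.End ℂ (CuspForm (Gamma0 p) 2)) M := rfl
  rw [h4, s16f_act_algebraMap, Submodule.coe_smul, AddMonoidHom.smul_apply, s16f_toC_apply,
    smul_eq_mul] at hm
  have h5 : M * φ (Additive.ofMul (Additive.toMul γa)) = (eisensteinNumerator p : ℤ) * m := by
    exact_mod_cast hm
  have h6 := congrArg (fun z : ℤ => (z : ZMod (eisensteinNumerator p))) h5
  simp only [Int.cast_mul, Int.cast_natCast, ZMod.natCast_self, zero_mul] at h6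
  rw [hφψ, ofMul_toMul, hγa, mul_one] at h6
  exact (ZMod.intCast_zmod_eq_zero_iff_dvd M (eisensteinNumerator p)).mp h6

/-- **(LB) from the lifting theorem.** -/
theorem s16f_LB_of_lift (hL : s16_IfaceLift p) : s16_IfaceLB p :=
  s16f_LB_of_exists_lift p
    (hL (eisensteinNumerator p) (s16f_n_pos p) (s16f_psi p) (s16f_psi_parabolic p)
      (s16f_psi_finOrder p))

end Fermat.Agent.Lib.S16
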