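import Fermat.Agent.Lib.S16.Iface2
import Fermat.Agent.Lib.S16.Assembly

/-!
# S16 — the (F) assembly: `s16_IfaceForms p` from the `s16_NoG` lemmas and the Eisenstein series
-/

set_option autoImplicit false

open ModularCurve CuspForm ModularFormClass CongruenceSubgroup UpperHalfPlane

namespace Fermat.Agent.Lib.S16

variable (p : ℕ) [Fact p.Prime]

/-- `q`-coefficients of `c • (E - f)` for `E` a modular form and `f` a cusp form of level `p`. -/
theorem s16_qCoeff_smul_sub (c : ℂ) (E : ModularForm (Gamma0 p) 2) (f : CuspForm (Gamma0 p) 2)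
    (n : ℕ) :
    qCoeff (⇑(c • (E - CuspForm.toModularFormₗ f))) n = c * (qCoeff E n - qCoeff f n) := by
  have h1 : (⇑(c • (E - CuspForm.toModularFormₗ f)) : ℍ → ℂ) =
      c • (⇑(E - CuspForm.toModularFormₗ f) : ℍ → ℂ) := by
    ext z; simp
  have h2 : (⇑(E - CuspForm.toModularFormₗ f) : ℍ → ℂ) = ⇑E - ⇑(CuspForm.toModularFormₗ f) := by
    ext z; simp
  have h3 : (⇑(CuspForm.toModularFormₗ f) : ℍ → ℂ) = ⇑f := by
    ext z; simp [CuspForm.toModularFormₗ_apply]
  have hper := Fermat.Agent.Lib.QCoeff.one_mem_strictPeriods p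
  simp only [qCoeff]
  rw [h1, ModularForm.qExpansion_smul one_pos hper c (E - CuspForm.toModularFormₗ f), h2,
    ModularForm.qExpansion_sub one_pos hper E (CuspForm.toModularFormₗ f), h3]
  simp

end Fermat.Agent.Lib.S16

namespace Fermat.Agent.Lib.S16

variable (p : ℕ) [Fact p.Prime]

/-- `p - 1 = n * ν`. -/
theorem s16_numerator_mul_gcd : eisensteinNumerator p * Nat.gcd (p - 1) 12 = p - 1 := by
  unfold eisensteinNumerator
  exact Nat.div_mul_cancel (Nat.gcd_dvd_left _ _)

/-- The arithmetic key: if `r ^ b ∤ n`, `r ^ k24 ∣ 24`, `r ^ (kν + 1) ∤ ν` and `e + kν ≤ k24 + 1`,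
then `r ^ (v_r(p - 1) + e) ∣ 24 * r ^ b`. -/
theorem s16_key {r b e k24 kν : ℕ} (hr : r.Prime) (hnb : ¬ r ^ b ∣ eisensteinNumerator p)
    (h24 : r ^ k24 ∣ 24) (hν : ¬ r ^ (kν + 1) ∣ Nat.gcd (p - 1) 12) (he : e + kν ≤ k24 + 1) :
    r ^ (padicValNat r (p - 1) + e) ∣ 24 * r ^ b := by
  haveI : Fact r.Prime := ⟨hr⟩
  have hn0 : eisensteinNumerator p ≠ 0 := (s16_eisensteinNumerator_pos p).ne'
  have hp1 : 0 < p - 1 := by
    have := (Fact.out : p.Prime).two_le
    omega
  have hν0 : Nat.gcd (p - 1) 12 ≠ 0 := (Nat.gcd_pos_of_pos_left _ hp1).ne'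
  have h1 : padicValNat r (eisensteinNumerator p) < b := by
    by_contra h
    exact hnb ((padicValNat_dvd_iff_le hn0).mpr (not_lt.mp h))
  have h2 : padicValNat r (Nat.gcd (p - 1) 12) ≤ kν := by
    by_contra h
    exact hν ((padicValNat_dvd_iff_le hν0).mpr (by omega))
  have h3 : padicValNat r (p - 1) =
      padicValNat r (eisensteinNumerator p) + padicValNat r (Nat.gcd (p - 1) 12) := by
    rw [← s16_numerator_mul_gcd p, padicValNat.mul hn0 hν0]
    rw [s16_numerator_mul_gcd p]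
  have h4 : padicValNat r (p - 1) + e ≤ b + k24 := by omega
  calc r ^ (padicValNat r (p - 1) + e) ∣ r ^ (b + k24) := pow_dvd_pow r h4
    _ = r ^ k24 * r ^ b := by rw [pow_add, mul_comm]
    _ ∣ 24 * r ^ b := Nat.mul_dvd_mul_right h24 _

end Fermat.Agent.Lib.S16

namespace Fermat.Agent.Lib.S16

variable (p : ℕ) [Fact p.Prime]

/-- The (F) assembly. -/
theorem s16_forms_of_noG (hp7 : 7 ≤ p) (hE : s16_IfaceEis p)
    (h5 : ∀ r : ℕ, r.Prime → 5 ≤ r → s16_NoG p r 1)
    (h3a : p % 3 = 1 → s16_NoG p 3 1) (h3b : p % 3 = 2 → s16_NoG p 3 2)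
    (h2a : p % 4 = 1 → s16_NoG p 2 2) (h2b : p % 4 = 3 → s16_NoG p 2 3) :
    s16_IfaceForms p := by
  intro f M hM hint hcong
  by_contra hMn
  have hpp : p.Prime := Fact.out
  obtain ⟨r, b, hr, hrb, hnb⟩ : ∃ r b : ℕ, r.Prime ∧ r ^ b ∣ M ∧ ¬ r ^ b ∣ eisensteinNumerator p := by
    by_contra h
    push_neg at h
    exact hMn ((Nat.dvd_iff_prime_pow_dvd_dvd _ _).mpr fun r b hr hrb => h r b hr hrb)
  obtain ⟨E, hE0, hEk⟩ := hE
  choose c hc using hint
  have hp1 : 0 < p - 1 := by omega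
  set j := padicValNat r (p - 1) with hj
  haveI : Fact r.Prime := ⟨hr⟩
  -- the form `G = 24 (E - f)` and its integer coefficients
  let G : ModularForm (Gamma0 p) 2 := (24 : ℂ) • (E - CuspForm.toModularFormₗ f)
  let g : ℕ → ℤ := fun n => if n = 0 then ((p - 1 : ℕ) : ℤ) else 24 * ((s16_sigma p n : ℤ) - c n)
  have hG : ∀ n : ℕ, qCoeff G n = (g n : ℂ) := by
    intro n
    rw [s16_qCoeff_smul_sub]
    by_cases hn : n = 0
    · subst hn
      have hf0 : qCoeff f 0 = 0 := Fermat.Agent.Lib.QCoeff.qCoeff_zero f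
      simp only [g, if_true, hE0, hf0, sub_zero]
      rw [Nat.cast_sub (by omega : 1 ≤ p)]
      push_cast
      ring
    · have hn1 : 1 ≤ n := Nat.one_le_iff_ne_zero.mpr hn
      simp only [g, if_neg hn, hEk n hn1, hc n]
      push_cast
      ring
  have hg0 : g 0 = ((p - 1 : ℕ) : ℤ) := by simp [g]
  have hj1 : (r : ℤ) ^ j ∣ g 0 := by
    rw [hg0]
    exact_mod_cast (pow_padicValNat_dvd : r ^ padicValNat r (p - 1) ∣ p - 1)
  have hj2 : ¬ (r : ℤ) ^ (j + 1) ∣ g 0 := by
    rw [hg0]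
    intro h
    have h' : r ^ (j + 1) ∣ p - 1 := by exact_mod_cast h
    exact pow_succ_padicValNat_not_dvd hp1.ne' h'
  -- `M ∣ σ'(n) - a_n(f)`
  have hdiv : ∀ n : ℕ, 1 ≤ n → (M : ℤ) ∣ (s16_sigma p n : ℤ) - c n := by
    intro n hn
    obtain ⟨c', hc'⟩ := hcong n hn
    rw [hc n] at hc'
    have : (c n : ℤ) = (s16_sigma p n : ℤ) + (M : ℤ) * c' := by exact_mod_cast hc'
    exact ⟨-c', by rw [this]; ring⟩
  -- the conclusion for any exponent `e` with `r ^ (j + e) ∣ 24 * r ^ b`
  have hfin : ∀ e : ℕ, r ^ (j + e) ∣ 24 * r ^ b → s16_NoG p r e → False := by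
    intro e he hno
    refine hno ⟨G, g, j, hG, hj1, hj2, ?_⟩
    intro n hn
    have h1 : (r : ℤ) ^ b ∣ (s16_sigma p n : ℤ) - c n :=
      dvd_trans (by exact_mod_cast hrb) (hdiv n hn)
    have h2 : ((24 * r ^ b : ℕ) : ℤ) ∣ g n := by
      have hn0 : n ≠ 0 := by omega
      simp only [g, if_neg hn0]
      push_cast
      exact mul_dvd_mul_left _ h1
    exact dvd_trans (by exact_mod_cast he) h2
  -- `ν ∣ 12`
  have hν12 : Nat.gcd (p - 1) 12 ∣ 12 := Nat.gcd_dvd_right _ _
  have hνp : Nat.gcd (p - 1) 12 ∣ p - 1 := Nat.gcd_dvd_left _ _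
  -- case analysis on `r`
  rcases Nat.lt_or_ge r 5 with hr5 | hr5
  · have hr23 : r = 2 ∨ r = 3 := by
      have h2 := hr.two_le
      interval_cases r
      · exact Or.inl rfl
      · exact Or.inr rfl
      · exact absurd hr (by decide)
    rcases hr23 with rfl | rfl
    · -- r = 2
      have hodd : p % 2 = 1 := by
        rcases hpp.eq_two_or_odd with h | h
        · omega
        · exact h
      have h4 : p % 4 = 1 ∨ p % 4 = 3 := by omega
      rcases h4 with h4 | h4
      · -- e = 2, kν = 2, k24 = 3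
        refine hfin 2 (s16_key p hr hnb (k24 := 3) (kν := 2) (by norm_num) ?_ (by norm_num))
          (h2a h4)
        intro h
        have : (8 : ℕ) ∣ 12 := dvd_trans (by simpa using h) hν12
        omega
      · -- e = 3, kν = 1, k24 = 3
        refine hfin 3 (s16_key p hr hnb (k24 := 3) (kν := 1) (by norm_num) ?_ (by norm_num))
          (h2b h4)
        intro h
        have : (4 : ℕ) ∣ p - 1 := dvd_trans (by simpa using h) hνp
        omega
    · -- r = 3
      have h3 : p % 3 = 1 ∨ p % 3 = 2 := by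
        have : ¬ 3 ∣ p := by
          intro h
          have := (Nat.prime_dvd_prime_iff_eq (by norm_num) hpp).mp h
          omega
        omega
      rcases h3 with h3 | h3
      · -- e = 1, kν = 1, k24 = 1
        refine hfin 1 (s16_key p hr hnb (k24 := 1) (kν := 1) (by norm_num) ?_ (by norm_num))
          (h3a h3)
        intro h
        have : (9 : ℕ) ∣ 12 := dvd_trans (by simpa using h) hν12
        omega
      · -- e = 2, kν = 0, k24 = 1
        refine hfin 2 (s16_key p hr hnb (k24 := 1) (kν := 0) (by norm_num) ?_ (by norm_num))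
          (h3b h3)
        intro h
        have : (3 : ℕ) ∣ p - 1 := dvd_trans (by simpa using h) hνp
        omega
  · -- r ≥ 5: e = 1, kν = 0, k24 = 0
    refine hfin 1 (s16_key p hr hnb (k24 := 0) (kν := 0) (by norm_num) ?_ (by norm_num))
      (h5 r hr hr5)
    intro h
    have h12 : r ∣ 12 := dvd_trans (by simpa using h) hν12
    have hle : r ≤ 12 := Nat.le_of_dvd (by norm_num) h12
    interval_cases r <;> first | omega | exact absurd hr (by decide)

end Fermat.Agent.Lib.S16
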