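/-
S16 LEVEL-1 block (helper2, prefix `s16b_`):

* `s16b_qExpansion_E4`, `s16b_qExpansion_Delta`: integral `q`-expansions of `E₄` and `Δ`
  (from `Lib/FF/Bridge`), `Δ = q + …`;
* `s16b_eq_smul_E4`: `M₄(SL₂ℤ) = ℂ·E₄`;
* `s16b_miller`: **Miller-basis bound**: for `f ∈ M_w(SL₂ℤ)`, `4 ∣ w`, and ANY additive subgroup
  `J ≤ ℂ`: if the coefficients `a_n(f)`, `n ≤ w/12`, lie in `J`, then all coefficients lie in `J`
  (all coefficients are ℤ-linear combinations of the first `⌊w/12⌋ + 1`).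
-/
import Mathlib
import Fermat.Agent.Lib.FF.Bridge

set_option autoImplicit false

open UpperHalfPlane hiding I
open Real Complex Filter Topology
open scoped Manifold MatrixGroups ModularForm
open EisensteinSeries ModularForm ModularGroup Matrix.SpecialLinearGroup
open Fermat.Agent.Lib.FF

namespace Fermat.Agent.Lib.S16

/-- `Δ` as a modular form of level one. -/
noncomputable def s16b_Delta : ModularForm 𝒮ℒ 12 :=
  ModularFormClass.modularForm CuspForm.discriminant

theorem s16b_coe_Delta : (⇑s16b_Delta : ℍ → ℂ) = ModularForm.discriminant := rfl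

/-- The integral power series `q ∏ (1 - qⁿ)²⁴`. -/
noncomputable def s16b_DeltaZ : PowerSeries ℤ := PowerSeries.X * ModularCurve.etaProd ^ 24

theorem s16b_qExpansion_Delta :
    qExpansion 1 s16b_Delta = s16b_DeltaZ.map (Int.castRingHom ℂ) := by
  rw [s16b_coe_Delta, ffb_qExpansion_discriminant, s16b_DeltaZ]
  simp

theorem s16b_DeltaZ_coeff_zero : s16b_DeltaZ.coeff 0 = 0 := by
  simp [s16b_DeltaZ]

theorem s16b_DeltaZ_coeff_one : s16b_DeltaZ.coeff 1 = 1 := by
  unfold s16b_DeltaZ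
  rw [PowerSeries.coeff_succ_X_mul, PowerSeries.coeff_zero_eq_constantCoeff]
  simp [ModularCurve.constantCoeff_etaProd]

theorem s16b_qExpansion_E4 :
    qExpansion 1 E₄ = ModularCurve.eisenstein4.map (Int.castRingHom ℂ) := ffb_qExpansion_E4

theorem s16b_E4_coeff_zero : (qExpansion 1 E₄).coeff 0 = 1 := by
  rw [s16b_qExpansion_E4]
  simp [ModularCurve.eisenstein4]

theorem s16b_E4_coeff {n : ℕ} (hn : n ≠ 0) :
    (qExpansion 1 E₄).coeff n = 240 * ∑ d ∈ n.divisors, (d : ℂ) ^ 3 := by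
  rw [s16b_qExpansion_E4]
  simp [ModularCurve.eisenstein4, hn]

/-- the integral `q`-expansion of the Miller basis element `Δ^c E₄^a`. -/
noncomputable def s16b_basisZ (c a : ℕ) : PowerSeries ℤ :=
  s16b_DeltaZ ^ c * ModularCurve.eisenstein4 ^ a

theorem s16b_basisZ_coeff_lt (c a : ℕ) {n : ℕ} (hn : n < c) :
    (s16b_basisZ c a).coeff n = 0 := by
  unfold s16b_basisZ s16b_DeltaZ
  rw [mul_pow, mul_assoc, PowerSeries.coeff_X_pow_mul', if_neg (by omega)]

theorem s16b_basisZ_coeff_self (c a : ℕ) : (s16b_basisZ c a).coeff c = 1 := by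
  unfold s16b_basisZ s16b_DeltaZ
  rw [mul_pow, mul_assoc, PowerSeries.coeff_X_pow_mul', if_pos le_rfl, Nat.sub_self,
    PowerSeries.coeff_zero_eq_constantCoeff]
  simp [ModularCurve.constantCoeff_etaProd]

/-- The Miller basis element `Δ^c E₄^a` of weight `w = 12 c + 4 a`. -/
noncomputable def s16b_basis (c a : ℕ) {w : ℤ} (h : (c : ℤ) * 12 + (a : ℤ) * 4 = w) :
    ModularForm 𝒮ℒ w :=
  ModularForm.mcast h ((s16b_Delta.pow c).mul (E₄.pow a))

theorem s16b_qExpansion_basis (c a : ℕ) {w : ℤ} (h : (c : ℤ) * 12 + (a : ℤ) * 4 = w) :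
    qExpansion 1 (s16b_basis c a h) = (s16b_basisZ c a).map (Int.castRingHom ℂ) := by
  unfold s16b_basis
  rw [ModularForm.qExpansion_mcast, ModularForm.qExpansion_mul one_pos one_mem_strictPeriods_SL,
    ModularForm.qExpansion_pow one_pos one_mem_strictPeriods_SL,
    ModularForm.qExpansion_pow one_pos one_mem_strictPeriods_SL, s16b_qExpansion_Delta,
    s16b_qExpansion_E4, s16b_basisZ]
  simp

/-- coefficients of `f - λ • B`. -/
theorem s16b_coeff_sub_smul {w : ℤ} (f B : ModularForm 𝒮ℒ w) (l : ℂ) (n : ℕ) :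
    (qExpansion 1 ⇑(f - l • B)).coeff n =
      (qExpansion 1 f).coeff n - l * (qExpansion 1 B).coeff n := by
  rw [FunLike.coe_sub, ModularForm.qExpansion_sub one_pos one_mem_strictPeriods_SL f (l • B),
    FunLike.coe_smul, ModularForm.qExpansion_smul one_pos one_mem_strictPeriods_SL l B]
  simp

theorem s16b_miller_aux (J : AddSubgroup ℂ) {w : ℤ} (hw4 : (4 : ℤ) ∣ w) (hw0 : 0 ≤ w) :
    ∀ k c : ℕ, c + k = w.toNat / 12 + 1 → ∀ f : ModularForm 𝒮ℒ w,
      (∀ n, n < c → (qExpansion 1 f).coeff n = 0) →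
      (∀ n, c ≤ n → n ≤ w.toNat / 12 → (qExpansion 1 f).coeff n ∈ J) →
      ∀ n, (qExpansion 1 f).coeff n ∈ J := by
  intro k
  induction k with
  | zero =>
    intro c hc f h0 _ n
    have hf : f = 0 := by
      apply sturm_bound_levelOne
      have h1 : ((w.toNat / 12 + 1 : ℕ) : ℕ∞) ≤ (qExpansion 1 f).order :=
        PowerSeries.nat_le_order _ _ fun i hi => h0 i (by omega)
      refine lt_of_lt_of_le ?_ h1
      exact_mod_cast Nat.lt_succ_self _
    rw [hf]
    simp [UpperHalfPlane.qExpansion_zero]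
  | succ k ih =>
    intro c hc f h0 hJ n
    have hcm : c ≤ w.toNat / 12 := by omega
    have h12 : (c : ℤ) * 12 ≤ w := by
      have : c * 12 ≤ w.toNat := by omega
      have h2 : ((c * 12 : ℕ) : ℤ) ≤ (w.toNat : ℤ) := by exact_mod_cast this
      rw [Int.toNat_of_nonneg hw0] at h2
      push_cast at h2
      exact h2
    obtain ⟨a, ha⟩ : ∃ a : ℕ, (c : ℤ) * 12 + (a : ℤ) * 4 = w := by
      obtain ⟨t, ht⟩ := hw4
      refine ⟨(t - 3 * c).toNat, ?_⟩
      rw [Int.toNat_of_nonneg (by omega)]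
      omega
    set B := s16b_basis c a ha with hB
    set l := (qExpansion 1 f).coeff c with hl
    have hlJ : l ∈ J := hJ c le_rfl hcm
    have hBq : ∀ m, (qExpansion 1 B).coeff m = ((s16b_basisZ c a).coeff m : ℂ) := by
      intro m
      rw [hB, s16b_qExpansion_basis]
      simp
    have hg : ∀ m, (qExpansion 1 ⇑(f - l • B)).coeff m =
        (qExpansion 1 f).coeff m - l * ((s16b_basisZ c a).coeff m : ℂ) := by
      intro m
      rw [s16b_coeff_sub_smul, hBq]
    have hmulJ : ∀ z : ℤ, l * (z : ℂ) ∈ J := by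
      intro z
      have := J.zsmul_mem hlJ z
      rwa [zsmul_eq_mul, mul_comm] at this
    have key := ih (c + 1) (by omega) (f - l • B) ?_ ?_ n
    · rw [hg] at key
      have := J.add_mem key (hmulJ ((s16b_basisZ c a).coeff n))
      simpa using this
    · intro m hm
      rw [hg]
      rcases Nat.lt_succ_iff_lt_or_eq.mp hm with hlt | rfl
      · rw [h0 m hlt, s16b_basisZ_coeff_lt c a hlt]
        simp
      · rw [s16b_basisZ_coeff_self]
        simp [hl]
    · intro m hm1 hm2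
      rw [hg]
      exact J.sub_mem (hJ m (by omega) hm2) (hmulJ _)

/-- **Miller-basis bound.** For a level-one form of weight `w` divisible by `4` and an additive
subgroup `J ≤ ℂ`: if the coefficients `a_n`, `n ≤ w/12`, lie in `J`, then all do. -/
theorem s16b_miller (J : AddSubgroup ℂ) {w : ℤ} (hw4 : (4 : ℤ) ∣ w) (f : ModularForm 𝒮ℒ w)
    (h : ∀ n, n ≤ w.toNat / 12 → (qExpansion 1 f).coeff n ∈ J) :
    ∀ n, (qExpansion 1 f).coeff n ∈ J := by
  rcases lt_or_ge w 0 with hneg | hw0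
  · intro n
    have hf : (⇑f : ℍ → ℂ) = 0 := ModularFormClass.levelOne_neg_weight_eq_zero hneg f
    rw [hf, UpperHalfPlane.qExpansion_zero]
    simp
  · exact s16b_miller_aux J hw4 hw0 (w.toNat / 12 + 1) 0 (by omega) f
      (fun n hn => absurd hn (Nat.not_lt_zero n)) (fun n _ hn => h n hn)

/-- The Miller bound in the form `J = r·R`, `R` a subring of `ℂ`. -/
theorem s16b_miller_subring (R : Subring ℂ) (r : ℂ) {w : ℤ} (hw4 : (4 : ℤ) ∣ w)
    (f : ModularForm 𝒮ℒ w)
    (h : ∀ n, n ≤ w.toNat / 12 → ∃ y ∈ R, (qExpansion 1 f).coeff n = r * y) :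
    ∀ n, ∃ y ∈ R, (qExpansion 1 f).coeff n = r * y := by
  let J : AddSubgroup ℂ :=
    { carrier := {x | ∃ y ∈ R, x = r * y}
      zero_mem' := ⟨0, R.zero_mem, by simp⟩
      add_mem' := by
        rintro _ _ ⟨y, hy, rfl⟩ ⟨z, hz, rfl⟩
        exact ⟨y + z, R.add_mem hy hz, by ring⟩
      neg_mem' := by
        rintro _ ⟨y, hy, rfl⟩
        exact ⟨-y, R.neg_mem hy, by ring⟩ }
  exact s16b_miller J hw4 f h

/-- `M₄(SL₂ℤ) = ℂ·E₄`. -/
theorem s16b_eq_smul_E4 (f : ModularForm 𝒮ℒ 4) : f = (qExpansion 1 f).coeff 0 • E₄ := by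
  rw [← sub_eq_zero]
  apply sturm_bound_levelOne
  have h1 : ((1 : ℕ) : ℕ∞) ≤ (qExpansion 1 ⇑(f - (qExpansion 1 f).coeff 0 • E₄)).order := by
    apply PowerSeries.nat_le_order
    intro i hi
    obtain rfl : i = 0 := by omega
    rw [s16b_coeff_sub_smul, s16b_E4_coeff_zero]
    ring
  refine lt_of_lt_of_le ?_ h1
  norm_num

end Fermat.Agent.Lib.S16
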