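/-
S16 LEVEL-1 block, part 2 (helper2, prefix `s16b_`):

* `s16b_qCoeff_weight_four`: every `T ∈ M₄(SL₂ℤ)` has `a_n(T) = a_0(T)·240·σ₃(n)` for `n ≥ 1`;
* `s16b_qExpansion_period`: the `q^{1/M}`-expansion of a level-one form;
* `s16b_miller_period`: the Miller bound for `qExpansion M` (bound `M·⌊w/12⌋`).
-/
import Mathlib
import Fermat.Agent.Lib.S16.BLevel1
import Fermat.Prelude.Def_FLTPrelim_Modularity
import Fermat.Prelude.Thm_UpperHalfPlane_qExpansion_coeff_nat_mul

set_option autoImplicit false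

open UpperHalfPlane hiding I
open Real Complex Filter Topology
open scoped Manifold MatrixGroups ModularForm ArithmeticFunction.sigma
open EisensteinSeries ModularForm ModularGroup Matrix.SpecialLinearGroup ModularFormClass
open ArithmeticFunction

namespace Fermat.Agent.Lib.S16

/-- Every weight-4 level-one form is `a₀·E₄`: `a_n = a₀·240·σ₃(n)` for `n ≥ 1`. -/
theorem s16b_qCoeff_weight_four (T : ModularForm 𝒮ℒ 4) {n : ℕ} (hn : 1 ≤ n) :
    qCoeff ⇑T n = qCoeff ⇑T 0 * 240 * (σ 3 n : ℂ) := by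
  have h := s16b_eq_smul_E4 T
  have h2 : (qExpansion 1 ⇑T).coeff n =
      (qExpansion 1 ⇑T).coeff 0 * (qExpansion 1 E₄).coeff n := by
    conv_lhs => rw [h]
    rw [FunLike.coe_smul, ModularForm.qExpansion_smul one_pos one_mem_strictPeriods_SL]
    simp
  simp only [qCoeff]
  rw [h2, s16b_E4_coeff (by omega), sigma_apply]
  push_cast
  ring

/-- The `q^{1/M}`-expansion of a level-one form. -/
theorem s16b_qExpansion_period {w : ℤ} (f : ModularForm 𝒮ℒ w) {M : ℕ} (hM : 0 < M) (n : ℕ) :
    (qExpansion (M : ℝ) f).coeff n =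
      if M ∣ n then (qExpansion 1 f).coeff (n / M) else 0 := by
  have hper := SlashInvariantFormClass.periodic_comp_ofComplex f one_mem_strictPeriods_SL
  have : Fact (IsCusp OnePoint.infty 𝒮ℒ) := ⟨(𝒮ℒ).isCusp_of_mem_strictPeriods one_pos
    one_mem_strictPeriods_SL⟩
  have h := UpperHalfPlane.qExpansion_coeff_nat_mul one_pos hper (ModularFormClass.holo f)
    (ModularFormClass.bdd_at_infty f) hM n
  rwa [mul_one] at h

/-- **Miller bound for `q^{1/M}`-expansions** of level-one forms of weight divisible by 4. -/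
theorem s16b_miller_period (J : AddSubgroup ℂ) {w : ℤ} (hw4 : (4 : ℤ) ∣ w) {M : ℕ} (hM : 0 < M)
    (f : ModularForm 𝒮ℒ w)
    (h : ∀ n, n ≤ M * (w.toNat / 12) → (qExpansion (M : ℝ) f).coeff n ∈ J) :
    ∀ n, (qExpansion (M : ℝ) f).coeff n ∈ J := by
  have h1 : ∀ n, (qExpansion 1 f).coeff n ∈ J := by
    apply s16b_miller J hw4 f
    intro n hn
    have := h (M * n) (Nat.mul_le_mul_left M hn)
    rwa [s16b_qExpansion_period f hM, if_pos (dvd_mul_right M n),
      Nat.mul_div_cancel_left _ hM] at this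
  intro n
  rw [s16b_qExpansion_period f hM]
  split_ifs
  · exact h1 _
  · exact J.zero_mem

end Fermat.Agent.Lib.S16
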