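import Mathlib

/-!
# S16 — arithmetic cores of N3 and N5 (the `Tr(G²)` trick)

For `G ∈ M₂(Γ₀(p))` with integer `q`-expansion `g`, the identity
`p·G² + U_p((U_pG)²) = (p+1)·a₀(G)²·E₄` reads, coefficientwise, `s16_TrSq p g`.
Together with `U_p² = 1` (`g (p*p*n) = g n`) and the same identity for `U_pG` it excludes
* `p ≡ 1 mod 3`, `3^j ∥ g 0`, `3^(j+1) ∣ g n` for all `n ≥ 1`  (`s16_trsq_three`);
* `p ≡ 1 mod 4`, `2^j ∥ g 0`, `2^(j+2) ∣ g n` for all `n ≥ 1`  (`s16_trsq_two`).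
-/

set_option autoImplicit false

open Finset

namespace Fermat.Agent.Lib.S16

/-- Coefficientwise form of `p·G² + U_p((U_pG)²) = (p+1)·a₀²·E₄`. -/
def s16_TrSq (p : ℕ) (s : ℕ → ℤ) : Prop :=
  ∀ n : ℕ, 1 ≤ n →
    (p : ℤ) * ∑ x ∈ antidiagonal n, s x.1 * s x.2 +
        ∑ x ∈ antidiagonal (p * n), s (p * x.1) * s (p * x.2) =
      ((p : ℤ) + 1) * (s 0) ^ 2 * (240 * (ArithmeticFunction.sigma 3 n : ℤ))

/-- If `r ^ a ∥ x` and `r ^ (a + b) ∣ x * y` then `r ^ b ∣ y`. -/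
theorem s16_dvd_of_exact {r : ℕ} (hr : r.Prime) {a b : ℕ} {x y : ℤ}
    (h1 : (r : ℤ) ^ a ∣ x) (h2 : ¬ (r : ℤ) ^ (a + 1) ∣ x) (h3 : (r : ℤ) ^ (a + b) ∣ x * y) :
    (r : ℤ) ^ b ∣ y := by
  obtain ⟨x', rfl⟩ := h1
  have hr0 : (r : ℤ) ≠ 0 := by exact_mod_cast hr.ne_zero
  have hrp : Prime (r : ℤ) := Nat.prime_iff_prime_int.mp hr
  have hx' : ¬ (r : ℤ) ∣ x' := by
    intro h
    apply h2
    rw [pow_succ]
    exact mul_dvd_mul_left _ h
  rw [pow_add, mul_assoc] at h3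
  have h4 : (r : ℤ) ^ b ∣ x' * y := (mul_dvd_mul_iff_left (pow_ne_zero a hr0)).mp h3
  have hcop : IsCoprime ((r : ℤ) ^ b) x' :=
    IsCoprime.pow_left ((Prime.coprime_iff_not_dvd hrp).mpr hx')
  exact hcop.dvd_of_dvd_mul_left h4

/-- Splitting a convolution square: if `u 0 = c₀` and `u n = t n` for `n ≥ 1`, `t 0 = 0`, then for
`m ≥ 1`: `∑_{a+b=m} u a * u b = 2 c₀ t m + ∑_{a+b=m} t a * t b`. -/
theorem s16_conv_split (u t : ℕ → ℤ) (c₀ : ℤ) (hu0 : u 0 = c₀) (ht0 : t 0 = 0)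
    (hut : ∀ n, 1 ≤ n → u n = t n) {m : ℕ} (hm : 1 ≤ m) :
    ∑ x ∈ antidiagonal m, u x.1 * u x.2 =
      2 * c₀ * t m + ∑ x ∈ antidiagonal m, t x.1 * t x.2 := by
  have hu : ∀ n, u n = (if n = 0 then c₀ else 0) + t n := by
    intro n
    by_cases hn : n = 0
    · subst hn; simp [hu0, ht0]
    · simp [hn, hut n (Nat.one_le_iff_ne_zero.mpr hn)]
  have h1 : ∀ x ∈ antidiagonal m, u x.1 * u x.2 =
      (if x.1 = 0 then c₀ * t x.2 else 0) + (if x.2 = 0 then c₀ * t x.1 else 0) +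
        t x.1 * t x.2 := by
    intro x hx
    rw [HasAntidiagonal.mem_antidiagonal] at hx
    rw [hu x.1, hu x.2]
    by_cases h1 : x.1 = 0 <;> by_cases h2 : x.2 = 0
    · omega
    · simp [h1, h2, ht0]
    · simp [h1, h2, ht0, mul_comm]
    · simp [h1, h2]
  rw [sum_congr rfl h1, sum_add_distrib, sum_add_distrib]
  have h2 : ∑ x ∈ antidiagonal m, (if x.1 = 0 then c₀ * t x.2 else 0) = c₀ * t m := by
    rw [Nat.sum_antidiagonal_eq_sum_range_succ_mk]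
    simp only
    rw [sum_eq_single 0]
    · simp
    · intro b _ hb; simp [hb]
    · intro h; simp at h
  have h3 : ∑ x ∈ antidiagonal m, (if x.2 = 0 then c₀ * t x.1 else 0) = c₀ * t m := by
    rw [Nat.sum_antidiagonal_eq_sum_range_succ_mk]
    simp only
    rw [sum_eq_single m]
    · simp
    · intro b hb hbm
      have : b < m + 1 := mem_range.mp hb
      have : m - b ≠ 0 := by omega
      simp [this]
    · intro h; simp at h
  rw [h2, h3]
  ring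

theorem s16_zmod2_sq (x : ZMod 2) : x * x = x := by
  fin_cases x <;> rfl

/-- Parity of a convolution square. -/
theorem s16_conv_parity (f : ℕ → ℤ) (m : ℕ) :
    (2 : ℤ) ∣ ∑ x ∈ antidiagonal m, f x.1 * f x.2 - (if 2 ∣ m then f (m / 2) else 0) := by
  have h2 : ((2 : ℕ) : ℤ) = 2 := by norm_num
  rw [← h2, ← ZMod.intCast_zmod_eq_zero_iff_dvd _ 2]
  push_cast
  have hsplit : ∑ x ∈ antidiagonal m, ((f x.1 : ZMod 2) * (f x.2 : ZMod 2)) =
      ∑ x ∈ (antidiagonal m).filter (fun x => x.1 = x.2), ((f x.1 : ZMod 2) * (f x.2 : ZMod 2)) +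
      ∑ x ∈ (antidiagonal m).filter (fun x => ¬ x.1 = x.2),
        ((f x.1 : ZMod 2) * (f x.2 : ZMod 2)) :=
    (sum_filter_add_sum_filter_not _ _ _).symm
  have hzero : ∑ x ∈ (antidiagonal m).filter (fun x => ¬ x.1 = x.2),
      ((f x.1 : ZMod 2) * (f x.2 : ZMod 2)) = 0 := by
    refine sum_involution (fun x _ => x.swap) ?_ ?_ ?_ ?_
    · intro x _
      simp only [Prod.fst_swap, Prod.snd_swap]
      rw [mul_comm ((f x.2 : ZMod 2))]
      exact CharTwo.add_self_eq_zero _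
    · intro x hx _ h
      rw [mem_filter] at hx
      apply hx.2
      have := congrArg Prod.fst h
      simpa using this.symm
    · intro x hx
      rw [mem_filter, HasAntidiagonal.mem_antidiagonal] at hx ⊢
      refine ⟨?_, ?_⟩
      · simp only [Prod.fst_swap, Prod.snd_swap]; omega
      · simp only [Prod.fst_swap, Prod.snd_swap]; exact fun h => hx.2 h.symm
    · intro x _
      simp
  rw [hsplit, hzero, add_zero]
  by_cases hm : 2 ∣ m
  · obtain ⟨k, rfl⟩ := hm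
    have hfil : (antidiagonal (2 * k)).filter (fun x : ℕ × ℕ => x.1 = x.2) = {(k, k)} := by
      ext x
      rw [mem_filter, HasAntidiagonal.mem_antidiagonal, mem_singleton]
      constructor
      · rintro ⟨h1, h2⟩
        ext <;> simp <;> omega
      · rintro rfl
        simp; omega
    rw [hfil, sum_singleton]
    simp only [dvd_mul_right, if_true]
    rw [Nat.mul_div_cancel_left k (by norm_num : 0 < 2), s16_zmod2_sq, sub_self]
  · have hfil : (antidiagonal m).filter (fun x : ℕ × ℕ => x.1 = x.2) = ∅ := by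
      ext x
      rw [mem_filter, HasAntidiagonal.mem_antidiagonal]
      constructor
      · rintro ⟨h1, h2⟩
        exfalso; apply hm; exact ⟨x.1, by omega⟩
      · intro h; simp at h
    rw [hfil, sum_empty, if_neg hm]
    simp

end Fermat.Agent.Lib.S16

namespace Fermat.Agent.Lib.S16

/-- The general "round": if all higher coefficients are divisible by `r ^ E`, the identity gives
`r ^ (2E) ∣ 2 (p+1) s₀ sₙ - (p+1) s₀² · 240 σ₃(n)`. -/
theorem s16_round {p : ℕ} (hp : 1 ≤ p) (r : ℤ) (s : ℕ → ℤ) (E : ℕ)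
    (hs : ∀ n, 1 ≤ n → r ^ E ∣ s n) (hU : ∀ n, s (p * p * n) = s n) (hT : s16_TrSq p s)
    (n : ℕ) (hn : 1 ≤ n) :
    r ^ (2 * E) ∣ 2 * ((p : ℤ) + 1) * s 0 * s n -
      ((p : ℤ) + 1) * (s 0) ^ 2 * (240 * (ArithmeticFunction.sigma 3 n : ℤ)) := by
  set t : ℕ → ℤ := fun a => if a = 0 then 0 else s a with ht
  set t' : ℕ → ℤ := fun a => if a = 0 then 0 else s (p * a) with ht'
  have hpn : 1 ≤ p * n := Nat.one_le_iff_ne_zero.mpr (Nat.mul_ne_zero (by omega) (by omega))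
  have hA := s16_conv_split s t (s 0) rfl (by simp [ht])
    (fun a ha => by simp [ht, (Nat.one_le_iff_ne_zero.mp ha)]) hn
  have hB := s16_conv_split (fun a => s (p * a)) t' (s 0) (by simp) (by simp [ht'])
    (fun a ha => by simp [ht', (Nat.one_le_iff_ne_zero.mp ha)]) hpn
  have htn : t n = s n := by simp [ht, Nat.one_le_iff_ne_zero.mp hn]
  have htpn : t' (p * n) = s n := by
    have : p * n ≠ 0 := Nat.one_le_iff_ne_zero.mp hpn
    simp only [ht', if_neg this]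
    rw [← mul_assoc]
    exact hU n
  have hdt : ∀ a, r ^ E ∣ t a := by
    intro a
    by_cases ha : a = 0
    · simp [ht, ha]
    · simp only [ht, if_neg ha]
      exact hs a (Nat.one_le_iff_ne_zero.mpr ha)
  have hdt' : ∀ a, r ^ E ∣ t' a := by
    intro a
    by_cases ha : a = 0
    · simp [ht', ha]
    · simp only [ht', if_neg ha]
      exact hs (p * a) (Nat.one_le_iff_ne_zero.mpr (Nat.mul_ne_zero (by omega) ha))
  have hX : r ^ (2 * E) ∣ ∑ x ∈ antidiagonal n, t x.1 * t x.2 := by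
    refine dvd_sum fun x _ => ?_
    rw [two_mul, pow_add]
    exact mul_dvd_mul (hdt _) (hdt _)
  have hY : r ^ (2 * E) ∣ ∑ x ∈ antidiagonal (p * n), t' x.1 * t' x.2 := by
    refine dvd_sum fun x _ => ?_
    rw [two_mul, pow_add]
    exact mul_dvd_mul (hdt' _) (hdt' _)
  have h := hT n hn
  rw [hA, hB, htn, htpn] at h
  have : 2 * ((p : ℤ) + 1) * s 0 * s n -
      ((p : ℤ) + 1) * (s 0) ^ 2 * (240 * (ArithmeticFunction.sigma 3 n : ℤ)) =
      -((p : ℤ) * ∑ x ∈ antidiagonal n, t x.1 * t x.2 +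
        ∑ x ∈ antidiagonal (p * n), t' x.1 * t' x.2) := by
    linear_combination h
  rw [this]
  exact (dvd_add (Dvd.dvd.mul_left hX _) hY).neg_right

theorem s16_sigma3_prime {p : ℕ} (hp : p.Prime) :
    (ArithmeticFunction.sigma 3 p : ℤ) = (p : ℤ) ^ 3 + 1 := by
  rw [ArithmeticFunction.sigma_apply, hp.sum_divisors]
  push_cast
  ring

theorem s16_sigma3_one : (ArithmeticFunction.sigma 3 1 : ℤ) = 1 := by
  rw [ArithmeticFunction.sigma_apply]
  simp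

end Fermat.Agent.Lib.S16

namespace Fermat.Agent.Lib.S16

/-- **N3, arithmetic core** (`r = 3`, `p ≡ 1 mod 3`). -/
theorem s16_trsq_three {p : ℕ} (hp : p.Prime) (hp3 : p % 3 = 1) (g : ℕ → ℤ) (j : ℕ)
    (h0 : (3 : ℤ) ^ j ∣ g 0) (h0' : ¬ (3 : ℤ) ^ (j + 1) ∣ g 0)
    (hg : ∀ n, 1 ≤ n → (3 : ℤ) ^ (j + 1) ∣ g n) (hU : ∀ n, g (p * p * n) = g n)
    (hT : s16_TrSq p g) (hT' : s16_TrSq p (fun n => g (p * n))) : False := by
  have hp1 : 1 ≤ p := hp.one_le
  have h3p1 : ¬ (3 : ℤ) ∣ (p : ℤ) + 1 := by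
    intro h
    have : (3 : ℕ) ∣ p + 1 := by exact_mod_cast h
    omega
  have h3p : ¬ (3 : ℤ) ∣ (p : ℤ) := by
    intro h
    have : (3 : ℕ) ∣ p := by exact_mod_cast h
    omega
  have hpr3 : Prime (3 : ℤ) := Int.prime_three
  have key : ∀ s : ℕ → ℤ, s 0 = g 0 → (∀ n, 1 ≤ n → (3 : ℤ) ^ (j + 1) ∣ s n) →
      (∀ n, s (p * p * n) = s n) → s16_TrSq p s → ∀ n, 1 ≤ n →
      (3 : ℤ) ^ (j + 2) ∣ 2 * s n - 240 * g 0 * (ArithmeticFunction.sigma 3 n : ℤ) := by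
    intro s hs0 hs hUs hTs n hn
    have h := s16_round hp1 (3 : ℤ) s (j + 1) hs hUs hTs n hn
    have hx : 2 * ((p : ℤ) + 1) * s 0 * s n -
        ((p : ℤ) + 1) * (s 0) ^ 2 * (240 * (ArithmeticFunction.sigma 3 n : ℤ)) =
        (((p : ℤ) + 1) * g 0) * (2 * s n - 240 * g 0 * (ArithmeticFunction.sigma 3 n : ℤ)) := by
      rw [hs0]; ring
    rw [hx] at h
    refine s16_dvd_of_exact (r := 3) Nat.prime_three (a := j) (b := j + 2)
      (x := ((p : ℤ) + 1) * g 0) ?_ ?_ ?_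
    · exact_mod_cast Dvd.dvd.mul_left h0 _
    · intro hd
      have hd' : (3 : ℤ) ^ (j + 1) ∣ ((p : ℤ) + 1) * g 0 := by exact_mod_cast hd
      have hcop : IsCoprime ((3 : ℤ) ^ (j + 1)) ((p : ℤ) + 1) :=
        IsCoprime.pow_left ((Prime.coprime_iff_not_dvd hpr3).mpr h3p1)
      exact h0' (hcop.dvd_of_dvd_mul_left hd')
    · have : j + (j + 2) = 2 * (j + 1) := by ring
      rw [this]
      exact_mod_cast h
  have h1 := key g rfl hg hU hT p hp1
  have h2 := key (fun n => g (p * n)) (by simp)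
    (fun n hn => hg (p * n) (Nat.one_le_iff_ne_zero.mpr (Nat.mul_ne_zero (by omega) (by omega))))
    (fun n => by
      show g (p * (p * p * n)) = g (p * n)
      rw [show p * (p * p * n) = p * p * (p * n) by ring]
      exact hU (p * n)) hT' 1 le_rfl
  simp only [mul_one] at h2
  rw [s16_sigma3_prime hp] at h1
  rw [s16_sigma3_one] at h2
  have h3 : (3 : ℤ) ^ (j + 2) ∣ 240 * g 0 * (p : ℤ) ^ 3 := by
    have := dvd_sub h2 h1
    have e : (2 * g p - 240 * g 0 * 1) - (2 * g p - 240 * g 0 * ((p : ℤ) ^ 3 + 1)) =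
        240 * g 0 * (p : ℤ) ^ 3 := by ring
    rwa [e] at this
  have h4 : (3 : ℤ) ^ (j + 1) ∣ (80 * (p : ℤ) ^ 3) * g 0 := by
    have e : 240 * g 0 * (p : ℤ) ^ 3 = 3 * ((80 * (p : ℤ) ^ 3) * g 0) := by ring
    rw [e, show j + 2 = (j + 1) + 1 by ring, pow_succ, mul_comm ((3 : ℤ) ^ (j + 1)) 3] at h3
    exact (mul_dvd_mul_iff_left (by norm_num : (3 : ℤ) ≠ 0)).mp h3
  have hcop : IsCoprime ((3 : ℤ) ^ (j + 1)) (80 * (p : ℤ) ^ 3) := by
    refine IsCoprime.pow_left ((Prime.coprime_iff_not_dvd hpr3).mpr ?_)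
    intro h
    rcases hpr3.dvd_or_dvd h with h | h
    · norm_num at h
    · exact h3p (hpr3.dvd_of_dvd_pow h)
  exact h0' (hcop.dvd_of_dvd_mul_left h4)

end Fermat.Agent.Lib.S16

namespace Fermat.Agent.Lib.S16

/-- Round 1 for `r = 2`: from `2^(j+2) ∣ g n` to `2^(j+3) ∣ g n`. -/
theorem s16_trsq_two_round1 {p : ℕ} (hp : p.Prime) (hp4 : p % 4 = 1) (g : ℕ → ℤ) (j : ℕ)
    (h0 : (2 : ℤ) ^ j ∣ g 0) (h0' : ¬ (2 : ℤ) ^ (j + 1) ∣ g 0)
    (hg : ∀ n, 1 ≤ n → (2 : ℤ) ^ (j + 2) ∣ g n) (hU : ∀ n, g (p * p * n) = g n)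
    (hT : s16_TrSq p g) (n : ℕ) (hn : 1 ≤ n) : (2 : ℤ) ^ (j + 3) ∣ g n := by
  have hp1 : 1 ≤ p := hp.one_le
  have hp0 : p ≠ 0 := hp.ne_zero
  have hpr2 : Prime (2 : ℤ) := Int.prime_two
  obtain ⟨k0, hk0⟩ : ∃ k0 : ℕ, p = 4 * k0 + 1 := ⟨p / 4, by omega⟩
  set P : ℤ := (2 : ℤ) ^ (j + 2) with hP
  have hP0 : P ≠ 0 := pow_ne_zero _ (by norm_num)
  set h : ℕ → ℤ := fun a => if a = 0 then 0 else g a / P with hh
  have hgh : ∀ a, 1 ≤ a → g a = P * h a := by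
    intro a ha
    simp only [hh, if_neg (Nat.one_le_iff_ne_zero.mp ha)]
    exact (Int.mul_ediv_cancel' (hg a ha)).symm
  have hhU : ∀ a, 1 ≤ a → h (p * p * a) = h a := by
    intro a ha
    have h1 : p * p * a ≠ 0 := Nat.mul_ne_zero (Nat.mul_ne_zero hp0 hp0) (by omega)
    simp only [hh, if_neg h1, if_neg (Nat.one_le_iff_ne_zero.mp ha), hU a]
  set t : ℕ → ℤ := fun a => P * h a with ht
  set t' : ℕ → ℤ := fun a => P * h (p * a) with ht'
  have hpn : 1 ≤ p * n := Nat.one_le_iff_ne_zero.mpr (Nat.mul_ne_zero hp0 (by omega))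
  have hA := s16_conv_split g t (g 0) rfl (by simp [ht, hh])
    (fun a ha => by simp only [ht]; exact hgh a ha) hn
  have hB := s16_conv_split (fun a => g (p * a)) t' (g 0) (by simp) (by simp [ht', hh])
    (fun a ha => by
      simp only [ht']
      exact hgh (p * a) (Nat.one_le_iff_ne_zero.mpr (Nat.mul_ne_zero hp0 (by omega)))) hpn
  have htn : t n = g n := by simp only [ht]; exact (hgh n hn).symm
  have htpn : t' (p * n) = g n := by
    simp only [ht']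
    rw [← mul_assoc, hhU n hn]
    exact (hgh n hn).symm
  have hXX : ∑ x ∈ antidiagonal n, t x.1 * t x.2 = P ^ 2 * ∑ x ∈ antidiagonal n, h x.1 * h x.2 := by
    rw [mul_sum]
    exact sum_congr rfl fun x _ => by simp only [ht]; ring
  have hYY : ∑ x ∈ antidiagonal (p * n), t' x.1 * t' x.2 =
      P ^ 2 * ∑ x ∈ antidiagonal (p * n), h (p * x.1) * h (p * x.2) := by
    rw [mul_sum]
    exact sum_congr rfl fun x _ => by simp only [ht']; ring
  -- parity of `p * HH + HH'`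
  have hpar1 := s16_conv_parity h n
  have hpar2 := s16_conv_parity (fun a => h (p * a)) (p * n)
  set HH := ∑ x ∈ antidiagonal n, h x.1 * h x.2 with hHH
  set HH' := ∑ x ∈ antidiagonal (p * n), h (p * x.1) * h (p * x.2) with hHH'
  have hpar : (2 : ℤ) ∣ (p : ℤ) * HH + HH' := by
    by_cases hev : 2 ∣ n
    · obtain ⟨k, rfl⟩ := hev
      have hk : 1 ≤ k := by omega
      have h2pn : 2 ∣ p * (2 * k) := ⟨p * k, by ring⟩
      rw [if_pos (dvd_mul_right 2 k), Nat.mul_div_cancel_left k (by norm_num : 0 < 2)] at hpar1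
      rw [if_pos h2pn, show p * (2 * k) / 2 = p * k by
        rw [show p * (2 * k) = 2 * (p * k) by ring]
        exact Nat.mul_div_cancel_left _ (by norm_num : 0 < 2), ← mul_assoc, hhU k hk] at hpar2
      obtain ⟨a, ha⟩ := hpar1
      obtain ⟨b, hb⟩ := hpar2
      refine ⟨(p : ℤ) * a + b + (2 * k0 + 1) * h k, ?_⟩
      have e1 : HH = h k + 2 * a := by linarith
      have e2 : HH' = h k + 2 * b := by linarith
      rw [e1, e2, hk0]
      push_cast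
      ring
    · have hodd : ¬ 2 ∣ p * n := by
        intro h2
        rcases (Nat.Prime.dvd_mul Nat.prime_two).mp h2 with h3 | h3
        · omega
        · exact hev h3
      rw [if_neg hev, sub_zero] at hpar1
      rw [if_neg hodd, sub_zero] at hpar2
      exact dvd_add (Dvd.dvd.mul_left hpar1 _) hpar2
  -- the identity
  have hid := hT n hn
  rw [hA, hB, htn, htpn, hXX, hYY] at hid
  have hmain : 2 * ((p : ℤ) + 1) * g 0 * g n =
      ((p : ℤ) + 1) * (g 0) ^ 2 * (240 * (ArithmeticFunction.sigma 3 n : ℤ)) -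
        P ^ 2 * ((p : ℤ) * HH + HH') := by
    linear_combination hid
  have hd1 : (2 : ℤ) ^ (2 * j + 5) ∣
      ((p : ℤ) + 1) * (g 0) ^ 2 * (240 * (ArithmeticFunction.sigma 3 n : ℤ)) := by
    obtain ⟨u, hu⟩ := h0
    refine ⟨(2 * k0 + 1) * u ^ 2 * (15 * (ArithmeticFunction.sigma 3 n : ℤ)), ?_⟩
    rw [hu, hk0]
    push_cast
    ring
  have hd2 : (2 : ℤ) ^ (2 * j + 5) ∣ P ^ 2 * ((p : ℤ) * HH + HH') := by
    obtain ⟨v, hv⟩ := hpar
    refine ⟨v, ?_⟩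
    rw [hv, hP]
    ring
  have hd : (2 : ℤ) ^ ((j + 2) + (j + 3)) ∣ (2 * ((p : ℤ) + 1) * g 0) * g n := by
    rw [show (j + 2) + (j + 3) = 2 * j + 5 by ring, hmain]
    exact dvd_sub hd1 hd2
  refine s16_dvd_of_exact (r := 2) Nat.prime_two (a := j + 2) (b := j + 3)
    (x := 2 * ((p : ℤ) + 1) * g 0) ?_ ?_ (by exact_mod_cast hd)
  · obtain ⟨u, hu⟩ := h0
    refine ⟨(2 * k0 + 1) * u, ?_⟩
    rw [hu, hk0]
    push_cast
    ring
  · intro hx
    have hx' : (2 : ℤ) ^ (j + 3) ∣ 2 * ((p : ℤ) + 1) * g 0 := by exact_mod_cast hx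
    have e : 2 * ((p : ℤ) + 1) * g 0 = 4 * ((2 * (k0 : ℤ) + 1) * g 0) := by
      rw [hk0]; push_cast; ring
    rw [e, show j + 3 = (j + 1) + 2 by ring, pow_add,
      mul_comm ((2 : ℤ) ^ (j + 1)), show (2 : ℤ) ^ 2 = 4 by norm_num] at hx'
    have hx'' : (2 : ℤ) ^ (j + 1) ∣ (2 * (k0 : ℤ) + 1) * g 0 :=
      (mul_dvd_mul_iff_left (by norm_num : (4 : ℤ) ≠ 0)).mp hx'
    have hcop : IsCoprime ((2 : ℤ) ^ (j + 1)) (2 * (k0 : ℤ) + 1) := by
      refine IsCoprime.pow_left ((Prime.coprime_iff_not_dvd hpr2).mpr ?_)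
      intro h
      omega
    exact h0' (hcop.dvd_of_dvd_mul_left hx'')

end Fermat.Agent.Lib.S16

namespace Fermat.Agent.Lib.S16

/-- **N5, arithmetic core** (`r = 2`, `p ≡ 1 mod 4`). -/
theorem s16_trsq_two {p : ℕ} (hp : p.Prime) (hp4 : p % 4 = 1) (g : ℕ → ℤ) (j : ℕ)
    (h0 : (2 : ℤ) ^ j ∣ g 0) (h0' : ¬ (2 : ℤ) ^ (j + 1) ∣ g 0)
    (hg : ∀ n, 1 ≤ n → (2 : ℤ) ^ (j + 2) ∣ g n) (hU : ∀ n, g (p * p * n) = g n)
    (hT : s16_TrSq p g) (hT' : s16_TrSq p (fun n => g (p * n))) : False := by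
  have hp1 : 1 ≤ p := hp.one_le
  have hp0 : p ≠ 0 := hp.ne_zero
  have hpr2 : Prime (2 : ℤ) := Int.prime_two
  obtain ⟨k0, hk0⟩ : ∃ k0 : ℕ, p = 4 * k0 + 1 := ⟨p / 4, by omega⟩
  -- round 1
  have hg3 : ∀ n, 1 ≤ n → (2 : ℤ) ^ (j + 3) ∣ g n :=
    fun n hn => s16_trsq_two_round1 hp hp4 g j h0 h0' hg hU hT n hn
  -- round 2
  have key : ∀ s : ℕ → ℤ, s 0 = g 0 → (∀ n, 1 ≤ n → (2 : ℤ) ^ (j + 3) ∣ s n) →
      (∀ n, s (p * p * n) = s n) → s16_TrSq p s → ∀ n, 1 ≤ n →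
      (2 : ℤ) ^ (j + 4) ∣ s n - 120 * g 0 * (ArithmeticFunction.sigma 3 n : ℤ) := by
    intro s hs0 hs hUs hTs n hn
    have h := s16_round hp1 (2 : ℤ) s (j + 3) hs hUs hTs n hn
    have hx : 2 * ((p : ℤ) + 1) * s 0 * s n -
        ((p : ℤ) + 1) * (s 0) ^ 2 * (240 * (ArithmeticFunction.sigma 3 n : ℤ)) =
        (2 * ((p : ℤ) + 1) * g 0) * (s n - 120 * g 0 * (ArithmeticFunction.sigma 3 n : ℤ)) := by
      rw [hs0]; ring
    rw [hx] at h
    refine s16_dvd_of_exact (r := 2) Nat.prime_two (a := j + 2) (b := j + 4)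
      (x := 2 * ((p : ℤ) + 1) * g 0) ?_ ?_ ?_
    · obtain ⟨u, hu⟩ := h0
      refine ⟨(2 * k0 + 1) * u, ?_⟩
      rw [hu, hk0]
      push_cast
      ring
    · intro hx
      have hx' : (2 : ℤ) ^ (j + 3) ∣ 2 * ((p : ℤ) + 1) * g 0 := by exact_mod_cast hx
      have e : 2 * ((p : ℤ) + 1) * g 0 = 4 * ((2 * (k0 : ℤ) + 1) * g 0) := by
        rw [hk0]; push_cast; ring
      rw [e, show j + 3 = (j + 1) + 2 by ring, pow_add,
        mul_comm ((2 : ℤ) ^ (j + 1)), show (2 : ℤ) ^ 2 = 4 by norm_num] at hx'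
      have hx'' : (2 : ℤ) ^ (j + 1) ∣ (2 * (k0 : ℤ) + 1) * g 0 :=
        (mul_dvd_mul_iff_left (by norm_num : (4 : ℤ) ≠ 0)).mp hx'
      have hcop : IsCoprime ((2 : ℤ) ^ (j + 1)) (2 * (k0 : ℤ) + 1) := by
        refine IsCoprime.pow_left ((Prime.coprime_iff_not_dvd hpr2).mpr ?_)
        intro h
        omega
      exact h0' (hcop.dvd_of_dvd_mul_left hx'')
    · have : (j + 2) + (j + 4) = 2 * (j + 3) := by ring
      rw [this]
      exact_mod_cast h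
  have h1 := key g rfl hg3 hU hT p hp1
  have h2 := key (fun n => g (p * n)) (by simp)
    (fun n hn => hg3 (p * n) (Nat.one_le_iff_ne_zero.mpr (Nat.mul_ne_zero hp0 (by omega))))
    (fun n => by
      show g (p * (p * p * n)) = g (p * n)
      rw [show p * (p * p * n) = p * p * (p * n) by ring]
      exact hU (p * n)) hT' 1 le_rfl
  simp only [mul_one] at h2
  rw [s16_sigma3_prime hp] at h1
  rw [s16_sigma3_one] at h2
  have h3 : (2 : ℤ) ^ (j + 4) ∣ 120 * g 0 * (p : ℤ) ^ 3 := by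
    have := dvd_sub h2 h1
    have e : (g p - 120 * g 0 * 1) - (g p - 120 * g 0 * ((p : ℤ) ^ 3 + 1)) =
        120 * g 0 * (p : ℤ) ^ 3 := by ring
    rwa [e] at this
  have h4 : (2 : ℤ) ^ (j + 1) ∣ (15 * (p : ℤ) ^ 3) * g 0 := by
    have e : 120 * g 0 * (p : ℤ) ^ 3 = 8 * ((15 * (p : ℤ) ^ 3) * g 0) := by ring
    rw [e, show j + 4 = (j + 1) + 3 by ring, pow_add, mul_comm ((2 : ℤ) ^ (j + 1)),
      show (2 : ℤ) ^ 3 = 8 by norm_num] at h3
    exact (mul_dvd_mul_iff_left (by norm_num : (8 : ℤ) ≠ 0)).mp h3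
  have h2p : ¬ (2 : ℤ) ∣ (p : ℤ) := by
    intro h
    have : (2 : ℕ) ∣ p := by exact_mod_cast h
    omega
  have hcop : IsCoprime ((2 : ℤ) ^ (j + 1)) (15 * (p : ℤ) ^ 3) := by
    refine IsCoprime.pow_left ((Prime.coprime_iff_not_dvd hpr2).mpr ?_)
    intro h
    rcases hpr2.dvd_or_dvd h with h | h
    · norm_num at h
    · exact h2p (hpr2.dvd_of_dvd_pow h)
  exact h0' (hcop.dvd_of_dvd_mul_left h4)

end Fermat.Agent.Lib.S16
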