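import Fermat.Agent.Lib.S16.Iface2
import Fermat.Agent.Lib.S16.TrSqArith

/-!
# S16 — N3 and N5 from the trace interface

`s16_IfaceTr p`: for every `G ∈ M₂(Γ₀(p))` with integer `q`-expansion `g`:
`g (p*p*n) = g n` (`U_p² = 1`), `s16_TrSq p g` (`Tr(G²) ∈ ℂ·E₄`), and `U_pG ∈ M₂(Γ₀(p))`
has the `q`-expansion `n ↦ g (p*n)`.
-/

set_option autoImplicit false

open ModularCurve CuspForm ModularFormClass CongruenceSubgroup

namespace Fermat.Agent.Lib.S16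

variable (p : ℕ) [Fact p.Prime]

/-- The trace interface. -/
def s16_IfaceTr : Prop :=
  ∀ (G : ModularForm (Gamma0 p) 2) (g : ℕ → ℤ), (∀ n : ℕ, qCoeff G n = (g n : ℂ)) →
    (∀ n : ℕ, g (p * p * n) = g n) ∧ s16_TrSq p g ∧
      ∃ G' : ModularForm (Gamma0 p) 2, ∀ n : ℕ, qCoeff G' n = ((g (p * n) : ℤ) : ℂ)

/-- **N3**: `p ≡ 1 mod 3 ⇒ NoG p 3 1`. -/
theorem s16_N3 (hTr : s16_IfaceTr p) (hp3 : p % 3 = 1) : s16_NoG p 3 1 := by
  rintro ⟨G, g, j, hG, h0, h0', hg⟩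
  obtain ⟨hU, hT, G', hG'⟩ := hTr G g hG
  obtain ⟨-, hT', -⟩ := hTr G' (fun n => g (p * n)) hG'
  exact s16_trsq_three (Fact.out : p.Prime) hp3 g j (by exact_mod_cast h0)
    (by exact_mod_cast h0') (fun n hn => by exact_mod_cast hg n hn) hU hT hT'

/-- **N5**: `p ≡ 1 mod 4 ⇒ NoG p 2 2`. -/
theorem s16_N5 (hTr : s16_IfaceTr p) (hp4 : p % 4 = 1) : s16_NoG p 2 2 := by
  rintro ⟨G, g, j, hG, h0, h0', hg⟩
  obtain ⟨hU, hT, G', hG'⟩ := hTr G g hG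
  obtain ⟨-, hT', -⟩ := hTr G' (fun n => g (p * n)) hG'
  exact s16_trsq_two (Fact.out : p.Prime) hp4 g j (by exact_mod_cast h0)
    (by exact_mod_cast h0') (fun n hn => by exact_mod_cast hg n hn) hU hT hT'

end Fermat.Agent.Lib.S16
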