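import Fermat.Agent.S21
import Fermat.Agent.Lib.Integral.Lattice

/-!
# S16 block (C), part 2: the lattice `X = Hom_par(Γ₀(N), ℤ)` is free of rank `≥ 2 g`

* `s16c_hom_ext_of_closure`: homs out of a group are determined on a generating set.
* `s16c_finite_hom`: `Hom(G, R)` is a finite `R`-module for `G` finitely generated, `R` noetherian.
* `s16c_free_X`, `s16c_finite_X`: `X = parabolicHoms ℤ (Gamma0 N) ℤ` is finite free over `ℤ`.
* `s16c_two_genus_le_finrank_X`: `2 * genusFormula N ≤ finrank ℤ X`.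
-/

set_option autoImplicit false

namespace Fermat.Agent.Lib.S16

open Module ModularCurve ModularCurve.Period CongruenceSubgroup

open scoped MatrixGroups

section AbstractFG

variable {G : Type*} [Group G]

theorem s16c_hom_ext_of_closure {A : Type*} [AddCommGroup A] {S : Set G}
    (hS : Subgroup.closure S = ⊤) {φ φ' : Additive G →+ A}
    (h : ∀ g ∈ S, φ (Additive.ofMul g) = φ' (Additive.ofMul g)) : φ = φ' := by
  refine AddMonoidHom.ext fun a => ?_
  obtain ⟨g, rfl⟩ : ∃ g : G, Additive.ofMul g = a := ⟨Additive.toMul a, rfl⟩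
  have hg : g ∈ Subgroup.closure S := by rw [hS]; trivial
  induction hg using Subgroup.closure_induction with
  | mem x hx => exact h x hx
  | one => rw [ofMul_one, map_zero, map_zero]
  | mul x y _ _ hx hy => rw [ofMul_mul, map_add, map_add, hx, hy]
  | inv x _ hx => rw [ofMul_inv, map_neg, map_neg, hx]

instance s16c_isTorsionFree_hom : Module.IsTorsionFree ℤ (Additive G →+ ℤ) :=
  Function.Injective.moduleIsTorsionFree (fun f => (f : Additive G → ℤ)) DFunLike.coe_injective
    (fun _ _ => rfl)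

/-- `Hom(G, R)` is a finite `R`-module if `G` is finitely generated and `R` is noetherian. -/
theorem s16c_finite_hom (R : Type*) [CommRing R] [IsNoetherianRing R] [Group.FG G] :
    Module.Finite R (Additive G →+ R) := by
  obtain ⟨S, hS⟩ := Group.fg_def.mp (inferInstance : Group.FG G)
  let ev : (Additive G →+ R) →ₗ[R] ({x // x ∈ S} → R) :=
    { toFun := fun φ g => φ (Additive.ofMul (g : G))
      map_add' := fun _ _ => rfl
      map_smul' := fun _ _ => rfl }
  have hinj : Function.Injective ev := by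
    intro φ φ' h
    refine s16c_hom_ext_of_closure hS fun g hg => ?_
    exact congrFun h ⟨g, Finset.mem_coe.mp hg⟩
  exact Module.Finite.of_injective ev hinj

end AbstractFG

section Gamma0

variable (N : ℕ) [NeZero N]

instance s16c_finite_hom_Gamma0_int : Module.Finite ℤ (Additive (Gamma0 N) →+ ℤ) := by
  have : Group.FG (Gamma0 N) := Fermat.Agent.Lib.ES.groupFG_Gamma0 N
  exact s16c_finite_hom ℤ

instance s16c_finite_X : Module.Finite ℤ (parabolicHoms ℤ (Gamma0 N) ℤ) := inferInstance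

instance s16c_free_X : Module.Free ℤ (parabolicHoms ℤ (Gamma0 N) ℤ) :=
  Module.free_of_finite_type_torsion_free'

/-- Complexification of a `ℤ`-valued parabolic hom. -/
def s16c_toC : parabolicHoms ℤ (Gamma0 N) ℤ →ₗ[ℤ] parabolicHoms ℂ (Gamma0 N) ℂ where
  toFun φ := ⟨(Int.castAddHom ℂ).comp (φ : Additive (Gamma0 N) →+ ℤ), fun γ hγ => by
    show ((φ : Additive (Gamma0 N) →+ ℤ) (Additive.ofMul γ) : ℂ) = 0
    rw [φ.2 γ hγ, Int.cast_zero]⟩
  map_add' φ φ' := by
    apply Subtype.ext
    refine AddMonoidHom.ext fun a => ?_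
    simp
  map_smul' c φ := by
    apply Subtype.ext
    refine AddMonoidHom.ext fun a => ?_
    simp

omit [NeZero N] in
theorem s16c_toC_apply (φ : parabolicHoms ℤ (Gamma0 N) ℤ) (γ : Gamma0 N) :
    ((s16c_toC N φ : parabolicHoms ℂ (Gamma0 N) ℂ) : Additive (Gamma0 N) →+ ℂ) (Additive.ofMul γ) =
      ((φ : Additive (Gamma0 N) →+ ℤ) (Additive.ofMul γ) : ℂ) := rfl

omit [NeZero N] in
/-- Every integer valued member of `Hom_par(Γ₀(N), ℂ)` comes from `X`. -/
theorem s16c_exists_toC_eq (h : parabolicHoms ℂ (Gamma0 N) ℂ)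
    (hh : ∀ γ : Gamma0 N, ∃ m : ℤ, Fermat.Agent.Lib.Integral.intL_ev N h γ = m) :
    ∃ φ : parabolicHoms ℤ (Gamma0 N) ℤ, s16c_toC N φ = h := by
  choose m hm using hh
  have hm' : ∀ γ : Gamma0 N, (h : Additive (Gamma0 N) →+ ℂ) (Additive.ofMul γ) = (m γ : ℂ) :=
    fun γ => hm γ
  let φ : Additive (Gamma0 N) →+ ℤ :=
    { toFun := fun a => m (Additive.toMul a)
      map_zero' := by
        have := hm' 1
        rw [ofMul_one, map_zero] at this
        have h0 : ((m 1 : ℤ) : ℂ) = ((0 : ℤ) : ℂ) := by rw [← this, Int.cast_zero]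
        exact Int.cast_injective h0
      map_add' := fun a b => by
        have h1 := hm' (Additive.toMul a * Additive.toMul b)
        rw [ofMul_mul, map_add, hm', hm'] at h1
        have h2 : ((m (Additive.toMul a * Additive.toMul b) : ℤ) : ℂ) =
            ((m (Additive.toMul a) + m (Additive.toMul b) : ℤ) : ℂ) := by
          rw [← h1]; push_cast; rfl
        exact Int.cast_injective h2 }
  have hφ : φ ∈ parabolicHoms ℤ (Gamma0 N) ℤ := by
    intro γ hγ
    have h1 := h.2 γ hγ
    rw [hm'] at h1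
    show m γ = 0
    exact_mod_cast h1
  refine ⟨⟨φ, hφ⟩, ?_⟩
  apply Subtype.ext
  refine AddMonoidHom.ext fun a => ?_
  obtain ⟨γ, rfl⟩ : ∃ γ : Gamma0 N, Additive.ofMul γ = a := ⟨Additive.toMul a, rfl⟩
  rw [s16c_toC_apply]
  exact (hm' γ).symm

theorem s16c_finrank_C_le_finrank_X :
    finrank ℂ (parabolicHoms ℂ (Gamma0 N) ℂ) ≤ finrank ℤ (parabolicHoms ℤ (Gamma0 N) ℤ) := by
  classical
  let b := Module.Free.chooseBasis ℤ (parabolicHoms ℤ (Gamma0 N) ℤ)
  have hspan : Submodule.span ℂ (Set.range fun i => s16c_toC N (b i)) = ⊤ := by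
    rw [eq_top_iff, ← Fermat.Agent.Lib.Integral.intL_hspan N, Submodule.span_le]
    intro h hh
    obtain ⟨φ, rfl⟩ := s16c_exists_toC_eq N h hh
    have hrepr := b.sum_repr φ
    rw [← hrepr, map_sum]
    refine Submodule.sum_mem _ fun i _ => ?_
    rw [map_smul, ← Int.cast_smul_eq_zsmul ℂ]
    exact Submodule.smul_mem _ _ (Submodule.subset_span (Set.mem_range_self i))
  calc finrank ℂ (parabolicHoms ℂ (Gamma0 N) ℂ)
      ≤ Fintype.card (Module.Free.ChooseBasisIndex ℤ (parabolicHoms ℤ (Gamma0 N) ℤ)) :=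
        finrank_le_of_span_eq_top hspan
    _ = finrank ℤ (parabolicHoms ℤ (Gamma0 N) ℤ) :=
        (Module.finrank_eq_card_chooseBasisIndex ℤ _).symm

/-- `dim_ℂ Hom_par(Γ₀(N), ℂ) = 2 g` (S21 + S20). -/
theorem s16c_finrank_C_eq :
    (finrank ℂ (parabolicHoms ℂ (Gamma0 N) ℂ) : ℚ) = 2 * genusFormula N := by
  obtain ⟨hinj, hrange⟩ := Fermat.Agent.S21.result N
  have h20 := Fermat.Agent.S20.result N
  have h1 : finrank ℂ (parabolicHoms ℂ (Gamma0 N) ℂ) =
      finrank ℂ (CuspForm (Gamma0 N) 2) + finrank ℂ (CuspForm (Gamma0 N) 2) := by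
    rw [← hrange, LinearMap.finrank_range_of_inj hinj, Module.finrank_prod]
  rw [h1]
  push_cast
  rw [h20]
  ring

/-- `2 g ≤ rank_ℤ X`. -/
theorem s16c_two_genus_le_finrank_X :
    2 * genusFormula N ≤ (finrank ℤ (parabolicHoms ℤ (Gamma0 N) ℤ) : ℚ) := by
  rw [← s16c_finrank_C_eq]
  exact_mod_cast s16c_finrank_C_le_finrank_X N

end Gamma0

end Fermat.Agent.Lib.S16
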