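import Fermat.Agent.Lib.S16.Assembly
import Fermat.Agent.S20
import Fermat.Agent.Lib.Period.Assembly

/-!
# S16 for the primes `p ∈ {2, 3, 5}` (genus zero, `n = 1`)

If `genusFormula p = 0` then `S₂(Γ₀(p)) = 0` (S20), the lattice Hecke algebra is the zero ring and
`#(𝕋 ⧸ I) = 1`.  For `p ∈ {2, 3, 5}` also `eisensteinNumerator p = 1`.
-/

set_option autoImplicit false

open ModularCurve CuspForm CongruenceSubgroup

namespace Fermat.Agent.Lib.S16

/-- `ψ(p) = p + 1` for a prime `p`. -/
theorem s16f_dedekindPsi_prime {p : ℕ} (hp : p.Prime) : dedekindPsi p = p + 1 := by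
  rw [dedekindPsi, hp.divisors, Finset.filter_true_of_mem, Finset.sum_pair hp.one_lt.ne,
    Nat.div_one, Nat.div_self hp.pos]
  intro d hd
  rw [Finset.mem_insert, Finset.mem_singleton] at hd
  rcases hd with rfl | rfl
  · exact squarefree_one
  · exact hp.squarefree

theorem s16f_genus_two : genusFormula 2 = 0 := by
  have h1 : dedekindPsi 2 = 3 := s16f_dedekindPsi_prime Nat.prime_two
  have h2 : nuTwo 2 = 1 := by
    unfold nuTwo
    rw [Nat.card_eq_fintype_card]
    decide
  have h3 : nuThree 2 = 0 := by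
    unfold nuThree
    rw [Nat.card_eq_fintype_card]
    decide
  have h4 : cuspCount 2 = 2 := by decide
  rw [genusFormula, h1, h2, h3, h4]
  norm_num

theorem s16f_genus_three : genusFormula 3 = 0 := by
  have h1 : dedekindPsi 3 = 4 := s16f_dedekindPsi_prime Nat.prime_three
  have h2 : nuTwo 3 = 0 := by
    unfold nuTwo
    rw [Nat.card_eq_fintype_card]
    decide
  have h3 : nuThree 3 = 1 := by
    unfold nuThree
    rw [Nat.card_eq_fintype_card]
    decide
  have h4 : cuspCount 3 = 2 := by decide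
  rw [genusFormula, h1, h2, h3, h4]
  norm_num

theorem s16f_genus_five : genusFormula 5 = 0 := by
  have h1 : dedekindPsi 5 = 6 := s16f_dedekindPsi_prime Nat.prime_five
  have h2 : nuTwo 5 = 2 := by
    unfold nuTwo
    rw [Nat.card_eq_fintype_card]
    decide
  have h3 : nuThree 5 = 0 := by
    unfold nuThree
    rw [Nat.card_eq_fintype_card]
    decide
  have h4 : cuspCount 5 = 2 := by decide
  rw [genusFormula, h1, h2, h3, h4]
  norm_num

/-- Genus zero: there are no cusp forms of weight two. -/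
theorem s16f_subsingleton_cuspForm (N : ℕ) [NeZero N] (h : genusFormula N = 0) :
    Subsingleton (CuspForm (Gamma0 N) 2) := by
  have h1 := Fermat.Agent.S20.result N
  rw [h] at h1
  have h2 : Module.finrank ℂ (CuspForm (Gamma0 N) 2) = 0 := by exact_mod_cast h1
  exact Module.finrank_zero_iff.mp h2

/-- Genus zero: the lattice Hecke algebra is the zero ring. -/
theorem s16f_subsingleton_heckeLatticeAlgebra (N : ℕ) [NeZero N] (h : genusFormula N = 0) :
    Subsingleton ↥(heckeLatticeAlgebra N ∅) := by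
  have := s16f_subsingleton_cuspForm N h
  have : Subsingleton ↥(intLattice N 2) := ⟨fun a b => Subtype.ext (Subsingleton.elim _ _)⟩
  have : Subsingleton (Module.End ℤ ↥(intLattice N 2)) :=
    ⟨fun a b => LinearMap.ext fun x => Subsingleton.elim _ _⟩
  exact ⟨fun a b => Subtype.ext (Subsingleton.elim _ _)⟩

variable (p : ℕ) [Fact p.Prime]

/-- Genus zero: `#(𝕋 ⧸ I) = 1`. -/
theorem s16f_card_of_genus_zero (h : genusFormula p = 0) :
    Nat.card (↥(heckeLatticeAlgebra p ∅) ⧸ s16_I p) = 1 := by
  have := s16f_subsingleton_heckeLatticeAlgebra p h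
  have : Subsingleton (↥(heckeLatticeAlgebra p ∅) ⧸ s16_I p) :=
    ⟨fun a b => by
      obtain ⟨a, rfl⟩ := Ideal.Quotient.mk_surjective a
      obtain ⟨b, rfl⟩ := Ideal.Quotient.mk_surjective b
      rw [Subsingleton.elim a b]⟩
  exact Nat.card_unique

/-- Genus zero: `1 ∈ I`, in particular `n ∈ I`. -/
theorem s16f_ifaceUB_of_genus_zero (h : genusFormula p = 0) : s16_IfaceUB p := by
  have := s16f_subsingleton_heckeLatticeAlgebra p h
  have h0 : algebraMap ℤ ↥(heckeLatticeAlgebra p ∅) (eisensteinNumerator p : ℤ) = 0 :=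
    Subsingleton.elim _ _
  rw [s16_IfaceUB, h0]
  exact Ideal.zero_mem _

/-- **S16 for `p = 2, 3, 5`.** -/
theorem s16f_small (hp : p = 2 ∨ p = 3 ∨ p = 5) :
    Nat.card (↥(heckeLatticeAlgebra p ∅) ⧸ s16_I p) = eisensteinNumerator p := by
  rcases hp with rfl | rfl | rfl
  · rw [s16f_card_of_genus_zero 2 s16f_genus_two]; decide
  · rw [s16f_card_of_genus_zero 3 s16f_genus_three]; decide
  · rw [s16f_card_of_genus_zero 5 s16f_genus_five]; decide

/-- (LB) is trivial when `n = 1`. -/
theorem s16f_ifaceLB_of_n_eq_one (h : eisensteinNumerator p = 1) : s16_IfaceLB p := by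
  intro M _
  rw [h]
  exact one_dvd _

end Fermat.Agent.Lib.S16
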