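/-
S16 KIT (helper4), part 1: the trace to level one of a `Γ₀(p)`-invariant function, through the
explicit coset representatives `1, S T^j (j < p)`.

`s16d_trace_levelOne`: for `f` holomorphic, weight-`k` invariant under `Γ₀(p)` (`p` prime), with
`f` and `f ∣[k] S` bounded at `i∞`, the function `f + ∑_{j<p} f ∣[k] (S T^j)` is a level one
modular form of weight `k`.
-/
import Mathlib
import Fermat.Prelude.Sol.S_ModularForm_heckeT_slash_eq_self_of_mem_Gamma0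

set_option autoImplicit false

open UpperHalfPlane hiding I
open CongruenceSubgroup ModularForm ModularGroup Matrix.SpecialLinearGroup
open scoped MatrixGroups ModularForm Manifold

namespace Fermat.Agent.Lib.S16

local notation "Γ₀(" N ")" => CongruenceSubgroup.Gamma0 N

section Cross

variable {p : ℕ} {k : ℤ} {f : ℍ → ℂ}

/-- The lower left entry of `γ₁ γ₂⁻¹`. -/
theorem s16d_mul_inv_apply_one_zero (γ₁ γ₂ : SL(2, ℤ)) :
    (γ₁ * γ₂⁻¹) 1 0 = γ₁ 1 0 * γ₂ 1 1 - γ₁ 1 1 * γ₂ 1 0 := by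
  have h1 := (Matrix.two_mul_expl γ₁.1 (γ₂⁻¹).1).2.2.1
  simp only [Matrix.SpecialLinearGroup.coe_mul]
  rw [h1, SL2_inv_expl]
  simp
  ring

/-- Two elements of `SL₂(ℤ)` in the same right coset of `Γ₀(p)` act in the same way on a
`Γ₀(p)`-invariant function. -/
theorem s16d_slash_eq_of_cross (hinv : ∀ γ ∈ Γ₀(p), f ∣[k] γ = f) (γ₁ γ₂ : SL(2, ℤ))
    (h : (p : ℤ) ∣ γ₁ 1 0 * γ₂ 1 1 - γ₁ 1 1 * γ₂ 1 0) : f ∣[k] γ₁ = f ∣[k] γ₂ := by
  have hmem : γ₁ * γ₂⁻¹ ∈ Γ₀(p) := by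
    rw [Gamma0_mem, s16d_mul_inv_apply_one_zero]
    exact (ZMod.intCast_zmod_eq_zero_iff_dvd _ _).mpr h
  have h1 : γ₁ = (γ₁ * γ₂⁻¹) * γ₂ := by group
  rw [h1, SlashAction.slash_mul, hinv _ hmem]

theorem s16d_S_mul_T_zpow_one_zero (n : ℤ) : (S * T ^ n) 1 0 = 1 := by
  rw [Matrix.SpecialLinearGroup.coe_mul, ModularGroup.coe_T_zpow]
  simp [S, Matrix.mul_apply, Fin.sum_univ_two]

theorem s16d_S_mul_T_zpow_one_one (n : ℤ) : (S * T ^ n) 1 1 = n := by
  rw [Matrix.SpecialLinearGroup.coe_mul, ModularGroup.coe_T_zpow]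
  simp [S, Matrix.mul_apply, Fin.sum_univ_two]

theorem s16d_S_mul_T_zpow_mul_S_one_zero (n : ℤ) : (S * T ^ n * S) 1 0 = n := by
  rw [Matrix.SpecialLinearGroup.coe_mul, Matrix.SpecialLinearGroup.coe_mul,
    ModularGroup.coe_T_zpow]
  simp [S, Matrix.mul_apply, Fin.sum_univ_two]

theorem s16d_S_mul_T_zpow_mul_S_one_one (n : ℤ) : (S * T ^ n * S) 1 1 = -1 := by
  rw [Matrix.SpecialLinearGroup.coe_mul, Matrix.SpecialLinearGroup.coe_mul,
    ModularGroup.coe_T_zpow]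
  simp [S, Matrix.mul_apply, Fin.sum_univ_two]

end Cross

section Trace

open P2MW.S_ModularForm_heckeT_slash_eq_self_of_mem_Gamma0.ModularForm.HeckeSlashInvariance

variable {p : ℕ} {k : ℤ} {f : ℍ → ℂ}

/-- The conjugate `f ∣[k] (S T^n)`. -/
noncomputable def s16d_conj (k : ℤ) (f : ℍ → ℂ) (n : ℤ) : ℍ → ℂ := f ∣[k] (S * T ^ n)

theorem s16d_conj_congr (hinv : ∀ γ ∈ Γ₀(p), f ∣[k] γ = f) {m n : ℤ}
    (h : (p : ℤ) ∣ m - n) : s16d_conj k f m = s16d_conj k f n := by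
  refine s16d_slash_eq_of_cross hinv _ _ ?_
  rw [s16d_S_mul_T_zpow_one_zero, s16d_S_mul_T_zpow_one_one, s16d_S_mul_T_zpow_one_zero,
    s16d_S_mul_T_zpow_one_one]
  have : (1 : ℤ) * n - m * 1 = -(m - n) := by ring
  rw [this]
  exact (dvd_neg).mpr h

theorem s16d_conj_slash_T (n : ℤ) : s16d_conj k f n ∣[k] T = s16d_conj k f (n + 1) := by
  unfold s16d_conj
  rw [← SlashAction.slash_mul, mul_assoc, ← zpow_add_one]

theorem s16d_conj_slash_S (hinv : ∀ γ ∈ Γ₀(p), f ∣[k] γ = f) {m n : ℤ}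
    (h : (p : ℤ) ∣ n * m + 1) : s16d_conj k f n ∣[k] S = s16d_conj k f m := by
  unfold s16d_conj
  rw [← SlashAction.slash_mul]
  refine s16d_slash_eq_of_cross hinv _ _ ?_
  rw [s16d_S_mul_T_zpow_mul_S_one_zero, s16d_S_mul_T_zpow_mul_S_one_one,
    s16d_S_mul_T_zpow_one_zero, s16d_S_mul_T_zpow_one_one]
  have : n * m - -1 * 1 = n * m + 1 := by ring
  rw [this]
  exact h

theorem s16d_conj_slash_S_of_dvd (hinv : ∀ γ ∈ Γ₀(p), f ∣[k] γ = f) {n : ℤ}
    (h : (p : ℤ) ∣ n) : s16d_conj k f n ∣[k] S = f := by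
  unfold s16d_conj
  rw [← SlashAction.slash_mul]
  refine hinv _ ?_
  rw [Gamma0_mem, s16d_S_mul_T_zpow_mul_S_one_zero]
  exact (ZMod.intCast_zmod_eq_zero_iff_dvd _ _).mpr h

theorem s16d_slash_S_eq_conj : f ∣[k] S = s16d_conj k f 0 := by
  unfold s16d_conj
  rw [zpow_zero, mul_one]

variable [Fact p.Prime]

/-- The trace function `f + ∑_{x : ZMod p} f ∣[k] (S T^x)`. -/
noncomputable def s16d_tr (p : ℕ) [NeZero p] (k : ℤ) (f : ℍ → ℂ) : ℍ → ℂ :=
  f + ∑ x : ZMod p, s16d_conj k f (x.val : ℤ)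

theorem s16d_tr_slash_T (hinv : ∀ γ ∈ Γ₀(p), f ∣[k] γ = f) :
    s16d_tr p k f ∣[k] T = s16d_tr p k f := by
  have hT : T ∈ Γ₀(p) := by
    rw [Gamma0_mem, ModularGroup.coe_T]
    simp
  unfold s16d_tr
  rw [SlashAction.add_slash, SlashAction.sum_slash, hinv T hT]
  congr 1
  rw [← Equiv.sum_comp (Equiv.addRight (1 : ZMod p))
    (fun x : ZMod p => s16d_conj k f (x.val : ℤ))]
  refine Finset.sum_congr rfl fun x _ => ?_
  rw [s16d_conj_slash_T]
  refine s16d_conj_congr hinv ?_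
  rw [← ZMod.intCast_zmod_eq_zero_iff_dvd]
  simp

theorem s16d_tr_slash_S (hinv : ∀ γ ∈ Γ₀(p), f ∣[k] γ = f) :
    s16d_tr p k f ∣[k] S = s16d_tr p k f := by
  classical
  unfold s16d_tr
  rw [SlashAction.add_slash, SlashAction.sum_slash]
  rw [← Finset.add_sum_erase Finset.univ _ (Finset.mem_univ (0 : ZMod p)),
    ← Finset.add_sum_erase Finset.univ (fun x : ZMod p => s16d_conj k f (x.val : ℤ))
      (Finset.mem_univ (0 : ZMod p))]
  have h0 : s16d_conj k f (((0 : ZMod p).val : ℕ) : ℤ) ∣[k] S = f :=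
    s16d_conj_slash_S_of_dvd hinv (by simp)
  have h0' : s16d_conj k f (((0 : ZMod p).val : ℕ) : ℤ) = f ∣[k] S := by
    rw [s16d_slash_S_eq_conj]; simp
  rw [h0, h0']
  have hsum : ∑ x ∈ Finset.univ.erase (0 : ZMod p), s16d_conj k f (x.val : ℤ) ∣[k] S =
      ∑ x ∈ Finset.univ.erase (0 : ZMod p), s16d_conj k f (x.val : ℤ) := by
    refine Finset.sum_nbij' (fun x : ZMod p => -x⁻¹) (fun x : ZMod p => -x⁻¹) ?_ ?_ ?_ ?_ ?_
    · intro x hx
      have hx0 : x ≠ 0 := Finset.ne_of_mem_erase hx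
      exact Finset.mem_erase.mpr ⟨neg_ne_zero.mpr (inv_ne_zero hx0), Finset.mem_univ _⟩
    · intro x hx
      have hx0 : x ≠ 0 := Finset.ne_of_mem_erase hx
      exact Finset.mem_erase.mpr ⟨neg_ne_zero.mpr (inv_ne_zero hx0), Finset.mem_univ _⟩
    · intro x _
      rw [inv_neg, neg_neg, inv_inv]
    · intro x _
      rw [inv_neg, neg_neg, inv_inv]
    · intro x hx
      have hx0 : x ≠ 0 := Finset.ne_of_mem_erase hx
      refine s16d_conj_slash_S hinv ?_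
      rw [← ZMod.intCast_zmod_eq_zero_iff_dvd]
      push_cast
      rw [ZMod.natCast_zmod_val, ZMod.natCast_zmod_val, mul_neg, mul_inv_cancel₀ hx0]
      ring
  rw [hsum]
  abel

theorem s16d_tr_slash (hinv : ∀ γ ∈ Γ₀(p), f ∣[k] γ = f) (γ : SL(2, ℤ)) :
    s16d_tr p k f ∣[k] γ = s16d_tr p k f :=
  SlashInvariantForm.slash_action_generators_SL2Z (s16d_tr_slash_S hinv) (s16d_tr_slash_T hinv) γ

theorem s16d_tr_eq_range (p : ℕ) [NeZero p] (k : ℤ) (f : ℍ → ℂ) :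
    s16d_tr p k f = f + ∑ j ∈ Finset.range p, f ∣[k] (S * T ^ j) := by
  unfold s16d_tr
  rw [sum_range_eq_sum_zmod (p := p) (fun j : ℕ => f ∣[k] (S * T ^ j))]
  congr 1
  refine Finset.sum_congr rfl fun x _ => ?_
  unfold s16d_conj
  rw [zpow_natCast]

theorem s16d_conj_mdifferentiable (hol : MDiff f) (n : ℤ) : MDiff (s16d_conj k f n) :=
  hol.slash k _

theorem s16d_conj_isBoundedAtImInfty (hbS : IsBoundedAtImInfty (f ∣[k] S)) (n : ℤ) :
    IsBoundedAtImInfty (s16d_conj k f n) := by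
  unfold s16d_conj
  rw [SlashAction.slash_mul]
  show IsBoundedAtImInfty ((f ∣[k] S) ∣[k] (mapGL ℝ (T ^ n)))
  refine IsBoundedAtImInfty.slash k ?_ hbS
  have : ((T ^ n : SL(2, ℤ)) : Matrix (Fin 2) (Fin 2) ℤ) 1 0 = 0 := by
    rw [ModularGroup.coe_T_zpow]; simp
  rw [Matrix.SpecialLinearGroup.mapGL_coe_matrix]
  simp only [Matrix.SpecialLinearGroup.map_apply_coe, RingHom.mapMatrix_apply, Matrix.map_apply,
    this]
  simp

/-- **The trace to level one.** For `f` holomorphic and weight-`k` invariant under `Γ₀(p)` with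
`f`, `f ∣[k] S` bounded at `i∞`, the sum of the `p + 1` conjugates is a level one modular form. -/
theorem s16d_trace_levelOne (k : ℤ) (f : ℍ → ℂ) (hol : MDiff f)
    (hinv : ∀ γ ∈ Γ₀(p), f ∣[k] γ = f) (hb : IsBoundedAtImInfty f)
    (hbS : IsBoundedAtImInfty (f ∣[k] S)) :
    ∃ Tr : ModularForm 𝒮ℒ k, ⇑Tr = f + ∑ j ∈ Finset.range p, f ∣[k] (S * T ^ j) := by
  have hbdd : IsBoundedAtImInfty (s16d_tr p k f) := by
    unfold s16d_tr
    refine Filter.BoundedAtFilter.add hb ?_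
    exact Asymptotics.IsBigO.sum fun x _ => s16d_conj_isBoundedAtImInfty hbS _
  refine ⟨{ toFun := s16d_tr p k f
            slash_action_eq' := ?_
            holo' := ?_
            bdd_at_cusps' := ?_ }, s16d_tr_eq_range p k f⟩
  · rintro γ ⟨γ', rfl⟩
    exact s16d_tr_slash hinv γ'
  · unfold s16d_tr
    exact hol.add (MDifferentiable.sum fun x _ => s16d_conj_mdifferentiable hol _)
  · intro c hc
    rw [OnePoint.isBoundedAt_iff_forall_SL2Z hc]
    intro γ _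
    rw [s16d_tr_slash hinv γ]
    exact hbdd

/-- In weight `2` the trace vanishes (`M₂(SL₂(ℤ)) = 0`). -/
theorem s16d_trace_two_eq_zero (f : ℍ → ℂ) (hol : MDiff f)
    (hinv : ∀ γ ∈ Γ₀(p), f ∣[(2 : ℤ)] γ = f) (hb : IsBoundedAtImInfty f)
    (hbS : IsBoundedAtImInfty (f ∣[(2 : ℤ)] S)) :
    f + ∑ j ∈ Finset.range p, f ∣[(2 : ℤ)] (S * T ^ j) = 0 := by
  obtain ⟨Tr, hTr⟩ := s16d_trace_levelOne 2 f hol hinv hb hbS
  have h0 : Tr = 0 := rank_zero_iff_forall_zero.mp levelOne_weight_two_rank_zero Tr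
  rw [← hTr, h0]
  rfl

end Trace

end Fermat.Agent.Lib.S16
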