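/-
S16 KIT (helper4), part 2: the Fricke involution `W = [[0,-1],[p,0]]` on `M₂(Γ₀(p))`:
`F ∣ W = -U_p F`, the conjugates `F ∣ S T^j = -(U_p F) ∣ [[1,j],[0,p]]`, and `U_p² = 1`.
-/
import Mathlib
import Fermat.Agent.Lib.S16.DTrace
import Fermat.Agent.Lib.M2.EisHecke

set_option autoImplicit false

open UpperHalfPlane hiding I
open CongruenceSubgroup ModularForm ModularGroup Matrix.SpecialLinearGroup ModularFormClass
open scoped MatrixGroups ModularForm Manifold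

namespace Fermat.Agent.Lib.S16

local notation "Γ₀(" N ")" => CongruenceSubgroup.Gamma0 N

/-! ### Scalar matrices act trivially in weight `2` -/

/-- The scalar matrix `a • 1`, `a ≠ 0`. -/
noncomputable def s16d_scalar (a : ℝ) (ha : a ≠ 0) : GL (Fin 2) ℝ :=
  Matrix.GeneralLinearGroup.mkOfDetNeZero !![a, 0; 0, a]
    (by rw [Matrix.det_fin_two_of]; simp [ha])

@[simp] theorem s16d_val_scalar (a : ℝ) (ha : a ≠ 0) :
    ((s16d_scalar a ha : GL (Fin 2) ℝ) : Matrix (Fin 2) (Fin 2) ℝ) = !![a, 0; 0, a] := rfl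

theorem s16d_slash_scalar (a : ℝ) (ha : a ≠ 0) (f : ℍ → ℂ) :
    f ∣[(2 : ℤ)] s16d_scalar a ha = f := by
  have hdet : ((s16d_scalar a ha).det : ℝ) = a * a := by
    rw [Matrix.GeneralLinearGroup.val_det_apply, s16d_val_scalar, Matrix.det_fin_two_of]
    ring
  have hpos : 0 < ((s16d_scalar a ha).det : ℝ) := by
    rw [hdet]; exact mul_self_pos.mpr ha
  ext τ
  have hsmul : s16d_scalar a ha • τ = τ := by
    apply UpperHalfPlane.ext
    rw [UpperHalfPlane.coe_smul_of_det_pos hpos]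
    have ha' : (a : ℂ) ≠ 0 := by exact_mod_cast ha
    simp [UpperHalfPlane.num, UpperHalfPlane.denom, s16d_val_scalar]
    field_simp
  have hden : UpperHalfPlane.denom (s16d_scalar a ha) τ = a := by
    simp [UpperHalfPlane.denom, s16d_val_scalar]
  have hσ : UpperHalfPlane.σ (s16d_scalar a ha) = .refl ℝ ℂ := by
    rw [UpperHalfPlane.σ, if_pos hpos]
  rw [ModularForm.slash_apply, hσ, hsmul, hdet, hden]
  have ha' : (a : ℂ) ≠ 0 := by exact_mod_cast ha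
  simp only [ContinuousAlgEquiv.refl_apply]
  rw [abs_mul_self]
  push_cast
  field_simp

/-! ### The matrix `W` and its commutation relations -/

/-- The Fricke matrix `W = [[0,-1],[p,0]]`. -/
noncomputable def s16d_W (p : ℕ) [NeZero p] : GL (Fin 2) ℝ :=
  Matrix.GeneralLinearGroup.mkOfDetNeZero !![0, -1; (p : ℝ), 0]
    (by rw [Matrix.det_fin_two_of]; simp [NeZero.ne p])

@[simp] theorem s16d_val_W (p : ℕ) [NeZero p] :
    ((s16d_W p : GL (Fin 2) ℝ) : Matrix (Fin 2) (Fin 2) ℝ) = !![0, -1; (p : ℝ), 0] := rfl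

theorem s16d_coe_mapGL (g : SL(2, ℤ)) :
    ((mapGL ℝ g : GL (Fin 2) ℝ) : Matrix (Fin 2) (Fin 2) ℝ) =
      (g : Matrix (Fin 2) (Fin 2) ℤ).map (Int.cast : ℤ → ℝ) := by
  ext a b
  simp

/-- `W² = -p`. -/
theorem s16d_W_mul_W (p : ℕ) [NeZero p] :
    s16d_W p * s16d_W p = s16d_scalar (-(p : ℝ)) (neg_ne_zero.mpr (by exact_mod_cast NeZero.ne p)) := by
  ext i j
  fin_cases i <;> fin_cases j <;> simp [Matrix.mul_apply, Fin.sum_univ_two]

/-- `W · [[1,j],[0,p]] = p · S T^j`. -/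
theorem s16d_W_mul_heckeMatrix (p : ℕ) [NeZero p] (j : ℕ) :
    s16d_W p * heckeMatrix p j =
      s16d_scalar (p : ℝ) (by exact_mod_cast NeZero.ne p) * mapGL ℝ (S * T ^ j) := by
  have hp : p ≠ 0 := NeZero.ne p
  ext a b
  rw [Units.val_mul, Units.val_mul, s16d_coe_mapGL, Matrix.SpecialLinearGroup.coe_mul,
    ← zpow_natCast, ModularGroup.coe_T_zpow, val_heckeMatrix hp]
  fin_cases a <;> fin_cases b <;> simp [S, Matrix.mul_apply, Fin.sum_univ_two]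

/-- `W · S T^j = -[[1,j],[0,p]]`. -/
theorem s16d_W_mul_S_T_pow (p : ℕ) [NeZero p] (j : ℕ) :
    s16d_W p * mapGL ℝ (S * T ^ j) = mapGL ℝ (-1 : SL(2, ℤ)) * heckeMatrix p j := by
  have hp : p ≠ 0 := NeZero.ne p
  ext a b
  rw [Units.val_mul, Units.val_mul, s16d_coe_mapGL, s16d_coe_mapGL,
    Matrix.SpecialLinearGroup.coe_mul, ← zpow_natCast, ModularGroup.coe_T_zpow,
    val_heckeMatrix hp]
  fin_cases a <;> fin_cases b <;> simp [S, Matrix.mul_apply, Fin.sum_univ_two]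

/-- `W = S · [[p,0],[0,1]]`. -/
theorem s16d_W_eq (p : ℕ) [NeZero p] : s16d_W p = mapGL ℝ S * heckeDiagMatrix p := by
  have hp : p ≠ 0 := NeZero.ne p
  ext a b
  rw [Units.val_mul, s16d_coe_mapGL, val_heckeDiagMatrix hp]
  fin_cases a <;> fin_cases b <;> simp [S, Matrix.mul_apply, Fin.sum_univ_two]

/-- The `W`-conjugate of an element of `Γ₀(p)`. -/
def s16d_conjW (p : ℕ) (γ : SL(2, ℤ)) (c' : ℤ) (hc : γ 1 0 = p * c') : SL(2, ℤ) :=
  ⟨!![γ 1 1, -c'; -(p : ℤ) * γ 0 1, γ 0 0], by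
    have hdet : γ 0 0 * γ 1 1 - γ 0 1 * γ 1 0 = 1 := by
      have := γ.det_coe
      rwa [Matrix.det_fin_two] at this
    rw [Matrix.det_fin_two_of]
    rw [hc] at hdet
    linear_combination hdet⟩

theorem s16d_conjW_mem (p : ℕ) (γ : SL(2, ℤ)) (c' : ℤ) (hc : γ 1 0 = p * c') :
    s16d_conjW p γ c' hc ∈ Γ₀(p) := by
  rw [Gamma0_mem]
  simp [s16d_conjW]

theorem s16d_W_mul_mapGL (p : ℕ) [NeZero p] (γ : SL(2, ℤ)) (c' : ℤ) (hc : γ 1 0 = p * c') :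
    s16d_W p * mapGL ℝ γ = mapGL ℝ (s16d_conjW p γ c' hc) * s16d_W p := by
  have hc' : ((γ 1 0 : ℤ) : ℝ) = (p : ℝ) * (c' : ℝ) := by exact_mod_cast congrArg (Int.cast : ℤ → ℝ) hc
  ext a b
  rw [Units.val_mul, Units.val_mul, s16d_coe_mapGL, s16d_coe_mapGL]
  fin_cases a <;> fin_cases b <;>
    simp [s16d_conjW, Matrix.mul_apply, Fin.sum_univ_two, hc'] <;> ring

/-! ### `F ∣ W = -U_p F` -/

section Main

variable {p : ℕ} [Fact p.Prime]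

theorem s16d_slash_neg_one {N : ℕ} (F : ModularForm Γ₀(N) 2) :
    ⇑F ∣[(2 : ℤ)] mapGL ℝ (-1 : SL(2, ℤ)) = ⇑F := by
  refine SlashInvariantFormClass.slash_action_eq F _ ?_
  refine Subgroup.mem_map_of_mem _ ?_
  rw [Gamma0_mem]
  simp

theorem s16d_slash_W_invariant (F : ModularForm Γ₀(p) 2) (γ : SL(2, ℤ)) (hγ : γ ∈ Γ₀(p)) :
    (⇑F ∣[(2 : ℤ)] s16d_W p) ∣[(2 : ℤ)] γ = ⇑F ∣[(2 : ℤ)] s16d_W p := by
  have hdvd : (p : ℤ) ∣ γ 1 0 :=
    (ZMod.intCast_zmod_eq_zero_iff_dvd _ _).mp (Gamma0_mem.mp hγ)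
  obtain ⟨c', hc⟩ := hdvd
  show (⇑F ∣[(2 : ℤ)] s16d_W p) ∣[(2 : ℤ)] mapGL ℝ γ = _
  rw [← SlashAction.slash_mul, s16d_W_mul_mapGL p γ c' hc, SlashAction.slash_mul]
  congr 1
  exact SlashInvariantFormClass.slash_action_eq F _
    (Subgroup.mem_map_of_mem _ (s16d_conjW_mem p γ c' hc))

theorem s16d_slash_W_slash_S_T_pow (F : ModularForm Γ₀(p) 2) (j : ℕ) :
    (⇑F ∣[(2 : ℤ)] s16d_W p) ∣[(2 : ℤ)] (S * T ^ j) = ⇑F ∣[(2 : ℤ)] heckeMatrix p j := by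
  show (⇑F ∣[(2 : ℤ)] s16d_W p) ∣[(2 : ℤ)] mapGL ℝ (S * T ^ j) = _
  rw [← SlashAction.slash_mul, s16d_W_mul_S_T_pow, SlashAction.slash_mul, s16d_slash_neg_one]

theorem s16d_isBoundedAtImInfty_slash_heckeMatrix (F : ModularForm Γ₀(p) 2) (j : ℕ) :
    IsBoundedAtImInfty (⇑F ∣[(2 : ℤ)] heckeMatrix p j) := by
  have hp : p ≠ 0 := (Fact.out : p.Prime).ne_zero
  refine IsBoundedAtImInfty.slash 2 ?_ (ModularFormClass.bdd_at_infty F)
  rw [val_heckeMatrix hp]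
  simp

theorem s16d_isBoundedAtImInfty_slash_W (F : ModularForm Γ₀(p) 2) :
    IsBoundedAtImInfty (⇑F ∣[(2 : ℤ)] s16d_W p) := by
  have hp : p ≠ 0 := (Fact.out : p.Prime).ne_zero
  rw [s16d_W_eq, SlashAction.slash_mul]
  refine IsBoundedAtImInfty.slash 2 ?_ (ModularFormClass.bdd_at_infty_slash F S)
  rw [val_heckeDiagMatrix hp]
  simp

/-- **`F ∣ W = -U_p F`** on `M₂(Γ₀(p))`. -/
theorem s16d_slash_W (F : ModularForm Γ₀(p) 2) :
    ⇑F ∣[(2 : ℤ)] s16d_W p = -(ModularForm.heckeU 2 p ⇑F) := by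
  have h := s16d_trace_two_eq_zero (p := p) (⇑F ∣[(2 : ℤ)] s16d_W p)
    ((ModularFormClass.holo F).slash 2 _) (s16d_slash_W_invariant F)
    (s16d_isBoundedAtImInfty_slash_W F)
    (by
      have := s16d_slash_W_slash_S_T_pow F 0
      rw [pow_zero, mul_one] at this
      rw [this]
      exact s16d_isBoundedAtImInfty_slash_heckeMatrix F 0)
  rw [Finset.sum_congr rfl fun j _ => s16d_slash_W_slash_S_T_pow F j, ← heckeU_def] at h
  exact eq_neg_of_add_eq_zero_left h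

/-- **The conjugates of `F ∈ M₂(Γ₀(p))`**: `F ∣ S T^j = -(U_p F) ∣ [[1,j],[0,p]]`, i.e.
`z ↦ -p⁻¹ (U_p F)((z+j)/p)`. -/
theorem s16d_slash_S_T_pow (F : ModularForm Γ₀(p) 2) (j : ℕ) :
    ⇑F ∣[(2 : ℤ)] (S * T ^ j) =
      -((ModularForm.heckeU 2 p ⇑F) ∣[(2 : ℤ)] ModularForm.heckeMatrix p j) := by
  have h1 : (⇑F ∣[(2 : ℤ)] s16d_W p) ∣[(2 : ℤ)] heckeMatrix p j =
      ⇑F ∣[(2 : ℤ)] (S * T ^ j) := by
    rw [← SlashAction.slash_mul, s16d_W_mul_heckeMatrix, SlashAction.slash_mul,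
      s16d_slash_scalar]
    rfl
  rw [← h1, s16d_slash_W, SlashAction.neg_slash]

/-- Every `γ ∈ SL₂(ℤ) ∖ Γ₀(p)` lies in `Γ₀(p) S T^j` for some `j < p`. -/
theorem s16d_exists_cross (γ : SL(2, ℤ)) (hγ : γ ∉ Γ₀(p)) :
    ∃ j : ℕ, j < p ∧ (p : ℤ) ∣ γ 1 0 * (j : ℤ) - γ 1 1 * 1 := by
  have hp : p.Prime := Fact.out
  have hc : ((γ 1 0 : ℤ) : ZMod p) ≠ 0 := fun h => hγ (Gamma0_mem.mpr h)
  refine ⟨(((γ 1 1 : ℤ) : ZMod p) * ((γ 1 0 : ℤ) : ZMod p)⁻¹).val, ZMod.val_lt _, ?_⟩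
  rw [← ZMod.intCast_zmod_eq_zero_iff_dvd]
  push_cast
  rw [ZMod.natCast_zmod_val]
  field_simp
  ring

/-- **Conjugates, coset form** (helper9's request #701). -/
theorem s16d_slash_of_not_mem (F : ModularForm Γ₀(p) 2) (γ : SL(2, ℤ)) (hγ : γ ∉ Γ₀(p)) :
    ∃ j : ℕ, j < p ∧ ⇑F ∣[(2 : ℤ)] γ =
      -((ModularForm.heckeU 2 p ⇑F) ∣[(2 : ℤ)] ModularForm.heckeMatrix p j) := by
  obtain ⟨j, hj, hdvd⟩ := s16d_exists_cross γ hγ
  refine ⟨j, hj, ?_⟩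
  rw [← s16d_slash_S_T_pow F j]
  refine s16d_slash_eq_of_cross (p := p)
    (fun δ hδ => SlashInvariantFormClass.slash_action_eq F _ (Subgroup.mem_map_of_mem _ hδ))
    γ (S * T ^ j) ?_
  rw [← zpow_natCast, s16d_S_mul_T_zpow_one_zero, s16d_S_mul_T_zpow_one_one]
  exact hdvd

omit [Fact p.Prime] in
/-- `F ∣ γ = F` for `γ ∈ Γ₀(p)` (for completeness). -/
theorem s16d_slash_of_mem (F : ModularForm Γ₀(p) 2) (γ : SL(2, ℤ)) (hγ : γ ∈ Γ₀(p)) :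
    ⇑F ∣[(2 : ℤ)] γ = ⇑F :=
  SlashInvariantFormClass.slash_action_eq F _ (Subgroup.mem_map_of_mem _ hγ)

/-- **`U_p² = 1` on `M₂(Γ₀(p))`.** -/
theorem s16d_heckeU_heckeU (F : ModularForm Γ₀(p) 2) :
    ModularForm.heckeULin 2 (dvd_refl p) (ModularForm.heckeULin 2 (dvd_refl p) F) = F := by
  have hp : p ≠ 0 := (Fact.out : p.Prime).ne_zero
  apply DFunLike.coe_injective
  rw [ModularForm.coe_heckeULin_apply]
  have h1 := s16d_slash_W (ModularForm.heckeULin 2 (dvd_refl p) F)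
  rw [ModularForm.coe_heckeULin_apply] at h1
  have h2 : ModularForm.heckeU 2 p ⇑F = -(⇑F ∣[(2 : ℤ)] s16d_W p) := by
    rw [s16d_slash_W, neg_neg]
  have h3 : (⇑F ∣[(2 : ℤ)] s16d_W p) ∣[(2 : ℤ)] s16d_W p = ⇑F := by
    rw [← SlashAction.slash_mul, s16d_W_mul_W, s16d_slash_scalar]
  have h5 : (ModularForm.heckeU 2 p ⇑F) ∣[(2 : ℤ)] s16d_W p = -⇑F := by
    rw [h2, SlashAction.neg_slash, h3]
  rw [h5] at h1
  rw [ModularForm.coe_heckeULin_apply]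
  exact (neg_injective h1).symm

open Fermat.Agent.Lib.M2 in
/-- `a_{p² n}(F) = a_n(F)` for `F ∈ M₂(Γ₀(p))`. -/
theorem s16d_qCoeff_sq_mul (F : ModularForm Γ₀(p) 2) (n : ℕ) :
    qCoeff ⇑F (p * p * n) = qCoeff ⇑F n := by
  have hp : p.Prime := Fact.out
  have h := congrArg (fun G : ModularForm Γ₀(p) 2 => qCoeff ⇑G n) (s16d_heckeU_heckeU F)
  rw [m2e_qCoeff_heckeULin hp, m2e_qCoeff_heckeULin hp] at h
  rw [← h]
  congr 1
  ring

end Main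

end Fermat.Agent.Lib.S16
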