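import Mathlib

/-!
# S16 / package (I): the ring `𝒪_(r)` of `r`-integral algebraic numbers inside `ℂ`

`s16i_O r = {x ∈ ℂ | ∃ s ∈ ℤ, r ∤ s, s • x is an algebraic integer}` for a prime `r`.
Basic facts: it is a subring containing `ℤ`, the inverses of integers prime to `r`, all roots of
unity; `1 ∉ r • 𝒪_(r)`; integers prime to `r` are units modulo `r`.
-/

set_option autoImplicit false

namespace Fermat.Agent.Lib.S16

/-- The ring of `r`-integral algebraic numbers in `ℂ` (`r` prime). -/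
def s16i_O (r : ℕ) [Fact r.Prime] : Subring ℂ where
  carrier := {x | ∃ s : ℤ, ¬ (r : ℤ) ∣ s ∧ IsIntegral ℤ ((s : ℂ) * x)}
  mul_mem' := by
    rintro x y ⟨s, hs, hx⟩ ⟨t, ht, hy⟩
    refine ⟨s * t, ?_, ?_⟩
    · intro h
      have hr : Prime (r : ℤ) := Nat.prime_iff_prime_int.mp (Fact.out : r.Prime)
      rcases hr.dvd_or_dvd h with h | h
      · exact hs h
      · exact ht h
    · have : ((s * t : ℤ) : ℂ) * (x * y) = ((s : ℂ) * x) * ((t : ℂ) * y) := by push_cast; ring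
      rw [this]
      exact hx.mul hy
  one_mem' := ⟨1, by
    intro h
    have hr : Prime (r : ℤ) := Nat.prime_iff_prime_int.mp (Fact.out : r.Prime)
    exact hr.not_isUnit (isUnit_of_dvd_one h), by simpa using isIntegral_one⟩
  add_mem' := by
    rintro x y ⟨s, hs, hx⟩ ⟨t, ht, hy⟩
    refine ⟨s * t, ?_, ?_⟩
    · intro h
      have hr : Prime (r : ℤ) := Nat.prime_iff_prime_int.mp (Fact.out : r.Prime)
      rcases hr.dvd_or_dvd h with h | h
      · exact hs h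
      · exact ht h
    · have : ((s * t : ℤ) : ℂ) * (x + y) = (t : ℂ) * ((s : ℂ) * x) + (s : ℂ) * ((t : ℂ) * y) := by
        push_cast; ring
      rw [this]
      exact ((isIntegral_algebraMap (R := ℤ) (A := ℂ) (x := t)).mul hx).add
        ((isIntegral_algebraMap (R := ℤ) (A := ℂ) (x := s)).mul hy)
  zero_mem' := ⟨1, by
    intro h
    have hr : Prime (r : ℤ) := Nat.prime_iff_prime_int.mp (Fact.out : r.Prime)
    exact hr.not_isUnit (isUnit_of_dvd_one h), by simpa using isIntegral_zero⟩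
  neg_mem' := by
    rintro x ⟨s, hs, hx⟩
    refine ⟨s, hs, ?_⟩
    have : (s : ℂ) * (-x) = -((s : ℂ) * x) := by ring
    rw [this]
    exact hx.neg

variable (r : ℕ) [Fact r.Prime]

theorem s16i_mem_O_iff (x : ℂ) :
    x ∈ s16i_O r ↔ ∃ s : ℤ, ¬ (r : ℤ) ∣ s ∧ IsIntegral ℤ ((s : ℂ) * x) := Iff.rfl

theorem s16i_not_dvd_one : ¬ (r : ℤ) ∣ 1 := by
  intro h
  have hr : Prime (r : ℤ) := Nat.prime_iff_prime_int.mp (Fact.out : r.Prime)
  exact hr.not_isUnit (isUnit_of_dvd_one h)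

/-- Algebraic integers lie in `𝒪_(r)`. -/
theorem s16i_mem_O_of_isIntegral {x : ℂ} (hx : IsIntegral ℤ x) : x ∈ s16i_O r :=
  ⟨1, s16i_not_dvd_one r, by simpa using hx⟩

theorem s16i_intCast_mem_O (n : ℤ) : (n : ℂ) ∈ s16i_O r :=
  s16i_mem_O_of_isIntegral r (isIntegral_algebraMap (R := ℤ) (A := ℂ) (x := n))

theorem s16i_natCast_mem_O (n : ℕ) : (n : ℂ) ∈ s16i_O r := by
  simpa using s16i_intCast_mem_O r (n : ℤ)

/-- `a / s ∈ 𝒪_(r)` when `r ∤ s`. -/
theorem s16i_div_mem_O (a s : ℤ) (hs : ¬ (r : ℤ) ∣ s) : (a : ℂ) / (s : ℂ) ∈ s16i_O r := by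
  refine ⟨s, hs, ?_⟩
  have hs0 : (s : ℂ) ≠ 0 := by
    intro h
    apply hs
    have : s = 0 := by exact_mod_cast h
    rw [this]; exact dvd_zero _
  have : (s : ℂ) * ((a : ℂ) / (s : ℂ)) = (a : ℂ) := by field_simp
  rw [this]
  exact isIntegral_algebraMap (R := ℤ) (A := ℂ) (x := a)

/-- If `s * x = a` with `r ∤ s`, then `x ∈ 𝒪_(r)`. -/
theorem s16i_mem_O_of_mul_eq {x : ℂ} (a s : ℤ) (hs : ¬ (r : ℤ) ∣ s) (h : (s : ℂ) * x = (a : ℂ)) :
    x ∈ s16i_O r :=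
  ⟨s, hs, by rw [h]; exact isIntegral_algebraMap (R := ℤ) (A := ℂ) (x := a)⟩

theorem s16i_inv_natCast_mem_O (n : ℕ) (hn : ¬ r ∣ n) : ((n : ℂ))⁻¹ ∈ s16i_O r := by
  have h := s16i_div_mem_O r 1 (n : ℤ) (by exact_mod_cast hn)
  simpa using h

/-- Roots of unity lie in `𝒪_(r)`. -/
theorem s16i_rootOfUnity_mem_O {ζ : ℂ} {n : ℕ} (hn : 0 < n) (hζ : ζ ^ n = 1) : ζ ∈ s16i_O r :=
  s16i_mem_O_of_isIntegral r ⟨Polynomial.X ^ n - 1, Polynomial.monic_X_pow_sub_C 1 hn.ne',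
    by simp [hζ]⟩

/-- `1 ∉ r • 𝒪_(r)`. -/
theorem s16i_one_not_mem (x : ℂ) (hx : x ∈ s16i_O r) : (r : ℂ) * x ≠ 1 := by
  intro h
  obtain ⟨s, hs, hint⟩ := hx
  have hr0 : (r : ℂ) ≠ 0 := by
    have := (Fact.out : r.Prime).pos
    exact_mod_cast this.ne'
  have hx' : x = ((r : ℂ))⁻¹ := by
    field_simp
    rw [mul_comm]; exact h
  -- `s / r` is an algebraic integer and rational, hence an integer
  have hq : (s : ℂ) * x = (((s : ℚ) / (r : ℚ) : ℚ) : ℂ) := by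
    rw [hx']; push_cast; ring
  rw [hq] at hint
  have hint' : IsIntegral ℤ ((s : ℚ) / (r : ℚ)) := by
    have := hint
    rwa [show ((((s : ℚ) / (r : ℚ) : ℚ)) : ℂ) = algebraMap ℚ ℂ ((s : ℚ) / (r : ℚ)) from rfl,
      isIntegral_algebraMap_iff (algebraMap ℚ ℂ).injective] at this
  obtain ⟨m, hm⟩ := IsIntegrallyClosed.isIntegral_iff.mp hint'
  apply hs
  refine ⟨m, ?_⟩
  have hrq : (r : ℚ) ≠ 0 := by
    have := (Fact.out : r.Prime).pos
    exact_mod_cast this.ne'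
  have h2 : (s : ℚ) = (r : ℚ) * (m : ℚ) := by
    have : (algebraMap ℤ ℚ m : ℚ) = (m : ℚ) := rfl
    rw [this] at hm
    field_simp at hm
    linarith
  exact_mod_cast h2

end Fermat.Agent.Lib.S16
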