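import Fermat.Agent.Lib.S16.IExp
import Fermat.Agent.Lib.S16.IOr
import Fermat.Prelude.Def_ModularForm_HeckeOperatorForms
import Fermat.Prelude.Def_FLTPrelim_Modularity
import Fermat.Prelude.Thm_ModularFormClass_qCoeff_heckeU
import Fermat.Prelude.Thm_CongruenceSubgroup_one_mem_strictPeriods_Gamma0

/-!
# S16 / package (I): `q^{1/M}`-expansions of the `SL(2,ℤ)`-translates of a weight-2 form of prime
level, given the conjugation kit `G ∣ γ = -(U_p G) ∣ (1 j; 0 p)` for `γ ∉ Γ₀(p)`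
-/

set_option autoImplicit false

namespace Fermat.Agent.Lib.S16

open UpperHalfPlane hiding I
open ModularForm CongruenceSubgroup Matrix.SpecialLinearGroup Filter Complex Real ModularFormClass
open Function
open scoped MatrixGroups Manifold Topology

noncomputable section

local notation "𝕢" => Periodic.qParam

/-- The conjugation kit at prime level `p` in weight `2`: every translate by `γ ∉ Γ₀(p)` is
`-(U_p G) ∣ (1 j; 0 p)` for some `j < p`. -/
def s16i_KitConj (p : ℕ) : Prop :=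
  ∀ (G : ModularForm (Gamma0 p) 2) (γ : SL(2, ℤ)), ¬ (p : ℤ) ∣ γ 1 0 →
    ∃ j : ℕ, j < p ∧
      ⇑G ∣[(2 : ℤ)] γ = -((ModularForm.heckeU 2 p ⇑G) ∣[(2 : ℤ)] ModularForm.heckeMatrix p j)

/-- A form on `Γ₀(p)` in the parameter `q^{1/(qp)}`. -/
theorem s16i_hasSum_G (p q : ℕ) (hp : 0 < p) (hq : 0 < q) (G : ModularForm (Gamma0 p) 2)
    (z : ℍ) :
    HasSum (fun m => (if q * p ∣ m then qCoeff G (m / (q * p)) else 0) •
      𝕢 ((q * p : ℕ) : ℝ) z ^ m) (G z) := by
  have : Fact (IsCusp OnePoint.infty ((Gamma0 p : Subgroup SL(2, ℤ)) : Subgroup (GL (Fin 2) ℝ))) :=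
    ⟨Subgroup.isCusp_of_mem_strictPeriods one_pos
      (CongruenceSubgroup.one_mem_strictPeriods_Gamma0 p)⟩
  have h := ModularForm.hasSum_qExpansion (f := G) one_pos
    (CongruenceSubgroup.one_mem_strictPeriods_Gamma0 p) z
  have hx : 𝕢 (1 : ℝ) (z : ℂ) = 𝕢 ((q * p : ℕ) : ℝ) z ^ (q * p) := by
    have := s16i_qParam_pow (q * p) 1 (Nat.mul_pos hq hp) one_pos (z : ℂ)
    rw [mul_one] at this
    rw [this]
    simp
  rw [hx] at h
  have h' : HasSum (fun n => qCoeff G n • (𝕢 ((q * p : ℕ) : ℝ) z ^ (q * p)) ^ n) (G z) := by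
    simpa [qCoeff, smul_eq_mul] using h
  exact s16i_hasSum_reindex_one (Nat.mul_pos hq hp) h'

/-- `(U_p G) ∣ (1 j; 0 p)` in the parameter `q^{1/(qp)}`. -/
theorem s16i_hasSum_Gconj (p q : ℕ) [NeZero p] (hq : 0 < q) (G : ModularForm (Gamma0 p) 2)
    (j : ℕ) (z : ℍ) :
    HasSum (fun m => ((p : ℂ)⁻¹ * (if q ∣ m then qCoeff G (m / q * p) * s16i_zeta p j ^ (m / q)
        else 0)) • 𝕢 ((q * p : ℕ) : ℝ) z ^ m)
      (((ModularForm.heckeU 2 p ⇑G) ∣[(2 : ℤ)] ModularForm.heckeMatrix p j) z) := by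
  have hp : 0 < p := Nat.pos_of_ne_zero (NeZero.ne p)
  have : Fact (IsCusp OnePoint.infty ((Gamma0 p : Subgroup SL(2, ℤ)) : Subgroup (GL (Fin 2) ℝ))) :=
    ⟨Subgroup.isCusp_of_mem_strictPeriods one_pos
      (CongruenceSubgroup.one_mem_strictPeriods_Gamma0 p)⟩
  rw [ModularForm.slash_heckeMatrix_apply 2 hp.ne' j]
  set U : ModularForm (Gamma0 p) 2 := ModularForm.heckeULin 2 (dvd_refl p) G with hU
  have hUc : ⇑U = ModularForm.heckeU 2 p ⇑G := rfl
  rw [← hUc]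
  set z' : ℍ := ModularForm.heckeMatrix p j • z with hz'
  have h := ModularForm.hasSum_qExpansion (f := U) one_pos
    (CongruenceSubgroup.one_mem_strictPeriods_Gamma0 p) z'
  have hcoe : ((z' : ℍ) : ℂ) = ((z : ℂ) + ((j : ℤ) : ℂ)) / (p : ℂ) := by
    rw [hz', ModularForm.coe_heckeMatrix_smul hp.ne']
    simp
  have hx : 𝕢 (1 : ℝ) (z' : ℂ) = s16i_zeta p j * 𝕢 ((q * p : ℕ) : ℝ) z ^ q := by
    rw [hcoe, s16i_qParam_add_div p hp (j : ℤ) (z : ℂ), s16i_qParam_pow q p hq hp]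
  rw [hx] at h
  have hco : ∀ n, (qExpansion 1 U).coeff n = qCoeff G (n * p) := by
    intro n
    have := ModularFormClass.qCoeff_heckeU G (CongruenceSubgroup.one_mem_strictPeriods_Gamma0 p)
      hp.ne' n (k := 2)
    rw [ModularForm.coeffHeckeU_apply] at this
    rw [← this, hUc]
    rfl
  have h' : HasSum (fun n => qCoeff G (n * p) •
      (s16i_zeta p j * 𝕢 ((q * p : ℕ) : ℝ) z ^ q) ^ n) (U z') := by
    convert h using 1
    funext n
    rw [hco, smul_eq_mul]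
  have h2 := s16i_hasSum_reindex hq h'
  have h3 := h2.mul_left ((p : ℂ)⁻¹)
  have hfun : (fun m => ((p : ℂ)⁻¹ * (if q ∣ m then qCoeff G (m / q * p) * s16i_zeta p j ^ (m / q)
        else 0)) • 𝕢 ((q * p : ℕ) : ℝ) z ^ m) = fun m => (p : ℂ)⁻¹ *
        ((if q ∣ m then qCoeff G (m / q * p) * s16i_zeta p j ^ (m / q) else 0) •
          𝕢 ((q * p : ℕ) : ℝ) z ^ m) := by
    funext m
    simp only [smul_eq_mul]
    ring
  rw [hfun]
  exact h3

variable (r : ℕ) [Fact r.Prime]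

/-- The `G`-part of a conjugate: expansion in `q^{1/(qp)}` together with its arithmetic. -/
theorem s16i_G_exp (p : ℕ) [Fact p.Prime] (hpr : ¬ r ∣ p) (q : ℕ) (hq : 0 < q)
    (hkit : s16i_KitConj p) (G : ModularForm (Gamma0 p) 2) (g : ℕ → ℤ)
    (hg : ∀ n, qCoeff G n = (g n : ℂ)) (k : ℕ) (hgk : ∀ n, 1 ≤ n → (r : ℤ) ^ k ∣ g n)
    (γ : SL(2, ℤ)) :
    ∃ (aG : ℕ → ℂ) (P : ℤ),
      (∀ τ : ℍ, HasSum (fun m => aG m • 𝕢 ((q * p : ℕ) : ℝ) τ ^ m) ((⇑G ∣[(2 : ℤ)] γ) τ)) ∧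
      ((p : ℤ) ∣ γ 1 0 → P = 1) ∧ (¬ (p : ℤ) ∣ γ 1 0 → P = -(p : ℤ)) ∧
      aG 0 = (g 0 : ℂ) / (P : ℂ) ∧
      ∀ m, 1 ≤ m → ∃ y ∈ s16i_O r, aG m = (r : ℂ) ^ k * y := by
  have hpp : p.Prime := Fact.out
  have hp : 0 < p := hpp.pos
  have : NeZero p := ⟨hp.ne'⟩
  have hMpos : 0 < q * p := Nat.mul_pos hq hp
  have hp0 : (p : ℂ) ≠ 0 := by exact_mod_cast hp.ne'
  by_cases hγ : (p : ℤ) ∣ γ 1 0
  · refine ⟨fun m => if q * p ∣ m then qCoeff G (m / (q * p)) else 0, 1, ?_, fun _ => rfl,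
      fun h => absurd hγ h, ?_, ?_⟩
    · intro τ
      have hmem : γ ∈ Gamma0 p := by
        rw [Gamma0_mem]
        exact (ZMod.intCast_zmod_eq_zero_iff_dvd _ _).mpr hγ
      have hsl : ⇑G ∣[(2 : ℤ)] γ = ⇑G := by
        rw [ModularForm.SL_slash]
        exact SlashInvariantFormClass.slash_action_eq G _ (Subgroup.mem_map_of_mem _ hmem)
      rw [hsl]
      exact s16i_hasSum_G p q hp hq G τ
    · simp [hg]
    · intro m hm
      by_cases hd : q * p ∣ m
      · have h1 : 1 ≤ m / (q * p) := by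
          obtain ⟨t, rfl⟩ := hd
          rw [Nat.mul_div_cancel_left _ hMpos]
          rcases Nat.eq_zero_or_pos t with rfl | ht
          · simp at hm
          · exact ht
        obtain ⟨c, hc⟩ := hgk _ h1
        refine ⟨(c : ℂ), s16i_intCast_mem_O r c, ?_⟩
        simp only [if_pos hd]
        rw [hg, hc]
        push_cast
        ring
      · exact ⟨0, (s16i_O r).zero_mem, by simp [if_neg hd]⟩
  · obtain ⟨j, -, hj⟩ := hkit G γ hγ
    refine ⟨fun m => -((p : ℂ)⁻¹ * (if q ∣ m then qCoeff G (m / q * p) * s16i_zeta p j ^ (m / q)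
        else 0)), -(p : ℤ), ?_, fun h => absurd h hγ, fun _ => rfl, ?_, ?_⟩
    · intro τ
      rw [hj]
      have h := (s16i_hasSum_Gconj p q hq G j τ).neg
      have hfun : (fun m => (-((p : ℂ)⁻¹ * (if q ∣ m then
          qCoeff G (m / q * p) * s16i_zeta p j ^ (m / q) else 0))) • 𝕢 ((q * p : ℕ) : ℝ) τ ^ m) =
          fun m => -(((p : ℂ)⁻¹ * (if q ∣ m then
          qCoeff G (m / q * p) * s16i_zeta p j ^ (m / q) else 0)) • 𝕢 ((q * p : ℕ) : ℝ) τ ^ m) := by
        funext m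
        simp only [smul_eq_mul]
        ring
      rw [hfun]
      exact h
    · simp only [dvd_zero, if_true, Nat.zero_div, zero_mul, pow_zero, mul_one, hg]
      push_cast
      field_simp
    · intro m hm
      by_cases hd : q ∣ m
      · have h1 : 1 ≤ m / q * p := by
          obtain ⟨t, rfl⟩ := hd
          rw [Nat.mul_div_cancel_left _ hq]
          rcases Nat.eq_zero_or_pos t with rfl | ht
          · simp at hm
          · exact Nat.mul_pos ht hp
        obtain ⟨c, hc⟩ := hgk _ h1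
        refine ⟨-((p : ℂ)⁻¹ * ((c : ℂ) * s16i_zeta p j ^ (m / q))), ?_, ?_⟩
        · exact (s16i_O r).neg_mem ((s16i_O r).mul_mem (s16i_inv_natCast_mem_O r p hpr)
            ((s16i_O r).mul_mem (s16i_intCast_mem_O r c)
              ((s16i_O r).pow_mem (s16i_rootOfUnity_mem_O r hp (s16i_zeta_pow p hp j)) _)))
        · simp only [if_pos hd]
          rw [hg, hc]
          push_cast
          ring
      · exact ⟨0, (s16i_O r).zero_mem, by simp [if_neg hd]⟩

end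

end Fermat.Agent.Lib.S16
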