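/-
S16 glue (helper2): helper9's kit hypothesis `s16i_KitConj p` from helper4's
`s16d_slash_of_not_mem`.
-/
import Mathlib
import Fermat.Agent.Lib.S16.DConj
import Fermat.Agent.Lib.S16.IExpG

set_option autoImplicit false

open CongruenceSubgroup ModularForm
open scoped MatrixGroups ModularForm

namespace Fermat.Agent.Lib.S16

/-- The conjugation kit hypothesis of the `N4`/`N6` package holds. -/
theorem s16b_kitConj (p : ℕ) [Fact p.Prime] : s16i_KitConj p := by
  intro G γ hγ
  refine s16d_slash_of_not_mem G γ ?_
  intro hmem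
  rw [CongruenceSubgroup.Gamma0_mem] at hmem
  exact hγ ((ZMod.intCast_zmod_eq_zero_iff_dvd _ _).mp hmem)

end Fermat.Agent.Lib.S16
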