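import Mathlib

/-!
# S16 block (C), part 1: dévissage for lifting homomorphisms `Γ → ℤ/m` to `Γ → ℤ`

`Γ` a group, `P ⊆ Γ` a set of elements to be killed.  If for every prime `r ∣ m` every hom
`Γ → ℤ/r` killing `P` lifts to a hom `Γ → ℤ` killing `P`, then so does every hom `Γ → ℤ/m`
killing `P`.  The induction is carried out on integer valued "quasi-homs modulo `m`".
-/

set_option autoImplicit false

namespace Fermat.Agent.Lib.S16

section Devissage

variable {Γ : Type*} [Group Γ] (P : Set Γ)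

/-- Lifting property for the modulus `m`, in terms of integer valued quasi-homs. -/
def s16c_QLift (m : ℕ) : Prop :=
  ∀ f : Γ → ℤ, (∀ g h, (m : ℤ) ∣ f (g * h) - f g - f h) → (∀ g ∈ P, (m : ℤ) ∣ f g) →
    ∃ φ : Additive Γ →+ ℤ, (∀ g ∈ P, φ (Additive.ofMul g) = 0) ∧
      ∀ g, (m : ℤ) ∣ φ (Additive.ofMul g) - f g

/-- Lifting property for the modulus `m`, in terms of homs to `ZMod m`. -/
def s16c_ZLift (m : ℕ) : Prop :=
  ∀ ψ : Additive Γ →+ ZMod m, (∀ g ∈ P, ψ (Additive.ofMul g) = 0) →
    ∃ φ : Additive Γ →+ ℤ, (∀ g ∈ P, φ (Additive.ofMul g) = 0) ∧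
      ∀ g : Γ, ((φ (Additive.ofMul g) : ℤ) : ZMod m) = ψ (Additive.ofMul g)

theorem s16c_QLift_of_ZLift {m : ℕ} (h : s16c_ZLift P m) : s16c_QLift P m := by
  intro f hadd hP
  let ψ : Additive Γ →+ ZMod m :=
    { toFun := fun g => ((f (Additive.toMul g) : ℤ) : ZMod m)
      map_zero' := by
        have h1 := hadd 1 1
        rw [mul_one] at h1
        have h2 : (m : ℤ) ∣ f 1 := by
          have : f 1 - f 1 - f 1 = -f 1 := by ring
          rw [this] at h1
          exact (dvd_neg).mp h1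
        show ((f 1 : ℤ) : ZMod m) = 0
        exact (ZMod.intCast_zmod_eq_zero_iff_dvd _ _).mpr h2
      map_add' := by
        intro a b
        show ((f (Additive.toMul a * Additive.toMul b) : ℤ) : ZMod m) =
          ((f (Additive.toMul a) : ℤ) : ZMod m) + ((f (Additive.toMul b) : ℤ) : ZMod m)
        have h1 := hadd (Additive.toMul a) (Additive.toMul b)
        have h2 := (ZMod.intCast_zmod_eq_zero_iff_dvd _ _).mpr h1
        push_cast at h2
        linear_combination h2 }
  have hψ : ∀ g : Γ, ψ (Additive.ofMul g) = ((f g : ℤ) : ZMod m) := fun g => rfl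
  obtain ⟨φ, hφP, hφ⟩ := h ψ (fun g hg => by
    rw [hψ]
    exact (ZMod.intCast_zmod_eq_zero_iff_dvd _ _).mpr (hP g hg))
  refine ⟨φ, hφP, fun g => ?_⟩
  have := hφ g
  rw [hψ] at this
  rw [← ZMod.intCast_zmod_eq_zero_iff_dvd]
  push_cast
  rw [this, sub_self]

theorem s16c_ZLift_of_QLift {m : ℕ} (h : s16c_QLift P m) : s16c_ZLift P m := by
  intro ψ hψP
  obtain ⟨φ, hφP, hφ⟩ := h (fun g => (ψ (Additive.ofMul g)).cast) (fun g k => by
      rw [← ZMod.intCast_zmod_eq_zero_iff_dvd]
      push_cast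
      rw [ofMul_mul, map_add]
      ring)
    (fun g hg => by
      rw [← ZMod.intCast_zmod_eq_zero_iff_dvd, ZMod.intCast_zmod_cast]
      exact hψP g hg)
  refine ⟨φ, hφP, fun g => ?_⟩
  have h1 := (ZMod.intCast_zmod_eq_zero_iff_dvd _ _).mpr (hφ g)
  push_cast at h1
  exact sub_eq_zero.mp h1

/-- One dévissage step: `QLift r` and `QLift m'` give `QLift (r * m')`. -/
theorem s16c_QLift_mul {r m' : ℕ} (hr : 0 < r) (h1 : s16c_QLift P r) (h2 : s16c_QLift P m') :
    s16c_QLift P (r * m') := by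
  intro f hadd hP
  have hr0 : (r : ℤ) ≠ 0 := by exact_mod_cast hr.ne'
  have hdvd : (r : ℤ) ∣ ((r * m' : ℕ) : ℤ) := ⟨(m' : ℤ), by push_cast; ring⟩
  obtain ⟨φ₁, hφ₁P, hφ₁⟩ := h1 f (fun g h => hdvd.trans (hadd g h))
    (fun g hg => hdvd.trans (hP g hg))
  -- the quotient quasi-hom
  choose f' hf' using fun g => hφ₁ g
  -- `φ₁ g - f g = r * f' g`
  obtain ⟨φ₂, hφ₂P, hφ₂⟩ := h2 (fun g => -f' g) (fun g h => by
      have h3 := hadd g h
      have h4 : f (g * h) - f g - f h = (r : ℤ) * (-f' (g * h) - -f' g - -f' h) := by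
        have e1 := hf' (g * h)
        have e2 := hf' g
        have e3 := hf' h
        rw [ofMul_mul, map_add] at e1
        linear_combination -e1 + e2 + e3
      rw [h4] at h3
      push_cast at h3
      exact (mul_dvd_mul_iff_left hr0).mp h3)
    (fun g hg => by
      have h3 := hP g hg
      have h4 : f g = (r : ℤ) * (-f' g) := by
        have e1 := hf' g
        rw [hφ₁P g hg] at e1
        linear_combination -e1
      rw [h4] at h3
      push_cast at h3
      exact (mul_dvd_mul_iff_left hr0).mp h3)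
  refine ⟨φ₁ + (r : ℤ) • φ₂, fun g hg => ?_, fun g => ?_⟩
  · rw [AddMonoidHom.add_apply, AddMonoidHom.smul_apply, hφ₁P g hg, hφ₂P g hg, smul_zero,
      add_zero]
  · rw [AddMonoidHom.add_apply, AddMonoidHom.smul_apply, smul_eq_mul]
    have e1 := hf' g
    have h5 : φ₁ (Additive.ofMul g) + (r : ℤ) * φ₂ (Additive.ofMul g) - f g =
        (r : ℤ) * (φ₂ (Additive.ofMul g) - -f' g) := by
      linear_combination e1
    rw [h5]
    push_cast
    exact mul_dvd_mul_left _ (hφ₂ g)

theorem s16c_QLift_one : s16c_QLift P 1 := by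
  intro f _ _
  exact ⟨0, fun _ _ => rfl, fun g => by simp⟩

/-- **Dévissage.**  If every hom `Γ → ℤ/r` killing `P` lifts for every prime `r ∣ m`, then every
hom `Γ → ℤ/m` killing `P` lifts. -/
theorem s16c_ZLift_of_prime (m : ℕ) (hm : 0 < m)
    (hprime : ∀ r : ℕ, r.Prime → r ∣ m → s16c_ZLift P r) : s16c_ZLift P m := by
  apply s16c_ZLift_of_QLift
  induction m using Nat.strong_induction_on with
  | _ m ih =>
    rcases Nat.eq_or_lt_of_le (Nat.one_le_iff_ne_zero.mpr hm.ne') with h1 | h1
    · rw [← h1]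
      exact s16c_QLift_one P
    · have hne : m ≠ 1 := by omega
      have hrp : (Nat.minFac m).Prime := Nat.minFac_prime hne
      obtain ⟨m', hm'⟩ := Nat.minFac_dvd m
      have hm'pos : 0 < m' := by
        rcases Nat.eq_zero_or_pos m' with h0 | h0
        · rw [h0, mul_zero] at hm'
          omega
        · exact h0
      have hlt : m' < m := by
        have h2 : 2 ≤ Nat.minFac m := hrp.two_le
        nlinarith
      have hQr : s16c_QLift P (Nat.minFac m) :=
        s16c_QLift_of_ZLift P (hprime _ hrp (Nat.minFac_dvd m))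
      have hQm' : s16c_QLift P m' :=
        ih m' hlt hm'pos (fun r hr hrm' => hprime r hr (hrm'.trans ⟨Nat.minFac m, by
          rw [mul_comm]; exact hm'⟩))
      have := s16c_QLift_mul P hrp.pos hQr hQm'
      rwa [← hm'] at this

end Devissage

end Fermat.Agent.Lib.S16
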