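import Fermat.Agent.Lib.S16.CRank
import Fermat.Agent.Lib.S16.CDevissage

/-!
# S16 block (C), part 3: from the mod `r` dimension bound to the lifting property at a prime `r`

`s16c_P N`: the elements `γ` of `Γ₀(N)` with `tr² = 4` or `γ ^ 12 = 1`.
`s16c_Y N K`: the homs `Γ₀(N) → K` killing `s16c_P N`.

If `dim_{𝔽_r} Y_r ≤ 2 g` then every element of `Y_r` is the reduction of an element of
`X = Hom_par(Γ₀(N), ℤ)`: the reductions of a `ℤ`-basis of `X` are `𝔽_r`-independent, and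
`rank X ≥ 2 g`.
-/

set_option autoImplicit false

namespace Fermat.Agent.Lib.S16

open Module ModularCurve ModularCurve.Period CongruenceSubgroup

open scoped MatrixGroups

/-- The elements of `Γ₀(N)` to be killed: `tr² = 4`, or `γ ^ 12 = 1` (this covers all elements
of finite order of `SL(2, ℤ)`, and in particular the conjugates of `S` and `S T`). -/
def s16c_P (N : ℕ) : Set (Gamma0 N) :=
  {γ | ((γ : SL(2, ℤ)) : Matrix (Fin 2) (Fin 2) ℤ).trace ^ 2 = 4 ∨ γ ^ 12 = 1}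

/-- The homs `Γ₀(N) → K` killing the parabolic elements and the elements with `γ ^ 12 = 1`. -/
def s16c_Y (N : ℕ) (K : Type*) [Field K] : Submodule K (Additive (Gamma0 N) →+ K) where
  carrier := {ψ | ∀ γ ∈ s16c_P N, ψ (Additive.ofMul γ) = 0}
  zero_mem' := fun _ _ => rfl
  add_mem' := by
    intro φ ψ hφ hψ γ hγ
    show φ (Additive.ofMul γ) + ψ (Additive.ofMul γ) = 0
    rw [hφ γ hγ, hψ γ hγ, add_zero]
  smul_mem' := by
    intro c φ hφ γ hγ
    show c • φ (Additive.ofMul γ) = 0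
    rw [hφ γ hγ, smul_zero]

theorem s16c_mem_Y_iff {N : ℕ} {K : Type*} [Field K] {ψ : Additive (Gamma0 N) →+ K} :
    ψ ∈ s16c_Y N K ↔ ∀ γ ∈ s16c_P N, ψ (Additive.ofMul γ) = 0 := Iff.rfl

/-- A hom to `ℤ` kills `s16c_P N` as soon as it is parabolic. -/
theorem s16c_kills_P_of_parabolic {N : ℕ} {φ : Additive (Gamma0 N) →+ ℤ}
    (hφ : IsParabolicHom (Gamma0 N) φ) : ∀ γ ∈ s16c_P N, φ (Additive.ofMul γ) = 0 := by
  rintro γ (hγ | hγ)
  · exact hφ γ hγ
  · have hγ' : γ ^ 12 = 1 := hγ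
    have h1 : φ (Additive.ofMul (γ ^ 12)) = 0 := by rw [hγ', ofMul_one, map_zero]
    rw [ofMul_pow, map_nsmul] at h1
    rcases smul_eq_zero.mp h1 with h2 | h2
    · exact absurd h2 (by norm_num)
    · exact h2

instance s16c_finite_Y (N : ℕ) [NeZero N] (K : Type*) [Field K] :
    Module.Finite K (s16c_Y N K) := by
  have : Group.FG (Gamma0 N) := Fermat.Agent.Lib.ES.groupFG_Gamma0 N
  have : Module.Finite K (Additive (Gamma0 N) →+ K) := s16c_finite_hom K
  infer_instance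

section Reduction

variable (N : ℕ) (r : ℕ) [Fact r.Prime]

/-- Reduction mod `r` of an element of `X`. -/
def s16c_red (φ : parabolicHoms ℤ (Gamma0 N) ℤ) : s16c_Y N (ZMod r) :=
  ⟨(Int.castAddHom (ZMod r)).comp (φ : Additive (Gamma0 N) →+ ℤ), fun γ hγ => by
    show ((φ : Additive (Gamma0 N) →+ ℤ) (Additive.ofMul γ) : ZMod r) = 0
    rw [s16c_kills_P_of_parabolic φ.2 γ hγ, Int.cast_zero]⟩

theorem s16c_red_apply (φ : parabolicHoms ℤ (Gamma0 N) ℤ) (γ : Gamma0 N) :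
    ((s16c_red N r φ : s16c_Y N (ZMod r)) : Additive (Gamma0 N) →+ ZMod r) (Additive.ofMul γ) =
      ((φ : Additive (Gamma0 N) →+ ℤ) (Additive.ofMul γ) : ZMod r) := rfl

theorem s16c_red_sum {ι : Type*} (s : Finset ι) (c : ι → ℤ)
    (b : ι → parabolicHoms ℤ (Gamma0 N) ℤ) :
    s16c_red N r (∑ i ∈ s, c i • b i) = ∑ i ∈ s, (c i : ZMod r) • s16c_red N r (b i) := by
  apply Subtype.ext
  refine AddMonoidHom.ext fun a => ?_
  obtain ⟨γ, rfl⟩ : ∃ γ : Gamma0 N, Additive.ofMul γ = a := ⟨Additive.toMul a, rfl⟩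
  rw [s16c_red_apply, Submodule.coe_sum, Submodule.coe_sum, AddMonoidHom.finsetSum_apply,
    AddMonoidHom.finsetSum_apply, Int.cast_sum]
  refine Finset.sum_congr rfl fun i _ => ?_
  rw [Submodule.coe_smul, Submodule.coe_smul, AddMonoidHom.smul_apply, AddMonoidHom.smul_apply,
    s16c_red_apply, smul_eq_mul, smul_eq_mul, Int.cast_mul]

/-- An element of `X` which vanishes mod `r` is `r` times an element of `X`. -/
theorem s16c_exists_eq_smul_of_red_eq_zero (φ : parabolicHoms ℤ (Gamma0 N) ℤ)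
    (h : s16c_red N r φ = 0) : ∃ φ' : parabolicHoms ℤ (Gamma0 N) ℤ, φ = (r : ℤ) • φ' := by
  have hr0 : (r : ℤ) ≠ 0 := by exact_mod_cast (Fact.out : r.Prime).ne_zero
  have hdvd : ∀ a : Additive (Gamma0 N), (r : ℤ) ∣ (φ : Additive (Gamma0 N) →+ ℤ) a := by
    intro a
    obtain ⟨γ, rfl⟩ : ∃ γ : Gamma0 N, Additive.ofMul γ = a := ⟨Additive.toMul a, rfl⟩
    rw [← ZMod.intCast_zmod_eq_zero_iff_dvd, ← s16c_red_apply, h]
    rfl
  let φ' : Additive (Gamma0 N) →+ ℤ :=
    { toFun := fun a => (φ : Additive (Gamma0 N) →+ ℤ) a / (r : ℤ)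
      map_zero' := by rw [map_zero, Int.zero_ediv]
      map_add' := fun a b => by
        rw [map_add, Int.add_ediv_of_dvd_left (hdvd a)] }
  have hφ' : φ' ∈ parabolicHoms ℤ (Gamma0 N) ℤ := by
    intro γ hγ
    show (φ : Additive (Gamma0 N) →+ ℤ) (Additive.ofMul γ) / (r : ℤ) = 0
    rw [φ.2 γ hγ, Int.zero_ediv]
  refine ⟨⟨φ', hφ'⟩, ?_⟩
  apply Subtype.ext
  refine AddMonoidHom.ext fun a => ?_
  rw [Submodule.coe_smul, AddMonoidHom.smul_apply, smul_eq_mul]
  show _ = (r : ℤ) * ((φ : Additive (Gamma0 N) →+ ℤ) a / (r : ℤ))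
  rw [Int.mul_ediv_cancel' (hdvd a)]

/-- The reductions mod `r` of a `ℤ`-basis of `X` are linearly independent over `𝔽_r`. -/
theorem s16c_linearIndependent_red {ι : Type*} [Fintype ι]
    (b : Module.Basis ι ℤ (parabolicHoms ℤ (Gamma0 N) ℤ)) :
    LinearIndependent (ZMod r) (fun i => s16c_red N r (b i)) := by
  classical
  rw [Fintype.linearIndependent_iff]
  intro c hc i
  set φ : parabolicHoms ℤ (Gamma0 N) ℤ := ∑ j, ((c j).cast : ℤ) • b j with hφ
  have hred : s16c_red N r φ = 0 := by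
    rw [hφ, s16c_red_sum, ← hc]
    refine Finset.sum_congr rfl fun j _ => ?_
    rw [ZMod.intCast_zmod_cast]
  obtain ⟨φ', hφ'⟩ := s16c_exists_eq_smul_of_red_eq_zero N r φ hred
  have h1 : b.repr φ i = ((c i).cast : ℤ) := by
    rw [hφ, b.repr_sum_self]
  have h2 : b.repr φ i = (r : ℤ) * b.repr φ' i := by
    rw [hφ', map_smul, Finsupp.smul_apply, smul_eq_mul]
  have h3 : (((c i).cast : ℤ) : ZMod r) = 0 := by
    rw [← h1, h2]
    push_cast
    rw [ZMod.natCast_self, zero_mul]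
  rwa [ZMod.intCast_zmod_cast] at h3

/-- **Lifting at a prime** from the dimension bound. -/
theorem s16c_ZLift_prime [NeZero N]
    (hdim : (finrank (ZMod r) (s16c_Y N (ZMod r)) : ℚ) ≤ 2 * genusFormula N) :
    s16c_ZLift (s16c_P N) r := by
  classical
  let b := Module.Free.chooseBasis ℤ (parabolicHoms ℤ (Gamma0 N) ℤ)
  have hli := s16c_linearIndependent_red N r b
  have hcard : Fintype.card (Module.Free.ChooseBasisIndex ℤ (parabolicHoms ℤ (Gamma0 N) ℤ)) =
      finrank (ZMod r) (s16c_Y N (ZMod r)) := by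
    refine le_antisymm hli.fintype_card_le_finrank ?_
    have h1 := s16c_two_genus_le_finrank_X N
    rw [Module.finrank_eq_card_chooseBasisIndex ℤ (parabolicHoms ℤ (Gamma0 N) ℤ)] at h1
    have h2 := hdim.trans h1
    exact_mod_cast h2
  have hspan := hli.span_eq_top_of_card_eq_finrank' hcard
  intro ψ hψ
  have hmem : (⟨ψ, hψ⟩ : s16c_Y N (ZMod r)) ∈
      Submodule.span (ZMod r) (Set.range fun i => s16c_red N r (b i)) := by
    rw [hspan]; trivial
  obtain ⟨c, hc⟩ := (Submodule.mem_span_range_iff_exists_fun (ZMod r)).mp hmem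
  set φ : parabolicHoms ℤ (Gamma0 N) ℤ := ∑ j, ((c j).cast : ℤ) • b j with hφ
  have hred : s16c_red N r φ = ⟨ψ, hψ⟩ := by
    rw [hφ, s16c_red_sum, ← hc]
    refine Finset.sum_congr rfl fun j _ => ?_
    rw [ZMod.intCast_zmod_cast]
  refine ⟨(φ : Additive (Gamma0 N) →+ ℤ), s16c_kills_P_of_parabolic φ.2, fun γ => ?_⟩
  rw [← s16c_red_apply, hred]

end Reduction

end Fermat.Agent.Lib.S16
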