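import Fermat.Agent.Lib.Period.ParDim

/-!
# S16 block (C)/(E): invariants of a permutation operator over an arbitrary field

For a group element `g` acting on a finite set `X` and ANY field `K`, the space of `g`-invariant
functions `X → K` has dimension the number of orbits of `⟨g⟩` on `X`.  Hence the dimension does
not depend on `K`, and the characteristic zero counts of `Lib/Period/ParDim.lean`
(`2 dim V^g = |X| + #Fix g` if `g²` acts trivially, `3 dim V^g = |X| + 2 #Fix g` if `g³` does)
hold over every field.
-/

set_option autoImplicit false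

namespace Fermat.Agent.Lib.S16

open Module Fermat.Agent.Lib.Period

section Perm

variable (K : Type*) [Field K] {G : Type*} [Group G] {X : Type*} [MulAction G X]

omit [Field K] in
/-- A function invariant under `g` is invariant under all integer powers of `g`. -/
theorem s16c_inv_zpow {v : X → K} {g : G} (hv : ∀ x, v (g • x) = v x) (n : ℤ) (x : X) :
    v (g ^ n • x) = v x := by
  have hinv : ∀ x, v (g⁻¹ • x) = v x := by
    intro x
    have := hv (g⁻¹ • x)
    rw [smul_inv_smul] at this
    exact this.symm
  induction n using Int.induction_on generalizing x with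
  | zero => rw [zpow_zero, one_smul]
  | succ n ih =>
    rw [zpow_add_one, mul_smul, ih, hv]
  | pred n ih =>
    rw [zpow_sub_one, mul_smul, ih, hinv]

/-- **Invariants of a permutation operator**: over any field, the dimension of the space of
`g`-invariant functions on a finite `G`-set is the number of orbits of `⟨g⟩`. -/
theorem s16c_finrank_ker_funLeft_sub_id [Fintype X] (g : G) :
    finrank K (LinearMap.ker
      (LinearMap.funLeft K K (fun x : X => g • x) - LinearMap.id : (X → K) →ₗ[K] (X → K))) =
      Nat.card (MulAction.orbitRel.Quotient (Subgroup.zpowers g) X) := by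
  classical
  set Ω := MulAction.orbitRel.Quotient (Subgroup.zpowers g) X with hΩ
  have : Fintype Ω := Fintype.ofFinite _
  set π : X → Ω := Quotient.mk'' with hπ
  have hπsurj : Function.Surjective π := Quotient.mk''_surjective
  have hπg : ∀ x : X, π (g • x) = π x := by
    intro x
    refine Quotient.sound' ?_
    exact ⟨⟨g, Subgroup.mem_zpowers g⟩, rfl⟩
  let ι : (Ω → K) →ₗ[K] (X → K) := LinearMap.funLeft K K π
  have hιinj : Function.Injective ι := LinearMap.funLeft_injective_of_surjective K K π hπsurj
  have hrange : LinearMap.range ι = LinearMap.ker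
      (LinearMap.funLeft K K (fun x : X => g • x) - LinearMap.id : (X → K) →ₗ[K] (X → K)) := by
    apply le_antisymm
    · rintro _ ⟨l, rfl⟩
      rw [LinearMap.mem_ker, LinearMap.sub_apply, LinearMap.id_apply, sub_eq_zero]
      funext x
      show l (π (g • x)) = l (π x)
      rw [hπg]
    · intro v hv
      rw [LinearMap.mem_ker, LinearMap.sub_apply, LinearMap.id_apply, sub_eq_zero] at hv
      have hv' : ∀ x, v (g • x) = v x := fun x => congrFun hv x
      have hlift : ∀ a b : X, (MulAction.orbitRel (Subgroup.zpowers g) X) a b → v a = v b := by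
        rintro a b ⟨⟨k, hk⟩, rfl⟩
        obtain ⟨n, rfl⟩ := Subgroup.mem_zpowers_iff.mp hk
        exact s16c_inv_zpow K hv' n b
      refine ⟨Quotient.lift v hlift, ?_⟩
      funext x
      rfl
  rw [← hrange, LinearMap.finrank_range_of_inj hιinj, Module.finrank_fintype_fun_eq_card,
    Nat.card_eq_fintype_card]

/-- If `g²` acts trivially then `2 dim_K V^g = |X| + #Fix(g)`, over any field `K`. -/
theorem s16c_two_mul_finrank_ker [Fintype X] (g : G) (hg : ∀ x : X, (g * g) • x = x) :
    2 * finrank K (LinearMap.ker
      (LinearMap.funLeft K K (fun x : X => g • x) - LinearMap.id : (X → K) →ₗ[K] (X → K))) =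
      Fintype.card X + Nat.card (MulAction.fixedBy X g) := by
  rw [s16c_finrank_ker_funLeft_sub_id, ← pmD_two_mul_finrank_ker g hg]
  congr 1
  exact (s16c_finrank_ker_funLeft_sub_id ℂ g).symm

/-- If `g³` acts trivially then `3 dim_K V^g = |X| + 2 #Fix(g)`, over any field `K`. -/
theorem s16c_three_mul_finrank_ker [Fintype X] (g : G) (hg : ∀ x : X, (g * g * g) • x = x) :
    3 * finrank K (LinearMap.ker
      (LinearMap.funLeft K K (fun x : X => g • x) - LinearMap.id : (X → K) →ₗ[K] (X → K))) =
      Fintype.card X + 2 * Nat.card (MulAction.fixedBy X g) := by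
  rw [s16c_finrank_ker_funLeft_sub_id, ← pmD_three_mul_finrank_ker g hg]
  congr 1
  exact (s16c_finrank_ker_funLeft_sub_id ℂ g).symm

end Perm

end Fermat.Agent.Lib.S16
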