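import Fermat.Agent.Lib.S16.CParDimK2
import Fermat.Agent.Lib.S16.CCount
import Fermat.Agent.Lib.S16.CPerm

/-!
# S16 block (C), part 4: `dim_K Y_K ≤ 2 g` for a field `K` in which `N` is invertible

Instantiation of the abstract bound `s16c_kabstract_bound` (`CParDimK2.lean`) at `G = SL(2, ℤ)`, `Γ = Γ₀(N)`,
`s = S`, `t = T`, following `Lib/Period/ParDim.lean`.
-/

set_option autoImplicit false

namespace Fermat.Agent.Lib.S16

open Module Matrix Matrix.SpecialLinearGroup CongruenceSubgroup ModularGroup ModularCurve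
  ModularCurve.Period Fermat.Agent.Lib.Period

open scoped MatrixGroups

section CocPow

variable (K : Type*) [Field K] {G : Type*} [Group G] (Γ : Subgroup G)

theorem s16c_coc_one (ψ : Additive Γ →+ K) : s16c_kcoc K Γ 1 ψ = 0 := by
  have h := s16c_kcoc_mul K Γ 1 1 ψ
  rw [mul_one, s16c_kP_one, LinearMap.id_apply] at h
  exact left_eq_add.mp h

/-- `c(tⁿ) = ∑_{j<n} c(t)·tʲ`. -/
theorem s16c_coc_pow (t : G) (n : ℕ) (ψ : Additive Γ →+ K) :
    s16c_kcoc K Γ (t ^ n) ψ = ∑ j ∈ Finset.range n, s16c_kP K (t ^ j) (s16c_kcoc K Γ t ψ) := by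
  induction n with
  | zero => rw [pow_zero, s16c_coc_one, Finset.range_zero, Finset.sum_empty]
  | succ n ih =>
    rw [pow_succ', s16c_kcoc_mul, Finset.sum_range_succ, ih, add_comm]

theorem s16c_norm_apply {X : Type*} [MulAction G X] (t : G) (n : ℕ) (v : X → K) :
    s16c_knorm K t n v = ∑ j ∈ Finset.range n, s16c_kP K (t ^ j) v := by
  rw [s16c_knorm, LinearMap.sum_apply]

end CocPow

section Concrete

variable (N : ℕ) (K : Type*) [Field K]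

theorem s16c_neg_one_mem_P : (⟨-1, pmD_neg_one_mem_Gamma0 N⟩ : Gamma0 N) ∈ s16c_P N := by
  left
  show ((-1 : SL(2, ℤ)) : Matrix (Fin 2) (Fin 2) ℤ).trace ^ 2 = 4
  rw [Matrix.SpecialLinearGroup.coe_neg, Matrix.SpecialLinearGroup.coe_one, Matrix.trace_neg,
    Matrix.trace_one]
  norm_num

theorem s16c_coc_neg_one {ψ : Additive (Gamma0 N) →+ K} (hψ : ψ ∈ s16c_Y N K) :
    s16c_kcoc K (Gamma0 N) (-1) ψ = 0 :=
  s16c_kcoc_central K (Gamma0 N) pmD_neg_one_central (pmD_neg_one_mem_Gamma0 N) ψ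
    (hψ _ (s16c_neg_one_mem_P N))

/-- Parabolicity: the norm of the Shapiro cocycle at `T` vanishes. -/
theorem s16c_hpar {ψ : Additive (Gamma0 N) →+ K} (hψ : ψ ∈ s16c_Y N K) :
    s16c_knorm K T N (s16c_kcoc K (Gamma0 N) T ψ) = 0 := by
  rw [s16c_norm_apply, ← s16c_coc_pow]
  funext x
  have hx : T ^ N • x = x := Fermat.Agent.Lib.RR.Cosets.T_pow_smul N x
  have hmem : x.out⁻¹ * T ^ N * x.out ∈ Gamma0 N := by
    have := (pmD_kappa (Gamma0 N) (T ^ N) x).2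
    simp only [pmD_kappa, hx] at this
    exact this
  rw [s16c_kcoc_apply_of_smul_eq K (Gamma0 N) hx ψ hmem, Pi.zero_apply]
  refine hψ _ (Or.inl ?_)
  show ((x.out⁻¹ * T ^ N * x.out : SL(2, ℤ)) : Matrix (Fin 2) (Fin 2) ℤ).trace ^ 2 = 4
  rw [pmD_trace_conj_T_pow]
  norm_num

/-- Torsion-killing: at a fixed point of an element `g` with `g ^ 12 = 1` the cocycle vanishes. -/
theorem s16c_hfix {ψ : Additive (Gamma0 N) →+ K} (hψ : ψ ∈ s16c_Y N K) {g : SL(2, ℤ)}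
    (hg : g ^ 12 = 1) (x : SL(2, ℤ) ⧸ Gamma0 N) (hx : g • x = x) :
    s16c_kcoc K (Gamma0 N) g ψ x = 0 := by
  have hmem : x.out⁻¹ * g * x.out ∈ Gamma0 N := by
    have := (pmD_kappa (Gamma0 N) g x).2
    simp only [pmD_kappa, hx] at this
    exact this
  rw [s16c_kcoc_apply_of_smul_eq K (Gamma0 N) hx ψ hmem]
  refine hψ _ (Or.inr ?_)
  show (⟨x.out⁻¹ * g * x.out, hmem⟩ : Gamma0 N) ^ 12 = 1
  apply Subtype.ext
  rw [SubmonoidClass.coe_pow, OneMemClass.coe_one]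
  show (x.out⁻¹ * g * x.out) ^ 12 = 1
  have : x.out⁻¹ * g * x.out = x.out⁻¹ * g * (x.out⁻¹)⁻¹ := by rw [inv_inv]
  rw [this, conj_pow, hg, mul_one, inv_inv, inv_mul_cancel]

theorem s16c_S_pow_twelve : (S : SL(2, ℤ)) ^ 12 = 1 := by
  have h : (S : SL(2, ℤ)) ^ 12 = ((S * S) * (S * S)) ^ 3 := by
    rw [← pow_two, ← pow_two, ← pow_mul, ← pow_mul]
  rw [h, pmD_S_mul_S, pmD_neg_one_sq, one_pow]

theorem s16c_ST_pow_twelve : (S * T : SL(2, ℤ)) ^ 12 = 1 := by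
  have h3 : (S * T : SL(2, ℤ)) ^ 3 = S * T * (S * T) * (S * T) := by
    rw [pow_succ, pow_two]
  have h : (S * T : SL(2, ℤ)) ^ 12 = (((S * T) ^ 3) * ((S * T) ^ 3)) ^ 2 := by
    rw [← pow_two, ← pow_mul, ← pow_mul]
  rw [h, h3, pmD_ST_cube, pmD_neg_one_sq, one_pow]

/-- **Dimension bound mod `r`**: `dim_K Y_K ≤ 2 g(X₀(N))` when `N` is invertible in `K`. -/
theorem s16c_finrank_Y_le [NeZero N] (hNK : (N : K) ≠ 0) :
    (finrank K (s16c_Y N K) : ℚ) ≤ 2 * genusFormula N := by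
  classical
  have : Fintype (SL(2, ℤ) ⧸ Gamma0 N) := Fintype.ofFinite _
  have hneg : ∀ x : SL(2, ℤ) ⧸ Gamma0 N, (-1 : SL(2, ℤ)) • x = x :=
    pmD_smul_eq_of_central (Gamma0 N) pmD_neg_one_central (pmD_neg_one_mem_Gamma0 N)
  have h := s16c_kabstract_bound K (Gamma0 N) S T SpecialLinearGroup.SL2Z_generators hNK
    (Fermat.Agent.Lib.RR.Cosets.T_pow_smul N)
    (fun x => by rw [pmD_S_mul_S]; exact hneg x)
    (fun x => by rw [pmD_ST_cube]; exact hneg x)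
    (s16c_Y N K)
    (fun ψ hψ => by rw [pmD_S_mul_S]; exact s16c_coc_neg_one N K hψ)
    (fun ψ hψ => by rw [pmD_ST_cube]; exact s16c_coc_neg_one N K hψ)
    (fun ψ hψ => s16c_hpar N K hψ)
    (fun ψ hψ x hx => s16c_hfix N K hψ s16c_S_pow_twelve x hx)
    (fun ψ hψ x hx => s16c_hfix N K hψ s16c_ST_pow_twelve x hx)
  have hS := s16c_two_mul_finrank_ker K (X := SL(2, ℤ) ⧸ Gamma0 N) S
    (fun x => by rw [pmD_S_mul_S]; exact hneg x)
  have hU := s16c_three_mul_finrank_ker K (X := SL(2, ℤ) ⧸ Gamma0 N) (S * T)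
    (fun x => by rw [pmD_ST_cube]; exact hneg x)
  rw [Fermat.Agent.Lib.RR.Cosets.card_fixedBy_S] at hS
  rw [Fermat.Agent.Lib.RR.Cosets.card_fixedBy_ST] at hU
  rw [Fermat.Agent.Lib.RR.Cosets.card_orbits_T] at h
  have hcard : Fintype.card (SL(2, ℤ) ⧸ Gamma0 N) = dedekindPsi N := by
    rw [← Nat.card_eq_fintype_card, Fermat.Agent.Lib.RR.Cosets.card_quotient_Gamma0]
  rw [hcard] at h hS hU
  have hq : (finrank K (s16c_Y N K) : ℚ) +
      (finrank K (LinearMap.ker (s16c_kP K S - LinearMap.id :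
        ((SL(2, ℤ) ⧸ Gamma0 N) → K) →ₗ[K] ((SL(2, ℤ) ⧸ Gamma0 N) → K))) : ℚ) +
      (finrank K (LinearMap.ker (s16c_kP K (S * T) - LinearMap.id :
        ((SL(2, ℤ) ⧸ Gamma0 N) → K) →ₗ[K] ((SL(2, ℤ) ⧸ Gamma0 N) → K))) : ℚ) +
      (cuspCount N : ℚ) ≤ (dedekindPsi N : ℚ) + 2 := by
    exact_mod_cast h
  have hSq : (2 : ℚ) * (finrank K (LinearMap.ker (s16c_kP K S - LinearMap.id :
        ((SL(2, ℤ) ⧸ Gamma0 N) → K) →ₗ[K] ((SL(2, ℤ) ⧸ Gamma0 N) → K))) : ℚ) =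
      (dedekindPsi N : ℚ) + (nuTwo N : ℚ) := by
    exact_mod_cast hS
  have hUq : (3 : ℚ) * (finrank K (LinearMap.ker (s16c_kP K (S * T) - LinearMap.id :
        ((SL(2, ℤ) ⧸ Gamma0 N) → K) →ₗ[K] ((SL(2, ℤ) ⧸ Gamma0 N) → K))) : ℚ) =
      (dedekindPsi N : ℚ) + 2 * (nuThree N : ℚ) := by
    exact_mod_cast hU
  rw [genusFormula]
  linarith

end Concrete

end Fermat.Agent.Lib.S16
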