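import Fermat.Agent.Lib.S16.CLift
import Fermat.Agent.Lib.S16.FLB

/-!
# S16: the lower bound `s16_IfaceLB p`, unconditionally

`s16c_ifaceLB p : s16_IfaceLB p` = helper6's `s16f_LB_of_exists_lift` applied to the lift of the
Shimura character `ψ = s16f_psi p : Γ₀(p) → ℤ/n` (`n = eisensteinNumerator p`, coprime to `p`)
given by the lifting theorem `s16c_lifting`.
-/

set_option autoImplicit false

namespace Fermat.Agent.Lib.S16

open CongruenceSubgroup ModularCurve ModularCurve.Period

variable (p : ℕ) [Fact p.Prime]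

theorem s16c_numerator_coprime : (eisensteinNumerator p).Coprime p := by
  have hp : p.Prime := Fact.out
  have hdvd : eisensteinNumerator p ∣ p - 1 := s16f_n_dvd_pred p
  have h1 : (p - 1).Coprime p := by
    have h2 : p - 1 + 1 = p := Nat.sub_add_cancel hp.one_le
    have h3 : (p - 1).Coprime (p - 1 + 1) := by
      rw [Nat.coprime_self_add_right]
      exact Nat.coprime_one_right _
    rwa [h2] at h3
  exact Nat.Coprime.coprime_dvd_left hdvd h1

/-- The Shimura character `ψ : Γ₀(p) → ℤ/n` lifts to a parabolic hom `Γ₀(p) → ℤ`. -/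
theorem s16c_exists_lift_psi :
    ∃ φ : Additive (Gamma0 p) →+ ℤ, IsParabolicHom (Gamma0 p) φ ∧
      ∀ γ : Gamma0 p, ((φ (Additive.ofMul γ) : ℤ) : ZMod (eisensteinNumerator p)) =
        s16f_psi p (Additive.ofMul γ) := by
  have : NeZero p := ⟨(Fact.out : p.Prime).ne_zero⟩
  exact s16c_lifting p (eisensteinNumerator p) (s16f_n_pos p) (s16c_numerator_coprime p)
    (s16f_psi p) (s16f_psi_parabolic p) (fun γ hγ => s16f_psi_torsion p γ hγ)

/-- **The lower bound (LB)**: an integer lying in the Eisenstein ideal of `𝕋` is divisible by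
`n = eisensteinNumerator p`. -/
theorem s16c_ifaceLB : s16_IfaceLB p :=
  s16f_LB_of_exists_lift p (s16c_exists_lift_psi p)

end Fermat.Agent.Lib.S16
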