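import Fermat.Agent.Lib.S16.CBound

/-!
# S16 block (C): the LIFTING THEOREM

A hom `ψ : Γ₀(N) → ℤ/m` (`m ≥ 1` coprime to `N`) killing the elements with `tr² = 4` and the
elements with `γ ^ 12 = 1` (in particular: killing all elements of finite order) is the reduction
mod `m` of a parabolic hom `Γ₀(N) → ℤ`.
-/

set_option autoImplicit false

namespace Fermat.Agent.Lib.S16

open Module CongruenceSubgroup ModularCurve ModularCurve.Period

open scoped MatrixGroups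

/-- **Lifting theorem**, torsion hypothesis in the form `γ ^ 12 = 1 → ψ γ = 0`. -/
theorem s16c_lifting (N : ℕ) [NeZero N] (m : ℕ) (hm0 : 0 < m) (hm : m.Coprime N)
    (ψ : Additive (Gamma0 N) →+ ZMod m) (hpar : IsParabolicHom (Gamma0 N) ψ)
    (htors : ∀ γ : Gamma0 N, γ ^ 12 = 1 → ψ (Additive.ofMul γ) = 0) :
    ∃ φ : Additive (Gamma0 N) →+ ℤ, IsParabolicHom (Gamma0 N) φ ∧
      ∀ γ : Gamma0 N, ((φ (Additive.ofMul γ) : ℤ) : ZMod m) = ψ (Additive.ofMul γ) := by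
  have hprime : ∀ r : ℕ, r.Prime → r ∣ m → s16c_ZLift (s16c_P N) r := by
    intro r hr hrm
    have : Fact r.Prime := ⟨hr⟩
    refine s16c_ZLift_prime N r (s16c_finrank_Y_le N (ZMod r) ?_)
    rw [Ne, ZMod.natCast_eq_zero_iff]
    intro hrN
    have h1 : r ∣ Nat.gcd m N := Nat.dvd_gcd hrm hrN
    rw [hm] at h1
    exact hr.one_lt.ne' (Nat.dvd_one.mp h1)
  obtain ⟨φ, hφP, hφ⟩ := s16c_ZLift_of_prime (s16c_P N) m hm0 hprime ψ (by
    rintro γ (hγ | hγ)
    · exact hpar γ hγ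
    · exact htors γ hγ)
  exact ⟨φ, fun γ hγ => hφP γ (Or.inl hγ), hφ⟩

/-- **Lifting theorem**, torsion hypothesis in the form "kills the elements of finite order". -/
theorem s16c_lifting' (N : ℕ) [NeZero N] (m : ℕ) (hm0 : 0 < m) (hm : m.Coprime N)
    (ψ : Additive (Gamma0 N) →+ ZMod m) (hpar : IsParabolicHom (Gamma0 N) ψ)
    (htors : ∀ γ : Gamma0 N, IsOfFinOrder γ → ψ (Additive.ofMul γ) = 0) :
    ∃ φ : Additive (Gamma0 N) →+ ℤ, IsParabolicHom (Gamma0 N) φ ∧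
      ∀ γ : Gamma0 N, ((φ (Additive.ofMul γ) : ℤ) : ZMod m) = ψ (Additive.ofMul γ) :=
  s16c_lifting N m hm0 hm ψ hpar fun γ hγ =>
    htors γ (isOfFinOrder_iff_pow_eq_one.mpr ⟨12, by norm_num, hγ⟩)

end Fermat.Agent.Lib.S16
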