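import Fermat.Agent.Lib.Period.ParDimAbstract

/-!
# The abstract dimension bound for "parabolic, torsion-killing" homomorphisms over any field

Port of `Lib/Period/ParDimAbstract.lean` (`pmD_abstract_bound`, over `ℂ`) to an arbitrary field
`K`.  `Γ ≤ G = ⟨s, t⟩` of finite index, `X = G ⧸ Γ`, `V = X → K`, `P g v = v ∘ (g • ·)`.

Differences with the complex case:
* the norm argument needs `(n : K) ≠ 0` where `tⁿ` acts trivially on `X`;
* the solutions `α` of `(P_s - 1) α = c_ψ(s)` and `β` of `(P_{st} - 1) β = c_ψ(st)` are no longer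
  `-c/2` and `-(2c + P c)/3`; instead one uses a partition of unity `e + P_s e = 1`
  (resp. `e + P_u e + P_u² e = 1`) off the fixed points and the extra hypotheses that the cocycle
  vanishes at the fixed points of `s` and `st` ("torsion-killing").

Main result: `s16c_kabstract_bound`.
-/

set_option autoImplicit false

namespace Fermat.Agent.Lib.S16

open Module Fermat.Agent.Lib.Period

section Shapiro

variable (K : Type*) [Field K] {G : Type*} [Group G] (Γ : Subgroup G)

/-- The permutation operator `v ↦ v ∘ (g • ·)` on functions on a `G`-set. -/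
def s16c_kP {X : Type*} [MulAction G X] (g : G) : (X → K) →ₗ[K] (X → K) :=
  LinearMap.funLeft K K (fun x => g • x)

@[simp] theorem s16c_kP_apply {X : Type*} [MulAction G X] (g : G) (v : X → K) (x : X) :
    s16c_kP K g v x = v (g • x) := rfl

theorem s16c_kP_mul {X : Type*} [MulAction G X] (g h : G) :
    (s16c_kP K (g * h) : (X → K) →ₗ[K] (X → K)) = s16c_kP K h ∘ₗ s16c_kP K g := by
  refine LinearMap.ext fun v => funext fun x => ?_
  simp [mul_smul]

theorem s16c_kP_one {X : Type*} [MulAction G X] :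
    (s16c_kP K (1 : G) : (X → K) →ₗ[K] (X → K)) = LinearMap.id := by
  refine LinearMap.ext fun v => funext fun x => ?_
  simp

/-- The explicit Shapiro cocycle attached to a homomorphism `ψ : Γ → K`, as a linear map in
`ψ`. -/
noncomputable def s16c_kcoc (g : G) : (Additive Γ →+ K) →ₗ[K] ((G ⧸ Γ) → K) where
  toFun ψ := fun x => ψ (Additive.ofMul (pmD_kappa Γ g x))
  map_add' _ _ := rfl
  map_smul' _ _ := rfl

theorem s16c_kcoc_apply (g : G) (ψ : Additive Γ →+ K) (x : G ⧸ Γ) :
    s16c_kcoc K Γ g ψ x = ψ (Additive.ofMul (pmD_kappa Γ g x)) := rfl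

/-- The cocycle identity `c(gh) = c(g)·h + c(h)`. -/
theorem s16c_kcoc_mul (g h : G) (ψ : Additive Γ →+ K) :
    s16c_kcoc K Γ (g * h) ψ = s16c_kP K h (s16c_kcoc K Γ g ψ) + s16c_kcoc K Γ h ψ := by
  funext x
  rw [Pi.add_apply, s16c_kP_apply, s16c_kcoc_apply, s16c_kcoc_apply, s16c_kcoc_apply,
    pmD_kappa_mul, ofMul_mul, map_add]

/-- On `Γ`, at the base coset, the cocycle recovers `ψ`. -/
theorem s16c_kcoc_base (γ : Γ) (ψ : Additive Γ →+ K) :
    s16c_kcoc K Γ (γ : G) ψ ((1 : G) : G ⧸ Γ) = ψ (Additive.ofMul γ) := by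
  have hfix : (γ : G) • ((1 : G) : G ⧸ Γ) = ((1 : G) : G ⧸ Γ) := by
    rw [MulAction.Quotient.smul_coe, smul_eq_mul, mul_one, QuotientGroup.eq, mul_one]
    exact Γ.inv_mem γ.2
  have hr : (((1 : G) : G ⧸ Γ).out : G) ∈ Γ := by
    have := QuotientGroup.out_eq' (((1 : G) : G ⧸ Γ))
    rw [QuotientGroup.eq] at this
    simpa using Γ.inv_mem this
  set r : Γ := ⟨_, hr⟩ with hrdef
  have hk : pmD_kappa Γ (γ : G) ((1 : G) : G ⧸ Γ) = r⁻¹ * γ * r := by
    apply Subtype.ext
    simp only [pmD_kappa, hfix, Subgroup.coe_mul, Subgroup.coe_inv, hrdef]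
  rw [s16c_kcoc_apply, hk, ofMul_mul, ofMul_mul, map_add, map_add, ofMul_inv, map_neg]
  ring

/-- The value of the Shapiro cocycle at an element fixing the coset `x`. -/
theorem s16c_kcoc_apply_of_smul_eq {g : G} {x : G ⧸ Γ} (hx : g • x = x) (ψ : Additive Γ →+ K)
    (hmem : x.out⁻¹ * g * x.out ∈ Γ) :
    s16c_kcoc K Γ g ψ x = ψ (Additive.ofMul (⟨x.out⁻¹ * g * x.out, hmem⟩ : Γ)) := by
  rw [s16c_kcoc_apply]
  congr 2
  apply Subtype.ext
  simp only [pmD_kappa, hx]

/-- The Shapiro cocycle vanishes on central elements of `Γ` killed by `ψ`. -/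
theorem s16c_kcoc_central {z : G} (hzc : ∀ g, g * z = z * g) (hzΓ : z ∈ Γ)
    (ψ : Additive Γ →+ K) (hψz : ψ (Additive.ofMul (⟨z, hzΓ⟩ : Γ)) = 0) :
    s16c_kcoc K Γ z ψ = 0 := by
  funext x
  have hk : pmD_kappa Γ z x = ⟨z, hzΓ⟩ := by
    apply Subtype.ext
    simp only [pmD_kappa, pmD_smul_eq_of_central Γ hzc hzΓ]
    rw [mul_assoc, ← hzc, inv_mul_cancel_left]
  rw [s16c_kcoc_apply, hk, Pi.zero_apply, hψz]

end Shapiro

section Cocycle

variable {K : Type*} [Field K] {G : Type*} [Group G] {X : Type*} [MulAction G X]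

/-- Right cocycles `G → (X → K)`: `c(gh) = c(g)·h + c(h)`. -/
def s16c_kIsCoc (c : G → X → K) : Prop := ∀ g h, c (g * h) = s16c_kP K h (c g) + c h

theorem s16c_kIsCoc.one {c : G → X → K} (hc : s16c_kIsCoc c) : c 1 = 0 := by
  have h := hc 1 1
  rw [mul_one, s16c_kP_one, LinearMap.id_apply] at h
  exact left_eq_add.mp h

theorem s16c_kIsCoc.inv {c : G → X → K} (hc : s16c_kIsCoc c) (g : G) :
    c g⁻¹ = -s16c_kP K g⁻¹ (c g) := by
  have h := hc g g⁻¹
  rw [mul_inv_cancel, hc.one] at h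
  exact eq_neg_of_add_eq_zero_right h.symm

theorem s16c_kIsCoc.sub {c c' : G → X → K} (hc : s16c_kIsCoc c) (hc' : s16c_kIsCoc c') :
    s16c_kIsCoc (fun g => c g - c' g) := by
  intro g h
  simp only [hc g h, hc' g h, map_sub]
  abel

/-- Coboundaries are cocycles. -/
theorem s16c_kisCoc_cob (v : X → K) : s16c_kIsCoc (fun g : G => s16c_kP K g v - v) := by
  intro g h
  simp only [s16c_kP_mul, LinearMap.comp_apply, map_sub]
  abel

/-- A cocycle vanishing on a generating set vanishes identically. -/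
theorem s16c_kIsCoc.eq_zero_of_closure {c : G → X → K} (hc : s16c_kIsCoc c) {s : Set G}
    (hs : Subgroup.closure s = ⊤) (h0 : ∀ g ∈ s, c g = 0) (g : G) : c g = 0 := by
  have hg : g ∈ Subgroup.closure s := by rw [hs]; trivial
  induction hg using Subgroup.closure_induction with
  | mem x hx => exact h0 x hx
  | one => exact hc.one
  | mul x y _ _ hx hy => rw [hc x y, hx, hy, map_zero, add_zero]
  | inv x _ hx => rw [hc.inv, hx, map_zero, neg_zero]

/-- `c(tⁿ) = ∑_{j<n} c(t)·tʲ`. -/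
theorem s16c_kIsCoc.pow {c : G → X → K} (hc : s16c_kIsCoc c) (t : G) (n : ℕ) :
    c (t ^ n) = ∑ j ∈ Finset.range n, s16c_kP K (t ^ j) (c t) := by
  induction n with
  | zero => rw [pow_zero, hc.one, Finset.range_zero, Finset.sum_empty]
  | succ n ih =>
    rw [pow_succ', hc t (t ^ n), Finset.sum_range_succ, ih, add_comm]

end Cocycle

section LinAlg

variable (K : Type*) [Field K] {G : Type*} [Group G] {X : Type*} [MulAction G X]

/-- The norm operator `∑_{j<n} P(tʲ)` of the cyclic group generated by `t`. -/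
def s16c_knorm (t : G) (n : ℕ) : (X → K) →ₗ[K] (X → K) := ∑ j ∈ Finset.range n, s16c_kP K (t ^ j)

theorem s16c_knorm_apply (t : G) (n : ℕ) (v : X → K) :
    s16c_knorm K t n v = ∑ j ∈ Finset.range n, s16c_kP K (t ^ j) v := by
  rw [s16c_knorm, LinearMap.sum_apply]

theorem s16c_kP_eq_id_of_smul {g : G} (hg : ∀ x : X, g • x = x) :
    (s16c_kP K g : (X → K) →ₗ[K] (X → K)) = LinearMap.id := by
  refine LinearMap.ext fun v => funext fun x => ?_
  rw [s16c_kP_apply, hg, LinearMap.id_apply]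

/-- `N_t ∘ P_t = N_t` when `tⁿ` acts trivially. -/
theorem s16c_knorm_P (t : G) (n : ℕ) (ht : ∀ x : X, t ^ n • x = x) (v : X → K) :
    s16c_knorm K t n (s16c_kP K t v) = s16c_knorm K t n v := by
  rw [s16c_knorm_apply, s16c_knorm_apply]
  have h1 : ∀ j, s16c_kP K (t ^ j) (s16c_kP K t v) = s16c_kP K (t ^ (j + 1)) v := by
    intro j
    rw [pow_succ', s16c_kP_mul, LinearMap.comp_apply]
  simp only [h1]
  have h2 := Finset.sum_range_succ' (fun j => s16c_kP K (t ^ j) v) n
  have h3 := Finset.sum_range_succ (fun j => s16c_kP K (t ^ j) v) n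
  rw [h3] at h2
  simp only [pow_zero, s16c_kP_one, LinearMap.id_apply, s16c_kP_eq_id_of_smul K ht] at h2
  exact (add_right_cancel h2).symm

theorem s16c_knorm_P_sub (t : G) (n : ℕ) (ht : ∀ x : X, t ^ n • x = x) (v : X → K) :
    s16c_knorm K t n (s16c_kP K t v - v) = 0 := by
  rw [map_sub, s16c_knorm_P K t n ht, sub_self]

/-- If a submodule contains `P_g u - u` for `g` in a generating set, it contains them all. -/
theorem s16c_kP_sub_mem_of_closure {s : Set G} (hs : Subgroup.closure s = ⊤)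
    (E : Submodule K (X → K)) (hE : ∀ g ∈ s, ∀ u : X → K, s16c_kP K g u - u ∈ E) (g : G)
    (u : X → K) : s16c_kP K g u - u ∈ E := by
  have hg : g ∈ Subgroup.closure s := by rw [hs]; trivial
  induction hg using Subgroup.closure_induction generalizing u with
  | mem x hx => exact hE x hx u
  | one => rw [s16c_kP_one, LinearMap.id_apply, sub_self]; exact E.zero_mem
  | mul x y _ _ hx hy =>
    rw [s16c_kP_mul, LinearMap.comp_apply]
    have := E.add_mem (hy (s16c_kP K x u)) (hx u)
    rwa [sub_add_sub_cancel] at this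
  | inv x _ hx =>
    have h1 : s16c_kP K x (s16c_kP K x⁻¹ u) = u := by
      rw [← LinearMap.comp_apply, ← s16c_kP_mul, inv_mul_cancel, s16c_kP_one, LinearMap.id_apply]
    have := E.neg_mem (hx (s16c_kP K x⁻¹ u))
    rwa [h1, neg_sub] at this

theorem s16c_kP_single [DecidableEq X] (g : G) (y : X) :
    s16c_kP K g (Pi.single y (1 : K)) = Pi.single (g⁻¹ • y) (1 : K) := by
  funext x
  rw [s16c_kP_apply, Pi.single_apply, Pi.single_apply]
  refine if_congr ?_ rfl rfl
  rw [eq_inv_smul_iff]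

/-- If `G` acts transitively, every function is a multiple of `δ_{x₀}` modulo the span of the
`P_g u - u`. -/
theorem s16c_kmem_sup_span [DecidableEq X] [Fintype X] [MulAction.IsPretransitive G X]
    (E : Submodule K (X → K)) (hE : ∀ (g : G) (u : X → K), s16c_kP K g u - u ∈ E) (x₀ : X)
    (v : X → K) : v ∈ E ⊔ Submodule.span K {(Pi.single x₀ (1 : K) : X → K)} := by
  have hsingle : ∀ x : X, (Pi.single x (1 : K) : X → K) ∈
      E ⊔ Submodule.span K {(Pi.single x₀ (1 : K) : X → K)} := by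
    intro x
    obtain ⟨g, rfl⟩ := MulAction.exists_smul_eq G x₀ x
    have h1 := hE g⁻¹ (Pi.single x₀ (1 : K))
    rw [s16c_kP_single, inv_inv] at h1
    have h2 : (Pi.single (g • x₀) (1 : K) : X → K) =
        (Pi.single (g • x₀) (1 : K) - Pi.single x₀ (1 : K)) + Pi.single x₀ (1 : K) := by abel
    rw [h2]
    exact Submodule.add_mem_sup h1 (Submodule.mem_span_singleton_self _)
  have hv : v = ∑ x, v x • (Pi.single x (1 : K) : X → K) := by
    funext y
    simp [Finset.sum_apply, Pi.single_apply]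
  rw [hv]
  exact Submodule.sum_mem _ fun x _ => Submodule.smul_mem _ _ (hsingle x)

/-- The number of orbits of `t` is at most the rank of the norm operator, if `n` is invertible
in `K`. -/
theorem s16c_kcard_orbits_le_finrank_range_norm [Finite X] (t : G) (n : ℕ) (hn : (n : K) ≠ 0) :
    Nat.card (MulAction.orbitRel.Quotient (Subgroup.zpowers t) X) ≤
      finrank K (LinearMap.range (s16c_knorm K t n : (X → K) →ₗ[K] (X → K))) := by
  classical
  set Ω := MulAction.orbitRel.Quotient (Subgroup.zpowers t) X with hΩ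
  have : Fintype Ω := Fintype.ofFinite _
  set π : X → Ω := Quotient.mk'' with hπ
  have hπsurj : Function.Surjective π := Quotient.mk''_surjective
  have hπt : ∀ (j : ℕ) (x : X), π (t ^ j • x) = π x := by
    intro j x
    refine Quotient.sound' ?_
    exact ⟨⟨t ^ j, Subgroup.pow_mem _ (Subgroup.mem_zpowers t) j⟩, rfl⟩
  let ι : (Ω → K) →ₗ[K] (X → K) := LinearMap.funLeft K K π
  have hιinj : Function.Injective ι := LinearMap.funLeft_injective_of_surjective K K π hπsurj
  have hle : LinearMap.range ι ≤ LinearMap.range (s16c_knorm K t n : (X → K) →ₗ[K] (X → K)) := by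
    rintro _ ⟨l, rfl⟩
    refine ⟨(n : K)⁻¹ • ι l, ?_⟩
    rw [map_smul, s16c_knorm_apply]
    have h1 : ∀ j ∈ Finset.range n, s16c_kP K (t ^ j) (ι l) = ι l := by
      intro j _
      funext x
      rw [s16c_kP_apply]
      show l (π (t ^ j • x)) = l (π x)
      rw [hπt]
    rw [Finset.sum_congr rfl h1, Finset.sum_const, Finset.card_range, ← Nat.cast_smul_eq_nsmul K,
      smul_smul, inv_mul_cancel₀ hn, one_smul]
  calc Nat.card Ω = finrank K (Ω → K) := by
        rw [Module.finrank_fintype_fun_eq_card, Nat.card_eq_fintype_card]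
    _ = finrank K (LinearMap.range ι) := (LinearMap.finrank_range_of_inj hιinj).symm
    _ ≤ _ := Submodule.finrank_mono hle

/-- **Main rank count**: if `s, t` generate `G`, `G` acts transitively on the finite set `X`,
`tⁿ` acts trivially and `n` is invertible in `K`, then
`dim ker (N_t ∘ (P_s - 1)) + #(t-orbits) ≤ |X| + 1`. -/
theorem s16c_kfinrank_ker_add_card_orbits_le [Fintype X] [MulAction.IsPretransitive G X]
    (s t : G) (hst : Subgroup.closure {s, t} = ⊤) (n : ℕ) (hn : (n : K) ≠ 0)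
    (ht : ∀ x : X, t ^ n • x = x) (x₀ : X) :
    finrank K (LinearMap.ker (s16c_knorm K t n ∘ₗ (s16c_kP K s - LinearMap.id) :
        (X → K) →ₗ[K] (X → K))) +
      Nat.card (MulAction.orbitRel.Quotient (Subgroup.zpowers t) X) ≤ Fintype.card X + 1 := by
  classical
  set D : (X → K) →ₗ[K] (X → K) := s16c_knorm K t n ∘ₗ (s16c_kP K s - LinearMap.id) with hD
  set E : Submodule K (X → K) :=
    LinearMap.range (s16c_kP K s - LinearMap.id : (X → K) →ₗ[K] (X → K)) ⊔
      LinearMap.range (s16c_kP K t - LinearMap.id : (X → K) →ₗ[K] (X → K)) with hEdef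
  have hE : ∀ (g : G) (u : X → K), s16c_kP K g u - u ∈ E := by
    refine s16c_kP_sub_mem_of_closure K hst E ?_
    intro g hg u
    rcases hg with rfl | hg
    · exact Submodule.mem_sup_left ⟨u, rfl⟩
    · rw [Set.mem_singleton_iff] at hg
      subst hg
      exact Submodule.mem_sup_right ⟨u, rfl⟩
  have htop := s16c_kmem_sup_span K E hE x₀
  have hrange : LinearMap.range (s16c_knorm K t n : (X → K) →ₗ[K] (X → K)) ≤
      LinearMap.range D ⊔ Submodule.span K {s16c_knorm K t n (Pi.single x₀ (1 : K))} := by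
    rintro _ ⟨v, rfl⟩
    obtain ⟨e, he, w, hw, rfl⟩ := Submodule.mem_sup.mp (htop v)
    obtain ⟨e₁, ⟨u₁, rfl⟩, e₂, ⟨u₂, rfl⟩, rfl⟩ := Submodule.mem_sup.mp he
    obtain ⟨k, rfl⟩ := Submodule.mem_span_singleton.mp hw
    have h2 : s16c_knorm K t n ((s16c_kP K t - LinearMap.id : (X → K) →ₗ[K] (X → K)) u₂) = 0 := by
      rw [LinearMap.sub_apply, LinearMap.id_apply]
      exact s16c_knorm_P_sub K t n ht u₂
    rw [map_add, map_add, h2, add_zero, map_smul]
    exact Submodule.add_mem_sup ⟨u₁, rfl⟩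
      (Submodule.smul_mem _ _ (Submodule.mem_span_singleton_self _))
  have h1 := s16c_kcard_orbits_le_finrank_range_norm K (X := X) t n hn
  have h2 := Submodule.finrank_mono hrange
  have h3 := Submodule.finrank_add_le_finrank_add_finrank (LinearMap.range D)
    (Submodule.span K {s16c_knorm K t n (Pi.single x₀ (1 : K))})
  have h4 : finrank K (Submodule.span K {s16c_knorm K t n (Pi.single x₀ (1 : K))}) ≤ 1 := by
    have := finrank_span_le_card (R := K)
      ({s16c_knorm K t n (Pi.single x₀ (1 : K))} : Set (X → K))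
    simpa using this
  have h5 := LinearMap.finrank_range_add_finrank_ker D
  rw [Module.finrank_fintype_fun_eq_card] at h5
  omega

end LinAlg

section Bound

variable (K : Type*) [Field K] {G : Type*} [Group G] (Γ : Subgroup G)

theorem s16c_kisCoc_coc (ψ : Additive Γ →+ K) : s16c_kIsCoc (fun g => s16c_kcoc K Γ g ψ) :=
  fun g h => s16c_kcoc_mul K Γ g h ψ

/-- A homomorphism whose Shapiro cocycle is a coboundary is zero. -/
theorem s16c_keq_zero_of_coc_eq_cob {ψ : Additive Γ →+ K} {y : (G ⧸ Γ) → K}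
    (h : ∀ g : G, s16c_kcoc K Γ g ψ = s16c_kP K g y - y) : ψ = 0 := by
  refine AddMonoidHom.ext fun γ => ?_
  obtain ⟨γ, rfl⟩ : ∃ γ' : Γ, Additive.ofMul γ' = γ := ⟨Additive.toMul γ, rfl⟩
  rw [← s16c_kcoc_base, h, AddMonoidHom.zero_apply, Pi.sub_apply, s16c_kP_apply]
  have hfix : (γ : G) • ((1 : G) : G ⧸ Γ) = ((1 : G) : G ⧸ Γ) := by
    rw [MulAction.Quotient.smul_coe, smul_eq_mul, mul_one, QuotientGroup.eq, mul_one]
    exact Γ.inv_mem γ.2
  rw [hfix, sub_self]

/-- `Hom(Γ, K)` embeds into `V × V` via the values of the Shapiro cocycle on two generators. -/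
theorem s16c_kcoc_pair_injective (s t : G) (hst : Subgroup.closure {s, t} = ⊤) :
    Function.Injective ((s16c_kcoc K Γ s).prod (s16c_kcoc K Γ t)) := by
  rw [← LinearMap.ker_eq_bot, LinearMap.ker_eq_bot']
  intro ψ hψ
  rw [LinearMap.prod_apply, Prod.ext_iff] at hψ
  change s16c_kcoc K Γ s ψ = 0 ∧ s16c_kcoc K Γ t ψ = 0 at hψ
  refine s16c_keq_zero_of_coc_eq_cob K Γ (y := 0) fun g => ?_
  rw [map_zero, sub_zero]
  refine (s16c_kisCoc_coc K Γ ψ).eq_zero_of_closure hst ?_ g
  intro g hg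
  rcases hg with rfl | hg
  · exact hψ.1
  · rw [Set.mem_singleton_iff] at hg
    subst hg
    exact hψ.2

theorem s16c_kfinite_hom [Finite (G ⧸ Γ)] (s t : G) (hst : Subgroup.closure {s, t} = ⊤) :
    Module.Finite K (Additive Γ →+ K) :=
  Module.Finite.of_injective _ (s16c_kcoc_pair_injective K Γ s t hst)

variable (s t : G)

/-- `α_ψ = P_s e · P_s c_ψ(s)`: a solution of `(P_s - 1) α = c_ψ(s)` when `e + P_s e = 1` off the
fixed points of `s`. -/
noncomputable def s16c_kalpha (e : (G ⧸ Γ) → K) : (Additive Γ →+ K) →ₗ[K] ((G ⧸ Γ) → K) where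
  toFun ψ := fun x => e (s • x) * s16c_kcoc K Γ s ψ (s • x)
  map_add' ψ ψ' := by
    funext x
    simp only [map_add, Pi.add_apply]
    ring
  map_smul' c ψ := by
    funext x
    simp only [map_smul, Pi.smul_apply, smul_eq_mul, RingHom.id_apply]
    ring

/-- `β_ψ = P_u² e · P_u² b + P_u e · (P_u b + P_u² b)`, `u = s t`, `b = c_ψ(u)`: a solution of
`(P_u - 1) β = c_ψ(u)` when `e + P_u e + P_u² e = 1` off the fixed points of `u`. -/
noncomputable def s16c_kbeta (e : (G ⧸ Γ) → K) : (Additive Γ →+ K) →ₗ[K] ((G ⧸ Γ) → K) where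
  toFun ψ := fun x =>
    e ((s * t) • (s * t) • x) * s16c_kcoc K Γ (s * t) ψ ((s * t) • (s * t) • x) +
      e ((s * t) • x) * (s16c_kcoc K Γ (s * t) ψ ((s * t) • x) +
        s16c_kcoc K Γ (s * t) ψ ((s * t) • (s * t) • x))
  map_add' ψ ψ' := by
    funext x
    simp only [map_add, Pi.add_apply]
    ring
  map_smul' c ψ := by
    funext x
    simp only [map_smul, Pi.smul_apply, smul_eq_mul, RingHom.id_apply]
    ring

theorem s16c_kalpha_spec {e : (G ⧸ Γ) → K}
    (he : ∀ x : G ⧸ Γ, s • x ≠ x → e x + e (s • x) = 1)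
    (hs2 : ∀ x : G ⧸ Γ, (s * s) • x = x) {ψ : Additive Γ →+ K}
    (h : s16c_kcoc K Γ (s * s) ψ = 0)
    (hfs : ∀ x : G ⧸ Γ, s • x = x → s16c_kcoc K Γ s ψ x = 0) :
    s16c_kP K s (s16c_kalpha K Γ s e ψ) - s16c_kalpha K Γ s e ψ = s16c_kcoc K Γ s ψ := by
  rw [s16c_kcoc_mul] at h
  funext x
  have hss : s • s • x = x := by rw [← mul_smul]; exact hs2 x
  have hb : s16c_kcoc K Γ s ψ (s • x) = -s16c_kcoc K Γ s ψ x := by
    have := congrFun h x
    rw [Pi.add_apply, s16c_kP_apply, Pi.zero_apply] at this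
    exact eq_neg_of_add_eq_zero_left this
  show e (s • s • x) * s16c_kcoc K Γ s ψ (s • s • x) - e (s • x) * s16c_kcoc K Γ s ψ (s • x) = _
  rw [hss, hb]
  by_cases hx : s • x = x
  · rw [hfs x hx]; ring
  · have := he x hx
    linear_combination (s16c_kcoc K Γ s ψ x) * this

theorem s16c_kbeta_spec {e : (G ⧸ Γ) → K}
    (he : ∀ x : G ⧸ Γ, (s * t) • x ≠ x →
      e x + e ((s * t) • x) + e ((s * t) • (s * t) • x) = 1)
    (hu3 : ∀ x : G ⧸ Γ, (s * t * (s * t) * (s * t)) • x = x) {ψ : Additive Γ →+ K}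
    (h : s16c_kcoc K Γ (s * t * (s * t) * (s * t)) ψ = 0)
    (hfu : ∀ x : G ⧸ Γ, (s * t) • x = x → s16c_kcoc K Γ (s * t) ψ x = 0) :
    s16c_kP K (s * t) (s16c_kbeta K Γ s t e ψ) - s16c_kbeta K Γ s t e ψ =
      s16c_kcoc K Γ (s * t) ψ := by
  rw [s16c_kcoc_mul, s16c_kcoc_mul, map_add] at h
  funext x
  set u := s * t with hu
  have huuu : u • u • u • x = x := by
    have := hu3 x
    rwa [mul_smul, mul_smul] at this
  have hb : s16c_kcoc K Γ u ψ (u • u • x) + s16c_kcoc K Γ u ψ (u • x) +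
      s16c_kcoc K Γ u ψ x = 0 := by
    have := congrFun h x
    simpa only [Pi.add_apply, s16c_kP_apply, Pi.zero_apply] using this
  show (e (u • u • u • x) * s16c_kcoc K Γ u ψ (u • u • u • x) +
      e (u • u • x) * (s16c_kcoc K Γ u ψ (u • u • x) + s16c_kcoc K Γ u ψ (u • u • u • x))) -
    (e (u • u • x) * s16c_kcoc K Γ u ψ (u • u • x) +
      e (u • x) * (s16c_kcoc K Γ u ψ (u • x) + s16c_kcoc K Γ u ψ (u • u • x))) = _
  rw [huuu]
  by_cases hx : u • x = x
  · have h0 := hfu x hx
    rw [hx, hx, h0]; ring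
  · have := he x hx
    linear_combination (s16c_kcoc K Γ u ψ x) * this - (e (u • x)) * hb

/-- The class `w_ψ = α_ψ - β_ψ`. -/
noncomputable def s16c_kw (es eu : (G ⧸ Γ) → K) : (Additive Γ →+ K) →ₗ[K] ((G ⧸ Γ) → K) :=
  s16c_kalpha K Γ s es - s16c_kbeta K Γ s t eu

theorem s16c_knorm_w {n : ℕ} (ht : ∀ x : G ⧸ Γ, t ^ n • x = x) {ψ : Additive Γ →+ K}
    {es eu : (G ⧸ Γ) → K}
    (hA : s16c_kP K s (s16c_kalpha K Γ s es ψ) - s16c_kalpha K Γ s es ψ = s16c_kcoc K Γ s ψ)
    (hB : s16c_kP K (s * t) (s16c_kbeta K Γ s t eu ψ) - s16c_kbeta K Γ s t eu ψ =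
      s16c_kcoc K Γ (s * t) ψ)
    (hpar : s16c_knorm K t n (s16c_kcoc K Γ t ψ) = 0) :
    s16c_knorm K t n (s16c_kP K s (s16c_kw K Γ s t es eu ψ) - s16c_kw K Γ s t es eu ψ) = 0 := by
  have hcoc := s16c_kcoc_mul K Γ s t ψ
  rw [s16c_kP_mul, LinearMap.comp_apply] at hB
  set β := s16c_kbeta K Γ s t eu ψ with hβ
  set α := s16c_kalpha K Γ s es ψ with hα
  have h1 : s16c_kP K s (s16c_kw K Γ s t es eu ψ) - s16c_kw K Γ s t es eu ψ =
      s16c_kcoc K Γ s ψ - (s16c_kP K s β - β) := by
    rw [s16c_kw, LinearMap.sub_apply, ← hA, map_sub]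
    abel
  have h2 : s16c_kP K t (s16c_kcoc K Γ s ψ) =
      s16c_kP K t (s16c_kP K s β) - β - s16c_kcoc K Γ t ψ := by
    rw [hB, hcoc]; abel
  rw [h1, map_sub, ← s16c_knorm_P K t n ht (s16c_kcoc K Γ s ψ), h2, map_sub, map_sub, map_sub,
    hpar, s16c_knorm_P K t n ht]
  abel

/-- A function on a `G`-set fixed by a generating set is fixed by every element. -/
theorem s16c_kP_eq_self_of_closure {X : Type*} [MulAction G X] {gens : Set G}
    (hs : Subgroup.closure gens = ⊤) {p : X → K} (hp : ∀ g ∈ gens, s16c_kP K g p = p) (g : G) :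
    s16c_kP K g p = p := by
  have hg : g ∈ Subgroup.closure gens := by rw [hs]; trivial
  induction hg using Subgroup.closure_induction with
  | mem x hx => exact hp x hx
  | one => rw [s16c_kP_one, LinearMap.id_apply]
  | mul x y _ _ hx hy => rw [s16c_kP_mul, LinearMap.comp_apply, hx, hy]
  | inv x _ hx =>
    conv_lhs => rw [← hx]
    rw [← LinearMap.comp_apply, ← s16c_kP_mul, mul_inv_cancel, s16c_kP_one, LinearMap.id_apply]

theorem s16c_kker_aux (hst : Subgroup.closure {s, t} = ⊤) {ψ : Additive Γ →+ K}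
    {es eu : (G ⧸ Γ) → K}
    (hA : s16c_kP K s (s16c_kalpha K Γ s es ψ) - s16c_kalpha K Γ s es ψ = s16c_kcoc K Γ s ψ)
    (hB : s16c_kP K (s * t) (s16c_kbeta K Γ s t eu ψ) - s16c_kbeta K Γ s t eu ψ =
      s16c_kcoc K Γ (s * t) ψ)
    (hα0 : ψ = 0 → s16c_kalpha K Γ s es ψ = 0) (hβ0 : ψ = 0 → s16c_kbeta K Γ s t eu ψ = 0)
    {p q : (G ⧸ Γ) → K} (hp : s16c_kP K s p = p) (hq : s16c_kP K (s * t) q = q)
    (h : s16c_kw K Γ s t es eu ψ + p + q = 0) :
    ψ = 0 ∧ ∀ x, p x = p ((1 : G) : G ⧸ Γ) := by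
  rw [s16c_kw, LinearMap.sub_apply] at h
  set β := s16c_kbeta K Γ s t eu ψ with hβ
  set α := s16c_kalpha K Γ s es ψ with hα
  have hy : β - q = α + p := by
    linear_combination (norm := module) -h
  have hcoc : s16c_kIsCoc (fun g => s16c_kcoc K Γ g ψ - (s16c_kP K g (β - q) - (β - q))) :=
    (s16c_kisCoc_coc K Γ ψ).sub (s16c_kisCoc_cob (β - q))
  have h_u : s16c_kcoc K Γ (s * t) ψ - (s16c_kP K (s * t) (β - q) - (β - q)) = 0 := by
    rw [map_sub, hq, ← hB]; abel
  have h_s : s16c_kcoc K Γ s ψ - (s16c_kP K s (β - q) - (β - q)) = 0 := by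
    rw [hy, map_add, hp, ← hA]; abel
  have h_t : s16c_kcoc K Γ t ψ - (s16c_kP K t (β - q) - (β - q)) = 0 := by
    have := hcoc s t
    simp only [h_u, h_s, map_zero, zero_add] at this
    exact this.symm
  have hzero : ∀ g : G, s16c_kcoc K Γ g ψ - (s16c_kP K g (β - q) - (β - q)) = 0 := by
    refine hcoc.eq_zero_of_closure hst ?_
    intro g hg
    rcases hg with rfl | hg
    · exact h_s
    · rw [Set.mem_singleton_iff] at hg
      subst hg
      exact h_t
  have hψ : ψ = 0 :=
    s16c_keq_zero_of_coc_eq_cob K Γ (y := β - q) fun g => sub_eq_zero.mp (hzero g)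
  refine ⟨hψ, ?_⟩
  have hα0' : α = 0 := hα0 hψ
  have hβ0' : β = 0 := hβ0 hψ
  have hqp : q = -p := by
    rw [hα0', hβ0'] at hy
    linear_combination (norm := module) -hy
  have hpu : s16c_kP K (s * t) p = p := by
    have := hq
    rw [hqp, map_neg, neg_inj] at this
    exact this
  have hpt : s16c_kP K t p = p := by
    rw [s16c_kP_mul, LinearMap.comp_apply, hp] at hpu
    exact hpu
  have hall : ∀ g : G, s16c_kP K g p = p := by
    refine s16c_kP_eq_self_of_closure K hst ?_
    intro g hg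
    rcases hg with rfl | hg
    · exact hp
    · rw [Set.mem_singleton_iff] at hg
      subst hg
      exact hpt
  intro x
  induction x using QuotientGroup.induction_on with
  | H g =>
    have := congrFun (hall g) ((1 : G) : G ⧸ Γ)
    rw [s16c_kP_apply, MulAction.Quotient.smul_coe, smul_eq_mul, mul_one] at this
    exact this

theorem s16c_kfinrank_ker_le_one {M M' : Type*} [AddCommGroup M] [Module K M] [AddCommGroup M']
    [Module K M'] (Φ : M →ₗ[K] M') (ev : M →ₗ[K] K)
    (h : ∀ a, Φ a = 0 → ev a = 0 → a = 0) : finrank K (LinearMap.ker Φ) ≤ 1 := by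
  have hinj : Function.Injective (ev.domRestrict (LinearMap.ker Φ)) := by
    refine LinearMap.ker_eq_bot.mp (LinearMap.ker_eq_bot'.mpr ?_)
    rintro ⟨a, ha⟩ h0
    exact Subtype.ext (h a (LinearMap.mem_ker.mp ha) h0)
  have := LinearMap.finrank_le_finrank_of_injective hinj
  rwa [Module.finrank_self] at this

/-- Partition of unity for an involution: `e + P_s e = 1` off the fixed points. -/
theorem s16c_kexists_e_two {X : Type*} [MulAction G X] [Finite X] (g : G)
    (hg : ∀ x : X, (g * g) • x = x) :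
    ∃ e : X → K, ∀ x : X, g • x ≠ x → e x + e (g • x) = 1 := by
  classical
  obtain ⟨f, hf⟩ := Countable.exists_injective_nat X
  refine ⟨fun x => if f x < f (g • x) then 1 else 0, fun x hx => ?_⟩
  have hgg : g • g • x = x := by rw [← mul_smul]; exact hg x
  have hne : f (g • x) ≠ f x := fun h => hx (hf h)
  simp only [hgg]
  rcases lt_or_gt_of_ne hne with h | h
  · rw [if_neg (not_lt.mpr h.le), if_pos h, zero_add]
  · rw [if_pos h, if_neg (not_lt.mpr h.le), add_zero]

/-- Partition of unity for an element of order three: `e + P_u e + P_u² e = 1` off the fixed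
points. -/
theorem s16c_kexists_e_three {X : Type*} [MulAction G X] [Finite X] (g : G)
    (hg : ∀ x : X, (g * g * g) • x = x) :
    ∃ e : X → K, ∀ x : X, g • x ≠ x → e x + e (g • x) + e (g • g • x) = 1 := by
  classical
  obtain ⟨f, hf⟩ := Countable.exists_injective_nat X
  refine ⟨fun x => if f x < f (g • x) ∧ f x < f (g • g • x) then 1 else 0, fun x hx => ?_⟩
  have hggg : g • g • g • x = x := by
    have := hg x
    rwa [mul_smul, mul_smul] at this
  have h01 : f (g • x) ≠ f x := fun h => hx (hf h)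
  have h12 : f (g • g • x) ≠ f (g • x) := fun h => hx ((MulAction.injective g) (hf h))
  have h02 : f (g • g • x) ≠ f x := by
    intro h
    have h1 : g • g • x = x := hf h
    apply hx
    have h2 : g • g • g • x = g • x := by rw [h1]
    rw [hggg] at h2
    exact h2.symm
  have key : ∀ a b c : ℕ, b ≠ a → c ≠ b → c ≠ a →
      ((if a < b ∧ a < c then (1 : K) else 0) + (if b < c ∧ b < a then 1 else 0) +
        (if c < a ∧ c < b then 1 else 0)) = 1 := by
    intro a b c h1 h2 h3
    by_cases p1 : a < b ∧ a < c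
    · have p2 : ¬ (b < c ∧ b < a) := by omega
      have p3 : ¬ (c < a ∧ c < b) := by omega
      rw [if_pos p1, if_neg p2, if_neg p3]; ring
    · by_cases p2 : b < c ∧ b < a
      · have p3 : ¬ (c < a ∧ c < b) := by omega
        rw [if_neg p1, if_pos p2, if_neg p3]; ring
      · have p3 : c < a ∧ c < b := by omega
        rw [if_neg p1, if_neg p2, if_pos p3]; ring
  simp only [hggg]
  exact key (f x) (f (g • x)) (f (g • g • x)) h01 h12 h02

end Bound

end Fermat.Agent.Lib.S16
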