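import Fermat.Agent.Lib.S16.CParDimK

set_option autoImplicit false

namespace Fermat.Agent.Lib.S16

open Module Fermat.Agent.Lib.Period

section Bound

variable (K : Type*) [Field K] {G : Type*} [Group G] (Γ : Subgroup G) (s t : G)

theorem s16c_kfinrank_ker_le_one' {A B : Type*} [AddCommGroup A] [Module K A] [AddCommGroup B]
    [Module K B] (H : Submodule K A) (VS VU : Submodule K B)
    (Φ : (H × (VS × VU)) →ₗ[K] B) (ev : (H × (VS × VU)) →ₗ[K] K)
    (h : ∀ a, Φ a = 0 → ev a = 0 → a = 0) : finrank K (LinearMap.ker Φ) ≤ 1 :=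
  s16c_kfinrank_ker_le_one K Φ ev h

theorem s16c_kfinrank_range_add_ker' {A B : Type*} [AddCommGroup A] [Module K A]
    [AddCommGroup B] [Module K B] (H : Submodule K A) (VS VU : Submodule K B)
    [Module.Finite K H] [Module.Finite K VS] [Module.Finite K VU]
    (Φ : (H × (VS × VU)) →ₗ[K] B) :
    finrank K (LinearMap.range Φ) + finrank K (LinearMap.ker Φ) =
      finrank K H + (finrank K VS + finrank K VU) := by
  rw [LinearMap.finrank_range_add_finrank_ker Φ, Module.finrank_prod, Module.finrank_prod]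

/-- **Abstract dimension bound** for "parabolic, torsion-killing" homomorphisms over any field
in which `n` is invertible. -/
theorem s16c_kabstract_bound [Fintype (G ⧸ Γ)] (hst : Subgroup.closure {s, t} = ⊤) {n : ℕ}
    (hnK : (n : K) ≠ 0) (ht : ∀ x : G ⧸ Γ, t ^ n • x = x)
    (hs2 : ∀ x : G ⧸ Γ, (s * s) • x = x)
    (hu3 : ∀ x : G ⧸ Γ, (s * t * (s * t) * (s * t)) • x = x)
    (H : Submodule K (Additive Γ →+ K))
    (hzs : ∀ ψ ∈ H, s16c_kcoc K Γ (s * s) ψ = 0)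
    (hzu : ∀ ψ ∈ H, s16c_kcoc K Γ (s * t * (s * t) * (s * t)) ψ = 0)
    (hpar : ∀ ψ ∈ H, s16c_knorm K t n (s16c_kcoc K Γ t ψ) = 0)
    (hfs : ∀ ψ ∈ H, ∀ x : G ⧸ Γ, s • x = x → s16c_kcoc K Γ s ψ x = 0)
    (hfu : ∀ ψ ∈ H, ∀ x : G ⧸ Γ, (s * t) • x = x → s16c_kcoc K Γ (s * t) ψ x = 0) :
    finrank K H +
        finrank K (LinearMap.ker
          (s16c_kP K s - LinearMap.id : ((G ⧸ Γ) → K) →ₗ[K] ((G ⧸ Γ) → K))) +
        finrank K (LinearMap.ker
          (s16c_kP K (s * t) - LinearMap.id : ((G ⧸ Γ) → K) →ₗ[K] ((G ⧸ Γ) → K))) +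
        Nat.card (MulAction.orbitRel.Quotient (Subgroup.zpowers t) (G ⧸ Γ)) ≤
      Fintype.card (G ⧸ Γ) + 2 := by
  classical
  have hfin : Module.Finite K (Additive Γ →+ K) := s16c_kfinite_hom K Γ s t hst
  obtain ⟨es, hes⟩ := s16c_kexists_e_two K (X := G ⧸ Γ) s hs2
  obtain ⟨eu, heu⟩ := s16c_kexists_e_three K (X := G ⧸ Γ) (s * t) hu3
  have hA : ∀ ψ ∈ H, s16c_kP K s (s16c_kalpha K Γ s es ψ) - s16c_kalpha K Γ s es ψ =
      s16c_kcoc K Γ s ψ := fun ψ hψ =>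
    s16c_kalpha_spec K Γ s hes hs2 (hzs ψ hψ) (hfs ψ hψ)
  have hB : ∀ ψ ∈ H, s16c_kP K (s * t) (s16c_kbeta K Γ s t eu ψ) - s16c_kbeta K Γ s t eu ψ =
      s16c_kcoc K Γ (s * t) ψ := fun ψ hψ =>
    s16c_kbeta_spec K Γ s t heu hu3 (hzu ψ hψ) (hfu ψ hψ)
  set VS := LinearMap.ker
    (s16c_kP K s - LinearMap.id : ((G ⧸ Γ) → K) →ₗ[K] ((G ⧸ Γ) → K)) with hVS
  set VU := LinearMap.ker
    (s16c_kP K (s * t) - LinearMap.id : ((G ⧸ Γ) → K) →ₗ[K] ((G ⧸ Γ) → K)) with hVU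
  set D : ((G ⧸ Γ) → K) →ₗ[K] ((G ⧸ Γ) → K) :=
    s16c_knorm K t n ∘ₗ (s16c_kP K s - LinearMap.id) with hD
  obtain ⟨Φ, hΦ⟩ : ∃ Φ : (H × (VS × VU)) →ₗ[K] ((G ⧸ Γ) → K), ∀ a : H × (VS × VU),
      Φ a = s16c_kw K Γ s t es eu (a.1 : Additive Γ →+ K) +
        ((a.2.1 : (G ⧸ Γ) → K) + (a.2.2 : (G ⧸ Γ) → K)) :=
    ⟨(s16c_kw K Γ s t es eu ∘ₗ H.subtype).coprod (VS.subtype.coprod VU.subtype), fun a => rfl⟩
  have hmemS : ∀ p : VS, s16c_kP K s (p : (G ⧸ Γ) → K) = p := by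
    intro p
    have := LinearMap.mem_ker.mp p.2
    rw [LinearMap.sub_apply, LinearMap.id_apply, sub_eq_zero] at this
    exact this
  have hmemU : ∀ q : VU, s16c_kP K (s * t) (q : (G ⧸ Γ) → K) = q := by
    intro q
    have := LinearMap.mem_ker.mp q.2
    rw [LinearMap.sub_apply, LinearMap.id_apply, sub_eq_zero] at this
    exact this
  -- the range of `Φ` lies in `ker D`
  have hrange : LinearMap.range Φ ≤ LinearMap.ker D := by
    rintro _ ⟨a, rfl⟩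
    rw [LinearMap.mem_ker, hΦ, hD, LinearMap.comp_apply, LinearMap.sub_apply, LinearMap.id_apply,
      map_add, map_add, add_sub_add_comm, add_sub_add_comm, map_add, map_add,
      s16c_knorm_w K Γ s t ht (hA _ a.1.2) (hB _ a.1.2) (hpar _ a.1.2), hmemS, sub_self,
      map_zero, zero_add, zero_add]
    have hq := hmemU a.2.2
    rw [s16c_kP_mul, LinearMap.comp_apply] at hq
    have : s16c_knorm K t n (s16c_kP K s (a.2.2 : (G ⧸ Γ) → K)) =
        s16c_knorm K t n (a.2.2 : (G ⧸ Γ) → K) := by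
      conv_rhs => rw [← hq]
      rw [s16c_knorm_P K t n ht]
    rw [map_sub, this, sub_self]
  -- the kernel of `Φ` is at most one-dimensional
  have hker : finrank K (LinearMap.ker Φ) ≤ 1 := by
    refine s16c_kfinrank_ker_le_one' K H VS VU Φ
      ((LinearMap.proj ((1 : G) : G ⧸ Γ) : ((G ⧸ Γ) → K) →ₗ[K] K) ∘ₗ VS.subtype ∘ₗ
        (LinearMap.fst K VS VU) ∘ₗ (LinearMap.snd K H (VS × VU))) ?_
    intro a ha h0
    change (a.2.1 : (G ⧸ Γ) → K) ((1 : G) : G ⧸ Γ) = 0 at h0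
    rw [hΦ, ← add_assoc] at ha
    obtain ⟨hψ, hconst⟩ := s16c_kker_aux K Γ s t hst (hA _ a.1.2) (hB _ a.1.2)
      (fun h => by rw [h, map_zero]) (fun h => by rw [h, map_zero]) (hmemS a.2.1)
      (hmemU a.2.2) ha
    have hp0 : (a.2.1 : (G ⧸ Γ) → K) = 0 := by
      funext x
      rw [hconst x]
      exact h0
    rw [hψ, map_zero, hp0, zero_add, zero_add] at ha
    apply Prod.ext
    · exact Subtype.ext hψ
    · apply Prod.ext
      · exact Subtype.ext hp0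
      · exact Subtype.ext ha
  have h1 := s16c_kfinrank_range_add_ker' K H VS VU Φ
  have h2 := Submodule.finrank_mono hrange
  have h3 : finrank K (LinearMap.ker D) +
      Nat.card (MulAction.orbitRel.Quotient (Subgroup.zpowers t) (G ⧸ Γ)) ≤
        Fintype.card (G ⧸ Γ) + 1 :=
    s16c_kfinrank_ker_add_card_orbits_le K (X := G ⧸ Γ) s t hst n hnK ht ((1 : G) : G ⧸ Γ)
  omega

end Bound

end Fermat.Agent.Lib.S16
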