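import Fermat.Agent.Lib.Period.ParDimAbstract
import Fermat.Agent.Lib.RR.G1Perm

/-!
# S16 package (E): the abstract dimension bound for "parabolic" homomorphisms over any field

This generalises `Lib/Period/ParDimAbstract` (`pmD_abstract_bound`, stated over `ℂ`) to an
arbitrary field `K`.  The divisions by `2`, `3` and `n` of the complex proof are replaced by

* orbit-wise solutions of `(P_s - 1) α = c(s)` and `(P_u - 1) β = c(u)` (`u = s t`), which exist as
  soon as the cocycle vanishes at the fixed points of `s` resp. `u` (the "torsion-killing"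
  hypotheses `hfs`, `hfu`), and
* the hypothesis `(n : K) ≠ 0` for the exponent `n` with `tⁿ` acting trivially.

Main statements: `s16e_abstract_bound`, `s16e_two_mul_finrank_ker`, `s16e_three_mul_finrank_ker`,
`s16e_finrank_ker_eq_card_orbits`.
-/

set_option autoImplicit false

namespace Fermat.Agent.Lib.S16

open Module Fermat.Agent.Lib.Period

variable (K : Type*) [Field K]

section Shapiro

variable {G : Type*} [Group G] (Γ : Subgroup G)

/-- The permutation operator `v ↦ v ∘ (g • ·)` on `K`-valued functions on a `G`-set. -/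
def s16e_P {X : Type*} [MulAction G X] (g : G) : (X → K) →ₗ[K] (X → K) :=
  LinearMap.funLeft K K (fun x => g • x)

@[simp] theorem s16e_P_apply {X : Type*} [MulAction G X] (g : G) (v : X → K) (x : X) :
    s16e_P K g v x = v (g • x) := rfl

theorem s16e_P_mul {X : Type*} [MulAction G X] (g h : G) :
    (s16e_P K (g * h) : (X → K) →ₗ[K] (X → K)) = s16e_P K h ∘ₗ s16e_P K g := by
  refine LinearMap.ext fun v => funext fun x => ?_
  simp [mul_smul]

theorem s16e_P_one {X : Type*} [MulAction G X] :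
    (s16e_P K (1 : G) : (X → K) →ₗ[K] (X → K)) = LinearMap.id := by
  refine LinearMap.ext fun v => funext fun x => ?_
  simp

/-- The explicit Shapiro cocycle attached to a homomorphism `ψ : Γ → K`, as a linear map in
`ψ`: `c_ψ(g)(x) = ψ(r(g x)⁻¹ g r(x))`. -/
noncomputable def s16e_coc (g : G) : (Additive Γ →+ K) →ₗ[K] ((G ⧸ Γ) → K) where
  toFun ψ := fun x => ψ (Additive.ofMul (pmD_kappa Γ g x))
  map_add' _ _ := rfl
  map_smul' _ _ := rfl

theorem s16e_coc_apply (g : G) (ψ : Additive Γ →+ K) (x : G ⧸ Γ) :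
    s16e_coc K Γ g ψ x = ψ (Additive.ofMul (pmD_kappa Γ g x)) := rfl

/-- The cocycle identity `c(gh) = c(g)·h + c(h)`. -/
theorem s16e_coc_mul (g h : G) (ψ : Additive Γ →+ K) :
    s16e_coc K Γ (g * h) ψ = s16e_P K h (s16e_coc K Γ g ψ) + s16e_coc K Γ h ψ := by
  funext x
  rw [Pi.add_apply, s16e_P_apply, s16e_coc_apply, s16e_coc_apply, s16e_coc_apply, pmD_kappa_mul,
    ofMul_mul, map_add]

/-- On `Γ`, at the base coset, the cocycle recovers `ψ`. -/
theorem s16e_coc_base (γ : Γ) (ψ : Additive Γ →+ K) :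
    s16e_coc K Γ (γ : G) ψ ((1 : G) : G ⧸ Γ) = ψ (Additive.ofMul γ) := by
  have hfix : (γ : G) • ((1 : G) : G ⧸ Γ) = ((1 : G) : G ⧸ Γ) := by
    rw [MulAction.Quotient.smul_coe, smul_eq_mul, mul_one, QuotientGroup.eq, mul_one]
    exact Γ.inv_mem γ.2
  have hr : (((1 : G) : G ⧸ Γ).out : G) ∈ Γ := by
    have := QuotientGroup.out_eq' (((1 : G) : G ⧸ Γ))
    rw [QuotientGroup.eq] at this
    simpa using Γ.inv_mem this
  set r : Γ := ⟨_, hr⟩ with hrdef
  have hk : pmD_kappa Γ (γ : G) ((1 : G) : G ⧸ Γ) = r⁻¹ * γ * r := by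
    apply Subtype.ext
    simp only [pmD_kappa, hfix, Subgroup.coe_mul, Subgroup.coe_inv, hrdef]
  rw [s16e_coc_apply, hk, ofMul_mul, ofMul_mul, map_add, map_add, ofMul_inv, map_neg]
  ring

end Shapiro


section Cocycle

variable {G : Type*} [Group G] {X : Type*} [MulAction G X]

/-- Right cocycles `G → (X → K)`: `c(gh) = c(g)·h + c(h)`. -/
def s16e_IsCoc (c : G → X → K) : Prop := ∀ g h, c (g * h) = s16e_P K h (c g) + c h

variable {K}

theorem s16e_IsCoc.one {c : G → X → K} (hc : s16e_IsCoc K c) : c 1 = 0 := by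
  have h := hc 1 1
  rw [mul_one, s16e_P_one, LinearMap.id_apply] at h
  exact left_eq_add.mp h

theorem s16e_IsCoc.inv {c : G → X → K} (hc : s16e_IsCoc K c) (g : G) :
    c g⁻¹ = -s16e_P K g⁻¹ (c g) := by
  have h := hc g g⁻¹
  rw [mul_inv_cancel, hc.one] at h
  exact eq_neg_of_add_eq_zero_right h.symm

theorem s16e_IsCoc.sub {c c' : G → X → K} (hc : s16e_IsCoc K c) (hc' : s16e_IsCoc K c') :
    s16e_IsCoc K (fun g => c g - c' g) := by
  intro g h
  simp only [hc g h, hc' g h, map_sub]
  abel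

/-- Coboundaries are cocycles. -/
theorem s16e_isCoc_cob (v : X → K) : s16e_IsCoc K (fun g : G => s16e_P K g v - v) := by
  intro g h
  simp only [s16e_P_mul, LinearMap.comp_apply, map_sub]
  abel

/-- A cocycle vanishing on a generating set vanishes identically. -/
theorem s16e_IsCoc.eq_zero_of_closure {c : G → X → K} (hc : s16e_IsCoc K c) {s : Set G}
    (hs : Subgroup.closure s = ⊤) (h0 : ∀ g ∈ s, c g = 0) (g : G) : c g = 0 := by
  have hg : g ∈ Subgroup.closure s := by rw [hs]; trivial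
  induction hg using Subgroup.closure_induction with
  | mem x hx => exact h0 x hx
  | one => exact hc.one
  | mul x y _ _ hx hy => rw [hc x y, hx, hy, map_zero, add_zero]
  | inv x _ hx => rw [hc.inv, hx, map_zero, neg_zero]

/-- `c(tⁿ) = ∑_{j<n} c(t)·tʲ`. -/
theorem s16e_IsCoc.pow {c : G → X → K} (hc : s16e_IsCoc K c) (t : G) (n : ℕ) :
    c (t ^ n) = ∑ j ∈ Finset.range n, s16e_P K (t ^ j) (c t) := by
  induction n with
  | zero => rw [pow_zero, hc.one, Finset.range_zero, Finset.sum_empty]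
  | succ n ih =>
    rw [pow_succ', hc t (t ^ n), Finset.sum_range_succ, ih, add_comm]

end Cocycle

section LinAlg

variable {G : Type*} [Group G] {X : Type*} [MulAction G X]

/-- The norm operator `∑_{j<n} P(tʲ)` of the cyclic group generated by `t`. -/
def s16e_norm (t : G) (n : ℕ) : (X → K) →ₗ[K] (X → K) := ∑ j ∈ Finset.range n, s16e_P K (t ^ j)

theorem s16e_norm_apply (t : G) (n : ℕ) (v : X → K) :
    s16e_norm K t n v = ∑ j ∈ Finset.range n, s16e_P K (t ^ j) v := by
  rw [s16e_norm, LinearMap.sum_apply]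

theorem s16e_P_eq_id_of_smul {g : G} (hg : ∀ x : X, g • x = x) :
    (s16e_P K g : (X → K) →ₗ[K] (X → K)) = LinearMap.id := by
  refine LinearMap.ext fun v => funext fun x => ?_
  rw [s16e_P_apply, hg, LinearMap.id_apply]

/-- `N_t ∘ P_t = N_t` when `tⁿ` acts trivially. -/
theorem s16e_norm_P (t : G) (n : ℕ) (ht : ∀ x : X, t ^ n • x = x) (v : X → K) :
    s16e_norm K t n (s16e_P K t v) = s16e_norm K t n v := by
  rw [s16e_norm_apply, s16e_norm_apply]
  have h1 : ∀ j, s16e_P K (t ^ j) (s16e_P K t v) = s16e_P K (t ^ (j + 1)) v := by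
    intro j
    rw [pow_succ', s16e_P_mul, LinearMap.comp_apply]
  simp only [h1]
  have h2 := Finset.sum_range_succ' (fun j => s16e_P K (t ^ j) v) n
  have h3 := Finset.sum_range_succ (fun j => s16e_P K (t ^ j) v) n
  rw [h3] at h2
  simp only [pow_zero, s16e_P_one, LinearMap.id_apply, s16e_P_eq_id_of_smul K ht] at h2
  exact (add_right_cancel h2).symm

theorem s16e_norm_P_sub (t : G) (n : ℕ) (ht : ∀ x : X, t ^ n • x = x) (v : X → K) :
    s16e_norm K t n (s16e_P K t v - v) = 0 := by
  rw [map_sub, s16e_norm_P K t n ht, sub_self]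

/-- If a submodule contains `P_g u - u` for `g` in a generating set, it contains them all. -/
theorem s16e_P_sub_mem_of_closure {s : Set G} (hs : Subgroup.closure s = ⊤)
    (E : Submodule K (X → K)) (hE : ∀ g ∈ s, ∀ u : X → K, s16e_P K g u - u ∈ E) (g : G)
    (u : X → K) : s16e_P K g u - u ∈ E := by
  have hg : g ∈ Subgroup.closure s := by rw [hs]; trivial
  induction hg using Subgroup.closure_induction generalizing u with
  | mem x hx => exact hE x hx u
  | one => rw [s16e_P_one, LinearMap.id_apply, sub_self]; exact E.zero_mem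
  | mul x y _ _ hx hy =>
    rw [s16e_P_mul, LinearMap.comp_apply]
    have := E.add_mem (hy (s16e_P K x u)) (hx u)
    rwa [sub_add_sub_cancel] at this
  | inv x _ hx =>
    have h1 : s16e_P K x (s16e_P K x⁻¹ u) = u := by
      rw [← LinearMap.comp_apply, ← s16e_P_mul, inv_mul_cancel, s16e_P_one, LinearMap.id_apply]
    have := E.neg_mem (hx (s16e_P K x⁻¹ u))
    rwa [h1, neg_sub] at this

theorem s16e_P_single [DecidableEq X] (g : G) (y : X) :
    s16e_P K g (Pi.single y (1 : K)) = Pi.single (g⁻¹ • y) (1 : K) := by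
  funext x
  rw [s16e_P_apply, Pi.single_apply, Pi.single_apply]
  refine if_congr ?_ rfl rfl
  rw [eq_inv_smul_iff]

/-- If `G` acts transitively, every function is a multiple of `δ_{x₀}` modulo the span of the
`P_g u - u`. -/
theorem s16e_mem_sup_span [DecidableEq X] [Fintype X] [MulAction.IsPretransitive G X]
    (E : Submodule K (X → K)) (hE : ∀ (g : G) (u : X → K), s16e_P K g u - u ∈ E) (x₀ : X)
    (v : X → K) : v ∈ E ⊔ Submodule.span K {(Pi.single x₀ (1 : K) : X → K)} := by
  have hsingle : ∀ x : X, (Pi.single x (1 : K) : X → K) ∈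
      E ⊔ Submodule.span K {(Pi.single x₀ (1 : K) : X → K)} := by
    intro x
    obtain ⟨g, rfl⟩ := MulAction.exists_smul_eq G x₀ x
    have h1 := hE g⁻¹ (Pi.single x₀ (1 : K))
    rw [s16e_P_single, inv_inv] at h1
    have h2 : (Pi.single (g • x₀) (1 : K) : X → K) =
        (Pi.single (g • x₀) (1 : K) - Pi.single x₀ (1 : K)) + Pi.single x₀ (1 : K) := by abel
    rw [h2]
    exact Submodule.add_mem_sup h1 (Submodule.mem_span_singleton_self _)
  have hv : v = ∑ x, v x • (Pi.single x (1 : K) : X → K) := by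
    funext y
    simp [Finset.sum_apply, Pi.single_apply]
  rw [hv]
  exact Submodule.sum_mem _ fun x _ => Submodule.smul_mem _ _ (hsingle x)

/-- The number of orbits of `t` is at most the rank of the norm operator, if `n` is invertible
in `K`. -/
theorem s16e_card_orbits_le_finrank_range_norm [Finite X] (t : G) (n : ℕ) (hn : (n : K) ≠ 0) :
    Nat.card (MulAction.orbitRel.Quotient (Subgroup.zpowers t) X) ≤
      finrank K (LinearMap.range (s16e_norm K t n : (X → K) →ₗ[K] (X → K))) := by
  classical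
  set Ω := MulAction.orbitRel.Quotient (Subgroup.zpowers t) X with hΩ
  have : Fintype Ω := Fintype.ofFinite _
  set π : X → Ω := Quotient.mk'' with hπ
  have hπsurj : Function.Surjective π := Quotient.mk''_surjective
  have hπt : ∀ (j : ℕ) (x : X), π (t ^ j • x) = π x := by
    intro j x
    refine Quotient.sound' ?_
    exact ⟨⟨t ^ j, Subgroup.pow_mem _ (Subgroup.mem_zpowers t) j⟩, rfl⟩
  let ι : (Ω → K) →ₗ[K] (X → K) := LinearMap.funLeft K K π
  have hιinj : Function.Injective ι := LinearMap.funLeft_injective_of_surjective K K π hπsurj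
  have hle : LinearMap.range ι ≤ LinearMap.range (s16e_norm K t n : (X → K) →ₗ[K] (X → K)) := by
    rintro _ ⟨l, rfl⟩
    refine ⟨(n : K)⁻¹ • ι l, ?_⟩
    rw [map_smul, s16e_norm_apply]
    have h1 : ∀ j ∈ Finset.range n, s16e_P K (t ^ j) (ι l) = ι l := by
      intro j _
      funext x
      rw [s16e_P_apply]
      show l (π (t ^ j • x)) = l (π x)
      rw [hπt]
    rw [Finset.sum_congr rfl h1, Finset.sum_const, Finset.card_range, ← Nat.cast_smul_eq_nsmul K,
      smul_smul, inv_mul_cancel₀ hn, one_smul]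
  calc Nat.card Ω = finrank K (Ω → K) := by
        rw [Module.finrank_fintype_fun_eq_card, Nat.card_eq_fintype_card]
    _ = finrank K (LinearMap.range ι) := (LinearMap.finrank_range_of_inj hιinj).symm
    _ ≤ _ := Submodule.finrank_mono hle

/-- **Main rank count**: if `s, t` generate `G`, `G` acts transitively on the finite set `X`,
`tⁿ` acts trivially and `n` is invertible in `K`, then
`dim ker (N_t ∘ (P_s - 1)) + #(t-orbits) ≤ |X| + 1`. -/
theorem s16e_finrank_ker_add_card_orbits_le [Fintype X] [MulAction.IsPretransitive G X] (s t : G)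
    (hst : Subgroup.closure {s, t} = ⊤) (n : ℕ) (hn : (n : K) ≠ 0) (ht : ∀ x : X, t ^ n • x = x)
    (x₀ : X) :
    finrank K (LinearMap.ker (s16e_norm K t n ∘ₗ (s16e_P K s - LinearMap.id) :
        (X → K) →ₗ[K] (X → K))) +
      Nat.card (MulAction.orbitRel.Quotient (Subgroup.zpowers t) X) ≤ Fintype.card X + 1 := by
  classical
  set D : (X → K) →ₗ[K] (X → K) := s16e_norm K t n ∘ₗ (s16e_P K s - LinearMap.id) with hD
  set E : Submodule K (X → K) :=
    LinearMap.range (s16e_P K s - LinearMap.id : (X → K) →ₗ[K] (X → K)) ⊔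
      LinearMap.range (s16e_P K t - LinearMap.id : (X → K) →ₗ[K] (X → K)) with hEdef
  have hE : ∀ (g : G) (u : X → K), s16e_P K g u - u ∈ E := by
    refine s16e_P_sub_mem_of_closure K hst E ?_
    intro g hg u
    rcases hg with rfl | hg
    · exact Submodule.mem_sup_left ⟨u, rfl⟩
    · rw [Set.mem_singleton_iff] at hg
      subst hg
      exact Submodule.mem_sup_right ⟨u, rfl⟩
  have htop := s16e_mem_sup_span K E hE x₀
  have hrange : LinearMap.range (s16e_norm K t n : (X → K) →ₗ[K] (X → K)) ≤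
      LinearMap.range D ⊔ Submodule.span K {s16e_norm K t n (Pi.single x₀ (1 : K))} := by
    rintro _ ⟨v, rfl⟩
    obtain ⟨e, he, w, hw, rfl⟩ := Submodule.mem_sup.mp (htop v)
    obtain ⟨e₁, ⟨u₁, rfl⟩, e₂, ⟨u₂, rfl⟩, rfl⟩ := Submodule.mem_sup.mp he
    obtain ⟨k, rfl⟩ := Submodule.mem_span_singleton.mp hw
    have h2 : s16e_norm K t n ((s16e_P K t - LinearMap.id : (X → K) →ₗ[K] (X → K)) u₂) = 0 := by
      rw [LinearMap.sub_apply, LinearMap.id_apply]
      exact s16e_norm_P_sub K t n ht u₂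
    rw [map_add, map_add, h2, add_zero, map_smul]
    exact Submodule.add_mem_sup ⟨u₁, rfl⟩
      (Submodule.smul_mem _ _ (Submodule.mem_span_singleton_self _))
  have h1 := s16e_card_orbits_le_finrank_range_norm K (X := X) t n hn
  have h2 := Submodule.finrank_mono hrange
  have h3 := Submodule.finrank_add_le_finrank_add_finrank (LinearMap.range D)
    (Submodule.span K {s16e_norm K t n (Pi.single x₀ (1 : K))})
  have h4 : finrank K (Submodule.span K {s16e_norm K t n (Pi.single x₀ (1 : K))}) ≤ 1 := by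
    have := finrank_span_le_card (R := K) ({s16e_norm K t n (Pi.single x₀ (1 : K))} : Set (X → K))
    simpa using this
  have h5 := LinearMap.finrank_range_add_finrank_ker D
  rw [Module.finrank_fintype_fun_eq_card] at h5
  omega

end LinAlg

section Orbits

variable {G : Type*} [Group G] {X : Type*} [MulAction G X]

/-- A chosen representative of the orbit of `x` under the cyclic group generated by `g`. -/
noncomputable def s16e_rep (g : G) (x : X) : X :=
  (Quotient.mk'' x : MulAction.orbitRel.Quotient (Subgroup.zpowers g) X).out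

theorem s16e_rep_smul (g : G) (x : X) : s16e_rep g (g • x) = s16e_rep g x := by
  unfold s16e_rep
  congr 1
  refine Quotient.sound' ?_
  exact ⟨⟨g, Subgroup.mem_zpowers g⟩, rfl⟩

theorem s16e_exists_zpow_smul_rep (g : G) (x : X) : ∃ j : ℤ, g ^ j • s16e_rep g x = x := by
  have h : (Quotient.mk'' (s16e_rep g x) : MulAction.orbitRel.Quotient (Subgroup.zpowers g) X) =
      Quotient.mk'' x := Quotient.out_eq' _
  have h' := Quotient.exact' h
  obtain ⟨⟨k, hk⟩, hkx⟩ := h'
  obtain ⟨j, rfl⟩ := Subgroup.mem_zpowers_iff.mp hk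
  refine ⟨-j, ?_⟩
  have : (g ^ j) • x = s16e_rep g x := hkx
  rw [← this, ← mul_smul, ← zpow_add, neg_add_cancel, zpow_zero, one_smul]

theorem s16e_zpow_smul_of_sq (g : G) (hg : ∀ x : X, (g * g) • x = x) (y : X) (j : ℤ) :
    g ^ j • y = y ∨ g ^ j • y = g • y := by
  induction j using Int.induction_on with
  | zero => left; rw [zpow_zero, one_smul]
  | succ i ih =>
    have hstep : g ^ ((i : ℤ) + 1) • y = g • (g ^ (i : ℤ) • y) := by
      rw [← mul_smul, ← zpow_one_add, add_comm]
    rcases ih with h | h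
    · right; rw [hstep, h]
    · left; rw [hstep, h, ← mul_smul, hg]
  | pred i ih =>
    have hinv : ∀ z : X, g⁻¹ • z = g • z := by
      intro z
      rw [inv_smul_eq_iff, ← mul_smul, hg]
    have hstep : g ^ (-(i : ℤ) - 1) • y = g • (g ^ (-(i : ℤ)) • y) := by
      rw [← hinv, ← mul_smul, ← zpow_neg_one, ← zpow_add]
      congr 2
      ring
    rcases ih with h | h
    · right; rw [hstep, h]
    · left; rw [hstep, h, ← mul_smul, hg]

theorem s16e_zpow_smul_of_cube (g : G) (hg : ∀ x : X, (g * g * g) • x = x) (y : X) (j : ℤ) :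
    g ^ j • y = y ∨ g ^ j • y = g • y ∨ g ^ j • y = g • g • y := by
  have hggg : ∀ z : X, g • g • g • z = z := by
    intro z
    rw [← mul_smul, ← mul_smul, hg]
  induction j using Int.induction_on with
  | zero => left; rw [zpow_zero, one_smul]
  | succ i ih =>
    have hstep : g ^ ((i : ℤ) + 1) • y = g • (g ^ (i : ℤ) • y) := by
      rw [← mul_smul, ← zpow_one_add, add_comm]
    rcases ih with h | h | h
    · right; left; rw [hstep, h]
    · right; right; rw [hstep, h]
    · left; rw [hstep, h, hggg]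
  | pred i ih =>
    have hinv : ∀ z : X, g⁻¹ • z = g • g • z := by
      intro z
      rw [inv_smul_eq_iff, hggg]
    have hstep : g ^ (-(i : ℤ) - 1) • y = g • g • (g ^ (-(i : ℤ)) • y) := by
      rw [← hinv, ← mul_smul, ← zpow_neg_one, ← zpow_add]
      congr 2
      ring
    rcases ih with h | h | h
    · right; right; rw [hstep, h]
    · left; rw [hstep, h, hggg]
    · right; left; rw [hstep, h, hggg]

end Orbits

section Solve

variable {G : Type*} [Group G] {X : Type*} [MulAction G X]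

open Classical in
/-- Orbit-wise "integration" for an element acting as an involution: a linear map `ρ` with
`P_g (ρ c) - ρ c = c` whenever `c` has vanishing orbit sums. -/
noncomputable def s16e_rho2 (g : G) : (X → K) →ₗ[K] (X → K) where
  toFun c := fun x => if x = s16e_rep g x then 0 else c (s16e_rep g x)
  map_add' c c' := by
    funext x
    by_cases h : x = s16e_rep g x
    · simp only [Pi.add_apply, if_pos h, add_zero]
    · simp only [Pi.add_apply, if_neg h]
  map_smul' a c := by
    funext x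
    by_cases h : x = s16e_rep g x
    · simp only [Pi.smul_apply, if_pos h, smul_zero, RingHom.id_apply]
    · simp only [Pi.smul_apply, if_neg h, RingHom.id_apply]

theorem s16e_rho2_spec (g : G) (hg : ∀ x : X, (g * g) • x = x) (c : X → K)
    (hsum : ∀ x, c (g • x) + c x = 0) (hfix : ∀ x, g • x = x → c x = 0) :
    s16e_P K g (s16e_rho2 K g c) - s16e_rho2 K g c = c := by
  classical
  funext x
  rw [Pi.sub_apply, s16e_P_apply]
  show (if g • x = s16e_rep g (g • x) then 0 else c (s16e_rep g (g • x))) -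
    (if x = s16e_rep g x then 0 else c (s16e_rep g x)) = c x
  rw [s16e_rep_smul]
  set y := s16e_rep g x with hy
  by_cases hxy : x = y
  · rw [if_pos hxy]
    by_cases hgx : g • x = y
    · rw [if_pos hgx, sub_zero]
      exact (hfix x (hgx.trans hxy.symm)).symm
    · rw [if_neg hgx, sub_zero, ← hxy]
  · rw [if_neg hxy]
    obtain ⟨j, hj⟩ := s16e_exists_zpow_smul_rep g x
    rw [← hy] at hj
    have hx : x = g • y := by
      rcases s16e_zpow_smul_of_sq g hg y j with h | h
      · exact absurd (hj.symm.trans h) hxy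
      · exact hj.symm.trans h
    have hgx : g • x = y := by rw [hx, ← mul_smul, hg]
    rw [if_pos hgx, zero_sub]
    have := hsum x
    rw [hgx] at this
    linear_combination -this

open Classical in
/-- Orbit-wise "integration" for an element acting with order three. -/
noncomputable def s16e_rho3 (g : G) : (X → K) →ₗ[K] (X → K) where
  toFun c := fun x => if x = s16e_rep g x then 0 else
    if x = g • s16e_rep g x then c (s16e_rep g x) else c (s16e_rep g x) + c (g • s16e_rep g x)
  map_add' c c' := by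
    funext x
    by_cases h : x = s16e_rep g x
    · simp only [Pi.add_apply, if_pos h, add_zero]
    · by_cases h' : x = g • s16e_rep g x
      · simp only [Pi.add_apply, if_neg h, if_pos h']
      · simp only [Pi.add_apply, if_neg h, if_neg h']
        abel
  map_smul' a c := by
    funext x
    by_cases h : x = s16e_rep g x
    · simp only [Pi.smul_apply, if_pos h, smul_zero, RingHom.id_apply]
    · by_cases h' : x = g • s16e_rep g x
      · simp only [Pi.smul_apply, if_neg h, if_pos h', RingHom.id_apply]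
      · simp only [Pi.smul_apply, if_neg h, if_neg h', RingHom.id_apply, smul_add]

theorem s16e_rho3_spec (g : G) (hg : ∀ x : X, (g * g * g) • x = x) (c : X → K)
    (hsum : ∀ x, c (g • g • x) + c (g • x) + c x = 0) (hfix : ∀ x, g • x = x → c x = 0) :
    s16e_P K g (s16e_rho3 K g c) - s16e_rho3 K g c = c := by
  classical
  have hggg : ∀ z : X, g • g • g • z = z := by
    intro z
    rw [← mul_smul, ← mul_smul, hg]
  funext x
  rw [Pi.sub_apply, s16e_P_apply]
  show (if g • x = s16e_rep g (g • x) then 0 else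
      if g • x = g • s16e_rep g (g • x) then c (s16e_rep g (g • x)) else
        c (s16e_rep g (g • x)) + c (g • s16e_rep g (g • x))) -
    (if x = s16e_rep g x then 0 else
      if x = g • s16e_rep g x then c (s16e_rep g x) else
        c (s16e_rep g x) + c (g • s16e_rep g x)) = c x
  rw [s16e_rep_smul]
  set y := s16e_rep g x with hy
  by_cases hxy : x = y
  · rw [if_pos hxy]
    by_cases hgx : g • x = y
    · rw [if_pos hgx, sub_zero]
      exact (hfix x (hgx.trans hxy.symm)).symm
    · rw [if_neg hgx, if_pos (by rw [← hxy]), sub_zero, ← hxy]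
  · rw [if_neg hxy]
    obtain ⟨j, hj⟩ := s16e_exists_zpow_smul_rep g x
    rw [← hy] at hj
    by_cases hx1 : x = g • y
    · -- `x = g y`, `g x = g g y`
      rw [if_pos hx1]
      have hgx_ne_y : g • x ≠ y := by
        intro h
        apply hxy
        -- `g g y = y` gives `y = g y`
        have h1 : g • g • y = y := by rw [← hx1]; exact h
        have h2 : g • y = y := by
          have := hggg y
          rw [h1] at this
          exact this
        rw [hx1, h2]
      have hgx_ne : g • x ≠ g • y := by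
        intro h
        apply hxy
        have h1 : x = y := smul_left_cancel g h
        exact h1
      rw [if_neg hgx_ne_y, if_neg hgx_ne, add_sub_cancel_left, ← hx1]
    · rw [if_neg hx1]
      have hx2 : x = g • g • y := by
        rcases s16e_zpow_smul_of_cube g hg y j with h | h | h
        · exact absurd (hj.symm.trans h) hxy
        · exact absurd (hj.symm.trans h) hx1
        · exact hj.symm.trans h
      have hgx : g • x = y := by rw [hx2, hggg]
      rw [if_pos hgx, zero_sub]
      have := hsum y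
      rw [← hx2] at this
      linear_combination -this

end Solve

section Bound

variable {G : Type*} [Group G] (Γ : Subgroup G)

theorem s16e_isCoc_coc (ψ : Additive Γ →+ K) : s16e_IsCoc K (fun g => s16e_coc K Γ g ψ) :=
  fun g h => s16e_coc_mul K Γ g h ψ

/-- A homomorphism whose Shapiro cocycle is a coboundary is zero. -/
theorem s16e_eq_zero_of_coc_eq_cob {ψ : Additive Γ →+ K} {y : (G ⧸ Γ) → K}
    (h : ∀ g : G, s16e_coc K Γ g ψ = s16e_P K g y - y) : ψ = 0 := by
  refine AddMonoidHom.ext fun γ => ?_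
  obtain ⟨γ, rfl⟩ : ∃ γ' : Γ, Additive.ofMul γ' = γ := ⟨Additive.toMul γ, rfl⟩
  rw [← s16e_coc_base, h, AddMonoidHom.zero_apply, Pi.sub_apply, s16e_P_apply]
  have hfix : (γ : G) • ((1 : G) : G ⧸ Γ) = ((1 : G) : G ⧸ Γ) := by
    rw [MulAction.Quotient.smul_coe, smul_eq_mul, mul_one, QuotientGroup.eq, mul_one]
    exact Γ.inv_mem γ.2
  rw [hfix, sub_self]

/-- `Hom(Γ, K)` embeds into `V × V` via the values of the Shapiro cocycle on two generators. -/
theorem s16e_coc_pair_injective (s t : G) (hst : Subgroup.closure {s, t} = ⊤) :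
    Function.Injective ((s16e_coc K Γ s).prod (s16e_coc K Γ t)) := by
  rw [← LinearMap.ker_eq_bot, LinearMap.ker_eq_bot']
  intro ψ hψ
  rw [LinearMap.prod_apply, Prod.ext_iff] at hψ
  change s16e_coc K Γ s ψ = 0 ∧ s16e_coc K Γ t ψ = 0 at hψ
  refine s16e_eq_zero_of_coc_eq_cob K Γ (y := 0) fun g => ?_
  rw [map_zero, sub_zero]
  refine (s16e_isCoc_coc K Γ ψ).eq_zero_of_closure hst ?_ g
  intro g hg
  rcases hg with rfl | hg
  · exact hψ.1
  · rw [Set.mem_singleton_iff] at hg
    subst hg
    exact hψ.2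

theorem s16e_finite_hom [Finite (G ⧸ Γ)] (s t : G) (hst : Subgroup.closure {s, t} = ⊤) :
    Module.Finite K (Additive Γ →+ K) :=
  Module.Finite.of_injective _ (s16e_coc_pair_injective K Γ s t hst)

variable (s t : G)

/-- `α_ψ`, an orbit-wise solution of `(P_s - 1) α = c_ψ(s)`. -/
noncomputable def s16e_alpha : (Additive Γ →+ K) →ₗ[K] ((G ⧸ Γ) → K) :=
  s16e_rho2 K s ∘ₗ s16e_coc K Γ s

/-- `β_ψ`, an orbit-wise solution of `(P_u - 1) β = c_ψ(u)`, `u = s t`. -/
noncomputable def s16e_beta : (Additive Γ →+ K) →ₗ[K] ((G ⧸ Γ) → K) :=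
  s16e_rho3 K (s * t) ∘ₗ s16e_coc K Γ (s * t)

theorem s16e_alpha_spec (hs2 : ∀ x : G ⧸ Γ, (s * s) • x = x) {ψ : Additive Γ →+ K}
    (h : s16e_coc K Γ (s * s) ψ = 0)
    (hfs : ∀ x : G ⧸ Γ, s • x = x → s16e_coc K Γ s ψ x = 0) :
    s16e_P K s (s16e_alpha K Γ s ψ) - s16e_alpha K Γ s ψ = s16e_coc K Γ s ψ := by
  rw [s16e_coc_mul] at h
  refine s16e_rho2_spec K s hs2 _ (fun x => ?_) hfs
  have := congrFun h x
  rwa [Pi.add_apply, s16e_P_apply, Pi.zero_apply] at this

theorem s16e_beta_spec (hu3 : ∀ x : G ⧸ Γ, (s * t * (s * t) * (s * t)) • x = x)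
    {ψ : Additive Γ →+ K} (h : s16e_coc K Γ (s * t * (s * t) * (s * t)) ψ = 0)
    (hfu : ∀ x : G ⧸ Γ, (s * t) • x = x → s16e_coc K Γ (s * t) ψ x = 0) :
    s16e_P K (s * t) (s16e_beta K Γ s t ψ) - s16e_beta K Γ s t ψ = s16e_coc K Γ (s * t) ψ := by
  rw [s16e_coc_mul, s16e_coc_mul, map_add] at h
  refine s16e_rho3_spec K (s * t) hu3 _ (fun x => ?_) hfu
  have := congrFun h x
  simpa only [Pi.add_apply, s16e_P_apply, Pi.zero_apply] using this

/-- The class `w_ψ = α_ψ - β_ψ`. -/
noncomputable def s16e_w : (Additive Γ →+ K) →ₗ[K] ((G ⧸ Γ) → K) :=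
  s16e_alpha K Γ s - s16e_beta K Γ s t

theorem s16e_norm_w {n : ℕ} (ht : ∀ x : G ⧸ Γ, t ^ n • x = x) {ψ : Additive Γ →+ K}
    (hA : s16e_P K s (s16e_alpha K Γ s ψ) - s16e_alpha K Γ s ψ = s16e_coc K Γ s ψ)
    (hB : s16e_P K (s * t) (s16e_beta K Γ s t ψ) - s16e_beta K Γ s t ψ = s16e_coc K Γ (s * t) ψ)
    (hpar : s16e_norm K t n (s16e_coc K Γ t ψ) = 0) :
    s16e_norm K t n (s16e_P K s (s16e_w K Γ s t ψ) - s16e_w K Γ s t ψ) = 0 := by
  have hcoc := s16e_coc_mul K Γ s t ψ
  rw [s16e_P_mul, LinearMap.comp_apply] at hB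
  set β := s16e_beta K Γ s t ψ with hβ
  set α := s16e_alpha K Γ s ψ with hα
  have h1 : s16e_P K s (s16e_w K Γ s t ψ) - s16e_w K Γ s t ψ =
      s16e_coc K Γ s ψ - (s16e_P K s β - β) := by
    rw [s16e_w, LinearMap.sub_apply, ← hA, map_sub]
    abel
  have h2 : s16e_P K t (s16e_coc K Γ s ψ) =
      s16e_P K t (s16e_P K s β) - β - s16e_coc K Γ t ψ := by
    rw [hB, hcoc]; abel
  rw [h1, map_sub, ← s16e_norm_P K t n ht (s16e_coc K Γ s ψ), h2, map_sub, map_sub, map_sub, hpar,
    s16e_norm_P K t n ht]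
  abel

/-- A function on a `G`-set fixed by a generating set is fixed by every element. -/
theorem s16e_P_eq_self_of_closure {X : Type*} [MulAction G X] {gens : Set G}
    (hs : Subgroup.closure gens = ⊤) {p : X → K} (hp : ∀ g ∈ gens, s16e_P K g p = p) (g : G) :
    s16e_P K g p = p := by
  have hg : g ∈ Subgroup.closure gens := by rw [hs]; trivial
  induction hg using Subgroup.closure_induction with
  | mem x hx => exact hp x hx
  | one => rw [s16e_P_one, LinearMap.id_apply]
  | mul x y _ _ hx hy => rw [s16e_P_mul, LinearMap.comp_apply, hx, hy]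
  | inv x _ hx =>
    conv_lhs => rw [← hx]
    rw [← LinearMap.comp_apply, ← s16e_P_mul, mul_inv_cancel, s16e_P_one, LinearMap.id_apply]

theorem s16e_ker_aux (hst : Subgroup.closure {s, t} = ⊤) {ψ : Additive Γ →+ K}
    (hA : s16e_P K s (s16e_alpha K Γ s ψ) - s16e_alpha K Γ s ψ = s16e_coc K Γ s ψ)
    (hB : s16e_P K (s * t) (s16e_beta K Γ s t ψ) - s16e_beta K Γ s t ψ = s16e_coc K Γ (s * t) ψ)
    {p q : (G ⧸ Γ) → K} (hp : s16e_P K s p = p) (hq : s16e_P K (s * t) q = q)
    (h : s16e_w K Γ s t ψ + p + q = 0) :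
    ψ = 0 ∧ ∀ x, p x = p ((1 : G) : G ⧸ Γ) := by
  rw [s16e_w, LinearMap.sub_apply] at h
  set β := s16e_beta K Γ s t ψ with hβ
  set α := s16e_alpha K Γ s ψ with hα
  have hy : β - q = α + p := by
    linear_combination (norm := module) -h
  have hcoc : s16e_IsCoc K (fun g => s16e_coc K Γ g ψ - (s16e_P K g (β - q) - (β - q))) :=
    (s16e_isCoc_coc K Γ ψ).sub (s16e_isCoc_cob (β - q))
  have h_u : s16e_coc K Γ (s * t) ψ - (s16e_P K (s * t) (β - q) - (β - q)) = 0 := by
    rw [map_sub, hq, ← hB]; abel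
  have h_s : s16e_coc K Γ s ψ - (s16e_P K s (β - q) - (β - q)) = 0 := by
    rw [hy, map_add, hp, ← hA]; abel
  have h_t : s16e_coc K Γ t ψ - (s16e_P K t (β - q) - (β - q)) = 0 := by
    have := hcoc s t
    simp only [h_u, h_s, map_zero, zero_add] at this
    exact this.symm
  have hzero : ∀ g : G, s16e_coc K Γ g ψ - (s16e_P K g (β - q) - (β - q)) = 0 := by
    refine hcoc.eq_zero_of_closure hst ?_
    intro g hg
    rcases hg with rfl | hg
    · exact h_s
    · rw [Set.mem_singleton_iff] at hg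
      subst hg
      exact h_t
  have hψ : ψ = 0 :=
    s16e_eq_zero_of_coc_eq_cob K Γ (y := β - q) fun g => sub_eq_zero.mp (hzero g)
  refine ⟨hψ, ?_⟩
  have hα0 : α = 0 := by rw [hα, hψ, map_zero]
  have hβ0 : β = 0 := by rw [hβ, hψ, map_zero]
  have hqp : q = -p := by
    rw [hα0, hβ0] at hy
    linear_combination (norm := module) -hy
  have hpu : s16e_P K (s * t) p = p := by
    have := hq
    rw [hqp, map_neg, neg_inj] at this
    exact this
  have hpt : s16e_P K t p = p := by
    rw [s16e_P_mul, LinearMap.comp_apply, hp] at hpu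
    exact hpu
  have hall : ∀ g : G, s16e_P K g p = p := by
    refine s16e_P_eq_self_of_closure K hst ?_
    intro g hg
    rcases hg with rfl | hg
    · exact hp
    · rw [Set.mem_singleton_iff] at hg
      subst hg
      exact hpt
  intro x
  induction x using QuotientGroup.induction_on with
  | H g =>
    have := congrFun (hall g) ((1 : G) : G ⧸ Γ)
    rw [s16e_P_apply, MulAction.Quotient.smul_coe, smul_eq_mul, mul_one] at this
    exact this

theorem s16e_finrank_ker_le_one {M M' : Type*} [AddCommGroup M] [Module K M] [AddCommGroup M']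
    [Module K M'] (Φ : M →ₗ[K] M') (ev : M →ₗ[K] K)
    (h : ∀ a, Φ a = 0 → ev a = 0 → a = 0) : finrank K (LinearMap.ker Φ) ≤ 1 := by
  have hinj : Function.Injective (ev.domRestrict (LinearMap.ker Φ)) := by
    refine LinearMap.ker_eq_bot.mp (LinearMap.ker_eq_bot'.mpr ?_)
    rintro ⟨a, ha⟩ h0
    exact Subtype.ext (h a (LinearMap.mem_ker.mp ha) h0)
  have := LinearMap.finrank_le_finrank_of_injective hinj
  rwa [Module.finrank_self] at this

/-- **Abstract dimension bound** for "parabolic, torsion-killing" homomorphisms `Γ → K`, over an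
arbitrary field `K` in which `n` is invertible. -/
theorem s16e_abstract_bound [Fintype (G ⧸ Γ)] (hst : Subgroup.closure {s, t} = ⊤) {n : ℕ}
    (hnK : (n : K) ≠ 0) (ht : ∀ x : G ⧸ Γ, t ^ n • x = x)
    (hs2 : ∀ x : G ⧸ Γ, (s * s) • x = x)
    (hu3 : ∀ x : G ⧸ Γ, (s * t * (s * t) * (s * t)) • x = x)
    (H : Submodule K (Additive Γ →+ K))
    (hzs : ∀ ψ ∈ H, s16e_coc K Γ (s * s) ψ = 0)
    (hzu : ∀ ψ ∈ H, s16e_coc K Γ (s * t * (s * t) * (s * t)) ψ = 0)
    (hpar : ∀ ψ ∈ H, s16e_norm K t n (s16e_coc K Γ t ψ) = 0)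
    (hfs : ∀ ψ ∈ H, ∀ x : G ⧸ Γ, s • x = x → s16e_coc K Γ s ψ x = 0)
    (hfu : ∀ ψ ∈ H, ∀ x : G ⧸ Γ, (s * t) • x = x → s16e_coc K Γ (s * t) ψ x = 0) :
    finrank K H +
        finrank K (LinearMap.ker
          (s16e_P K s - LinearMap.id : ((G ⧸ Γ) → K) →ₗ[K] ((G ⧸ Γ) → K))) +
        finrank K (LinearMap.ker
          (s16e_P K (s * t) - LinearMap.id : ((G ⧸ Γ) → K) →ₗ[K] ((G ⧸ Γ) → K))) +
        Nat.card (MulAction.orbitRel.Quotient (Subgroup.zpowers t) (G ⧸ Γ)) ≤
      Fintype.card (G ⧸ Γ) + 2 := by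
  classical
  have hfin : Module.Finite K (Additive Γ →+ K) := s16e_finite_hom K Γ s t hst
  obtain ⟨VS, hVS⟩ : ∃ VS : Submodule K ((G ⧸ Γ) → K), VS = LinearMap.ker
    (s16e_P K s - LinearMap.id : ((G ⧸ Γ) → K) →ₗ[K] ((G ⧸ Γ) → K)) := ⟨_, rfl⟩
  obtain ⟨VU, hVU⟩ : ∃ VU : Submodule K ((G ⧸ Γ) → K), VU = LinearMap.ker
    (s16e_P K (s * t) - LinearMap.id : ((G ⧸ Γ) → K) →ₗ[K] ((G ⧸ Γ) → K)) := ⟨_, rfl⟩
  rw [← hVS, ← hVU]
  obtain ⟨D, hD⟩ : ∃ D : ((G ⧸ Γ) → K) →ₗ[K] ((G ⧸ Γ) → K), D =
    s16e_norm K t n ∘ₗ (s16e_P K s - LinearMap.id) := ⟨_, rfl⟩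
  obtain ⟨Φ, hΦ⟩ : ∃ Φ : (H × (VS × VU)) →ₗ[K] ((G ⧸ Γ) → K), ∀ a : H × (VS × VU),
      Φ a = s16e_w K Γ s t (a.1 : Additive Γ →+ K) +
        ((a.2.1 : (G ⧸ Γ) → K) + (a.2.2 : (G ⧸ Γ) → K)) :=
    ⟨(s16e_w K Γ s t ∘ₗ H.subtype).coprod (VS.subtype.coprod VU.subtype), fun a => rfl⟩
  have hmemS : ∀ p : VS, s16e_P K s (p : (G ⧸ Γ) → K) = p := by
    have hgen : ∀ v ∈ VS, s16e_P K s v = v := by
      intro v hv
      rw [hVS, LinearMap.mem_ker, LinearMap.sub_apply, LinearMap.id_apply, sub_eq_zero] at hv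
      exact hv
    exact fun p => hgen p p.2
  have hmemU : ∀ q : VU, s16e_P K (s * t) (q : (G ⧸ Γ) → K) = q := by
    have hgen : ∀ v ∈ VU, s16e_P K (s * t) v = v := by
      intro v hv
      rw [hVU, LinearMap.mem_ker, LinearMap.sub_apply, LinearMap.id_apply, sub_eq_zero] at hv
      exact hv
    exact fun q => hgen q q.2
  have hAψ : ∀ ψ ∈ H, s16e_P K s (s16e_alpha K Γ s ψ) - s16e_alpha K Γ s ψ =
      s16e_coc K Γ s ψ := fun ψ hψ => s16e_alpha_spec K Γ s hs2 (hzs ψ hψ) (hfs ψ hψ)
  have hBψ : ∀ ψ ∈ H, s16e_P K (s * t) (s16e_beta K Γ s t ψ) - s16e_beta K Γ s t ψ =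
      s16e_coc K Γ (s * t) ψ := fun ψ hψ => s16e_beta_spec K Γ s t hu3 (hzu ψ hψ) (hfu ψ hψ)
  -- the range of `Φ` lies in `ker D`
  have hrange : LinearMap.range Φ ≤ LinearMap.ker D := by
    rintro _ ⟨a, rfl⟩
    rw [LinearMap.mem_ker, hΦ, hD, LinearMap.comp_apply, LinearMap.sub_apply, LinearMap.id_apply,
      map_add, map_add, add_sub_add_comm, add_sub_add_comm, map_add, map_add,
      s16e_norm_w K Γ s t ht (hAψ _ a.1.2) (hBψ _ a.1.2) (hpar _ a.1.2), hmemS, sub_self, map_zero,
      zero_add, zero_add]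
    have hq := hmemU a.2.2
    rw [s16e_P_mul, LinearMap.comp_apply] at hq
    have : s16e_norm K t n (s16e_P K s (a.2.2 : (G ⧸ Γ) → K)) =
        s16e_norm K t n (a.2.2 : (G ⧸ Γ) → K) := by
      conv_rhs => rw [← hq]
      rw [s16e_norm_P K t n ht]
    rw [map_sub, this, sub_self]
  -- the kernel of `Φ` is at most one-dimensional
  have hker : finrank K (LinearMap.ker Φ) ≤ 1 := by
    let ev : (H × (VS × VU)) →ₗ[K] K :=
      { toFun := fun a => (a.2.1 : (G ⧸ Γ) → K) ((1 : G) : G ⧸ Γ)
        map_add' := fun a b => rfl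
        map_smul' := fun c a => rfl }
    refine s16e_finrank_ker_le_one K (M := ↥H × (↥VS × ↥VU)) (M' := (G ⧸ Γ) → K) Φ ev ?_
    intro a ha h0
    change (a.2.1 : (G ⧸ Γ) → K) ((1 : G) : G ⧸ Γ) = 0 at h0
    rw [hΦ, ← add_assoc] at ha
    obtain ⟨hψ, hconst⟩ := s16e_ker_aux K Γ s t hst (hAψ _ a.1.2) (hBψ _ a.1.2) (hmemS a.2.1)
      (hmemU a.2.2) ha
    have hp0 : (a.2.1 : (G ⧸ Γ) → K) = 0 := by
      funext x
      rw [hconst x]
      exact h0
    rw [hψ, map_zero, hp0, zero_add, zero_add] at ha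
    apply Prod.ext
    · exact Subtype.ext hψ
    · apply Prod.ext
      · exact Subtype.ext hp0
      · exact Subtype.ext ha
  have h1 := LinearMap.finrank_range_add_finrank_ker (K := K) (V := ↥H × (↥VS × ↥VU))
    (V₂ := (G ⧸ Γ) → K) Φ
  have hfreeH : Module.Free K ↥H := Module.Free.of_divisionRing K ↥H
  rw [Module.finrank_prod, Module.finrank_prod] at h1
  have h2 := Submodule.finrank_mono hrange
  have h3 : finrank K (LinearMap.ker D) +
      Nat.card (MulAction.orbitRel.Quotient (Subgroup.zpowers t) (G ⧸ Γ)) ≤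
        Fintype.card (G ⧸ Γ) + 1 :=
    hD ▸ s16e_finrank_ker_add_card_orbits_le K (X := G ⧸ Γ) s t hst n hnK ht ((1 : G) : G ⧸ Γ)
  omega


end Bound

section Central

variable {G : Type*} [Group G] (Γ : Subgroup G)

/-- The Shapiro cocycle vanishes on central elements of `Γ` killed by `ψ`. -/
theorem s16e_coc_central {z : G} (hzc : ∀ g, g * z = z * g) (hzΓ : z ∈ Γ)
    (ψ : Additive Γ →+ K) (hψz : ψ (Additive.ofMul (⟨z, hzΓ⟩ : Γ)) = 0) :
    s16e_coc K Γ z ψ = 0 := by
  funext x
  have hk : pmD_kappa Γ z x = ⟨z, hzΓ⟩ := by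
    apply Subtype.ext
    simp only [pmD_kappa, pmD_smul_eq_of_central Γ hzc hzΓ]
    rw [mul_assoc, ← hzc, inv_mul_cancel_left]
  rw [s16e_coc_apply, hk, Pi.zero_apply, hψz]

/-- The value of the Shapiro cocycle at an element fixing the coset `x`. -/
theorem s16e_coc_apply_of_smul_eq {g : G} {x : G ⧸ Γ} (hx : g • x = x) (ψ : Additive Γ →+ K)
    (hmem : x.out⁻¹ * g * x.out ∈ Γ) :
    s16e_coc K Γ g ψ x = ψ (Additive.ofMul (⟨x.out⁻¹ * g * x.out, hmem⟩ : Γ)) := by
  rw [s16e_coc_apply]
  congr 2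
  apply Subtype.ext
  simp only [pmD_kappa, hx]

end Central

section Invariants

variable {G : Type*} [Group G] {X : Type*} [MulAction G X]

omit [Field K] in
theorem s16e_zpow_smul_invariant (g : G) (v : X → K) (hv : ∀ x, v (g • x) = v x) (j : ℤ)
    (y : X) : v (g ^ j • y) = v y := by
  induction j using Int.induction_on with
  | zero => rw [zpow_zero, one_smul]
  | succ i ih =>
    have hstep : g ^ ((i : ℤ) + 1) • y = g • (g ^ (i : ℤ) • y) := by
      rw [← mul_smul, ← zpow_one_add, add_comm]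
    rw [hstep, hv, ih]
  | pred i ih =>
    have hstep : g • (g ^ (-(i : ℤ) - 1) • y) = g ^ (-(i : ℤ)) • y := by
      rw [← mul_smul, ← zpow_one_add]
      congr 2
      ring
    rw [← hv, hstep, ih]

/-- The dimension of the space of functions invariant under `g` is the number of orbits of the
cyclic group generated by `g` (over any field). -/
theorem s16e_finrank_ker_eq_card_orbits [Finite X] (g : G) :
    finrank K (LinearMap.ker (s16e_P K g - LinearMap.id : (X → K) →ₗ[K] (X → K))) =
      Nat.card (MulAction.orbitRel.Quotient (Subgroup.zpowers g) X) := by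
  classical
  set Ω := MulAction.orbitRel.Quotient (Subgroup.zpowers g) X with hΩ
  have : Fintype Ω := Fintype.ofFinite _
  set π : X → Ω := Quotient.mk'' with hπ
  have hπsurj : Function.Surjective π := Quotient.mk''_surjective
  let ι : (Ω → K) →ₗ[K] (X → K) := LinearMap.funLeft K K π
  have hιinj : Function.Injective ι := LinearMap.funLeft_injective_of_surjective K K π hπsurj
  have hrange : LinearMap.range ι =
      LinearMap.ker (s16e_P K g - LinearMap.id : (X → K) →ₗ[K] (X → K)) := by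
    apply le_antisymm
    · rintro _ ⟨l, rfl⟩
      rw [LinearMap.mem_ker, LinearMap.sub_apply, LinearMap.id_apply, sub_eq_zero]
      funext x
      rw [s16e_P_apply]
      show l (π (g • x)) = l (π x)
      congr 1
      refine Quotient.sound' ?_
      exact ⟨⟨g, Subgroup.mem_zpowers g⟩, rfl⟩
    · intro v hv
      rw [LinearMap.mem_ker, LinearMap.sub_apply, LinearMap.id_apply, sub_eq_zero] at hv
      have hv' : ∀ x, v (g • x) = v x := fun x => congrFun hv x
      have hwd : ∀ a b : X, (MulAction.orbitRel (Subgroup.zpowers g) X) a b → v a = v b := by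
        rintro a b ⟨⟨k, hk⟩, rfl⟩
        obtain ⟨j, rfl⟩ := Subgroup.mem_zpowers_iff.mp hk
        exact s16e_zpow_smul_invariant K g v hv' j b
      refine ⟨fun ω => Quotient.liftOn' ω v hwd, ?_⟩
      funext x
      rfl
  calc finrank K (LinearMap.ker (s16e_P K g - LinearMap.id : (X → K) →ₗ[K] (X → K)))
      = finrank K (LinearMap.range ι) := by rw [hrange]
    _ = finrank K (Ω → K) := LinearMap.finrank_range_of_inj hιinj
    _ = Nat.card Ω := by rw [Module.finrank_fintype_fun_eq_card, Nat.card_eq_fintype_card]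

/-- The dimension of the `g`-invariant functions does not depend on the field. -/
theorem s16e_finrank_ker_eq_complex [Finite X] (g : G) :
    finrank K (LinearMap.ker (s16e_P K g - LinearMap.id : (X → K) →ₗ[K] (X → K))) =
      finrank ℂ (LinearMap.ker (pmD_P g - LinearMap.id : (X → ℂ) →ₗ[ℂ] (X → ℂ))) := by
  rw [s16e_finrank_ker_eq_card_orbits K g]
  exact (s16e_finrank_ker_eq_card_orbits ℂ g).symm

theorem s16e_ker_eq_eigenspace_complex (g : G) :
    LinearMap.ker (pmD_P g - LinearMap.id : (X → ℂ) →ₗ[ℂ] (X → ℂ)) =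
      End.eigenspace (LinearMap.funLeft ℂ ℂ (MulAction.toPerm g : Equiv.Perm X) :
        End ℂ (X → ℂ)) 1 := by
  rw [End.eigenspace_def, one_smul]
  rfl

theorem s16e_ncard_fixedPoints (g : G) :
    (Function.fixedPoints ((MulAction.toPerm g : Equiv.Perm X) : X → X)).ncard =
      Nat.card (MulAction.fixedBy X g) := by
  rw [← Nat.card_coe_set_eq]
  rfl

/-- If `g²` acts trivially then `2 dim V^g = |X| + #Fix(g)` (over any field). -/
theorem s16e_two_mul_finrank_ker [Fintype X] (g : G) (hg : ∀ x : X, (g * g) • x = x) :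
    2 * finrank K (LinearMap.ker (s16e_P K g - LinearMap.id : (X → K) →ₗ[K] (X → K))) =
      Fintype.card X + Nat.card (MulAction.fixedBy X g) := by
  classical
  rw [s16e_finrank_ker_eq_complex, s16e_ker_eq_eigenspace_complex, ← s16e_ncard_fixedPoints]
  refine Fermat.Agent.Lib.RR.g1_two_mul_finrank_eigenspace_one _ ?_
  ext x
  rw [pow_two, Equiv.Perm.mul_apply, MulAction.toPerm_apply, MulAction.toPerm_apply, ← mul_smul,
    hg, Equiv.Perm.one_apply]

/-- If `g³` acts trivially then `3 dim V^g = |X| + 2 #Fix(g)` (over any field). -/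
theorem s16e_three_mul_finrank_ker [Fintype X] (g : G) (hg : ∀ x : X, (g * g * g) • x = x) :
    3 * finrank K (LinearMap.ker (s16e_P K g - LinearMap.id : (X → K) →ₗ[K] (X → K))) =
      Fintype.card X + 2 * Nat.card (MulAction.fixedBy X g) := by
  classical
  rw [s16e_finrank_ker_eq_complex, s16e_ker_eq_eigenspace_complex, ← s16e_ncard_fixedPoints]
  refine Fermat.Agent.Lib.RR.g1_three_mul_finrank_eigenspace_one _ ?_
  ext x
  rw [pow_succ, pow_two, Equiv.Perm.mul_apply, Equiv.Perm.mul_apply, MulAction.toPerm_apply,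
    MulAction.toPerm_apply, MulAction.toPerm_apply, ← mul_smul, ← mul_smul, hg,
    Equiv.Perm.one_apply]

end Invariants

end Fermat.Agent.Lib.S16
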