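import Fermat.Agent.Lib.S16.Iface

/-!
# S16: `ℤ → 𝕋 ⧸ I` is onto (`s16_IfaceGen`)

`heckeEvalForms N 2 : ℤ[X_ℓ] → heckeAlgebra N 2 ∅` is onto (the Hecke algebra is generated by the
`T_ℓ`, `ℓ ∤ N`, and the `U_q`, `q ∣ N`), `latticeRestrictHom` is onto, and modulo the Eisenstein
ideal every polynomial is congruent to the constant `aeval (eisensteinSystem N) P`.
-/

set_option autoImplicit false

open ModularCurve CuspForm CongruenceSubgroup

namespace Fermat.Agent.Lib.S16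

/-- `heckeEvalForms N k` is onto the Hecke algebra. -/
theorem s16f_heckeEvalForms_surjective (N : ℕ) [NeZero N] (k : ℤ) :
    Function.Surjective (heckeEvalForms N k) := by
  rintro ⟨u, hu⟩
  have key : ∃ P : HeckeAlg, ((heckeEvalForms N k P : ↥(heckeAlgebra N k ∅)) :
      Module.End ℂ (CuspForm (Gamma0 N) k)) = u := by
    induction hu using Algebra.adjoin_induction with
    | mem u hu =>
      rcases hu with ⟨ℓ, hℓ, hℓN, _, rfl⟩ | ⟨q, hqN, hq, _, rfl⟩
      · refine ⟨heckeGen ⟨ℓ, hℓ⟩, ?_⟩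
        have h : ¬ ((⟨ℓ, hℓ⟩ : Nat.Primes) : ℕ) ∣ N := hℓN
        rw [heckeEvalForms_heckeGen_of_not_dvd h]
        rfl
      · refine ⟨heckeGen ⟨q, hq⟩, ?_⟩
        have h : ((⟨q, hq⟩ : Nat.Primes) : ℕ) ∣ N := hqN
        rw [heckeEvalForms_heckeGen_of_dvd h]
        rfl
    | algebraMap r =>
      refine ⟨MvPolynomial.C r, ?_⟩
      rw [heckeEvalForms_C]
      rfl
    | add u u' _ _ hu hu' =>
      obtain ⟨P, hP⟩ := hu
      obtain ⟨P', hP'⟩ := hu'
      refine ⟨P + P', ?_⟩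
      rw [map_add, ← hP, ← hP']
      rfl
    | mul u u' _ _ hu hu' =>
      obtain ⟨P, hP⟩ := hu
      obtain ⟨P', hP'⟩ := hu'
      refine ⟨P * P', ?_⟩
      rw [map_mul, ← hP, ← hP']
      rfl
  obtain ⟨P, hP⟩ := key
  exact ⟨P, Subtype.ext hP⟩

/-- Every polynomial is congruent to a constant modulo the eigen-ideal. -/
theorem s16f_sub_C_mem_eigenIdeal (a : Nat.Primes → ℤ) (P : HeckeAlg) :
    P - MvPolynomial.C (MvPolynomial.aeval a P) ∈ eigenIdeal a := by
  rw [mem_eigenIdeal_iff, map_sub, MvPolynomial.aeval_C, sub_eq_zero]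
  rfl

variable (p : ℕ) [Fact p.Prime]

/-- **(Gen)**: `ℤ → 𝕋 ⧸ I` is onto. -/
theorem s16f_ifaceGen : s16_IfaceGen p := by
  intro t
  obtain ⟨u, rfl⟩ := latticeRestrictHom_surjective p ∅ t
  obtain ⟨P, rfl⟩ := s16f_heckeEvalForms_surjective p 2 u
  refine ⟨MvPolynomial.aeval (eisensteinSystem p) P, ?_⟩
  have h1 := s16f_sub_C_mem_eigenIdeal (eisensteinSystem p) P
  have h2 := Ideal.mem_map_of_mem
    ((latticeRestrictHom p ∅).toRingHom.comp (heckeEvalForms p 2)) h1
  have h3 : ((latticeRestrictHom p ∅).toRingHom.comp (heckeEvalForms p 2))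
      (P - MvPolynomial.C (MvPolynomial.aeval (eisensteinSystem p) P)) =
      latticeRestrictHom p ∅ (heckeEvalForms p 2 P) -
        algebraMap ℤ ↥(heckeLatticeAlgebra p ∅) (MvPolynomial.aeval (eisensteinSystem p) P) := by
    rw [map_sub, RingHom.comp_apply, RingHom.comp_apply, heckeEvalForms_C]
    simp
  rw [h3] at h2
  exact h2

end Fermat.Agent.Lib.S16
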