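import Fermat.Agent.Lib.Integral.HeckeStable
import Fermat.Agent.Lib.Integral.Final
import Fermat.Agent.S21

/-!
# S16, package (F), part 3: the Hecke action on the parabolic homs `Γ₀(N) → ℂ`

Through the Eichler–Shimura isomorphism `Φ : S₂ × S₂ ≃ Hom_par(Γ₀(N), ℂ)` (S21) every endomorphism
`t` of `S₂(Γ₀(N))` acts on the parabolic homs (`s16f_act N t`, diagonal transport).

* `s16f_act_apply_of_rel`: for a Hecke operator given as a sum of slashes by upper triangular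
  integral matrices `α_x` (with the involution compatibility used in `Lib/Integral/HeckeStable`),
  and ANY coset family `α_x γ = γ'_x α_{σ x}`, one has `(t φ)(γ) = ∑_x φ(γ'_x)`.
* `s16f_act_T`, `s16f_act_U`: the cases `T_ℓ` (`ℓ ∤ N`) and `U_q` (`q ∣ N`).
* `s16f_act_div`: every element of the Hecke algebra preserves the parabolic homs with values in
  `c ℤ` (for `c = 1`: the lattice `X = Hom_par(Γ₀(N), ℤ)`).
-/

set_option autoImplicit false

namespace Fermat.Agent.Lib.S16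

open UpperHalfPlane CongruenceSubgroup ModularCurve ModularCurve.Period Matrix
  Matrix.SpecialLinearGroup
open Fermat.Agent.Lib.ES Fermat.Agent.Lib.Period Fermat.Agent.Lib.Integral
open scoped MatrixGroups ModularForm

variable (N : ℕ) [NeZero N]

/-- The Eichler–Shimura isomorphism `S₂ × S₂ ≃ Hom_par(Γ₀(N), ℂ)` (from S21). -/
noncomputable def s16f_Phi :
    (CuspForm (Gamma0 N) 2 × CuspForm (Gamma0 N) 2) ≃ₗ[ℂ] parabolicHoms ℂ (Gamma0 N) ℂ :=
  intF_Phi N (Fermat.Agent.S21.result N)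

theorem s16f_Phi_coe (x : CuspForm (Gamma0 N) 2 × CuspForm (Gamma0 N) 2) :
    ((s16f_Phi N x : parabolicHoms ℂ (Gamma0 N) ℂ) : Additive (Gamma0 N) →+ ℂ) =
      periodHomPair N x := rfl

/-- The action of the endomorphisms of `S₂(Γ₀(N))` on the parabolic homs. -/
noncomputable def s16f_act :
    Module.End ℂ (CuspForm (Gamma0 N) 2) →ₗ[ℂ] Module.End ℂ (parabolicHoms ℂ (Gamma0 N) ℂ) :=
  transportEnd (s16f_Phi N)

theorem s16f_act_Phi (t : Module.End ℂ (CuspForm (Gamma0 N) 2)) (f g : CuspForm (Gamma0 N) 2) :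
    s16f_act N t (s16f_Phi N (f, g)) = s16f_Phi N (t f, t g) :=
  transportEnd_apply (s16f_Phi N) t f g

theorem s16f_act_one : s16f_act N 1 = 1 := transportEnd_one (s16f_Phi N)

theorem s16f_act_mul (s t : Module.End ℂ (CuspForm (Gamma0 N) 2)) :
    s16f_act N (s * t) = s16f_act N s * s16f_act N t := transportEnd_mul (s16f_Phi N) s t

theorem s16f_act_algebraMap (k : ℤ) (φ : parabolicHoms ℂ (Gamma0 N) ℂ) :
    s16f_act N (algebraMap ℤ (Module.End ℂ (CuspForm (Gamma0 N) 2)) k) φ = (k : ℂ) • φ := by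
  have h : (algebraMap ℤ (Module.End ℂ (CuspForm (Gamma0 N) 2)) k) =
      (k : ℂ) • (1 : Module.End ℂ (CuspForm (Gamma0 N) 2)) := by
    rw [Algebra.algebraMap_eq_smul_one]
    exact (Int.cast_smul_eq_zsmul ℂ k _).symm
  rw [h, map_smul, s16f_act_one]
  rfl

/-- The value of `t φ` at `γ` along a family computing the periods of `t f`. -/
theorem s16f_act_apply_of_family {ι : Type*} [Fintype ι]
    (t : Module.End ℂ (CuspForm (Gamma0 N) 2)) (γ : Gamma0 N) (γ' : ι → Gamma0 N)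
    (h : ∀ f : CuspForm (Gamma0 N) 2,
      periodMap N (t f) (Additive.ofMul γ) = ∑ x, periodMap N f (Additive.ofMul (γ' x)) ∧
      periodMap N (t f) (Additive.ofMul (jConjGamma0 N γ)) =
        ∑ x, periodMap N f (Additive.ofMul (jConjGamma0 N (γ' x))))
    (φ : parabolicHoms ℂ (Gamma0 N) ℂ) :
    ((s16f_act N t φ : parabolicHoms ℂ (Gamma0 N) ℂ) : Additive (Gamma0 N) →+ ℂ)
        (Additive.ofMul γ) =
      ∑ x, (φ : Additive (Gamma0 N) →+ ℂ) (Additive.ofMul (γ' x)) := by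
  obtain ⟨⟨f, g⟩, rfl⟩ := (s16f_Phi N).surjective φ
  rw [s16f_act_Phi, s16f_Phi_coe, s16f_Phi_coe]
  exact intHk_periodHomPair_of_family t γ γ' h f g

/-- **The Hecke action along an arbitrary coset family.** -/
theorem s16f_act_apply_of_rel {ι : Type*} [Fintype ι]
    (α : ι → Matrix (Fin 2) (Fin 2) ℤ) (A : ι → GL (Fin 2) ℝ)
    (hA : ∀ j, (A j : Matrix (Fin 2) (Fin 2) ℝ) = (α j).map (Int.cast : ℤ → ℝ))
    (hdet : ∀ j, 0 < (α j).det) (hut : ∀ j, α j 1 0 = 0)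
    (t : Module.End ℂ (CuspForm (Gamma0 N) 2))
    (ht : ∀ f : CuspForm (Gamma0 N) 2, ⇑(t f) = ∑ j, ⇑f ∣[(2 : ℤ)] A j)
    (ν : Equiv.Perm ι) (e : ι → ℤ) (hνν : ∀ x, ν (ν x) = x)
    (hν : ∀ x, α (ν x) =
      ((ModularGroup.T ^ (e x) : SL(2, ℤ)) : Matrix (Fin 2) (Fin 2) ℤ) * jConjMat (α x))
    (γ : Gamma0 N) (γ' : ι → Gamma0 N) (σ : Equiv.Perm ι)
    (hσ : ∀ j, α j * ((γ : SL(2, ℤ)) : Matrix (Fin 2) (Fin 2) ℤ) =
      ((γ' j : SL(2, ℤ)) : Matrix (Fin 2) (Fin 2) ℤ) * α (σ j))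
    (φ : parabolicHoms ℂ (Gamma0 N) ℂ) :
    ((s16f_act N t φ : parabolicHoms ℂ (Gamma0 N) ℂ) : Additive (Gamma0 N) →+ ℂ)
        (Additive.ofMul γ) =
      ∑ x, (φ : Additive (Gamma0 N) →+ ℂ) (Additive.ofMul (γ' x)) := by
  refine s16f_act_apply_of_family N t γ γ' (fun f => ⟨?_, ?_⟩) φ
  · exact intHk_periodMap_of_sum_slash α A hA hdet hut f (t f) (ht f) γ γ' σ hσ
  · exact intHk_periodMap_jConj_of_sum_slash α A hA hdet hut f (t f) (ht f) γ γ' σ hσ ν e hνν hν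

open ModularForm
open P2MW.S_ModularForm_heckeT_slash_eq_self_of_mem_Gamma0.ModularForm.HeckeSlashInvariance

/-- **`T_ℓ` on parabolic homs** (`ℓ ∤ N`), along any coset family. -/
theorem s16f_act_T {ℓ : ℕ} [NeZero ℓ] (hℓ : ℓ.Prime) (hℓN : ¬ ℓ ∣ N) (γ : Gamma0 N)
    (γ' : OnePoint (ZMod ℓ) → Gamma0 N) (σ : Equiv.Perm (OnePoint (ZMod ℓ)))
    (hσ : ∀ x, heckeRepZ ℓ x * ((γ : SL(2, ℤ)) : Matrix (Fin 2) (Fin 2) ℤ) =
      ((γ' x : SL(2, ℤ)) : Matrix (Fin 2) (Fin 2) ℤ) * heckeRepZ ℓ (σ x))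
    (φ : parabolicHoms ℂ (Gamma0 N) ℂ) :
    ((s16f_act N (CuspForm.heckeTLin 2 hℓ hℓN) φ : parabolicHoms ℂ (Gamma0 N) ℂ) :
        Additive (Gamma0 N) →+ ℂ) (Additive.ofMul γ) =
      ∑ x, (φ : Additive (Gamma0 N) →+ ℂ) (Additive.ofMul (γ' x)) := by
  have hdet : ∀ x : OnePoint (ZMod ℓ), 0 < (heckeRepZ ℓ x).det := by
    intro x
    rw [det_heckeRepZ]
    exact_mod_cast hℓ.pos
  exact s16f_act_apply_of_rel N (heckeRepZ ℓ) (heckeRep ℓ) (coe_heckeRep_eq_map hℓ.ne_zero) hdet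
    (heckeRepZ_apply_one_zero ℓ) _ (fun f => coe_heckeTLin_eq_sum (N := N) 2 hℓ hℓN f)
    (intHk_negPerm ℓ) (intHk_texp ℓ) (intHk_negPerm_negPerm ℓ) (intHk_heckeRepZ_negPerm ℓ)
    γ γ' σ hσ φ

/-- **`U_q` on parabolic homs** (`q ∣ N`), along any coset family. -/
theorem s16f_act_U {q : ℕ} [NeZero q] (hq : q.Prime) (hqN : q ∣ N) (γ : Gamma0 N)
    (γ' : ZMod q → Gamma0 N) (σ : Equiv.Perm (ZMod q))
    (hσ : ∀ x : ZMod q, heckeMatZ q x.val * ((γ : SL(2, ℤ)) : Matrix (Fin 2) (Fin 2) ℤ) =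
      ((γ' x : SL(2, ℤ)) : Matrix (Fin 2) (Fin 2) ℤ) * heckeMatZ q (σ x).val)
    (φ : parabolicHoms ℂ (Gamma0 N) ℂ) :
    ((s16f_act N (CuspForm.heckeULin 2 hqN) φ : parabolicHoms ℂ (Gamma0 N) ℂ) :
        Additive (Gamma0 N) →+ ℂ) (Additive.ofMul γ) =
      ∑ x, (φ : Additive (Gamma0 N) →+ ℂ) (Additive.ofMul (γ' x)) := by
  have hdet : ∀ x : ZMod q, 0 < (heckeMatZ q x.val).det := by
    intro x
    rw [det_heckeMatZ]
    exact_mod_cast hq.pos
  exact s16f_act_apply_of_rel N (fun x : ZMod q => heckeMatZ q x.val)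
    (fun x : ZMod q => heckeMatrix q x.val) (fun x => coe_heckeMatrix_eq_map hq.ne_zero x.val) hdet
    (fun x => heckeMatZ_apply_one_zero q x.val) _
    (fun f => coe_heckeULin_eq_sum (N := N) 2 hqN f)
    (Equiv.neg (ZMod q)) (fun j => if j = 0 then 0 else 1) (fun x => neg_neg x)
    (fun j => intHk_heckeMatZ_neg q j) γ γ' σ hσ φ

/-! ### Stability of the lattices `c · Hom_par(Γ₀(N), ℤ)` -/

/-- `φ` takes its values in `c ℤ`. -/
def s16f_Div (c : ℤ) (φ : parabolicHoms ℂ (Gamma0 N) ℂ) : Prop :=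
  ∀ γ : Gamma0 N, ∃ m : ℤ, (φ : Additive (Gamma0 N) →+ ℂ) (Additive.ofMul γ) = (c : ℂ) * (m : ℂ)

variable {N}

omit [NeZero N] in
theorem s16f_Div.add {c : ℤ} {φ φ' : parabolicHoms ℂ (Gamma0 N) ℂ} (h : s16f_Div N c φ)
    (h' : s16f_Div N c φ') : s16f_Div N c (φ + φ') := by
  intro γ
  obtain ⟨m, hm⟩ := h γ
  obtain ⟨m', hm'⟩ := h' γ
  refine ⟨m + m', ?_⟩
  rw [Submodule.coe_add, AddMonoidHom.add_apply, hm, hm']
  push_cast
  ring

omit [NeZero N] in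
theorem s16f_Div.smul_int {c : ℤ} {φ : parabolicHoms ℂ (Gamma0 N) ℂ} (h : s16f_Div N c φ)
    (k : ℤ) : s16f_Div N c ((k : ℂ) • φ) := by
  intro γ
  obtain ⟨m, hm⟩ := h γ
  refine ⟨k * m, ?_⟩
  rw [Submodule.coe_smul, AddMonoidHom.smul_apply, hm]
  push_cast
  simp only [smul_eq_mul]
  ring

omit [NeZero N] in
theorem s16f_Div.zero (c : ℤ) : s16f_Div N c (0 : parabolicHoms ℂ (Gamma0 N) ℂ) := by
  intro γ
  exact ⟨0, by simp⟩

variable (N)

/-- **The Hecke algebra preserves the parabolic homs with values in `c ℤ`.** -/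
theorem s16f_act_div (c : ℤ) (u : Module.End ℂ (CuspForm (Gamma0 N) 2))
    (hu : u ∈ CuspForm.heckeAlgebra N 2 ∅) (φ : parabolicHoms ℂ (Gamma0 N) ℂ)
    (hφ : s16f_Div N c φ) : s16f_Div N c (s16f_act N u φ) := by
  induction hu using Algebra.adjoin_induction generalizing φ with
  | mem u hu =>
    intro γ
    obtain ⟨ι, _, γ', h⟩ := intHk_exists_family u hu γ
    obtain ⟨⟨f, g⟩, rfl⟩ := (s16f_Phi N).surjective φ
    rw [s16f_act_Phi, s16f_Phi_coe, h f g]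
    choose m hm using fun x => hφ (γ' x)
    refine ⟨∑ x, m x, ?_⟩
    push_cast
    rw [Finset.mul_sum]
    exact Finset.sum_congr rfl fun x _ => hm x
  | algebraMap k =>
    rw [s16f_act_algebraMap]
    exact hφ.smul_int k
  | add u u' _ _ hu hu' =>
    rw [map_add, LinearMap.add_apply]
    exact (hu φ hφ).add (hu' φ hφ)
  | mul u u' _ _ hu hu' =>
    rw [s16f_act_mul, Module.End.mul_apply]
    exact hu _ (hu' φ hφ)

end Fermat.Agent.Lib.S16
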