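/-
S16 / work package (H): the weight-2 Eisenstein series of prime level,
`B_q(z) = q·E₂(q z) − E₂(z)`.

This file: the affine maps `z ↦ (a z + b)/e` on `ℍ`, the explicit transformation law of `E₂`,
and the behaviour of `B_q` under every element of `SL(2, ℤ)`:
* `s16h_Bfun_smul_of_dvd`    : `q ∣ γ₁₀ ⇒ B_q(γ z) = (cz+d)² B_q(z)`;
* `s16h_Bfun_smul_of_not_dvd`: `q ∤ γ₁₀`, `γ₁₁ ≡ γ₁₀ j (q)` ⇒
    `B_q(γ z) = (cz+d)² (q⁻¹ E₂((z+j)/q) − E₂(z))`.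
-/
import Mathlib

set_option autoImplicit false

namespace Fermat.Agent.Lib.S16

open UpperHalfPlane hiding I
open EisensteinSeries ModularForm CongruenceSubgroup Matrix.SpecialLinearGroup Filter Complex Real
open scoped MatrixGroups Manifold Topology

noncomputable section

/-- The point `(a z + b) / e` of the upper half plane. -/
def s16h_aff (a e : ℕ+) (b : ℤ) (z : ℍ) : ℍ :=
  ⟨(((a : ℕ) : ℂ) * z + b) / ((e : ℕ) : ℂ), by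
    have ha : (0 : ℝ) < ((a : ℕ) : ℝ) := by exact_mod_cast a.pos
    have he : (0 : ℝ) < ((e : ℕ) : ℝ) := by exact_mod_cast e.pos
    have : ((((a : ℕ) : ℂ) * z + b) / ((e : ℕ) : ℂ)).im = ((a : ℕ) : ℝ) * z.im / ((e : ℕ) : ℝ) := by
      rw [Complex.div_natCast_im]
      simp
    rw [this]
    have := z.im_pos
    positivity⟩

@[simp] theorem s16h_coe_aff (a e : ℕ+) (b : ℤ) (z : ℍ) :
    ((s16h_aff a e b z : ℍ) : ℂ) = (((a : ℕ) : ℂ) * z + b) / ((e : ℕ) : ℂ) := rfl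

theorem s16h_im_aff (a e : ℕ+) (b : ℤ) (z : ℍ) :
    (s16h_aff a e b z).im = ((a : ℕ) : ℝ) / ((e : ℕ) : ℝ) * z.im := by
  show ((((a : ℕ) : ℂ) * z + b) / ((e : ℕ) : ℂ)).im = _
  rw [Complex.div_natCast_im]
  simp
  ring

/-- The constant in the transformation law of `E₂` (its value, `6/(π i)`, is never needed). -/
def s16h_kappa : ℂ := (1 / (2 * riemannZeta 2)) * (2 * π * I)

/-- Explicit transformation law of `E₂` under `SL(2, ℤ)`. -/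
theorem s16h_E2_smul (γ : SL(2, ℤ)) (z : ℍ) :
    E2 (γ • z) = (denom γ z) ^ 2 * E2 z - s16h_kappa * (γ 1 0 : ℂ) * denom γ z := by
  have h := congrFun (E2_slash_action γ) z
  rw [SL_slash_apply] at h
  have hd : denom γ z ≠ 0 := denom_ne_zero γ z
  simp only [Pi.sub_apply, Pi.smul_apply, smul_eq_mul, D2] at h
  have h2 : E2 (γ • z) = (E2 z - 1 / (2 * riemannZeta 2) * (2 * π * I * (γ 1 0 : ℂ) / denom γ z))
      * (denom γ z) ^ 2 := by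
    rw [← h, zpow_neg, mul_assoc]
    have : ((denom γ z) ^ (2 : ℤ))⁻¹ * (denom γ z) ^ 2 = 1 := by
      rw [zpow_ofNat]
      exact inv_mul_cancel₀ (pow_ne_zero 2 hd)
    rw [this, mul_one]
  rw [h2, s16h_kappa]
  field_simp

/-- Intertwining: if `diag(q,1)·γ = σ·(a b; 0 e)` as integer matrices, then
`q·(γ z) = σ((a z + b)/e)` and `denom σ ((a z+b)/e) = denom γ z / e`. -/
theorem s16h_aff_smul (q a e : ℕ+) (b : ℤ) (γ σ : SL(2, ℤ))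
    (h00 : ((q : ℕ) : ℤ) * γ 0 0 = σ 0 0 * ((a : ℕ) : ℤ))
    (h01 : ((q : ℕ) : ℤ) * γ 0 1 = σ 0 0 * b + σ 0 1 * ((e : ℕ) : ℤ))
    (h10 : γ 1 0 = σ 1 0 * ((a : ℕ) : ℤ))
    (h11 : γ 1 1 = σ 1 0 * b + σ 1 1 * ((e : ℕ) : ℤ)) (z : ℍ) :
    s16h_aff q 1 0 (γ • z) = σ • s16h_aff a e b z ∧
      denom σ (s16h_aff a e b z) = denom γ z / ((e : ℕ) : ℂ) := by
  have he : (((e : ℕ) : ℂ)) ≠ 0 := by exact_mod_cast e.pos.ne'
  have hD : denom γ z ≠ 0 := denom_ne_zero γ z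
  have hden : denom σ (s16h_aff a e b z) = denom γ z / ((e : ℕ) : ℂ) := by
    rw [ModularGroup.denom_apply, ModularGroup.denom_apply, s16h_coe_aff]
    have e10 : ((γ 1 0 : ℤ) : ℂ) = ((σ 1 0 : ℤ) : ℂ) * ((a : ℕ) : ℂ) := by
      rw [h10]; push_cast; ring
    have e11 : ((γ 1 1 : ℤ) : ℂ) = ((σ 1 0 : ℤ) : ℂ) * (b : ℂ) + ((σ 1 1 : ℤ) : ℂ) * ((e : ℕ) : ℂ) := by
      rw [h11]; push_cast; ring
    rw [e10, e11]
    field_simp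
    ring
  refine ⟨?_, hden⟩
  apply UpperHalfPlane.ext
  have hden' : denom σ (s16h_aff a e b z) ≠ 0 := denom_ne_zero σ _
  rw [s16h_coe_aff, coe_specialLinearGroup_apply, coe_specialLinearGroup_apply, s16h_coe_aff]
  have hD' : ((γ 1 0 : ℤ) : ℂ) * z + ((γ 1 1 : ℤ) : ℂ) ≠ 0 := by
    have := hD
    rw [ModularGroup.denom_apply] at this
    simpa using this
  have hσ' : ((σ 1 0 : ℤ) : ℂ) * ((((a : ℕ) : ℂ) * z + b) / ((e : ℕ) : ℂ)) + ((σ 1 1 : ℤ) : ℂ) ≠ 0 := by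
    have := hden'
    rw [ModularGroup.denom_apply, s16h_coe_aff] at this
    simpa using this
  simp only [algebraMap_int_eq, Int.coe_castRingHom, PNat.one_coe, Nat.cast_one, div_one,
    Int.cast_zero, add_zero, ofReal_intCast]
  have e00 : ((q : ℕ) : ℂ) * ((γ 0 0 : ℤ) : ℂ) = ((σ 0 0 : ℤ) : ℂ) * ((a : ℕ) : ℂ) := by
    exact_mod_cast congrArg (Int.cast : ℤ → ℂ) h00
  have e01 : ((q : ℕ) : ℂ) * ((γ 0 1 : ℤ) : ℂ) = ((σ 0 0 : ℤ) : ℂ) * (b : ℂ) + ((σ 0 1 : ℤ) : ℂ) * ((e : ℕ) : ℂ) := by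
    exact_mod_cast congrArg (Int.cast : ℤ → ℂ) h01
  have e10 : ((γ 1 0 : ℤ) : ℂ) = ((σ 1 0 : ℤ) : ℂ) * ((a : ℕ) : ℂ) := by
    rw [h10]; push_cast; ring
  have e11 : ((γ 1 1 : ℤ) : ℂ) = ((σ 1 0 : ℤ) : ℂ) * (b : ℂ) + ((σ 1 1 : ℤ) : ℂ) * ((e : ℕ) : ℂ) := by
    rw [h11]; push_cast; ring
  rw [mul_div_assoc', div_eq_div_iff hD' hσ']
  field_simp
  rw [e10, e11]
  linear_combination (((σ 1 0 : ℤ) : ℂ) * (((a : ℕ) : ℂ) * z + b) + ((σ 1 1 : ℤ) : ℂ) * ((e : ℕ) : ℂ)) * z * e00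
    + (((σ 1 0 : ℤ) : ℂ) * (((a : ℕ) : ℂ) * z + b) + ((σ 1 1 : ℤ) : ℂ) * ((e : ℕ) : ℂ)) * e01

/-- `B_q(z) = q E₂(q z) − E₂(z)`. -/
def s16h_Bfun (q : ℕ+) : ℍ → ℂ := fun z => ((q : ℕ) : ℂ) * E2 (s16h_aff q 1 0 z) - E2 z

theorem s16h_Bfun_apply (q : ℕ+) (z : ℍ) :
    s16h_Bfun q z = ((q : ℕ) : ℂ) * E2 (s16h_aff q 1 0 z) - E2 z := rfl

/-- Master transformation formula: if `diag(q,1)·γ = σ·(a b; 0 e)` with `a e = q`, then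
`B_q(γ z) = (cz+d)² ((a/e) E₂((a z+b)/e) − E₂(z))`. -/
theorem s16h_Bfun_smul (q a e : ℕ+) (b : ℤ) (γ σ : SL(2, ℤ)) (hae : (a : ℕ) * (e : ℕ) = (q : ℕ))
    (h00 : ((q : ℕ) : ℤ) * γ 0 0 = σ 0 0 * ((a : ℕ) : ℤ))
    (h01 : ((q : ℕ) : ℤ) * γ 0 1 = σ 0 0 * b + σ 0 1 * ((e : ℕ) : ℤ))
    (h10 : γ 1 0 = σ 1 0 * ((a : ℕ) : ℤ))
    (h11 : γ 1 1 = σ 1 0 * b + σ 1 1 * ((e : ℕ) : ℤ)) (z : ℍ) :
    s16h_Bfun q (γ • z) = (denom γ z) ^ 2 *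
      (((a : ℕ) : ℂ) / ((e : ℕ) : ℂ) * E2 (s16h_aff a e b z) - E2 z) := by
  obtain ⟨hpt, hden⟩ := s16h_aff_smul q a e b γ σ h00 h01 h10 h11 z
  have he : (((e : ℕ) : ℂ)) ≠ 0 := by exact_mod_cast e.pos.ne'
  rw [s16h_Bfun_apply, hpt, s16h_E2_smul σ, s16h_E2_smul γ, hden]
  have hq : ((q : ℕ) : ℂ) = ((a : ℕ) : ℂ) * ((e : ℕ) : ℂ) := by
    rw [← hae]; push_cast; ring
  have e10 : ((γ 1 0 : ℤ) : ℂ) = ((σ 1 0 : ℤ) : ℂ) * ((a : ℕ) : ℂ) := by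
    rw [h10]; push_cast; ring
  rw [hq, e10]
  field_simp
  ring

end

end Fermat.Agent.Lib.S16
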