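/-
S16 / work package (H): `B_q = q·E₂(q z) − E₂(z)` under the slash action of `SL(2, ℤ)`,
and `B_q` as a modular form of weight 2 on `Γ₀(N)` for a prime `q ∣ N`.
-/
import Fermat.Agent.Lib.S16.HEisBasic

set_option autoImplicit false

namespace Fermat.Agent.Lib.S16

open UpperHalfPlane hiding I
open EisensteinSeries ModularForm CongruenceSubgroup Matrix.SpecialLinearGroup Filter Complex Real
open scoped MatrixGroups Manifold Topology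

noncomputable section

/-- The conjugate `q⁻¹ E₂((z+j)/q) − E₂(z) = −q⁻¹ B_q((z+j)/q)` of `B_q`. -/
def s16h_Bconj (q : ℕ+) (j : ℤ) : ℍ → ℂ :=
  fun z => (((q : ℕ) : ℂ))⁻¹ * E2 (s16h_aff 1 q j z) - E2 z

theorem s16h_Bconj_apply (q : ℕ+) (j : ℤ) (z : ℍ) :
    s16h_Bconj q j z = (((q : ℕ) : ℂ))⁻¹ * E2 (s16h_aff 1 q j z) - E2 z := rfl

private theorem s16h_det (γ : SL(2, ℤ)) : γ 0 0 * γ 1 1 - γ 0 1 * γ 1 0 = 1 := by
  have := γ.det_coe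
  rwa [Matrix.det_fin_two] at this

/-- `q ∣ γ₁₀ ⇒ B_q(γ z) = (cz+d)² B_q(z)`. -/
theorem s16h_Bfun_smul_of_dvd (q : ℕ+) (γ : SL(2, ℤ)) (h : ((q : ℕ) : ℤ) ∣ γ 1 0) (z : ℍ) :
    s16h_Bfun q (γ • z) = (denom γ z) ^ 2 * s16h_Bfun q z := by
  obtain ⟨c', hc'⟩ := h
  have hdet := s16h_det γ
  set σ : SL(2, ℤ) := ⟨!![γ 0 0, ((q : ℕ) : ℤ) * γ 0 1; c', γ 1 1], by
    rw [Matrix.det_fin_two_of]
    rw [hc'] at hdet
    linear_combination hdet⟩ with hσ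
  have g00 : σ 0 0 = γ 0 0 := rfl
  have g01 : σ 0 1 = ((q : ℕ) : ℤ) * γ 0 1 := rfl
  have g10 : σ 1 0 = c' := rfl
  have g11 : σ 1 1 = γ 1 1 := rfl
  have key := s16h_Bfun_smul q q 1 0 γ σ (by simp)
    (by rw [g00]; ring) (by rw [g00, g01]; simp) (by rw [g10, hc']; ring) (by rw [g10, g11]; simp) z
  rw [key, s16h_Bfun_apply]
  simp

/-- `γ₁₁ ≡ γ₁₀ j (q) ⇒ B_q(γ z) = (cz+d)² (q⁻¹E₂((z+j)/q) − E₂(z))`. -/
theorem s16h_Bfun_smul_of_cong (q : ℕ+) (γ : SL(2, ℤ)) (j : ℤ)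
    (h : ((q : ℕ) : ℤ) ∣ γ 1 1 - γ 1 0 * j) (z : ℍ) :
    s16h_Bfun q (γ • z) = (denom γ z) ^ 2 * s16h_Bconj q j z := by
  obtain ⟨d', hd'⟩ := h
  have hdet := s16h_det γ
  set σ : SL(2, ℤ) := ⟨!![((q : ℕ) : ℤ) * γ 0 0, γ 0 1 - γ 0 0 * j; γ 1 0, d'], by
    rw [Matrix.det_fin_two_of]
    have : ((q : ℕ) : ℤ) * γ 0 0 * d' = γ 0 0 * (γ 1 1 - γ 1 0 * j) := by rw [hd']; ring
    rw [this]
    linear_combination hdet⟩ with hσ
  have g00 : σ 0 0 = ((q : ℕ) : ℤ) * γ 0 0 := rfl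
  have g01 : σ 0 1 = γ 0 1 - γ 0 0 * j := rfl
  have g10 : σ 1 0 = γ 1 0 := rfl
  have g11 : σ 1 1 = d' := rfl
  have key := s16h_Bfun_smul q 1 q j γ σ (by simp)
    (by rw [g00]; simp) (by rw [g00, g01]; ring) (by rw [g10]; simp)
    (by rw [g10, g11]; linear_combination hd') z
  rw [key, s16h_Bconj_apply]
  simp

private theorem s16h_slash_of_smul {f g : ℍ → ℂ} (γ : SL(2, ℤ))
    (h : ∀ z : ℍ, f (γ • z) = (denom γ z) ^ 2 * g z) : f ∣[(2 : ℤ)] γ = g := by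
  funext z
  rw [SL_slash_apply, h z]
  have hd : denom γ z ≠ 0 := denom_ne_zero γ z
  rw [zpow_neg, zpow_ofNat]
  field_simp

theorem s16h_Bfun_slash_of_dvd (q : ℕ+) (γ : SL(2, ℤ)) (h : ((q : ℕ) : ℤ) ∣ γ 1 0) :
    s16h_Bfun q ∣[(2 : ℤ)] γ = s16h_Bfun q :=
  s16h_slash_of_smul γ (s16h_Bfun_smul_of_dvd q γ h)

theorem s16h_Bfun_slash_of_cong (q : ℕ+) (γ : SL(2, ℤ)) (j : ℤ)
    (h : ((q : ℕ) : ℤ) ∣ γ 1 1 - γ 1 0 * j) :
    s16h_Bfun q ∣[(2 : ℤ)] γ = s16h_Bconj q j :=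
  s16h_slash_of_smul γ (s16h_Bfun_smul_of_cong q γ j h)

/-- For `q` prime and `q ∤ γ₁₀` there is `0 ≤ j < q` with `γ₁₁ ≡ γ₁₀ j (mod q)`. -/
theorem s16h_exists_j (q : ℕ+) (hq : (q : ℕ).Prime) (γ : SL(2, ℤ))
    (h : ¬ ((q : ℕ) : ℤ) ∣ γ 1 0) :
    ∃ j : ℤ, 0 ≤ j ∧ j < ((q : ℕ) : ℤ) ∧ ((q : ℕ) : ℤ) ∣ γ 1 1 - γ 1 0 * j := by
  have hp : Prime (((q : ℕ) : ℤ)) := Nat.prime_iff_prime_int.mp hq
  have hcop : IsCoprime (γ 1 0) (((q : ℕ) : ℤ)) :=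
    (Prime.coprime_iff_not_dvd hp).mpr h |>.symm
  obtain ⟨u, v, huv⟩ := hcop
  -- u * c + v * q = 1; take j₀ = u * d
  have hqpos : (0 : ℤ) < ((q : ℕ) : ℤ) := by exact_mod_cast q.pos
  refine ⟨(u * γ 1 1) % ((q : ℕ) : ℤ), Int.emod_nonneg _ hqpos.ne', Int.emod_lt_of_pos _ hqpos, ?_⟩
  have h1 : ((q : ℕ) : ℤ) ∣ (u * γ 1 1) - (u * γ 1 1) % ((q : ℕ) : ℤ) :=
    Int.dvd_self_sub_of_emod_eq rfl
  have h2 : γ 1 1 - γ 1 0 * ((u * γ 1 1) % ((q : ℕ) : ℤ)) =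
      γ 1 0 * ((u * γ 1 1) - (u * γ 1 1) % ((q : ℕ) : ℤ)) + ((q : ℕ) : ℤ) * (v * γ 1 1) := by
    linear_combination (γ 1 1) * huv.symm
  rw [h2]
  exact dvd_add (Dvd.dvd.mul_left h1 _) (dvd_mul_right _ _)

/-! ### Holomorphy and boundedness -/

theorem s16h_tendsto_aff_atImInfty (a e : ℕ+) (b : ℤ) :
    Tendsto (s16h_aff a e b) atImInfty atImInfty := by
  rw [atImInfty, tendsto_comap_iff]
  have h : (UpperHalfPlane.im ∘ s16h_aff a e b) =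
      fun z : ℍ => ((a : ℕ) : ℝ) / ((e : ℕ) : ℝ) * z.im := by
    funext z
    exact s16h_im_aff a e b z
  rw [h]
  have ha : (0 : ℝ) < ((a : ℕ) : ℝ) := by exact_mod_cast a.pos
  have he : (0 : ℝ) < ((e : ℕ) : ℝ) := by exact_mod_cast e.pos
  exact Tendsto.const_mul_atTop (by positivity) tendsto_comap

theorem s16h_mdifferentiable_E2_aff (a e : ℕ+) (b : ℤ) :
    MDiff (fun z : ℍ => E2 (s16h_aff a e b z)) := by
  rw [UpperHalfPlane.mdifferentiable_iff]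
  have hj : DifferentiableOn ℂ (E2 ∘ ofComplex) upperHalfPlaneSet :=
    UpperHalfPlane.mdifferentiable_iff.mp E2_mdifferentiable
  have hmaps : ∀ w ∈ upperHalfPlaneSet,
      (((a : ℕ) : ℂ) * w + b) / ((e : ℕ) : ℂ) ∈ upperHalfPlaneSet := by
    intro w hw
    exact (s16h_aff a e b ⟨w, hw⟩).im_pos
  have hcomp : DifferentiableOn ℂ
      ((E2 ∘ ofComplex) ∘ fun w : ℂ => (((a : ℕ) : ℂ) * w + b) / ((e : ℕ) : ℂ))
      upperHalfPlaneSet := by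
    refine hj.comp ?_ hmaps
    exact ((differentiableOn_const _).mul differentiableOn_id |>.add
      (differentiableOn_const _)).div_const _
  refine hcomp.congr fun w hw => ?_
  simp only [Function.comp_apply]
  rw [ofComplex_apply_of_im_pos hw, ofComplex_apply_of_im_pos (hmaps w hw)]
  rfl

theorem s16h_isBoundedAtImInfty_E2_aff (a e : ℕ+) (b : ℤ) :
    IsBoundedAtImInfty (fun z : ℍ => E2 (s16h_aff a e b z)) := by
  have h := isBoundedAtImInfty_E2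
  unfold IsBoundedAtImInfty BoundedAtFilter at h ⊢
  exact h.comp_tendsto (s16h_tendsto_aff_atImInfty a e b)

theorem s16h_mdifferentiable_Bfun (q : ℕ+) : MDiff (s16h_Bfun q) := by
  unfold s16h_Bfun
  exact (mdifferentiable_const.mul (s16h_mdifferentiable_E2_aff q 1 0)).sub E2_mdifferentiable

theorem s16h_mdifferentiable_Bconj (q : ℕ+) (j : ℤ) : MDiff (s16h_Bconj q j) := by
  unfold s16h_Bconj
  exact (mdifferentiable_const.mul (s16h_mdifferentiable_E2_aff 1 q j)).sub E2_mdifferentiable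

theorem s16h_isBoundedAtImInfty_Bfun (q : ℕ+) : IsBoundedAtImInfty (s16h_Bfun q) := by
  unfold s16h_Bfun
  have h1 : IsBoundedAtImInfty (fun z : ℍ => ((q : ℕ) : ℂ) * E2 (s16h_aff q 1 0 z)) :=
    (s16h_isBoundedAtImInfty_E2_aff q 1 0).const_mul_left _
  exact h1.sub isBoundedAtImInfty_E2

theorem s16h_isBoundedAtImInfty_Bconj (q : ℕ+) (j : ℤ) : IsBoundedAtImInfty (s16h_Bconj q j) := by
  unfold s16h_Bconj
  have h1 : IsBoundedAtImInfty (fun z : ℍ => (((q : ℕ) : ℂ))⁻¹ * E2 (s16h_aff 1 q j z)) :=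
    (s16h_isBoundedAtImInfty_E2_aff 1 q j).const_mul_left _
  exact h1.sub isBoundedAtImInfty_E2

/-- Every `SL(2, ℤ)`-translate of `B_q` (`q` prime) is bounded at `i∞`. -/
theorem s16h_isBoundedAtImInfty_Bfun_slash (q : ℕ+) (hq : (q : ℕ).Prime) (γ : SL(2, ℤ)) :
    IsBoundedAtImInfty (s16h_Bfun q ∣[(2 : ℤ)] γ) := by
  by_cases h : ((q : ℕ) : ℤ) ∣ γ 1 0
  · rw [s16h_Bfun_slash_of_dvd q γ h]
    exact s16h_isBoundedAtImInfty_Bfun q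
  · obtain ⟨j, -, -, hj⟩ := s16h_exists_j q hq γ h
    rw [s16h_Bfun_slash_of_cong q γ j hj]
    exact s16h_isBoundedAtImInfty_Bconj q j

/-- `B_q` as a modular form of weight 2 on `Γ₀(N)`, `q ∣ N` prime. -/
def s16h_B (N : ℕ) [NeZero N] (q : ℕ+) (hp : (q : ℕ).Prime) (hq : (q : ℕ) ∣ N) :
    ModularForm (Gamma0 N : Subgroup (GL (Fin 2) ℝ)) 2 where
  toFun := s16h_Bfun q
  slash_action_eq' := by
    rintro _ ⟨γ, hγ, rfl⟩
    have hdvd : ((q : ℕ) : ℤ) ∣ γ 1 0 := by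
      have hγ' : γ ∈ Gamma0 N := hγ
      rw [Gamma0_mem] at hγ'
      have hγ := hγ'
      have h1 : ((N : ℕ) : ℤ) ∣ γ 1 0 := (ZMod.intCast_zmod_eq_zero_iff_dvd _ _).mp hγ
      exact (Int.natCast_dvd_natCast.mpr hq).trans h1
    exact s16h_Bfun_slash_of_dvd q γ hdvd
  holo' := s16h_mdifferentiable_Bfun q
  bdd_at_cusps' := fun {c} hc => by
    rw [Subgroup.IsArithmetic.isCusp_iff_isCusp_SL2Z] at hc
    rw [OnePoint.isBoundedAt_iff_forall_SL2Z hc]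
    intro γ _
    exact s16h_isBoundedAtImInfty_Bfun_slash q hp γ

theorem coe_s16h_B (N : ℕ) [NeZero N] (q : ℕ+) (hp : (q : ℕ).Prime) (hq : (q : ℕ) ∣ N) :
    ⇑(s16h_B N q hp hq) = s16h_Bfun q := rfl

theorem s16h_B_apply (N : ℕ) [NeZero N] (q : ℕ+) (hp : (q : ℕ).Prime) (hq : (q : ℕ) ∣ N) (z : ℍ) :
    s16h_B N q hp hq z = ((q : ℕ) : ℂ) * E2 (s16h_aff q 1 0 z) - E2 z := rfl

end

end Fermat.Agent.Lib.S16
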