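import Fermat.Agent.Lib.M2.TrW
import Fermat.Agent.Lib.S16.HEisSlash
import Fermat.Agent.Lib.S16.IExpG

/-!
# S16: the conjugation kit `s16i_KitConj p` from `m2t_slash_ST`

Every `γ ∈ SL₂(ℤ)` with `p ∤ γ₁₀` lies in `Γ₀(p) · S T^j` for some `0 ≤ j < p`
(`s16h_exists_j`), hence `G ∣ γ = G ∣ S T^j = -(U_p G) ∣ (1 j; 0 p)` (`m2t_slash_ST`).
-/

set_option autoImplicit false

open UpperHalfPlane ModularForm CongruenceSubgroup Matrix.SpecialLinearGroup ModularGroup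
open scoped MatrixGroups Manifold

namespace Fermat.Agent.Lib.S16

open Fermat.Agent.Lib.M2.Tr

/-- The lower left entry of `γ (S T^j)⁻¹`. -/
theorem s16f_mul_ST_inv_apply_one_zero (γ : SL(2, ℤ)) (j : ℕ) :
    (γ * (S * T ^ j)⁻¹ : SL(2, ℤ)) 1 0 = γ 1 0 * (j : ℤ) - γ 1 1 := by
  have hT : ((T ^ j : SL(2, ℤ)) : Matrix (Fin 2) (Fin 2) ℤ) = !![1, (j : ℤ); 0, 1] := by
    have := ModularGroup.coe_T_zpow (j : ℤ)
    rw [zpow_natCast] at this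
    exact this
  have hS : ((S : SL(2, ℤ)) : Matrix (Fin 2) (Fin 2) ℤ) = !![0, -1; 1, 0] := ModularGroup.coe_S
  have hST : ((S * T ^ j : SL(2, ℤ)) : Matrix (Fin 2) (Fin 2) ℤ) = !![0, -1; 1, (j : ℤ)] := by
    rw [Matrix.SpecialLinearGroup.coe_mul, hS, hT]
    ext a b
    fin_cases a <;> fin_cases b <;> simp [Matrix.mul_apply, Fin.sum_univ_two]
  have hinv : (((S * T ^ j : SL(2, ℤ))⁻¹ : SL(2, ℤ)) : Matrix (Fin 2) (Fin 2) ℤ) =
      !![(j : ℤ), 1; -1, 0] := by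
    rw [Matrix.SpecialLinearGroup.SL2_inv_expl]
    show !![(S * T ^ j : SL(2, ℤ)).1 1 1, -(S * T ^ j : SL(2, ℤ)).1 0 1;
      -(S * T ^ j : SL(2, ℤ)).1 1 0, (S * T ^ j : SL(2, ℤ)).1 0 0] = _
    rw [hST]
    ext a b
    fin_cases a <;> fin_cases b <;> simp
  show ((γ * (S * T ^ j)⁻¹ : SL(2, ℤ)) : Matrix (Fin 2) (Fin 2) ℤ) 1 0 = _
  rw [Matrix.SpecialLinearGroup.coe_mul, hinv, Matrix.mul_apply, Fin.sum_univ_two]
  simp
  ring

/-- **The conjugation kit at prime level.** -/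
theorem s16f_kitConj (p : ℕ) [hp : Fact p.Prime] : s16i_KitConj p := by
  intro G γ hγ
  obtain ⟨j, hj0, hjp, hdvd⟩ := s16h_exists_j ⟨p, hp.out.pos⟩ hp.out γ hγ
  lift j to ℕ using hj0
  have hjp' : j < p := by exact_mod_cast hjp
  refine ⟨j, hjp', ?_⟩
  set δ : SL(2, ℤ) := γ * (S * T ^ j)⁻¹ with hδ
  have hδmem : δ ∈ Gamma0 p := by
    rw [Gamma0_mem, hδ, s16f_mul_ST_inv_apply_one_zero, ZMod.intCast_zmod_eq_zero_iff_dvd]
    have h : γ 1 0 * (j : ℤ) - γ 1 1 = -(γ 1 1 - γ 1 0 * (j : ℤ)) := by ring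
    rw [h]
    exact (dvd_neg.mpr hdvd)
  have hγ' : γ = δ * (S * T ^ j) := by
    rw [hδ, inv_mul_cancel_right]
  have hinv : ⇑G ∣[(2 : ℤ)] δ = ⇑G := by
    rw [ModularForm.SL_slash]
    exact SlashInvariantFormClass.slash_action_eq G _ (Subgroup.mem_map_of_mem _ hδmem)
  rw [hγ', SlashAction.slash_mul, hinv]
  exact m2t_slash_ST p G j

end Fermat.Agent.Lib.S16
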