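import Fermat.Agent.Lib.S16.BLevel1
import Fermat.Prelude.Thm_UpperHalfPlane_qExpansion_coeff_nat_mul

/-!
# S16: the level-one endgame of the norm trick, in `q^{1/M}`-expansion form

For `N ∈ M_w(SL₂ℤ)`, `4 ∣ w`, and an additive subgroup `J ≤ ℂ`: if the coefficients of index
`< M (⌊w/12⌋ + 1)` of the `q^{1/M}`-expansion of `N` lie in `J`, then all of them do
(`s16f_levelOne_period`).  Combination of the Prelude period bridge
`UpperHalfPlane.qExpansion_coeff_nat_mul` with the Miller bound `s16b_miller`.
-/

set_option autoImplicit false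

open UpperHalfPlane hiding I
open scoped Manifold MatrixGroups ModularForm
open ModularForm

namespace Fermat.Agent.Lib.S16

/-- The `q^{1/M}`-expansion of a level-one form is supported on the multiples of `M`. -/
theorem s16f_qExpansion_period (M : ℕ) (hM : 0 < M) {w : ℤ} (f : ModularForm 𝒮ℒ w) (n : ℕ) :
    (qExpansion (M : ℝ) f).coeff n =
      if M ∣ n then (qExpansion 1 f).coeff (n / M) else 0 := by
  have h := UpperHalfPlane.qExpansion_coeff_nat_mul (h := 1) one_pos
    (SlashInvariantFormClass.periodic_comp_ofComplex f one_mem_strictPeriods_SL)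
    (ModularFormClass.holo f) (ModularFormClass.bdd_at_infty f) hM n
  rw [mul_one] at h
  exact h

/-- **Level-one endgame.** -/
theorem s16f_levelOne_period (M : ℕ) (hM : 0 < M) (J : AddSubgroup ℂ) {w : ℤ}
    (hw4 : (4 : ℤ) ∣ w) (f : ModularForm 𝒮ℒ w)
    (h : ∀ n, n < M * (w.toNat / 12 + 1) → (qExpansion (M : ℝ) f).coeff n ∈ J) :
    ∀ n, (qExpansion (M : ℝ) f).coeff n ∈ J := by
  have h1 : ∀ k, (qExpansion 1 f).coeff k ∈ J := by
    refine s16b_miller J hw4 f fun k hk => ?_
    have h2 := h (M * k) (Nat.mul_lt_mul_of_pos_left (Nat.lt_succ_of_le hk) hM)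
    rw [s16f_qExpansion_period M hM f, if_pos (dvd_mul_right M k),
      Nat.mul_div_cancel_left k hM] at h2
    exact h2
  intro n
  rw [s16f_qExpansion_period M hM f]
  split_ifs with hd
  · exact h1 _
  · exact J.zero_mem

end Fermat.Agent.Lib.S16
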