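import Mathlib
import Fermat.Prelude.Def_ModularCurve_ModularUnit
import Fermat.Prelude.Def_ModularCurve_PeriodMap

/-!
# S16, package (F), part 1: the Shimura character `ψ : Γ₀(p) → ℤ/n`

`n = eisensteinNumerator p = (p - 1) / gcd (p - 1, 12)`.  The character is
`γ ↦ dlog (d(γ) mod p) mod n`, where `d(γ)` is the lower right entry and `dlog` is a fixed
isomorphism of the cyclic group `(ℤ/p)ˣ` with `ℤ/(p-1)`.

* `s16f_dUnit` : `Γ₀(p) →* (ZMod p)ˣ`, the lower right entry.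
* `s16f_chi` : `(ZMod p)ˣ →* Multiplicative (ZMod n)`, surjective, trivial on `12`-torsion.
* `s16f_psi` : `Additive Γ₀(p) →+ ZMod n`; it is onto, parabolic (kills `tr² = 4`) and kills the
  elements of finite order (`γ ^ 12 = 1`, or `|tr γ| ≤ 1`).
-/

set_option autoImplicit false

namespace Fermat.Agent.Lib.S16

open CongruenceSubgroup ModularCurve ModularCurve.Period
open scoped MatrixGroups

variable (p : ℕ) [Fact p.Prime]

/-! ### Numerology -/

omit [Fact p.Prime] in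
theorem s16f_n_mul_nu : eisensteinNumerator p * Nat.gcd (p - 1) 12 = p - 1 :=
  Nat.div_mul_cancel (Nat.gcd_dvd_left _ _)

theorem s16f_n_pos : 0 < eisensteinNumerator p := by
  have hp : 2 ≤ p := (Fact.out : p.Prime).two_le
  have h := s16f_n_mul_nu p
  rcases Nat.eq_zero_or_pos (eisensteinNumerator p) with h0 | h0
  · rw [h0, zero_mul] at h
    omega
  · exact h0

instance s16f_n_neZero : NeZero (eisensteinNumerator p) := ⟨(s16f_n_pos p).ne'⟩

theorem s16f_card_units : Nat.card (ZMod p)ˣ = p - 1 := by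
  rw [Nat.card_eq_fintype_card, ZMod.card_units]

theorem s16f_n_dvd_card : eisensteinNumerator p ∣ Nat.card (ZMod p)ˣ := by
  rw [s16f_card_units]
  exact eisensteinNumerator_dvd p

omit [Fact p.Prime] in
theorem s16f_n_dvd_pred : eisensteinNumerator p ∣ p - 1 := eisensteinNumerator_dvd p

/-- `p ≡ 1` in `ZMod n`. -/
theorem s16f_p_eq_one : ((p : ℕ) : ZMod (eisensteinNumerator p)) = 1 := by
  have hp : 1 ≤ p := (Fact.out : p.Prime).one_lt.le
  have h : ((p - 1 : ℕ) : ZMod (eisensteinNumerator p)) = 0 :=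
    (ZMod.natCast_eq_zero_iff _ _).mpr (eisensteinNumerator_dvd p)
  rw [Nat.cast_sub hp, Nat.cast_one, sub_eq_zero] at h
  exact h

/-! ### The lower right entry -/

/-- The lower right entry modulo `p`, as a homomorphism to the units. -/
noncomputable def s16f_dUnit : Gamma0 p →* (ZMod p)ˣ := (Gamma0Map p).toHomUnits

theorem s16f_dUnit_coe (γ : Gamma0 p) :
    ((s16f_dUnit p γ : (ZMod p)ˣ) : ZMod p) = (((γ : SL(2, ℤ)) 1 1 : ℤ) : ZMod p) := rfl

/-- The upper left entry modulo `p` is the inverse of the lower right one. -/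
theorem s16f_a_mul_d (γ : Gamma0 p) :
    ((((γ : SL(2, ℤ)) 0 0 : ℤ) : ZMod p)) * (((γ : SL(2, ℤ)) 1 1 : ℤ) : ZMod p) = 1 := by
  have hdet : ((γ : SL(2, ℤ)) : Matrix (Fin 2) (Fin 2) ℤ).det = 1 := (γ : SL(2, ℤ)).2
  rw [Matrix.det_fin_two] at hdet
  have hc : ((((γ : SL(2, ℤ)) 1 0 : ℤ)) : ZMod p) = 0 := Gamma0_mem.mp γ.2
  have h := congrArg (fun z : ℤ => (z : ZMod p)) hdet
  simp only [Int.cast_sub, Int.cast_mul, Int.cast_one] at h
  rw [hc, mul_zero, sub_zero] at h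
  exact h

theorem s16f_dUnit_eq_of_d_eq (γ γ' : Gamma0 p)
    (h : (((γ : SL(2, ℤ)) 1 1 : ℤ) : ZMod p) = (((γ' : SL(2, ℤ)) 1 1 : ℤ) : ZMod p)) :
    s16f_dUnit p γ = s16f_dUnit p γ' :=
  Units.ext (by rw [s16f_dUnit_coe, s16f_dUnit_coe, h])

theorem s16f_dUnit_eq_of_a_eq (γ γ' : Gamma0 p)
    (h : (((γ : SL(2, ℤ)) 0 0 : ℤ) : ZMod p) = (((γ' : SL(2, ℤ)) 0 0 : ℤ) : ZMod p)) :
    s16f_dUnit p γ = s16f_dUnit p γ' := by
  apply s16f_dUnit_eq_of_d_eq
  have h1 := s16f_a_mul_d p γ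
  have h2 := s16f_a_mul_d p γ'
  rw [h] at h1
  -- d = d * (a' * d') = (a' * d) * d' = d'
  calc (((γ : SL(2, ℤ)) 1 1 : ℤ) : ZMod p)
      = (((γ : SL(2, ℤ)) 1 1 : ℤ) : ZMod p) *
          ((((γ' : SL(2, ℤ)) 0 0 : ℤ) : ZMod p) * (((γ' : SL(2, ℤ)) 1 1 : ℤ) : ZMod p)) := by
        rw [h2, mul_one]
    _ = ((((γ' : SL(2, ℤ)) 0 0 : ℤ) : ZMod p) * (((γ : SL(2, ℤ)) 1 1 : ℤ) : ZMod p)) *
          (((γ' : SL(2, ℤ)) 1 1 : ℤ) : ZMod p) := by ring
    _ = (((γ' : SL(2, ℤ)) 1 1 : ℤ) : ZMod p) := by rw [h1, one_mul]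

/-! ### The character of `(ℤ/p)ˣ` -/

/-- A surjective character `(ℤ/p)ˣ → ℤ/n` (discrete logarithm modulo `n`). -/
noncomputable def s16f_chi : (ZMod p)ˣ →* Multiplicative (ZMod (eisensteinNumerator p)) :=
  (AddMonoidHom.toMultiplicative
      (ZMod.castHom (s16f_n_dvd_card p) (ZMod (eisensteinNumerator p))).toAddMonoidHom).comp
    (zmodCyclicMulEquiv (inferInstance : IsCyclic (ZMod p)ˣ)).symm.toMonoidHom

theorem s16f_chi_surjective : Function.Surjective (s16f_chi p) := by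
  intro y
  obtain ⟨a, ha⟩ := ZMod.castHom_surjective (s16f_n_dvd_card p) (Multiplicative.toAdd y)
  refine ⟨zmodCyclicMulEquiv (inferInstance : IsCyclic (ZMod p)ˣ) (Multiplicative.ofAdd a), ?_⟩
  show Multiplicative.ofAdd ((ZMod.castHom (s16f_n_dvd_card p) (ZMod (eisensteinNumerator p)))
    (Multiplicative.toAdd ((zmodCyclicMulEquiv (inferInstance : IsCyclic (ZMod p)ˣ)).symm
      (zmodCyclicMulEquiv (inferInstance : IsCyclic (ZMod p)ˣ) (Multiplicative.ofAdd a))))) = y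
  rw [MulEquiv.symm_apply_apply, toAdd_ofAdd, ha, ofAdd_toAdd]

/-- `χ` is trivial on the `ν`-torsion, `ν = gcd (p - 1, 12)`. -/
theorem s16f_chi_eq_one_of_pow_nu (u : (ZMod p)ˣ) (h : u ^ Nat.gcd (p - 1) 12 = 1) :
    s16f_chi p u = 1 := by
  set e := (zmodCyclicMulEquiv (inferInstance : IsCyclic (ZMod p)ˣ)).symm with he
  set a : ZMod (Nat.card (ZMod p)ˣ) := Multiplicative.toAdd (e u) with ha
  have hcard : Nat.card (ZMod p)ˣ ≠ 0 := by
    rw [s16f_card_units]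
    have := (Fact.out : p.Prime).two_le
    omega
  have : NeZero (Nat.card (ZMod p)ˣ) := ⟨hcard⟩
  -- `ν • a = 0`
  have h1 : (Nat.gcd (p - 1) 12) • a = 0 := by
    have h2 : e (u ^ Nat.gcd (p - 1) 12) = 1 := by rw [h, map_one]
    rw [map_pow] at h2
    have h3 := congrArg Multiplicative.toAdd h2
    rw [toAdd_pow, toAdd_one] at h3
    exact h3
  -- write `a = k`
  have h4 : ((a.val : ℕ) : ZMod (Nat.card (ZMod p)ˣ)) = a := ZMod.natCast_zmod_val a
  have h5 : ((Nat.gcd (p - 1) 12 * a.val : ℕ) : ZMod (Nat.card (ZMod p)ˣ)) = 0 := by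
    rw [Nat.cast_mul, h4, ← nsmul_eq_mul]
    exact h1
  rw [ZMod.natCast_eq_zero_iff] at h5
  have h5' : Nat.gcd (p - 1) 12 * eisensteinNumerator p ∣ Nat.gcd (p - 1) 12 * a.val := by
    have h7 : Nat.gcd (p - 1) 12 * eisensteinNumerator p = Nat.card (ZMod p)ˣ := by
      rw [mul_comm, s16f_n_mul_nu p, s16f_card_units]
    exact h7.dvd.trans h5
  have hν : 0 < Nat.gcd (p - 1) 12 := Nat.gcd_pos_of_pos_right _ (by norm_num)
  have h6 : eisensteinNumerator p ∣ a.val := Nat.dvd_of_mul_dvd_mul_left hν h5'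
  show Multiplicative.ofAdd ((ZMod.castHom (s16f_n_dvd_card p) (ZMod (eisensteinNumerator p))) a)
    = 1
  rw [← h4, map_natCast, (ZMod.natCast_eq_zero_iff _ _).mpr h6]
  rfl

/-- `χ` is trivial on the `12`-torsion. -/
theorem s16f_chi_eq_one_of_pow_twelve (u : (ZMod p)ˣ) (h : u ^ 12 = 1) : s16f_chi p u = 1 := by
  apply s16f_chi_eq_one_of_pow_nu
  have h1 : u ^ (p - 1) = 1 := ZMod.units_pow_card_sub_one_eq_one p u
  exact pow_gcd_eq_one.mpr ⟨h1, h⟩

/-! ### The character `ψ` of `Γ₀(p)` -/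

/-- **The Shimura character** `ψ : Γ₀(p) → ℤ/n`, `γ ↦ dlog (d(γ)) mod n`. -/
noncomputable def s16f_psi : Additive (Gamma0 p) →+ ZMod (eisensteinNumerator p) :=
  MonoidHom.toAdditiveLeft ((s16f_chi p).comp (s16f_dUnit p))

theorem s16f_psi_apply (γ : Gamma0 p) :
    s16f_psi p (Additive.ofMul γ) = Multiplicative.toAdd (s16f_chi p (s16f_dUnit p γ)) := rfl

theorem s16f_psi_eq_of_dUnit_eq (γ γ' : Gamma0 p) (h : s16f_dUnit p γ = s16f_dUnit p γ') :
    s16f_psi p (Additive.ofMul γ) = s16f_psi p (Additive.ofMul γ') := by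
  rw [s16f_psi_apply, s16f_psi_apply, h]

/-- Every unit modulo `p` is the lower right entry of an element of `Γ₀(p)`. -/
theorem s16f_dUnit_surjective : Function.Surjective (s16f_dUnit p) := by
  intro u
  -- lift `u` to an integer `d` coprime to `p`
  obtain ⟨d, hd⟩ := ZMod.intCast_surjective (u : ZMod p)
  have hcop : IsCoprime d (p : ℤ) := by
    have hu : IsUnit ((d : ℤ) : ZMod p) := by rw [hd]; exact u.isUnit
    have h1 : ¬ (p : ℤ) ∣ d := by
      intro hdiv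
      have h0 : ((d : ℤ) : ZMod p) = 0 := (ZMod.intCast_zmod_eq_zero_iff_dvd d p).mpr hdiv
      rw [h0] at hu
      exact not_isUnit_zero hu
    have hp : Prime (p : ℤ) := Nat.prime_iff_prime_int.mp (Fact.out : p.Prime)
    exact ((Prime.coprime_iff_not_dvd hp).mpr h1).symm
  obtain ⟨x, y, hxy⟩ := hcop
  -- x * d + y * p = 1 : the matrix [[x, -y], [p, d]]
  have hdet : (!![x, -y; (p : ℤ), d] : Matrix (Fin 2) (Fin 2) ℤ).det = 1 := by
    rw [Matrix.det_fin_two_of]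
    linear_combination hxy
  let g : SL(2, ℤ) := ⟨!![x, -y; (p : ℤ), d], hdet⟩
  have hg : g ∈ Gamma0 p := by
    rw [Gamma0_mem]
    show (((!![x, -y; (p : ℤ), d] : Matrix (Fin 2) (Fin 2) ℤ) 1 0 : ℤ) : ZMod p) = 0
    simp
  refine ⟨⟨g, hg⟩, Units.ext ?_⟩
  rw [s16f_dUnit_coe, ← hd]
  show (((!![x, -y; (p : ℤ), d] : Matrix (Fin 2) (Fin 2) ℤ) 1 1 : ℤ) : ZMod p) = _
  simp

/-- **`ψ` is onto.** -/
theorem s16f_psi_surjective : Function.Surjective (s16f_psi p) := by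
  intro y
  obtain ⟨u, hu⟩ := s16f_chi_surjective p (Multiplicative.ofAdd y)
  obtain ⟨γ, hγ⟩ := s16f_dUnit_surjective p u
  refine ⟨Additive.ofMul γ, ?_⟩
  rw [s16f_psi_apply, hγ, hu, toAdd_ofAdd]

/-- `ψ` kills the elements whose lower right entry is a `12`-th root of unity modulo `p`. -/
theorem s16f_psi_eq_zero_of_d_pow (γ : Gamma0 p)
    (h : ((((γ : SL(2, ℤ)) 1 1 : ℤ) : ZMod p)) ^ 12 = 1) :
    s16f_psi p (Additive.ofMul γ) = 0 := by
  rw [s16f_psi_apply, s16f_chi_eq_one_of_pow_twelve p _ (Units.ext ?_)]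
  · rfl
  · rw [Units.val_pow_eq_pow_val, s16f_dUnit_coe, h, Units.val_one]

/-- **`ψ` kills the elements of finite order** (every finite order element of `SL₂(ℤ)` has order
dividing `12`). -/
theorem s16f_psi_torsion (γ : Gamma0 p) (h : γ ^ 12 = 1) :
    s16f_psi p (Additive.ofMul γ) = 0 := by
  rw [s16f_psi_apply, s16f_chi_eq_one_of_pow_twelve p _ ?_]
  · rfl
  · rw [← map_pow, h, map_one]

/-- The quadratic relation satisfied by the lower right entry modulo `p`. -/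
theorem s16f_d_quadratic (γ : Gamma0 p) :
    ((((γ : SL(2, ℤ)) 1 1 : ℤ) : ZMod p)) ^ 2 -
      ((((γ : SL(2, ℤ)) : Matrix (Fin 2) (Fin 2) ℤ).trace : ℤ) : ZMod p) *
        (((γ : SL(2, ℤ)) 1 1 : ℤ) : ZMod p) + 1 = 0 := by
  have h := s16f_a_mul_d p γ
  rw [Matrix.trace_fin_two]
  push_cast
  linear_combination (-1 : ZMod p) * h

/-- `ψ` kills every `γ` with `|tr γ| ≤ 2`. -/
theorem s16f_psi_eq_zero_of_abs_trace_le (γ : Gamma0 p)
    (h : |(((γ : SL(2, ℤ)) : Matrix (Fin 2) (Fin 2) ℤ).trace)| ≤ 2) :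
    s16f_psi p (Additive.ofMul γ) = 0 := by
  apply s16f_psi_eq_zero_of_d_pow
  have hq := s16f_d_quadratic p γ
  set d : ZMod p := (((γ : SL(2, ℤ)) 1 1 : ℤ) : ZMod p) with hd
  set t : ℤ := (((γ : SL(2, ℤ)) : Matrix (Fin 2) (Fin 2) ℤ).trace) with ht
  rw [abs_le] at h
  obtain ⟨h1, h2⟩ := h
  have hcases : t = -2 ∨ t = -1 ∨ t = 0 ∨ t = 1 ∨ t = 2 := by omega
  rcases hcases with h | h | h | h | h <;> rw [h] at hq
  · -- (d + 1)^2 = 0
    have h3 : (d + 1) ^ 2 = 0 := by push_cast at hq; linear_combination hq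
    have h4 : d + 1 = 0 := by simpa using h3
    have h5 : d = -1 := by linear_combination h4
    rw [h5]; norm_num
  · push_cast at hq
    linear_combination (d - 1) * (d ^ 9 + d ^ 6 + d ^ 3 + 1) * hq
  · push_cast at hq
    linear_combination (d ^ 10 - d ^ 8 + d ^ 6 - d ^ 4 + d ^ 2 - 1) * hq
  · push_cast at hq
    linear_combination (d + 1) * (d ^ 3 - 1) * (d ^ 6 + 1) * hq
  · have h3 : (d - 1) ^ 2 = 0 := by push_cast at hq; linear_combination hq
    have h4 : d - 1 = 0 := by simpa using h3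
    have h5 : d = 1 := by linear_combination h4
    rw [h5]; norm_num

/-- **`ψ` is parabolic**: it kills the elements with `tr² = 4`. -/
theorem s16f_psi_parabolic : IsParabolicHom (Gamma0 p) (s16f_psi p) := by
  intro γ hγ
  apply s16f_psi_eq_zero_of_abs_trace_le
  set t : ℤ := (((γ : SL(2, ℤ)) : Matrix (Fin 2) (Fin 2) ℤ).trace) with ht
  have h : (t - 2) * (t + 2) = 0 := by linear_combination hγ
  rcases mul_eq_zero.mp h with h | h
  · have h' : t = 2 := by omega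
    rw [h']; norm_num
  · have h' : t = -2 := by omega
    rw [h']; norm_num

theorem s16f_psi_mem_parabolicHoms :
    s16f_psi p ∈ parabolicHoms ℤ (Gamma0 p) (ZMod (eisensteinNumerator p)) :=
  s16f_psi_parabolic p

/-- **`ψ` kills the elliptic elements** (`|tr γ| ≤ 1`). -/
theorem s16f_psi_elliptic (γ : Gamma0 p)
    (h : |(((γ : SL(2, ℤ)) : Matrix (Fin 2) (Fin 2) ℤ).trace)| ≤ 1) :
    s16f_psi p (Additive.ofMul γ) = 0 :=
  s16f_psi_eq_zero_of_abs_trace_le p γ (h.trans (by norm_num))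

end Fermat.Agent.Lib.S16
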