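/-
S16 / work package (H): the level-`q p` combination `a • G - b • B_q` of a form `G` of level `p`
and the Eisenstein form `B_q = q E₂(q z) - E₂(z)`, as a modular form on `Γ₀(q p)`, and its
translates.
-/
import Fermat.Agent.Lib.S16.HEisSlash

set_option autoImplicit false

open UpperHalfPlane ModularForm Matrix.SpecialLinearGroup CongruenceSubgroup
open scoped MatrixGroups ModularForm Manifold

namespace Fermat.Agent.Lib.S16

noncomputable section

theorem s16h_Gamma0_mul_le (q p : ℕ) : Gamma0 (q * p) ≤ Gamma0 p := by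
  intro γ hγ
  rw [Gamma0_mem, ZMod.intCast_zmod_eq_zero_iff_dvd] at hγ ⊢
  exact dvd_trans (by push_cast; exact dvd_mul_left _ _) hγ

/-- Restriction of a form of level `p` to level `q p`. -/
def s16h_restrict (q p : ℕ) {k : ℤ} (G : ModularForm (Gamma0 p) k) :
    ModularForm (Gamma0 (q * p)) k where
  toFun := G
  slash_action_eq' γ hγ := G.slash_action_eq' γ (Subgroup.map_mono (s16h_Gamma0_mul_le q p) hγ)
  holo' := G.holo'
  bdd_at_cusps' hc := G.bdd_at_cusps' (hc.mono (Subgroup.map_mono (s16h_Gamma0_mul_le q p)))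

@[simp] theorem coe_s16h_restrict (q p : ℕ) {k : ℤ} (G : ModularForm (Gamma0 p) k) :
    (⇑(s16h_restrict q p G) : ℍ → ℂ) = ⇑G := rfl

/-- `a • G - b • B_q` on `Γ₀(q p)`. -/
def s16h_comb (q : ℕ+) (hq : (q : ℕ).Prime) (p : ℕ) [NeZero p] (G : ModularForm (Gamma0 p) 2)
    (a b : ℂ) : ModularForm (Gamma0 ((q : ℕ) * p)) 2 :=
  haveI : NeZero ((q : ℕ) * p) := ⟨Nat.mul_ne_zero q.pos.ne' (NeZero.ne p)⟩
  a • s16h_restrict (q : ℕ) p G - b • s16h_B ((q : ℕ) * p) q hq (dvd_mul_right _ _)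

theorem coe_s16h_comb (q : ℕ+) (hq : (q : ℕ).Prime) (p : ℕ) [NeZero p]
    (G : ModularForm (Gamma0 p) 2) (a b : ℂ) :
    (⇑(s16h_comb q hq p G a b) : ℍ → ℂ) = a • ⇑G - b • s16h_Bfun q := by
  have : NeZero ((q : ℕ) * p) := ⟨Nat.mul_ne_zero q.pos.ne' (NeZero.ne p)⟩
  unfold s16h_comb
  ext z
  simp [coe_s16h_B]

theorem s16h_comb_slash (q : ℕ+) (hq : (q : ℕ).Prime) (p : ℕ) [NeZero p]
    (G : ModularForm (Gamma0 p) 2) (a b : ℂ) (γ : SL(2, ℤ)) :
    (⇑(s16h_comb q hq p G a b) : ℍ → ℂ) ∣[(2 : ℤ)] γ =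
      a • (⇑G ∣[(2 : ℤ)] γ) - b • (s16h_Bfun q ∣[(2 : ℤ)] γ) := by
  rw [coe_s16h_comb, sub_eq_add_neg, SlashAction.add_slash, SlashAction.neg_slash,
    ModularForm.SL_smul_slash, ModularForm.SL_smul_slash, ← sub_eq_add_neg]

end

end Fermat.Agent.Lib.S16
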