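import Mathlib
import Fermat.Prelude.Thm_UpperHalfPlane_qExpansion_prod
import Fermat.Prelude.Thm_UpperHalfPlane_qExpansion_coeff_nat_mul

/-!
# S16 / package (I): the norm to level one of a form on `Γ₀(N)` and its `q^{1/N}`-expansion
-/

set_option autoImplicit false

open UpperHalfPlane ModularForm SlashInvariantForm Matrix.SpecialLinearGroup ConjAct
  CongruenceSubgroup
open scoped MatrixGroups ModularForm Topology Manifold Pointwise

namespace Fermat.Agent.Lib.S16

noncomputable section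

/-- `N` is a strict period of every `SL(2,ℤ)`-conjugate of `Γ₀(N)`. -/
theorem s16i_hconj (N : ℕ) (γ : SL(2, ℤ)) :
    (N : ℝ) ∈ (ConjAct.toConjAct (mapGL ℝ γ) •
      ((Gamma0 N : Subgroup SL(2, ℤ)) : Subgroup (GL (Fin 2) ℝ))).strictPeriods := by
  have hT : ModularGroup.T ^ N ∈ Gamma N := by
    have := ModularGroup_T_pow_mem_Gamma (N : ℤ) (N : ℤ) dvd_rfl
    simpa using this
  have hN : (Gamma N).Normal := Gamma_normal N
  have hle : Gamma N ≤ Gamma0 N := by
    intro x hx
    rw [Gamma_mem] at hx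
    rw [Gamma0_mem]
    exact hx.2.2.1
  have hconj : γ⁻¹ * ModularGroup.T ^ N * γ ∈ Gamma0 N := by
    apply hle
    simpa using hN.conj_mem _ hT γ⁻¹
  have hU : ∀ m : ℤ, Matrix.GeneralLinearGroup.upperRightHom ((m : ℝ)) =
      mapGL ℝ (ModularGroup.T ^ m) := by
    intro m
    simp only [Units.ext_iff, mapGL_coe_matrix, map_apply_coe]
    ext i j
    fin_cases i <;> fin_cases j <;> simp [ModularGroup.coe_T_zpow]
  have hU' := hU N
  rw [zpow_natCast, Int.cast_natCast] at hU'
  rw [Subgroup.mem_strictPeriods_iff, Subgroup.mem_pointwise_smul_iff_inv_smul_mem, ← toConjAct_inv,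
    toConjAct_smul, inv_inv, hU', ← map_inv, ← map_mul, ← map_mul]
  exact Subgroup.mem_map_of_mem _ hconj

/-- Analyticity at the cusp of every `SL(2,ℤ)`-translate, in the parameter `q^{1/N}`. -/
theorem s16i_analyticAt_quotientFunc {N : ℕ} [NeZero N] {k : ℤ}
    (f : ModularForm (Gamma0 N) k)
    (c : 𝒮ℒ ⧸ ((Gamma0 N : Subgroup SL(2, ℤ)) : Subgroup (GL (Fin 2) ℝ)).subgroupOf 𝒮ℒ) :
    AnalyticAt ℂ (cuspFunction N (quotientFunc f c)) 0 := by
  induction c using Quotient.inductionOn with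
  | h r =>
    obtain ⟨γ, hγ⟩ := r.2
    have hp : (N : ℝ) ∈ (toConjAct (r.1⁻¹)⁻¹ •
        ((Gamma0 N : Subgroup SL(2, ℤ)) : Subgroup (GL (Fin 2) ℝ))).strictPeriods := by
      rw [inv_inv, ← hγ]
      exact s16i_hconj N γ
    exact ModularFormClass.analyticAt_cuspFunction_zero (ModularForm.translate f r.1⁻¹)
      (Nat.cast_pos.mpr (Nat.pos_of_ne_zero (NeZero.ne N))) hp

/-- The coset space `SL(2,ℤ)/Γ₀(N)` inside `GL(2,ℝ)` (Mathlib's index set for norms/traces). -/
abbrev s16i_Q (N : ℕ) : Type :=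
  𝒮ℒ ⧸ ((Gamma0 N : Subgroup SL(2, ℤ)) : Subgroup (GL (Fin 2) ℝ)).subgroupOf 𝒮ℒ

instance s16i_fintypeQ (N : ℕ) [NeZero N] : Fintype (s16i_Q N) := Fintype.ofFinite _

/-- The `q^{1/N}`-expansion of the norm is the product of those of the translates. -/
theorem s16i_qExpansion_norm {N : ℕ} [NeZero N] {k : ℤ} (f : ModularForm (Gamma0 N) k) :
    qExpansion N (ModularForm.norm 𝒮ℒ f) =
      ∏ c : s16i_Q N, qExpansion N (quotientFunc f c) := by
  rw [ModularForm.coe_norm]
  have h := UpperHalfPlane.qExpansion_prod (h := (N : ℝ)) (Finset.univ : Finset (s16i_Q N))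
    (F := fun c => quotientFunc f c) fun c _ ↦ s16i_analyticAt_quotientFunc f c
  convert h using 2

end

end Fermat.Agent.Lib.S16
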