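/-
S16 / work package (H), part (H2): the cosets indexing Mathlib's `ModularForm.norm 𝒮ℒ` of a form
on `Γ₀(N)`:
* every factor `quotientFunc H c` is a translate `H ∣[k] γ`, `γ ∈ SL(2,ℤ)`;
* for `N = q p` the `p` matrices `γ_i = (1 i; q q i + 1)` (`∈ Γ₀(q) ∖ Γ₀(p)`) give `p` pairwise
  distinct cosets;
* `Nat.card (s16i_Q (q p)) = (q + 1) (p + 1)`.
-/
import Fermat.Agent.Lib.S16.INorm
import Fermat.Agent.Lib.RR.CosetsIndex

set_option autoImplicit false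

open UpperHalfPlane ModularForm SlashInvariantForm Matrix.SpecialLinearGroup CongruenceSubgroup
open scoped MatrixGroups ModularForm Topology Manifold Pointwise

namespace Fermat.Agent.Lib.S16

noncomputable section

/-- The coset `c` with `quotientFunc H c = H ∣[k] γ`. -/
def s16h_mk (N : ℕ) (γ : SL(2, ℤ)) : s16i_Q N :=
  QuotientGroup.mk (⟨mapGL ℝ γ⁻¹, γ⁻¹, rfl⟩ : 𝒮ℒ)

theorem s16h_quotientFunc_mk {N : ℕ} {k : ℤ} (H : ModularForm (Gamma0 N) k) (γ : SL(2, ℤ)) :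
    quotientFunc H (s16h_mk N γ) = ⇑H ∣[k] γ := by
  unfold s16h_mk
  rw [show (QuotientGroup.mk (⟨mapGL ℝ γ⁻¹, γ⁻¹, rfl⟩ : 𝒮ℒ) : s16i_Q N) =
    ⟦⟨mapGL ℝ γ⁻¹, γ⁻¹, rfl⟩⟧ from rfl, quotientFunc_mk]
  simp only [map_inv, inv_inv, ModularForm.SL_slash]
  rfl

theorem s16h_mk_surjective (N : ℕ) : Function.Surjective (s16h_mk N) := by
  intro c
  induction c using Quotient.inductionOn with
  | h r =>
    obtain ⟨r, γ, rfl⟩ := r
    refine ⟨γ⁻¹, ?_⟩
    unfold s16h_mk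
    simp

theorem s16h_mk_eq_iff {N : ℕ} (γ γ' : SL(2, ℤ)) :
    s16h_mk N γ = s16h_mk N γ' ↔ γ * γ'⁻¹ ∈ Gamma0 N := by
  unfold s16h_mk
  rw [QuotientGroup.eq, Subgroup.mem_subgroupOf]
  simp only [Subgroup.coe_mul, Subgroup.coe_inv, ← map_inv, ← map_mul, inv_inv]
  constructor
  · rintro ⟨δ, hδ, h⟩
    have := mapGL_injective h
    rwa [← this]
  · intro h
    exact ⟨_, h, rfl⟩

/-- (H2a) Every factor of the norm is a translate by an element of `SL(2,ℤ)`. -/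
theorem s16h_quotientFunc_eq {N : ℕ} {k : ℤ} (H : ModularForm (Gamma0 N) k) (c : s16i_Q N) :
    ∃ γ : SL(2, ℤ), SlashInvariantForm.quotientFunc H c = ⇑H ∣[k] γ := by
  obtain ⟨γ, rfl⟩ := s16h_mk_surjective N c
  exact ⟨γ, s16h_quotientFunc_mk H γ⟩

/-- The matrix `(1 i; q  q i + 1)`. -/
def s16h_rep (q : ℕ) (i : ℕ) : SL(2, ℤ) :=
  ⟨!![1, (i : ℤ); (q : ℤ), (q : ℤ) * i + 1], by rw [Matrix.det_fin_two_of]; ring⟩

theorem s16h_rep_one_zero (q i : ℕ) : (s16h_rep q i) 1 0 = (q : ℤ) := rfl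

theorem s16h_rep_one_one (q i : ℕ) : (s16h_rep q i) 1 1 = (q : ℤ) * i + 1 := rfl

theorem s16h_rep_mul_inv_one_zero (q i i' : ℕ) :
    (s16h_rep q i * (s16h_rep q i')⁻¹) 1 0 = (q : ℤ) * (q : ℤ) * ((i' : ℤ) - (i : ℤ)) := by
  simp only [s16h_rep, Matrix.SpecialLinearGroup.coe_mul, Matrix.SpecialLinearGroup.coe_inv,
    Matrix.adjugate_fin_two_of, Matrix.mul_apply, Fin.sum_univ_two]
  simp
  ring

/-- (H2b) For `N = q p` there are `p` pairwise distinct cosets whose translates are by elements of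
`Γ₀(q) ∖ Γ₀(p)`. -/
theorem s16h_special (q p : ℕ) (hq : q.Prime) (hp : p.Prime) (hqp : q ≠ p) :
    ∃ (c : Fin p → s16i_Q (q * p)) (γ : Fin p → SL(2, ℤ)), Function.Injective c ∧
      ∀ i, (q : ℤ) ∣ (γ i) 1 0 ∧ ¬ (p : ℤ) ∣ (γ i) 1 0 ∧
        ∀ (H : ModularForm (Gamma0 (q * p)) 2),
          SlashInvariantForm.quotientFunc H (c i) = ⇑H ∣[(2 : ℤ)] (γ i) := by
  have hpq : ¬ (p : ℤ) ∣ (q : ℤ) := by
    intro h
    have h' : p ∣ q := by exact_mod_cast h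
    exact hqp ((Nat.prime_dvd_prime_iff_eq hp hq).mp h').symm
  have hp' : Prime (p : ℤ) := Nat.prime_iff_prime_int.mp hp
  refine ⟨fun i => s16h_mk (q * p) (s16h_rep q i), fun i => s16h_rep q i, ?_, fun i => ⟨?_, ?_, ?_⟩⟩
  · intro i i' h
    rw [s16h_mk_eq_iff, Gamma0_mem, s16h_rep_mul_inv_one_zero,
      ZMod.intCast_zmod_eq_zero_iff_dvd] at h
    have h1 : (p : ℤ) ∣ (q : ℤ) * ((i' : ℕ) - (i : ℕ) : ℤ) := by
      have hq0 : (q : ℤ) ≠ 0 := by exact_mod_cast hq.ne_zero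
      have h2 : (q : ℤ) * (p : ℤ) ∣ (q : ℤ) * ((q : ℤ) * ((i' : ℕ) - (i : ℕ) : ℤ)) := by
        have : ((q * p : ℕ) : ℤ) = (q : ℤ) * (p : ℤ) := by push_cast; ring
        rw [← this, ← mul_assoc]
        exact h
      exact (mul_dvd_mul_iff_left hq0).mp h2
    have h3 : (p : ℤ) ∣ ((i' : ℕ) - (i : ℕ) : ℤ) := (hp'.dvd_or_dvd h1).resolve_left hpq
    have hi := i.2
    have hi' := i'.2
    apply Fin.ext
    obtain ⟨t, ht⟩ := h3
    have : t = 0 := by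
      by_contra ht0
      rcases lt_or_gt_of_ne ht0 with h | h
      · have : (p : ℤ) * t ≤ (p : ℤ) * (-1) := by
          apply mul_le_mul_of_nonneg_left (by omega) (by positivity)
        omega
      · have : (p : ℤ) * 1 ≤ (p : ℤ) * t := by
          apply mul_le_mul_of_nonneg_left (by omega) (by positivity)
        omega
    rw [this, mul_zero] at ht
    omega
  · rw [s16h_rep_one_zero]
  · rw [s16h_rep_one_zero]
    exact hpq
  · intro H
    exact s16h_quotientFunc_mk H _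

/-- (H2c) The number of factors of the norm from level `q p` to level `1`. -/
theorem s16h_card_Q (q p : ℕ) (hq : q.Prime) (hp : p.Prime) (hqp : q ≠ p) :
    Nat.card (s16i_Q (q * p)) = (q + 1) * (p + 1) := by
  have : NeZero (q * p) := ⟨Nat.mul_ne_zero hq.ne_zero hp.ne_zero⟩
  have h1 : Nat.card (s16i_Q (q * p)) = (Gamma0 (q * p)).index := by
    change (((Gamma0 (q * p) : Subgroup SL(2, ℤ)) : Subgroup (GL (Fin 2) ℝ)).subgroupOf 𝒮ℒ).index = _
    have h𝒮 : (𝒮ℒ : Subgroup (GL (Fin 2) ℝ)) = (⊤ : Subgroup SL(2, ℤ)).map (mapGL ℝ) := by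
      rw [← MonoidHom.range_eq_map]
    rw [h𝒮]
    change ((Gamma0 (q * p)).map (mapGL ℝ)).relIndex ((⊤ : Subgroup SL(2, ℤ)).map (mapGL ℝ)) = _
    rw [Subgroup.relIndex_map_map_of_injective _ _ mapGL_injective, Subgroup.relIndex_top_right]
  have hcop : q.Coprime p := (Nat.coprime_primes hq hp).mpr hqp
  rw [h1, Fermat.Agent.Lib.RR.Cosets.index_Gamma0,
    Fermat.Agent.Lib.RR.Cosets.dedekindPsi_mul hcop]
  have e1 := Fermat.Agent.Lib.RR.Cosets.dedekindPsi_prime_pow hq one_pos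
  have e2 := Fermat.Agent.Lib.RR.Cosets.dedekindPsi_prime_pow hp one_pos
  simp only [pow_one, Nat.sub_self, pow_zero] at e1 e2
  rw [e1, e2]

end

end Fermat.Agent.Lib.S16
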