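/-
S16 / work package (H): `q`-expansions of `B_q = q·E₂(q z) − E₂(z)` (period 1) and of its
conjugates `q⁻¹E₂((z+j)/q) − E₂(z)` (period `q`), and the Eisenstein interface `s16_IfaceEis`.
-/
import Fermat.Agent.Lib.S16.HEisSlash
import Fermat.Agent.Lib.S16.Iface2
import Fermat.Prelude.Thm_CongruenceSubgroup_one_mem_strictPeriods_Gamma0

set_option autoImplicit false

namespace Fermat.Agent.Lib.S16

open UpperHalfPlane hiding I
open EisensteinSeries ModularForm CongruenceSubgroup Matrix.SpecialLinearGroup Filter Complex Real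
open Function
open scoped MatrixGroups Manifold Topology ArithmeticFunction.sigma

noncomputable section

local notation "𝕢" => Periodic.qParam

/-! ### From a pointwise `q`-series to the `q`-expansion -/

theorem s16h_qParam_add_period (h : ℝ) (hh : h ≠ 0) (w : ℂ) : 𝕢 h (w + h) = 𝕢 h w := by
  unfold Periodic.qParam
  have hh' : (h : ℂ) ≠ 0 := by exact_mod_cast hh
  have : 2 * π * I * (w + h) / h = 2 * π * I * w / h + 2 * π * I := by
    field_simp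
  rw [this, Complex.exp_add, Complex.exp_two_pi_mul_I, mul_one]

/-- A function on `ℍ` given pointwise by a `q_h`-series is `h`-periodic. -/
theorem s16h_periodic_of_hasSum {f : ℍ → ℂ} {h : ℝ} (hh : 0 < h) {c : ℕ → ℂ}
    (hf : ∀ τ : ℍ, HasSum (fun m => c m • 𝕢 h τ ^ m) (f τ)) :
    Periodic (f ∘ ofComplex) h := by
  intro w
  by_cases hw : 0 < im w
  · have hw' : 0 < im (w + h) := by simp [hw]
    simp only [comp_apply, ofComplex_apply_of_im_pos hw', ofComplex_apply_of_im_pos hw]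
    have h1 := hf ⟨w + h, hw'⟩
    have h2 := hf ⟨w, hw⟩
    have e : 𝕢 h ((⟨w + h, hw'⟩ : ℍ) : ℂ) = 𝕢 h ((⟨w, hw⟩ : ℍ) : ℂ) :=
      s16h_qParam_add_period h hh.ne' w
    rw [e] at h1
    exact h1.unique h2
  · have hw0 : im w ≤ 0 := not_lt.mp hw
    have : im (w + h) ≤ 0 := by simpa using hw0
    simp [ofComplex_apply_of_im_nonpos this, ofComplex_apply_of_im_nonpos hw0]

/-- Plain functions `ℍ → ℂ` as a `FunLike` type (only used to call Mathlib lemmas stated for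
`FunLike` types). -/
@[reducible] def s16h_funLike : FunLike (ℍ → ℂ) ℍ ℂ := ⟨fun f => f, fun _ _ h => h⟩

/-- A holomorphic function on `ℍ` given pointwise by a `q_h`-series has analytic cusp function and
its `q_h`-expansion is that series. -/
theorem s16h_qExpansion_of_hasSum {f : ℍ → ℂ} {h : ℝ} (hh : 0 < h) {c : ℕ → ℂ} (hol : MDiff f)
    (hf : ∀ τ : ℍ, HasSum (fun m => c m • 𝕢 h τ ^ m) (f τ)) :
    AnalyticAt ℂ (cuspFunction h f) 0 ∧ qExpansion h f = PowerSeries.mk c := by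
  have hper := s16h_periodic_of_hasSum hh hf
  have hbdd : IsBoundedAtImInfty f := isBoundedAtImInfty_of_hasSum_qExpansion hh hf
  have han : AnalyticAt ℂ (cuspFunction h f) 0 := analyticAt_cuspFunction_zero hh hper hol hbdd
  refine ⟨han, ?_⟩
  ext m
  rw [PowerSeries.coeff_mk]
  exact (@UpperHalfPlane.qExpansion_coeff_unique (ℍ → ℂ) s16h_funLike h f c hh han hf m).symm

/-! ### The `q`-series of `E₂` at `(a z + b)/e` -/

/-- The `q`-coefficients of `E₂`. -/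
def s16h_e2c (m : ℕ) : ℂ := if m = 0 then 1 else -24 * (σ 1 m : ℂ)

theorem s16h_hasSum_E2 (z : ℍ) :
    HasSum (fun m : ℕ => s16h_e2c m • cexp (2 * π * I * z) ^ m) (E2 z) :=
  hasSum_qExpansion_E2 (z := z)

/-- Reindexing a series along `m ↦ q m`. -/
theorem s16h_hasSum_reindex (q : ℕ) (hq : 0 < q) (c : ℕ → ℂ) (x s : ℂ)
    (h : HasSum (fun m : ℕ => c m • (x ^ q) ^ m) s) :
    HasSum (fun n : ℕ => (if q ∣ n then c (n / q) else 0) • x ^ n) s := by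
  have hinj : Function.Injective (fun m : ℕ => q * m) := fun a b hab =>
    Nat.eq_of_mul_eq_mul_left hq hab
  have hsupp : ∀ n : ℕ, n ∉ Set.range (fun m : ℕ => q * m) →
      (if q ∣ n then c (n / q) else 0) • x ^ n = 0 := by
    intro n hn
    have : ¬ q ∣ n := fun ⟨m, hm⟩ => hn ⟨m, hm.symm⟩
    simp [this]
  rw [← hinj.hasSum_iff hsupp]
  convert h using 1
  funext m
  simp only [comp_apply]
  rw [if_pos (dvd_mul_right q m), Nat.mul_div_cancel_left m hq, pow_mul]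

/-! ### `B_q` -/

/-- The `q`-coefficients of `B_q`. -/
def s16h_Bc (q : ℕ+) (n : ℕ) : ℂ :=
  ((q : ℕ) : ℂ) * (if (q : ℕ) ∣ n then s16h_e2c (n / q) else 0) - s16h_e2c n

theorem s16h_hasSum_Bfun (q : ℕ+) (z : ℍ) :
    HasSum (fun n => s16h_Bc q n • 𝕢 1 z ^ n) (s16h_Bfun q z) := by
  have hx : 𝕢 1 (z : ℂ) = cexp (2 * π * I * z) := by
    simp [Periodic.qParam]
  have h1 := s16h_hasSum_E2 (s16h_aff q 1 0 z)
  have e1 : cexp (2 * π * I * (s16h_aff q 1 0 z : ℂ)) = (𝕢 1 (z : ℂ)) ^ (q : ℕ) := by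
    rw [hx, ← Complex.exp_nat_mul, s16h_coe_aff]
    congr 1
    simp
    ring
  rw [e1] at h1
  have h2 := s16h_hasSum_reindex (q : ℕ) q.pos s16h_e2c _ _ h1
  have h3 := s16h_hasSum_E2 z
  rw [← hx] at h3
  have h4 := (h2.mul_left (((q : ℕ) : ℂ))).sub h3
  rw [s16h_Bfun_apply]
  have e : (fun n => s16h_Bc q n • 𝕢 1 (z : ℂ) ^ n) = fun b =>
      ((q : ℕ) : ℂ) * ((if (q : ℕ) ∣ b then s16h_e2c (b / q) else 0) • 𝕢 1 (z : ℂ) ^ b) -
        s16h_e2c b • 𝕢 1 (z : ℂ) ^ b := by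
    funext n
    simp only [s16h_Bc, smul_eq_mul]
    ring
  rw [e]
  exact h4

/-! ### The conjugates -/

/-- The `q^{1/q}`-coefficients of `q⁻¹E₂((z+j)/q) − E₂(z)`. -/
def s16h_Bconjc (q : ℕ+) (j : ℤ) (n : ℕ) : ℂ :=
  (((q : ℕ) : ℂ))⁻¹ * s16h_e2c n * cexp (2 * π * I * j * n / ((q : ℕ) : ℂ)) -
    (if (q : ℕ) ∣ n then s16h_e2c (n / q) else 0)

theorem s16h_hasSum_Bconj (q : ℕ+) (j : ℤ) (z : ℍ) :
    HasSum (fun n => s16h_Bconjc q j n • 𝕢 ((q : ℕ) : ℝ) z ^ n) (s16h_Bconj q j z) := by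
  have hq0 : (((q : ℕ) : ℂ)) ≠ 0 := by exact_mod_cast q.pos.ne'
  set x : ℂ := 𝕢 ((q : ℕ) : ℝ) (z : ℂ) with hxdef
  have hx : x = cexp (2 * π * I * z / ((q : ℕ) : ℂ)) := by
    simp [hxdef, Periodic.qParam]
  have hxq : x ^ (q : ℕ) = cexp (2 * π * I * z) := by
    rw [hx, ← Complex.exp_nat_mul]
    congr 1
    field_simp
  -- E₂(z) as a series in x
  have h3 := s16h_hasSum_E2 z
  rw [← hxq] at h3
  have h3' := s16h_hasSum_reindex (q : ℕ) q.pos s16h_e2c _ _ h3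
  -- E₂((z+j)/q) as a series in x
  have h1 := s16h_hasSum_E2 (s16h_aff 1 q j z)
  have e1 : ∀ m : ℕ, cexp (2 * π * I * (s16h_aff 1 q j z : ℂ)) ^ m =
      cexp (2 * π * I * j * m / ((q : ℕ) : ℂ)) * x ^ m := by
    intro m
    rw [hx, ← Complex.exp_nat_mul, ← Complex.exp_nat_mul, ← Complex.exp_add, s16h_coe_aff]
    congr 1
    simp
    field_simp
    ring
  have h1' : HasSum (fun m : ℕ => (s16h_e2c m * cexp (2 * π * I * j * m / ((q : ℕ) : ℂ))) • x ^ m)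
      (E2 (s16h_aff 1 q j z)) := by
    convert h1 using 1
    funext m
    rw [e1 m]
    simp only [smul_eq_mul]
    ring
  have h4 := (h1'.mul_left ((((q : ℕ) : ℂ))⁻¹)).sub h3'
  rw [s16h_Bconj_apply]
  have e : (fun n => s16h_Bconjc q j n • x ^ n) = fun b =>
      (((q : ℕ) : ℂ))⁻¹ * ((s16h_e2c b * cexp (2 * π * I * j * b / ((q : ℕ) : ℂ))) • x ^ b) -
        (if (q : ℕ) ∣ b then s16h_e2c (b / q) else 0) • x ^ b := by
    funext n
    simp only [s16h_Bconjc, smul_eq_mul]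
    ring
  rw [e]
  exact h4

/-! ### `q`-expansions -/

theorem s16h_qExpansion_Bfun (q : ℕ+) :
    AnalyticAt ℂ (cuspFunction 1 (s16h_Bfun q)) 0 ∧
      qExpansion 1 (s16h_Bfun q) = PowerSeries.mk (s16h_Bc q) :=
  s16h_qExpansion_of_hasSum one_pos (s16h_mdifferentiable_Bfun q) (s16h_hasSum_Bfun q)

theorem s16h_qExpansion_Bconj (q : ℕ+) (j : ℤ) :
    AnalyticAt ℂ (cuspFunction ((q : ℕ) : ℝ) (s16h_Bconj q j)) 0 ∧
      qExpansion ((q : ℕ) : ℝ) (s16h_Bconj q j) = PowerSeries.mk (s16h_Bconjc q j) :=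
  s16h_qExpansion_of_hasSum (by exact_mod_cast q.pos) (s16h_mdifferentiable_Bconj q j)
    (s16h_hasSum_Bconj q j)

theorem s16h_qCoeff_B (N : ℕ) [NeZero N] (q : ℕ+) (hp : (q : ℕ).Prime) (hq : (q : ℕ) ∣ N) (n : ℕ) :
    ModularFormClass.qCoeff (s16h_B N q hp hq) n = s16h_Bc q n := by
  unfold ModularFormClass.qCoeff
  rw [coe_s16h_B, (s16h_qExpansion_Bfun q).2, PowerSeries.coeff_mk]

/-! ### The coefficients of `B_q` as divisor sums -/

theorem s16h_Bc_zero (q : ℕ+) : s16h_Bc q 0 = ((q : ℕ) : ℂ) - 1 := by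
  simp [s16h_Bc, s16h_e2c]

/-- The divisors of `n` divisible by `q` are `q` times the divisors of `n / q`. -/
theorem s16h_sum_divisors_dvd (q n : ℕ) (hq : 0 < q) (hn : 0 < n) (h : q ∣ n) :
    ∑ t ∈ n.divisors with q ∣ t, t = q * ∑ s ∈ (n / q).divisors, s := by
  rw [Finset.mul_sum]
  symm
  obtain ⟨m, rfl⟩ := h
  have hm : 0 < m := Nat.pos_of_mul_pos_left (a := q) (by simpa [mul_comm] using hn)
  rw [Nat.mul_div_cancel_left m hq]
  refine Finset.sum_bij (fun s _ => q * s) ?_ ?_ ?_ ?_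
  · intro s hs
    rw [Nat.mem_divisors] at hs
    rw [Finset.mem_filter, Nat.mem_divisors]
    exact ⟨⟨Nat.mul_dvd_mul_left q hs.1, hn.ne'⟩, dvd_mul_right q s⟩
  · intro a _ b _ hab
    exact Nat.eq_of_mul_eq_mul_left hq hab
  · intro t ht
    rw [Finset.mem_filter, Nat.mem_divisors] at ht
    obtain ⟨⟨htn, _⟩, s, rfl⟩ := ht
    refine ⟨s, ?_, rfl⟩
    rw [Nat.mem_divisors]
    exact ⟨Nat.dvd_of_mul_dvd_mul_left hq htn, hm.ne'⟩
  · intro s _
    rfl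

/-- `σ(n) − q σ(n/q)[q ∣ n] = ∑_{t ∣ n, q ∤ t} t`. -/
theorem s16h_sigma_sub (q n : ℕ) (hq : 0 < q) (hn : 0 < n) :
    (σ 1 n : ℤ) - (q : ℤ) * (if q ∣ n then (σ 1 (n / q) : ℤ) else 0) =
      ((∑ t ∈ n.divisors with ¬ q ∣ t, t : ℕ) : ℤ) := by
  have hsplit : (∑ t ∈ n.divisors with q ∣ t, t) + (∑ t ∈ n.divisors with ¬ q ∣ t, t) =
      ∑ t ∈ n.divisors, t := Finset.sum_filter_add_sum_filter_not _ _ _
  have hσ : σ 1 n = ∑ t ∈ n.divisors, t := by simp [ArithmeticFunction.sigma_one_apply]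
  by_cases h : q ∣ n
  · rw [if_pos h]
    have h1 := s16h_sum_divisors_dvd q n hq hn h
    have hσ' : σ 1 (n / q) = ∑ s ∈ (n / q).divisors, s := by
      simp [ArithmeticFunction.sigma_one_apply]
    rw [hσ, hσ', ← hsplit, h1]
    push_cast
    ring
  · rw [if_neg h]
    have h1 : ∑ t ∈ n.divisors with q ∣ t, t = 0 := by
      apply Finset.sum_eq_zero
      intro t ht
      rw [Finset.mem_filter, Nat.mem_divisors] at ht
      exact absurd (ht.2.trans ht.1.1) h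
    rw [hσ, ← hsplit, h1]
    push_cast
    ring

theorem s16h_Bc_pos (q : ℕ+) (n : ℕ) (hn : 1 ≤ n) :
    s16h_Bc q n = 24 * ((∑ t ∈ n.divisors with ¬ (q : ℕ) ∣ t, t : ℕ) : ℂ) := by
  have hn0 : n ≠ 0 := by omega
  have key := s16h_sigma_sub (q : ℕ) n q.pos hn
  have key' : ((σ 1 n : ℤ) : ℂ) - (((q : ℕ) : ℤ) : ℂ) *
      (((if (q : ℕ) ∣ n then (σ 1 (n / q) : ℤ) else 0 : ℤ)) : ℂ) =
      (((∑ t ∈ n.divisors with ¬ (q : ℕ) ∣ t, t : ℕ) : ℤ) : ℂ) := by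
    exact_mod_cast congrArg (Int.cast : ℤ → ℂ) key
  unfold s16h_Bc s16h_e2c
  rw [if_neg hn0]
  by_cases h : (q : ℕ) ∣ n
  · have hnq : n / (q : ℕ) ≠ 0 := by
      obtain ⟨m, rfl⟩ := h
      rw [Nat.mul_div_cancel_left m q.pos]
      rintro rfl
      simp at hn0
    rw [if_pos h, if_neg hnq]
    rw [if_pos h] at key'
    push_cast at key' ⊢
    linear_combination 24 * key'
  · rw [if_neg h]
    rw [if_neg h] at key'
    push_cast at key' ⊢
    linear_combination 24 * key'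

/-! ### The Eisenstein interface -/

theorem s16h_qCoeff_smul {N : ℕ} (c : ℂ) (f : ModularForm (Gamma0 N : Subgroup (GL (Fin 2) ℝ)) 2)
    (n : ℕ) : ModularFormClass.qCoeff ⇑(c • f) n = c * ModularFormClass.qCoeff ⇑f n := by
  have h1 : ⇑(c • f) = c • ⇑f := by
    ext z
    simp
  simp only [ModularFormClass.qCoeff, h1]
  rw [ModularForm.qExpansion_smul one_pos (CongruenceSubgroup.one_mem_strictPeriods_Gamma0 N) c f]
  simp

/-- The Eisenstein series `(1/24)·B_q = (q − 1)/24 + ∑ σ^{(q)}(k) q^k ∈ M₂(Γ₀(N))`, `q ∣ N` prime. -/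
def s16h_eis (N : ℕ) [NeZero N] (q : ℕ+) (hp : (q : ℕ).Prime) (hq : (q : ℕ) ∣ N) :
    ModularForm (Gamma0 N : Subgroup (GL (Fin 2) ℝ)) 2 :=
  ((1 / 24 : ℂ)) • s16h_B N q hp hq

theorem s16h_qCoeff_eis_zero (N : ℕ) [NeZero N] (q : ℕ+) (hp : (q : ℕ).Prime) (hq : (q : ℕ) ∣ N) :
    ModularFormClass.qCoeff (s16h_eis N q hp hq) 0 = (((q : ℕ) : ℂ) - 1) / 24 := by
  unfold s16h_eis
  rw [s16h_qCoeff_smul, s16h_qCoeff_B, s16h_Bc_zero]
  ring

theorem s16h_qCoeff_eis_pos (N : ℕ) [NeZero N] (q : ℕ+) (hp : (q : ℕ).Prime) (hq : (q : ℕ) ∣ N)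
    (k : ℕ) (hk : 1 ≤ k) :
    ModularFormClass.qCoeff (s16h_eis N q hp hq) k =
      ((∑ t ∈ k.divisors with ¬ (q : ℕ) ∣ t, t : ℕ) : ℂ) := by
  unfold s16h_eis
  rw [s16h_qCoeff_smul, s16h_qCoeff_B, s16h_Bc_pos _ _ hk]
  ring

theorem s16h_ifaceEis (p : ℕ) [hp : Fact p.Prime] : s16_IfaceEis p := by
  have : NeZero p := ⟨hp.out.ne_zero⟩
  set q : ℕ+ := ⟨p, hp.out.pos⟩ with hq
  have hqp : (q : ℕ) = p := rfl
  refine ⟨s16h_eis p q (hqp ▸ hp.out) (hqp ▸ dvd_refl p), ?_, ?_⟩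
  · rw [s16h_qCoeff_eis_zero, hqp]
  · intro k hk
    rw [s16h_qCoeff_eis_pos _ _ _ _ k hk, hqp]
    rfl

end

end Fermat.Agent.Lib.S16
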