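/-
S16 / work package (H): the conjugation kit hypothesis `s16i_KitConj p` of package (I), discharged
from package (D) (`s16d_slash_of_not_mem`).
-/
import Fermat.Agent.Lib.S16.IExpG
import Fermat.Agent.Lib.S16.DConj

set_option autoImplicit false

open CongruenceSubgroup
open scoped MatrixGroups ModularForm

namespace Fermat.Agent.Lib.S16

/-- Every translate of `G ∈ M₂(Γ₀(p))` by `γ ∈ SL(2,ℤ) ∖ Γ₀(p)` is `-(U_p G) ∣ (1 j; 0 p)`. -/
theorem s16h_kitConj (p : ℕ) [Fact p.Prime] : s16i_KitConj p := by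
  intro G γ hγ
  refine s16d_slash_of_not_mem G γ ?_
  intro hmem
  rw [Gamma0_mem, ZMod.intCast_zmod_eq_zero_iff_dvd] at hmem
  exact hγ hmem

end Fermat.Agent.Lib.S16
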