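import Mathlib
import Fermat.Prelude.Def_ModularForm_HeckeOperator

/-!
# S16 / package (I): `q^{1/M}`-expansions — reindexing lemmas
-/

set_option autoImplicit false

open Complex
open UpperHalfPlane hiding I
open scoped Real

namespace Fermat.Agent.Lib.S16

local notation "𝕢" => Function.Periodic.qParam

/-- `(q^{1/(ab)})^a = q^{1/b}`. -/
theorem s16i_qParam_pow (a b : ℕ) (ha : 0 < a) (hb : 0 < b) (z : ℂ) :
    𝕢 ((a * b : ℕ) : ℝ) z ^ a = 𝕢 (b : ℝ) z := by
  unfold Function.Periodic.qParam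
  rw [← Complex.exp_nat_mul]
  congr 1
  have ha' : (a : ℂ) ≠ 0 := by exact_mod_cast ha.ne'
  have hb' : (b : ℂ) ≠ 0 := by exact_mod_cast hb.ne'
  push_cast
  field_simp

/-- The root of unity `exp(2πi j / p)`. -/
noncomputable def s16i_zeta (p : ℕ) (j : ℤ) : ℂ := Complex.exp (2 * π * I * (j : ℂ) / (p : ℂ))

theorem s16i_zeta_pow (p : ℕ) (hp : 0 < p) (j : ℤ) : s16i_zeta p j ^ p = 1 := by
  unfold s16i_zeta
  rw [← Complex.exp_nat_mul]
  have hp' : (p : ℂ) ≠ 0 := by exact_mod_cast hp.ne'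
  have : (p : ℂ) * (2 * π * I * (j : ℂ) / (p : ℂ)) = (j : ℂ) * (2 * π * I) := by
    field_simp
  rw [this]
  exact Complex.exp_int_mul_two_pi_mul_I j

/-- `q((z + j)/p) = ζ_p^j · q^{1/p}(z)`. -/
theorem s16i_qParam_add_div (p : ℕ) (hp : 0 < p) (j : ℤ) (z : ℂ) :
    𝕢 (1 : ℝ) ((z + j) / p) = s16i_zeta p j * 𝕢 (p : ℝ) z := by
  unfold Function.Periodic.qParam s16i_zeta
  rw [← Complex.exp_add]
  congr 1
  have hp' : (p : ℂ) ≠ 0 := by exact_mod_cast hp.ne'
  push_cast
  field_simp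
  ring

/-- Reindexing a power series in `ω x^d` as a power series in `x`. -/
theorem s16i_hasSum_reindex {a : ℕ → ℂ} {x ω s : ℂ} {d : ℕ} (hd : 0 < d)
    (h : HasSum (fun n => a n • (ω * x ^ d) ^ n) s) :
    HasSum (fun m => (if d ∣ m then a (m / d) * ω ^ (m / d) else 0) • x ^ m) s := by
  have hinj : Function.Injective (fun n : ℕ => d * n) := fun m n hmn =>
    Nat.eq_of_mul_eq_mul_left hd hmn
  rw [← hinj.hasSum_iff]
  · convert h using 1
    funext n
    simp only [Function.comp_apply, dvd_mul_right, if_true, Nat.mul_div_cancel_left _ hd,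
      smul_eq_mul]
    rw [mul_pow, ← pow_mul]
    ring
  · intro m hm
    have : ¬ d ∣ m := by
      rintro ⟨n, rfl⟩
      exact hm ⟨n, rfl⟩
    rw [if_neg this, zero_smul]

/-- Version with `ω = 1`. -/
theorem s16i_hasSum_reindex_one {a : ℕ → ℂ} {x s : ℂ} {d : ℕ} (hd : 0 < d)
    (h : HasSum (fun n => a n • (x ^ d) ^ n) s) :
    HasSum (fun m => (if d ∣ m then a (m / d) else 0) • x ^ m) s := by
  have h' : HasSum (fun n => a n • ((1 : ℂ) * x ^ d) ^ n) s := by simpa using h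
  have := s16i_hasSum_reindex hd h'
  convert this using 1
  funext m
  split_ifs <;> simp

end Fermat.Agent.Lib.S16
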