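import Fermat.Agent.Lib.S16.HEisQExp
import Fermat.Agent.Lib.S16.IExp
import Fermat.Agent.Lib.S16.IOr

/-!
# S16 / package (I): `q^{1/M}`-expansions of the `SL(2,ℤ)`-translates of `B_q`, with the
arithmetic data needed for the reduction modulo `r`
-/

set_option autoImplicit false

namespace Fermat.Agent.Lib.S16

open UpperHalfPlane hiding I
open EisensteinSeries ModularForm CongruenceSubgroup Matrix.SpecialLinearGroup Filter Complex Real
open Function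
open scoped MatrixGroups Manifold Topology ArithmeticFunction.sigma

noncomputable section

local notation "𝕢" => Periodic.qParam

/-- `B_q` in the parameter `q^{1/(qp)}`. -/
theorem s16i_hasSum_Bfun (q : ℕ+) (p : ℕ) (hp : 0 < p) (z : ℍ) :
    HasSum (fun m => (if (q : ℕ) * p ∣ m then s16h_Bc q (m / ((q : ℕ) * p)) else 0) •
      𝕢 (((q : ℕ) * p : ℕ) : ℝ) z ^ m) (s16h_Bfun q z) := by
  have h := s16h_hasSum_Bfun q z
  have hx : 𝕢 (1 : ℝ) (z : ℂ) = 𝕢 (((q : ℕ) * p : ℕ) : ℝ) z ^ ((q : ℕ) * p) := by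
    have := s16i_qParam_pow ((q : ℕ) * p) 1 (Nat.mul_pos q.pos hp) one_pos (z : ℂ)
    rw [mul_one] at this
    rw [this]
    simp
  rw [hx] at h
  exact s16i_hasSum_reindex_one (Nat.mul_pos q.pos hp) h

/-- The conjugates of `B_q` in the parameter `q^{1/(qp)}`. -/
theorem s16i_hasSum_Bconj (q : ℕ+) (p : ℕ) (hp : 0 < p) (j : ℤ) (z : ℍ) :
    HasSum (fun m => (if p ∣ m then s16h_Bconjc q j (m / p) else 0) •
      𝕢 (((q : ℕ) * p : ℕ) : ℝ) z ^ m) (s16h_Bconj q j z) := by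
  have h := s16h_hasSum_Bconj q j z
  have hx : 𝕢 (((q : ℕ) : ℝ)) (z : ℂ) = 𝕢 (((q : ℕ) * p : ℕ) : ℝ) z ^ p := by
    have := s16i_qParam_pow p (q : ℕ) hp q.pos (z : ℂ)
    rw [mul_comm p (q : ℕ)] at this
    rw [this]
  rw [hx] at h
  exact s16i_hasSum_reindex_one hp h

theorem s16i_Bconjc_zero (q : ℕ+) (j : ℤ) :
    s16h_Bconjc q j 0 = (((q : ℕ) : ℂ) - 1) / ((-((q : ℕ) : ℤ) : ℤ) : ℂ) := by
  have hq0 : (((q : ℕ) : ℂ)) ≠ 0 := by exact_mod_cast q.pos.ne'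
  simp only [s16h_Bconjc, s16h_e2c, if_true, dvd_zero, Nat.zero_div, Nat.cast_zero, mul_zero,
    zero_div, Complex.exp_zero, mul_one]
  push_cast
  field_simp
  ring

/-- The root of unity `exp(2πi j n / q)`. -/
theorem s16i_cexp_pow (q : ℕ+) (j : ℤ) (n : ℕ) :
    cexp (2 * π * I * j * n / ((q : ℕ) : ℂ)) ^ (q : ℕ) = 1 := by
  have hq0 : (((q : ℕ) : ℂ)) ≠ 0 := by exact_mod_cast q.pos.ne'
  rw [← Complex.exp_nat_mul]
  have : (((q : ℕ) : ℂ)) * (2 * π * I * j * n / ((q : ℕ) : ℂ)) = ((j * n : ℤ) : ℂ) * (2 * π * I) := by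
    push_cast
    field_simp
  rw [this]
  exact Complex.exp_int_mul_two_pi_mul_I _

variable (r : ℕ) [Fact r.Prime]

theorem s16i_Bconjc_pos (q : ℕ+) (hqr : ¬ r ∣ (q : ℕ)) (j : ℤ) (n : ℕ) (hn : 1 ≤ n) :
    ∃ y ∈ s16i_O r, s16h_Bconjc q j n = 24 * y := by
  have hn0 : n ≠ 0 := by omega
  refine ⟨-((((q : ℕ) : ℂ))⁻¹ * (σ 1 n : ℂ) * cexp (2 * π * I * j * n / ((q : ℕ) : ℂ))) +
    (if (q : ℕ) ∣ n then ((σ 1 (n / q) : ℕ) : ℂ) else 0), ?_, ?_⟩
  · refine (s16i_O r).add_mem ((s16i_O r).neg_mem ((s16i_O r).mul_mem ((s16i_O r).mul_mem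
      (s16i_inv_natCast_mem_O r _ hqr) (s16i_natCast_mem_O r _))
      (s16i_rootOfUnity_mem_O r q.pos (s16i_cexp_pow q j n)))) ?_
    split_ifs
    · exact s16i_natCast_mem_O r _
    · exact (s16i_O r).zero_mem
  · simp only [s16h_Bconjc, s16h_e2c, if_neg hn0]
    by_cases hqn : (q : ℕ) ∣ n
    · have hnq : n / (q : ℕ) ≠ 0 := by
        obtain ⟨t, rfl⟩ := hqn
        rw [Nat.mul_div_cancel_left _ q.pos]
        rintro rfl
        simp at hn0
      simp only [if_pos hqn, if_neg hnq]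
      ring
    · simp only [if_neg hqn]
      ring

theorem s16i_Bconjc_one (q : ℕ+) (hq : 1 < (q : ℕ)) (hqr : ¬ r ∣ (q : ℕ)) (j : ℤ) :
    ∃ w ∈ s16i_O r, s16h_Bconjc q j 1 = 24 * w ∧ ∃ v ∈ s16i_O r, v * w = 1 := by
  have hq0 : (((q : ℕ) : ℂ)) ≠ 0 := by exact_mod_cast q.pos.ne'
  set ξ : ℂ := cexp (2 * π * I * j * (1 : ℕ) / ((q : ℕ) : ℂ)) with hξ
  have hξq : ξ ^ (q : ℕ) = 1 := s16i_cexp_pow q j 1
  have hξmem : ξ ∈ s16i_O r := s16i_rootOfUnity_mem_O r q.pos hξq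
  refine ⟨-((((q : ℕ) : ℂ))⁻¹ * ξ), (s16i_O r).neg_mem ((s16i_O r).mul_mem
    (s16i_inv_natCast_mem_O r _ hqr) hξmem), ?_, -(((q : ℕ) : ℂ) * ξ ^ ((q : ℕ) - 1)),
    (s16i_O r).neg_mem ((s16i_O r).mul_mem (s16i_natCast_mem_O r _)
      ((s16i_O r).pow_mem hξmem _)), ?_⟩
  · have h1 : ¬ (q : ℕ) ∣ 1 := by
      intro h
      have := Nat.le_of_dvd one_pos h
      omega
    simp only [s16h_Bconjc, s16h_e2c, if_neg one_ne_zero, if_neg h1]
    rw [← hξ]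
    simp
    ring
  · have : ξ ^ ((q : ℕ) - 1) * ξ = 1 := by
      rw [← pow_succ]
      have : (q : ℕ) - 1 + 1 = (q : ℕ) := by omega
      rw [this, hξq]
    field_simp
    linear_combination this

/-- The `B`-part of a conjugate: expansion in `q^{1/(qp)}` together with its arithmetic. -/
theorem s16i_B_exp (q : ℕ+) (hq : (q : ℕ).Prime) (hqr : ¬ r ∣ (q : ℕ)) (p : ℕ) (hp : 0 < p)
    (γ : SL(2, ℤ)) :
    ∃ (aB : ℕ → ℂ) (Q : ℤ) (o : ℕ),
      (∀ τ : ℍ, HasSum (fun m => aB m • 𝕢 (((q : ℕ) * p : ℕ) : ℝ) τ ^ m)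
        ((s16h_Bfun q ∣[(2 : ℤ)] γ) τ)) ∧
      (((q : ℕ) : ℤ) ∣ γ 1 0 → Q = 1 ∧ o = (q : ℕ) * p) ∧
      (¬ ((q : ℕ) : ℤ) ∣ γ 1 0 → Q = -((q : ℕ) : ℤ) ∧ o = p) ∧
      aB 0 = (((q : ℕ) : ℂ) - 1) / (Q : ℂ) ∧
      (∀ m, 1 ≤ m → ∃ y ∈ s16i_O r, aB m = 24 * y) ∧
      (∀ m, 0 < m → m < o → aB m = 0) ∧
      (∃ w ∈ s16i_O r, aB o = 24 * w ∧ ∃ v ∈ s16i_O r, v * w = 1) := by
  have hMpos : 0 < (q : ℕ) * p := Nat.mul_pos q.pos hp
  by_cases hγ : ((q : ℕ) : ℤ) ∣ γ 1 0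
  · refine ⟨fun m => if (q : ℕ) * p ∣ m then s16h_Bc q (m / ((q : ℕ) * p)) else 0, 1,
      (q : ℕ) * p, ?_, fun _ => ⟨rfl, rfl⟩, fun h => absurd hγ h, ?_, ?_, ?_, ?_⟩
    · intro τ
      rw [s16h_Bfun_slash_of_dvd q γ hγ]
      exact s16i_hasSum_Bfun q p hp τ
    · simp [s16h_Bc_zero]
    · intro m hm
      by_cases hd : (q : ℕ) * p ∣ m
      · have h1 : 1 ≤ m / ((q : ℕ) * p) := by
          obtain ⟨t, rfl⟩ := hd
          rw [Nat.mul_div_cancel_left _ hMpos]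
          rcases Nat.eq_zero_or_pos t with rfl | ht
          · simp at hm
          · exact ht
        refine ⟨((∑ t ∈ (m / ((q : ℕ) * p)).divisors with ¬ (q : ℕ) ∣ t, t : ℕ) : ℂ),
          s16i_natCast_mem_O r _, ?_⟩
        simp only [if_pos hd]
        exact s16h_Bc_pos q _ h1
      · exact ⟨0, (s16i_O r).zero_mem, by simp [if_neg hd]⟩
    · intro m hm0 hm
      have hd : ¬ (q : ℕ) * p ∣ m := fun h => absurd (Nat.le_of_dvd hm0 h) (by omega)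
      simp only [if_neg hd]
    · refine ⟨1, (s16i_O r).one_mem, ?_, 1, (s16i_O r).one_mem, by ring⟩
      simp only [if_pos (dvd_refl _), Nat.div_self hMpos]
      rw [s16h_Bc_pos q 1 le_rfl]
      have h1 : ¬ (q : ℕ) ∣ 1 := by
        intro h
        have := Nat.le_of_dvd one_pos h
        have := hq.one_lt
        omega
      rw [Nat.divisors_one, Finset.filter_singleton, if_pos h1]
      simp
  · obtain ⟨j, -, -, hj⟩ := s16h_exists_j q hq γ hγ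
    refine ⟨fun m => if p ∣ m then s16h_Bconjc q j (m / p) else 0, -((q : ℕ) : ℤ), p, ?_,
      fun h => absurd h hγ, fun _ => ⟨rfl, rfl⟩, ?_, ?_, ?_, ?_⟩
    · intro τ
      rw [s16h_Bfun_slash_of_cong q γ j hj]
      exact s16i_hasSum_Bconj q p hp j τ
    · simp only [dvd_zero, if_true, Nat.zero_div]
      exact s16i_Bconjc_zero q j
    · intro m hm
      by_cases hd : p ∣ m
      · have h1 : 1 ≤ m / p := by
          obtain ⟨t, rfl⟩ := hd
          rw [Nat.mul_div_cancel_left _ hp]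
          rcases Nat.eq_zero_or_pos t with rfl | ht
          · simp at hm
          · exact ht
        simp only [if_pos hd]
        exact s16i_Bconjc_pos r q hqr j _ h1
      · exact ⟨0, (s16i_O r).zero_mem, by simp [if_neg hd]⟩
    · intro m hm0 hm
      have hd : ¬ p ∣ m := fun h => absurd (Nat.le_of_dvd hm0 h) (by omega)
      simp only [if_neg hd]
    · simp only [if_pos (dvd_refl _), Nat.div_self hp]
      exact s16i_Bconjc_one r q hq.one_lt hqr j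

end

end Fermat.Agent.Lib.S16
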