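import Fermat.Agent.Lib.S16.IRed

/-!
# S16 / package (I): the arithmetic of one conjugate

Given the `q^{1/M}`-coefficients `aG` of a conjugate of `G` and `aB` of the matching conjugate of
`B_q`, the scaled combination `(r^{j₀+e-1})⁻¹ (aG - ν aB)` has a unit leading coefficient modulo
`r`, at order `o` when its constant term is divisible by `r`.
-/

set_option autoImplicit false

open PowerSeries

namespace Fermat.Agent.Lib.S16

variable (r : ℕ) [Fact r.Prime]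

/-- A rational number with denominator prime to `r` is a unit of `𝒪_(r)` or a multiple of `r`. -/
theorem s16i_unit_or_mul (A S : ℤ) (hS : ¬ (r : ℤ) ∣ S) :
    (((A : ℂ) / (S : ℂ)) ∈ s16i_O r ∧ ∃ v ∈ s16i_O r, v * ((A : ℂ) / (S : ℂ)) = 1) ∨
      (∃ y ∈ s16i_O r, (A : ℂ) / (S : ℂ) = (r : ℂ) * y) := by
  have hS0 : (S : ℂ) ≠ 0 := by
    intro h
    apply hS
    have : S = 0 := by exact_mod_cast h
    rw [this]
    exact dvd_zero _
  by_cases hA : (r : ℤ) ∣ A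
  · right
    obtain ⟨A', rfl⟩ := hA
    refine ⟨(A' : ℂ) / (S : ℂ), s16i_div_mem_O r A' S hS, ?_⟩
    push_cast
    ring
  · left
    have hA0 : (A : ℂ) ≠ 0 := by
      intro h
      apply hA
      have : A = 0 := by exact_mod_cast h
      rw [this]
      exact dvd_zero _
    refine ⟨s16i_div_mem_O r A S hS, (S : ℂ) / (A : ℂ), s16i_div_mem_O r S A hA, ?_⟩
    field_simp

theorem s16i_leadC_of_data (e j₀ : ℕ) (he : 1 ≤ e) (qm1 cc : ℕ)
    (h24 : 24 = qm1 * r ^ (e - 1) * cc) (hcc : ¬ r ∣ cc)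
    (u p' P Q : ℤ) (hu : ¬ (r : ℤ) ∣ u) (hp' : ¬ (r : ℤ) ∣ p') (hP : ¬ (r : ℤ) ∣ P)
    (hQ : ¬ (r : ℤ) ∣ Q) (hPQ : (r : ℤ) ^ (e - 1) ∣ Q + p' * P)
    (aG aB : ℕ → ℂ) (o : ℕ) (ho : 0 < o)
    (hG0 : aG 0 = (r : ℂ) ^ j₀ * (u : ℂ) / (P : ℂ)) (hB0 : aB 0 = (qm1 : ℂ) / (Q : ℂ))
    (hG : ∀ m, 1 ≤ m → ∃ y ∈ s16i_O r, aG m = (r : ℂ) ^ (j₀ + e) * y)
    (hB : ∀ m, 1 ≤ m → ∃ y ∈ s16i_O r, aB m = 24 * y)
    (hBlow : ∀ m, 0 < m → m < o → aB m = 0)
    (hBo : ∃ w ∈ s16i_O r, aB o = 24 * w ∧ ∃ v ∈ s16i_O r, v * w = 1) :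
    ∃ o', s16i_LeadC r (PowerSeries.mk fun m => ((r : ℂ) ^ (j₀ + e - 1))⁻¹ *
        (aG m - ((r : ℂ) ^ j₀ * (-(u : ℂ) * (p' : ℂ)) / (qm1 : ℂ)) * aB m)) o' ∧
      ((r : ℤ) ^ e ∣ Q + p' * P → o' = o) := by
  have hrp : r.Prime := Fact.out
  have hrZ : Prime (r : ℤ) := Nat.prime_iff_prime_int.mp hrp
  have hR : (r : ℂ) ≠ 0 := by exact_mod_cast hrp.ne_zero
  have hqm1 : (qm1 : ℂ) ≠ 0 := by
    intro h
    have : qm1 = 0 := by exact_mod_cast h
    rw [this] at h24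
    simp at h24
  have hP0 : (P : ℂ) ≠ 0 := by
    intro h
    apply hP
    have : P = 0 := by exact_mod_cast h
    rw [this]
    exact dvd_zero _
  have hQ0 : (Q : ℂ) ≠ 0 := by
    intro h
    apply hQ
    have : Q = 0 := by exact_mod_cast h
    rw [this]
    exact dvd_zero _
  have h24' : (24 : ℂ) = (qm1 : ℂ) * (r : ℂ) ^ (e - 1) * (cc : ℂ) := by exact_mod_cast h24
  have hje : (r : ℂ) ^ (j₀ + e - 1) = (r : ℂ) ^ j₀ * (r : ℂ) ^ (e - 1) := by
    rw [← pow_add]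
    congr 1
    omega
  have hje' : (r : ℂ) ^ (j₀ + e) = (r : ℂ) * ((r : ℂ) ^ j₀ * (r : ℂ) ^ (e - 1)) := by
    rw [← pow_add, ← pow_succ']
    congr 1
    omega
  obtain ⟨A₀, hA₀⟩ := hPQ
  -- the integer `u p' cc`
  have hupc : ¬ (r : ℤ) ∣ u * p' * (cc : ℤ) := by
    intro h
    rcases hrZ.dvd_or_dvd h with h | h
    · rcases hrZ.dvd_or_dvd h with h | h
      · exact hu h
      · exact hp' h
    · exact hcc (by exact_mod_cast h)
  have hupc0 : ((u * p' * (cc : ℤ) : ℤ) : ℂ) ≠ 0 := by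
    intro h
    apply hupc
    have : u * p' * (cc : ℤ) = 0 := by exact_mod_cast h
    rw [this]
    exact dvd_zero _
  have hPQS : ¬ (r : ℤ) ∣ P * Q := by
    intro h
    rcases hrZ.dvd_or_dvd h with h | h
    · exact hP h
    · exact hQ h
  -- choose witnesses
  choose! yB hyB using hB
  choose! yG hyG using hG
  set c₀ : ℂ := ((u * A₀ : ℤ) : ℂ) / ((P * Q : ℤ) : ℂ) with hc₀
  have hc₀' : ((r : ℂ) ^ (j₀ + e - 1))⁻¹ *
      (aG 0 - ((r : ℂ) ^ j₀ * (-(u : ℂ) * (p' : ℂ)) / (qm1 : ℂ)) * aB 0) = c₀ := by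
    rw [hG0, hB0, hje, hc₀]
    have hA₀' : (Q : ℂ) + (p' : ℂ) * (P : ℂ) = (r : ℂ) ^ (e - 1) * (A₀ : ℂ) := by
      exact_mod_cast hA₀
    have hrj : (r : ℂ) ^ j₀ ≠ 0 := pow_ne_zero _ hR
    have hre : (r : ℂ) ^ (e - 1) ≠ 0 := pow_ne_zero _ hR
    push_cast
    field_simp
    linear_combination (u : ℂ) * hA₀'
  set b : ℕ → ℂ := fun m => if m = 0 then 0 else ((u * p' * (cc : ℤ) : ℤ) : ℂ) * yB m with hb
  set h : ℕ → ℂ := fun m => if m = 0 then 0 else yG m with hh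
  have key := s16i_LeadC_of_decomp r (PowerSeries.mk fun m => ((r : ℂ) ^ (j₀ + e - 1))⁻¹ *
        (aG m - ((r : ℂ) ^ j₀ * (-(u : ℂ) * (p' : ℂ)) / (qm1 : ℂ)) * aB m)) c₀ b h o
    ?_ ?_ ?_ ?_ ho ?_ ?_
  · obtain ⟨o', ho', himp⟩ := key
    refine ⟨o', ho', fun hdiv => himp ?_⟩
    -- `r ∣ A₀`
    have hrA : (r : ℤ) ∣ A₀ := by
      obtain ⟨t, ht⟩ := hdiv
      have hre : (r : ℤ) ^ e = (r : ℤ) ^ (e - 1) * r := by
        rw [← pow_succ]
        congr 1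
        omega
      rw [hA₀, hre, mul_assoc] at ht
      have hne : (r : ℤ) ^ (e - 1) ≠ 0 := pow_ne_zero _ hrZ.ne_zero
      exact ⟨t, mul_left_cancel₀ hne ht⟩
    obtain ⟨A₁, rfl⟩ := hrA
    refine ⟨((u * A₁ : ℤ) : ℂ) / ((P * Q : ℤ) : ℂ), s16i_div_mem_O r _ _ hPQS, ?_⟩
    rw [hc₀]
    push_cast
    ring
  · -- the decomposition
    intro m
    rw [coeff_mk]
    by_cases hm : m = 0
    · subst hm
      rw [hc₀', if_pos rfl, hb, hh]
      simp
    · have hm1 : 1 ≤ m := Nat.one_le_iff_ne_zero.mpr hm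
      rw [if_neg hm, hb, hh]
      simp only [if_neg hm]
      rw [(hyB m hm1).2, (hyG m hm1).2, hje, hje', h24']
      have hrj : (r : ℂ) ^ j₀ ≠ 0 := pow_ne_zero _ hR
      have hre : (r : ℂ) ^ (e - 1) ≠ 0 := pow_ne_zero _ hR
      push_cast
      field_simp
      ring
  · intro m
    rw [hh]
    by_cases hm : m = 0
    · simp only [if_pos hm]
      exact (s16i_O r).zero_mem
    · simp only [if_neg hm]
      exact (hyG m (Nat.one_le_iff_ne_zero.mpr hm)).1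
  · intro m
    rw [hb]
    by_cases hm : m = 0
    · simp only [if_pos hm]
      exact (s16i_O r).zero_mem
    · simp only [if_neg hm]
      exact (s16i_O r).mul_mem (s16i_intCast_mem_O r _) (hyB m (Nat.one_le_iff_ne_zero.mpr hm)).1
  · intro m hm
    rw [hb]
    by_cases hm0 : m = 0
    · simp only [if_pos hm0]
    · simp only [if_neg hm0]
      have h1 := hBlow m (Nat.pos_of_ne_zero hm0) hm
      rw [(hyB m (Nat.one_le_iff_ne_zero.mpr hm0)).2] at h1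
      have : yB m = 0 := by
        have h24ne : (24 : ℂ) ≠ 0 := by norm_num
        exact (mul_eq_zero.mp h1).resolve_left h24ne
      rw [this, mul_zero]
  · -- the leading coefficient of `b` is a unit
    obtain ⟨w, hw, hBow, v, hv, hvw⟩ := hBo
    have hyo : yB o = w := by
      have h1 := (hyB o ho).2
      rw [hBow] at h1
      have h24ne : (24 : ℂ) ≠ 0 := by norm_num
      exact (mul_left_cancel₀ h24ne h1).symm
    refine ⟨(1 : ℂ) / ((u * p' * (cc : ℤ) : ℤ) : ℂ) * v, (s16i_O r).mul_mem ?_ hv, ?_⟩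
    · have := s16i_div_mem_O r 1 (u * p' * (cc : ℤ)) hupc
      simpa using this
    · rw [hb]
      simp only [if_neg ho.ne']
      rw [hyo]
      field_simp
      exact hvw
  · exact s16i_unit_or_mul r (u * A₀) (P * Q) hPQS

end Fermat.Agent.Lib.S16
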