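/-
S16 / work package (H): the `A_q` norm trick assembled (N4 and N6), on top of package (I).
For `G ∈ M₂(Γ₀(p))` with integer `q`-expansion, `r^j ∥ g₀` and `r^{j+e} ∣ g_n` (`n ≥ 1`), the form
`H = r^{-(j+e-1)} (G - ν B_q)` on `Γ₀(q p)` has `r`-integral translates, all non-zero modulo `r`
with unit leading coefficient, and `p` of them of exact order `q p` in `q^{1/(qp)}`; the norm to
level one then contradicts the Miller bound.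
-/
import Fermat.Agent.Lib.S16.HCosets
import Fermat.Agent.Lib.S16.HComb
import Fermat.Agent.Lib.S16.IExpB
import Fermat.Agent.Lib.S16.IExpG
import Fermat.Agent.Lib.S16.INum
import Fermat.Agent.Lib.S16.BLevel1b
import Fermat.Agent.Lib.S16.Iface2

set_option autoImplicit false

namespace Fermat.Agent.Lib.S16

open UpperHalfPlane hiding I
open ModularForm CongruenceSubgroup Matrix.SpecialLinearGroup Complex ModularFormClass
open SlashInvariantForm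
open Function
open scoped MatrixGroups Manifold Topology ModularForm

noncomputable section

local notation "𝕢" => Periodic.qParam

/-- One factor of the norm. -/
theorem s16h_factor (p : ℕ) [Fact p.Prime] (q : ℕ+) (hq : (q : ℕ).Prime) (r : ℕ) [Fact r.Prime]
    (e : ℕ) (he : 1 ≤ e) (cc : ℕ) (h24 : 24 = ((q : ℕ) - 1) * r ^ (e - 1) * cc) (hcc : ¬ r ∣ cc)
    (hqr : ¬ r ∣ (q : ℕ)) (hpr : ¬ r ∣ p) (hkit : s16i_KitConj p)
    (G : ModularForm (Gamma0 p) 2) (g : ℕ → ℤ) (hg : ∀ n, qCoeff G n = (g n : ℂ))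
    (j₀ : ℕ) (u : ℤ) (hu : ¬ (r : ℤ) ∣ u) (hg0 : g 0 = (r : ℤ) ^ j₀ * u)
    (hgn : ∀ n, 1 ≤ n → (r : ℤ) ^ (j₀ + e) ∣ g n)
    (p' : ℤ) (hp'r : ¬ (r : ℤ) ∣ p')
    (h11 : (r : ℤ) ^ (e - 1) ∣ 1 + p' * 1)
    (hp1 : (r : ℤ) ^ e ∣ 1 + p' * (-(p : ℤ)))
    (h1q : (r : ℤ) ^ (e - 1) ∣ -((q : ℕ) : ℤ) + p' * 1)
    (hpq : (r : ℤ) ^ (e - 1) ∣ -((q : ℕ) : ℤ) + p' * (-(p : ℤ)))
    (γ : SL(2, ℤ)) :
    have : NeZero p := ⟨(Fact.out : p.Prime).ne_zero⟩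
    ∃ o' : ℕ, s16i_LeadC r (qExpansion (((q : ℕ) * p : ℕ) : ℝ)
        ((⇑(s16h_comb q hq p G (((r : ℂ) ^ (j₀ + e - 1))⁻¹)
          (((r : ℂ) ^ (j₀ + e - 1))⁻¹ *
            ((r : ℂ) ^ j₀ * (-(u : ℂ) * (p' : ℂ)) / (((q : ℕ) - 1 : ℕ) : ℂ)))) : ℍ → ℂ)
          ∣[(2 : ℤ)] γ)) o' ∧
      (((q : ℕ) : ℤ) ∣ γ 1 0 → ¬ (p : ℤ) ∣ γ 1 0 → o' = (q : ℕ) * p) := by
  have : NeZero p := ⟨(Fact.out : p.Prime).ne_zero⟩
  have hpp : p.Prime := Fact.out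
  have hrp : r.Prime := Fact.out
  have hrZ : Prime (r : ℤ) := Nat.prime_iff_prime_int.mp hrp
  have hMpos : 0 < (q : ℕ) * p := Nat.mul_pos q.pos hpp.pos
  set s : ℂ := ((r : ℂ) ^ (j₀ + e - 1))⁻¹ with hs
  set ν : ℂ := (r : ℂ) ^ j₀ * (-(u : ℂ) * (p' : ℂ)) / (((q : ℕ) - 1 : ℕ) : ℂ) with hν
  obtain ⟨aG, P, hGsum, hP1, hP2, hG0, hGm⟩ :=
    s16i_G_exp r p hpr (q : ℕ) q.pos hkit G g hg (j₀ + e) hgn γ
  obtain ⟨aB, Q, o, hBsum, hQ1, hQ2, hB0, hBm, hBlow, hBo⟩ := s16i_B_exp r q hq hqr p hpp.pos γ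
  -- arithmetic of `P`, `Q`
  have hPr : ¬ (r : ℤ) ∣ P := by
    by_cases h : (p : ℤ) ∣ γ 1 0
    · rw [hP1 h]
      exact fun h1 => hrZ.not_isUnit (isUnit_of_dvd_one h1)
    · rw [hP2 h, dvd_neg]
      exact fun h1 => hpr (by exact_mod_cast h1)
  have hQr : ¬ (r : ℤ) ∣ Q := by
    by_cases h : ((q : ℕ) : ℤ) ∣ γ 1 0
    · rw [(hQ1 h).1]
      exact fun h1 => hrZ.not_isUnit (isUnit_of_dvd_one h1)
    · rw [(hQ2 h).1, dvd_neg]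
      exact fun h1 => hqr (by exact_mod_cast h1)
  have hPQ : (r : ℤ) ^ (e - 1) ∣ Q + p' * P := by
    by_cases h : (p : ℤ) ∣ γ 1 0 <;> by_cases h' : ((q : ℕ) : ℤ) ∣ γ 1 0
    · rw [hP1 h, (hQ1 h').1]; exact h11
    · rw [hP1 h, (hQ2 h').1]; exact h1q
    · rw [hP2 h, (hQ1 h').1]
      exact dvd_trans (pow_dvd_pow _ (Nat.sub_le e 1)) hp1
    · rw [hP2 h, (hQ2 h').1]; exact hpq
  have ho : 0 < o := by
    by_cases h' : ((q : ℕ) : ℤ) ∣ γ 1 0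
    · rw [(hQ1 h').2]; exact hMpos
    · rw [(hQ2 h').2]; exact hpp.pos
  have hG0' : aG 0 = (r : ℂ) ^ j₀ * (u : ℂ) / (P : ℂ) := by
    rw [hG0, hg0]
    push_cast
    rfl
  have hB0' : aB 0 = (((q : ℕ) - 1 : ℕ) : ℂ) / (Q : ℂ) := by
    rw [hB0, Nat.cast_sub q.pos]
    simp
  obtain ⟨o', hLead, himp⟩ := s16i_leadC_of_data r e j₀ he ((q : ℕ) - 1) cc h24 hcc u p' P Q hu
    hp'r hPr hQr hPQ aG aB o ho hG0' hB0' hGm hBm hBlow hBo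
  refine ⟨o', ?_, ?_⟩
  · -- the `q`-expansion
    have hsum : ∀ τ : ℍ, HasSum (fun m => (s * (aG m - ν * aB m)) •
        𝕢 (((q : ℕ) * p : ℕ) : ℝ) τ ^ m)
        (((⇑(s16h_comb q hq p G s (s * ν)) : ℍ → ℂ) ∣[(2 : ℤ)] γ) τ) := by
      intro τ
      rw [s16h_comb_slash]
      have h1 := (hGsum τ).mul_left s
      have h2 := (hBsum τ).mul_left (s * ν)
      have h3 := h1.sub h2
      have hfun : (fun m => (s * (aG m - ν * aB m)) • 𝕢 (((q : ℕ) * p : ℕ) : ℝ) τ ^ m) =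
          fun m => s * (aG m • 𝕢 (((q : ℕ) * p : ℕ) : ℝ) τ ^ m) -
            s * ν * (aB m • 𝕢 (((q : ℕ) * p : ℕ) : ℝ) τ ^ m) := by
        funext m
        simp only [smul_eq_mul]
        ring
      have hval : (s • (⇑G ∣[(2 : ℤ)] γ) - (s * ν) • (s16h_Bfun q ∣[(2 : ℤ)] γ)) τ =
          s * (⇑G ∣[(2 : ℤ)] γ) τ - s * ν * (s16h_Bfun q ∣[(2 : ℤ)] γ) τ := by
        simp only [Pi.sub_apply, Pi.smul_apply, smul_eq_mul]
      rw [hfun, hval]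
      exact h3
    have hol : MDiff ((⇑(s16h_comb q hq p G s (s * ν)) : ℍ → ℂ) ∣[(2 : ℤ)] γ) := by
      have := ModularFormClass.holo (ModularForm.translate (s16h_comb q hq p G s (s * ν))
        (γ : GL (Fin 2) ℝ))
      rwa [ModularForm.coe_translate] at this
    have hqe := (s16h_qExpansion_of_hasSum (h := (((q : ℕ) * p : ℕ) : ℝ))
      (by exact_mod_cast hMpos) hol hsum).2
    rw [hqe]
    exact hLead
  · intro h' h
    have hQ := hQ1 h'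
    rw [himp ?_, hQ.2]
    rw [hP2 h, hQ.1]
    exact hp1

/-- The ideal `r 𝒪_(r)` as an additive subgroup of `ℂ`. -/
def s16h_J (r : ℕ) [Fact r.Prime] : AddSubgroup ℂ where
  carrier := {x | ∃ y ∈ s16i_O r, x = (r : ℂ) * y}
  zero_mem' := ⟨0, (s16i_O r).zero_mem, by simp⟩
  add_mem' := by
    rintro a b ⟨y, hy, rfl⟩ ⟨z, hz, rfl⟩
    exact ⟨y + z, (s16i_O r).add_mem hy hz, by ring⟩
  neg_mem' := by
    rintro a ⟨y, hy, rfl⟩
    exact ⟨-y, (s16i_O r).neg_mem hy, by ring⟩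

theorem s16h_mem_J (r : ℕ) [Fact r.Prime] (x : ℂ) :
    x ∈ s16h_J r ↔ ∃ y ∈ s16i_O r, x = (r : ℂ) * y := Iff.rfl

/-- The `A_q` norm trick: the generic "no `G`" statement. -/
theorem s16h_noG_core (p : ℕ) [Fact p.Prime] (q : ℕ+) (hq : (q : ℕ).Prime) (r : ℕ)
    [Fact r.Prime] (e : ℕ) (he : 1 ≤ e) (cc : ℕ) (h24 : 24 = ((q : ℕ) - 1) * r ^ (e - 1) * cc)
    (hcc : ¬ r ∣ cc) (hqr : ¬ r ∣ (q : ℕ)) (hpr : ¬ r ∣ p) (hqp : (q : ℕ) ≠ p) (hp2 : p ≠ 2)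
    (hkit : s16i_KitConj p)
    (p' : ℤ) (hp'r : ¬ (r : ℤ) ∣ p')
    (h11 : (r : ℤ) ^ (e - 1) ∣ 1 + p' * 1)
    (hp1 : (r : ℤ) ^ e ∣ 1 + p' * (-(p : ℤ)))
    (h1q : (r : ℤ) ^ (e - 1) ∣ -((q : ℕ) : ℤ) + p' * 1)
    (hpq : (r : ℤ) ^ (e - 1) ∣ -((q : ℕ) : ℤ) + p' * (-(p : ℤ)))
    (hbound : 2 * (((q : ℕ) + 1) * (p + 1)) / 12 < p) : s16_NoG p r e := by
  classical
  rintro ⟨G, g, j₀, hg, hdvd, hndvd, hgn⟩
  obtain ⟨u, hu0⟩ := hdvd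
  have hu : ¬ (r : ℤ) ∣ u := by
    rintro ⟨t, ht⟩
    apply hndvd
    refine ⟨t, ?_⟩
    rw [hu0, ht, pow_succ]
    ring
  have hpp : p.Prime := Fact.out
  have : NeZero p := ⟨hpp.ne_zero⟩
  have hMpos : 0 < (q : ℕ) * p := Nat.mul_pos q.pos hpp.pos
  have : NeZero ((q : ℕ) * p) := ⟨hMpos.ne'⟩
  set s : ℂ := ((r : ℂ) ^ (j₀ + e - 1))⁻¹ with hs
  set ν : ℂ := (r : ℂ) ^ j₀ * (-(u : ℂ) * (p' : ℂ)) / (((q : ℕ) - 1 : ℕ) : ℂ) with hν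
  set Hf : ModularForm (Gamma0 ((q : ℕ) * p)) 2 := s16h_comb q hq p G s (s * ν) with hHf
  obtain ⟨c, γ, hcinj, hcγ⟩ := s16h_special (q : ℕ) p hq hpp hqp
  have hfac : ∀ x : s16i_Q ((q : ℕ) * p), ∃ o' : ℕ,
      s16i_LeadC r (qExpansion (((q : ℕ) * p : ℕ) : ℝ) (quotientFunc Hf x)) o' ∧
        ((∃ i, c i = x) → o' = (q : ℕ) * p) := by
    intro x
    by_cases hx : ∃ i, c i = x
    · obtain ⟨i, rfl⟩ := hx
      obtain ⟨h1, h2, h3⟩ := hcγ i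
      rw [h3 Hf]
      obtain ⟨o', hL, himp⟩ := s16h_factor p q hq r e he cc h24 hcc hqr hpr hkit G g hg j₀ u hu
        hu0 hgn p' hp'r h11 hp1 h1q hpq (γ i)
      exact ⟨o', hL, fun _ => himp h1 h2⟩
    · obtain ⟨γ', hγ'⟩ := s16h_quotientFunc_eq Hf x
      rw [hγ']
      obtain ⟨o', hL, -⟩ := s16h_factor p q hq r e he cc h24 hcc hqr hpr hkit G g hg j₀ u hu
        hu0 hgn p' hp'r h11 hp1 h1q hpq γ'
      exact ⟨o', hL, fun h => absurd h hx⟩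
  choose o' hL ho' using hfac
  have hprod := s16i_qExpansion_norm Hf
  have hLprod := s16i_LeadC_prod r Finset.univ
    (fun x => qExpansion (((q : ℕ) * p : ℕ) : ℝ) (quotientFunc Hf x)) o' (fun x _ => hL x)
  rw [← hprod] at hLprod
  -- the total order
  have htot : p * ((q : ℕ) * p) ≤ ∑ x, o' x := by
    calc p * ((q : ℕ) * p) = ∑ _i : Fin p, (q : ℕ) * p := by simp
      _ = ∑ i : Fin p, o' (c i) := Finset.sum_congr rfl fun i _ => (ho' (c i) ⟨i, rfl⟩).symm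
      _ = ∑ x ∈ Finset.univ.image c, o' x :=
          (Finset.sum_image (fun a _ b _ h => hcinj h)).symm
      _ ≤ ∑ x, o' x := Finset.sum_le_sum_of_subset (Finset.subset_univ _)
  -- the Miller bound
  have hcard := s16h_card_Q (q : ℕ) p hq hpp hqp
  have hodd : Odd p := hpp.odd_of_ne_two hp2
  have hw4 : (4 : ℤ) ∣ 2 * (Nat.card (s16i_Q ((q : ℕ) * p)) : ℤ) := by
    rw [hcard]
    obtain ⟨t, ht⟩ := hodd
    refine ⟨(((q : ℕ) + 1) * (t + 1) : ℕ), ?_⟩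
    rw [ht]
    push_cast
    ring
  have hall := s16b_miller_period (s16h_J r) hw4 hMpos (ModularForm.norm 𝒮ℒ Hf) ?_ (∑ x, o' x)
  · exact s16i_LeadC_not_all r hLprod hall
  · intro n hn
    apply s16i_LeadC_low r hLprod n
    have hw : (2 * (Nat.card (s16i_Q ((q : ℕ) * p)) : ℤ)).toNat =
        2 * (((q : ℕ) + 1) * (p + 1)) := by
      rw [hcard]
      norm_cast
    rw [hw] at hn
    calc n ≤ (q : ℕ) * p * (2 * (((q : ℕ) + 1) * (p + 1)) / 12) := hn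
      _ < (q : ℕ) * p * p := Nat.mul_lt_mul_of_pos_left hbound hMpos
      _ = p * ((q : ℕ) * p) := by ring
      _ ≤ ∑ x, o' x := htot

end

end Fermat.Agent.Lib.S16
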