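/-
S16 / work package (H): the lemmas N4 and N6,
  `p ≡ 2 (3) → s16_NoG p 3 2`   and   `p ≡ 3 (4) → s16_NoG p 2 3`,
as instances of the generic norm trick `s16h_noG_core`.
-/
import Fermat.Agent.Lib.S16.HMain
import Fermat.Agent.Lib.S16.HKit

set_option autoImplicit false

namespace Fermat.Agent.Lib.S16

/-- (N4) `p ≡ 2 mod 3`, `p ≠ 2`: there is no `G ∈ M₂(Γ₀(p))` with integer coefficients, `3^j ∥ g₀`
and `3^{j+2} ∣ g_n` for `n ≥ 1`. -/
theorem s16h_N4 (p : ℕ) [Fact p.Prime] (hp2 : p ≠ 2) (hp3 : p % 3 = 2) : s16_NoG p 3 2 := by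
  have hpp : p.Prime := Fact.out
  have : Fact (Nat.Prime 3) := ⟨Nat.prime_three⟩
  have hp9 : p % 9 = 2 ∨ p % 9 = 5 ∨ p % 9 = 8 := by omega
  refine s16h_noG_core p 2 Nat.prime_two 3 2 (by norm_num) 8 (by norm_num) (by norm_num)
    (by norm_num) (by omega) (by intro h; exact hp2 h.symm) hp2 (s16h_kitConj p)
    (if p % 9 = 2 then 5 else if p % 9 = 5 then 2 else 8) ?_ ?_ ?_ ?_ ?_ ?_
  · split_ifs <;> norm_num
  · split_ifs <;> norm_num
  · split_ifs <;> · norm_num; omega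
  · split_ifs <;> norm_num
  · split_ifs <;> · norm_num; omega
  · have : 2 ≤ p := hpp.two_le
    simp only [PNat.val_ofNat]
    omega

/-- (N6) `p ≡ 3 mod 4`, `p ≠ 3`: there is no `G ∈ M₂(Γ₀(p))` with integer coefficients,
`2^j ∥ g₀` and `2^{j+3} ∣ g_n` for `n ≥ 1`. -/
theorem s16h_N6 (p : ℕ) [Fact p.Prime] (hp3 : p ≠ 3) (hp4 : p % 4 = 3) : s16_NoG p 2 3 := by
  have hpp : p.Prime := Fact.out
  have : Fact (Nat.Prime 2) := ⟨Nat.prime_two⟩
  have hp8 : p % 8 = 3 ∨ p % 8 = 7 := by omega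
  refine s16h_noG_core p 3 Nat.prime_three 2 3 (by norm_num) 3 (by norm_num) (by norm_num)
    (by norm_num) (by omega) (by intro h; exact hp3 h.symm) (by omega) (s16h_kitConj p)
    (if p % 8 = 3 then 3 else 7) ?_ ?_ ?_ ?_ ?_ ?_
  · split_ifs <;> norm_num
  · split_ifs <;> norm_num
  · split_ifs <;> · norm_num; omega
  · split_ifs <;> norm_num
  · split_ifs <;> · norm_num; omega
  · have : 2 ≤ p := hpp.two_le
    simp only [PNat.val_ofNat]
    omega

/-- (N4) in the shape of the final assembly. -/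
theorem s16h_N4' (p : ℕ) [Fact p.Prime] (h7 : 7 ≤ p) (hp3 : p % 3 = 2) : s16_NoG p 3 2 :=
  s16h_N4 p (by omega) hp3

/-- (N6) in the shape of the final assembly. -/
theorem s16h_N6' (p : ℕ) [Fact p.Prime] (h7 : 7 ≤ p) (hp4 : p % 4 = 3) : s16_NoG p 2 3 :=
  s16h_N6 p (by omega) hp4

end Fermat.Agent.Lib.S16
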