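import Fermat.Agent.Lib.S16.INum
import Fermat.Agent.Lib.S16.IExpB
import Fermat.Agent.Lib.S16.IExpG

/-!
# S16 / package (I): every `SL(2,ℤ)`-translate of the scaled form `(r^{j+e-1})⁻¹ (G - ν B_q)` has an
`r`-integral `q^{1/(qp)}`-expansion whose reduction has a unit leading coefficient; the order is
`q p` at the translates of type `(∞_q, 0_p)`
-/

set_option autoImplicit false

namespace Fermat.Agent.Lib.S16

open UpperHalfPlane hiding I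
open ModularForm CongruenceSubgroup Matrix.SpecialLinearGroup Filter Complex Real ModularFormClass
open Function
open scoped MatrixGroups Manifold Topology

noncomputable section

local notation "𝕢" => Periodic.qParam

variable (r : ℕ) [Fact r.Prime]

/-- The scaled combination, as a function. -/
def s16i_Hfun (q : ℕ+) (j₀ e : ℕ) (u p' : ℤ) (G : ℍ → ℂ) : ℍ → ℂ :=
  ((r : ℂ) ^ (j₀ + e - 1))⁻¹ •
    (G - ((r : ℂ) ^ j₀ * (-(u : ℂ) * (p' : ℂ)) / (((q : ℕ) - 1 : ℕ) : ℂ)) • s16h_Bfun q)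

omit [Fact r.Prime] in
theorem s16i_Hfun_slash (q : ℕ+) (j₀ e : ℕ) (u p' : ℤ) (G : ℍ → ℂ) (γ : SL(2, ℤ)) :
    s16i_Hfun r q j₀ e u p' G ∣[(2 : ℤ)] γ =
      ((r : ℂ) ^ (j₀ + e - 1))⁻¹ • (G ∣[(2 : ℤ)] γ -
        ((r : ℂ) ^ j₀ * (-(u : ℂ) * (p' : ℂ)) / (((q : ℕ) - 1 : ℕ) : ℂ)) •
          (s16h_Bfun q ∣[(2 : ℤ)] γ)) := by
  unfold s16i_Hfun
  rw [ModularForm.SL_smul_slash, sub_eq_add_neg, SlashAction.add_slash, SlashAction.neg_slash,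
    ModularForm.SL_smul_slash, ← sub_eq_add_neg]

theorem s16i_conj_leadC (p : ℕ) [Fact p.Prime] (q : ℕ+) (hq : (q : ℕ).Prime)
    (hqr : ¬ r ∣ (q : ℕ)) (hpr : ¬ r ∣ p) (e j₀ : ℕ) (he : 1 ≤ e) (cc : ℕ)
    (h24 : 24 = ((q : ℕ) - 1) * r ^ (e - 1) * cc) (hcc : ¬ r ∣ cc)
    (hp1 : (r : ℤ) ^ (e - 1) ∣ (p : ℤ) + 1) (hq1 : (r : ℤ) ^ (e - 1) ∣ ((q : ℕ) : ℤ) + 1)
    (hkit : s16i_KitConj p) (G : ModularForm (Gamma0 p) 2) (g : ℕ → ℤ)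
    (hg : ∀ n, qCoeff G n = (g n : ℂ)) (u p' : ℤ) (hu : ¬ (r : ℤ) ∣ u)
    (hg0 : g 0 = (r : ℤ) ^ j₀ * u) (hpp' : (r : ℤ) ^ e ∣ (p : ℤ) * p' - 1)
    (hgn : ∀ n, 1 ≤ n → (r : ℤ) ^ (j₀ + e) ∣ g n) (hmd : MDiff (s16i_Hfun r q j₀ e u p' ⇑G))
    (γ : SL(2, ℤ)) :
    ∃ o', s16i_LeadC r (qExpansion (((q : ℕ) * p : ℕ) : ℝ)
        (s16i_Hfun r q j₀ e u p' ⇑G ∣[(2 : ℤ)] γ)) o' ∧
      (((q : ℕ) : ℤ) ∣ γ 1 0 → ¬ (p : ℤ) ∣ γ 1 0 → o' = (q : ℕ) * p) := by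
  have hrp : r.Prime := Fact.out
  have hrZ : Prime (r : ℤ) := Nat.prime_iff_prime_int.mp hrp
  have hpp : p.Prime := Fact.out
  have hre : (r : ℤ) ^ e = (r : ℤ) ^ (e - 1) * r := by
    rw [← pow_succ]
    congr 1
    omega
  -- `r ∤ p'`
  have hp' : ¬ (r : ℤ) ∣ p' := by
    intro h
    have h1 : (r : ℤ) ∣ (p : ℤ) * p' - 1 := dvd_trans ⟨(r : ℤ) ^ (e - 1), by rw [hre]; ring⟩ hpp'
    have h2 : (r : ℤ) ∣ (p : ℤ) * p' := dvd_mul_of_dvd_right h _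
    have h3 : (r : ℤ) ∣ 1 := by
      have := dvd_sub h2 h1
      simpa using this
    exact hrZ.not_isUnit (isUnit_of_dvd_one h3)
  -- `r^(e-1) ∣ p' + 1`
  have hp'1 : (r : ℤ) ^ (e - 1) ∣ p' + 1 := by
    have h1 : (r : ℤ) ^ (e - 1) ∣ (p : ℤ) * p' - 1 :=
      dvd_trans ⟨(r : ℤ), hre⟩ hpp'
    have h2 : (r : ℤ) ^ (e - 1) ∣ ((p : ℤ) + 1) * p' := dvd_mul_of_dvd_left hp1 _
    have : p' + 1 = ((p : ℤ) + 1) * p' - ((p : ℤ) * p' - 1) := by ring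
    rw [this]
    exact dvd_sub h2 h1
  obtain ⟨aG, P, hGsum, hP1, hP2, hG0, hGm⟩ :=
    s16i_G_exp r p hpr (q : ℕ) q.pos hkit G g hg (j₀ + e) hgn γ
  obtain ⟨aB, Q, o, hBsum, hQ1, hQ2, hB0, hBm, hBlow, hBo⟩ :=
    s16i_B_exp r q hq hqr p hpp.pos γ
  -- `P` and `Q`
  have hPval : P = 1 ∨ P = -(p : ℤ) := by
    by_cases h : (p : ℤ) ∣ γ 1 0
    · exact Or.inl (hP1 h)
    · exact Or.inr (hP2 h)
  have hQval : Q = 1 ∨ Q = -((q : ℕ) : ℤ) := by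
    by_cases h : ((q : ℕ) : ℤ) ∣ γ 1 0
    · exact Or.inl (hQ1 h).1
    · exact Or.inr (hQ2 h).1
  have hrP : ¬ (r : ℤ) ∣ P := by
    rcases hPval with h | h
    · rw [h]
      exact fun h1 => hrZ.not_isUnit (isUnit_of_dvd_one h1)
    · rw [h, dvd_neg]
      exact fun h1 => hpr (by exact_mod_cast h1)
  have hrQ : ¬ (r : ℤ) ∣ Q := by
    rcases hQval with h | h
    · rw [h]
      exact fun h1 => hrZ.not_isUnit (isUnit_of_dvd_one h1)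
    · rw [h, dvd_neg]
      exact fun h1 => hqr (by exact_mod_cast h1)
  have hP1' : (r : ℤ) ^ (e - 1) ∣ P - 1 := by
    rcases hPval with h | h
    · rw [h]; simp
    · rw [h]
      have : -(p : ℤ) - 1 = -((p : ℤ) + 1) := by ring
      rw [this, dvd_neg]
      exact hp1
  have hQ1' : (r : ℤ) ^ (e - 1) ∣ Q - 1 := by
    rcases hQval with h | h
    · rw [h]; simp
    · rw [h]
      have : -((q : ℕ) : ℤ) - 1 = -(((q : ℕ) : ℤ) + 1) := by ring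
      rw [this, dvd_neg]
      exact hq1
  have hPQ : (r : ℤ) ^ (e - 1) ∣ Q + p' * P := by
    have : Q + p' * P = (Q - 1) + p' * (P - 1) + (p' + 1) := by ring
    rw [this]
    exact dvd_add (dvd_add hQ1' (dvd_mul_of_dvd_right hP1' _)) hp'1
  have hq1le : 1 ≤ (q : ℕ) := q.pos
  have hB0' : aB 0 = ((((q : ℕ) - 1 : ℕ)) : ℂ) / (Q : ℂ) := by
    rw [hB0]
    push_cast [Nat.cast_sub hq1le]
    ring
  have hG0' : aG 0 = (r : ℂ) ^ j₀ * (u : ℂ) / (P : ℂ) := by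
    rw [hG0, hg0]
    push_cast
    ring
  obtain ⟨o', hLead, himp⟩ := s16i_leadC_of_data r e j₀ he ((q : ℕ) - 1) cc h24 hcc u p' P Q hu hp'
    hrP hrQ hPQ aG aB o (by
      by_cases h : ((q : ℕ) : ℤ) ∣ γ 1 0
      · rw [(hQ1 h).2]
        exact Nat.mul_pos q.pos hpp.pos
      · rw [(hQ2 h).2]
        exact hpp.pos) hG0' hB0' hGm hBm hBlow hBo
  -- identify the `q`-expansion
  have hsum : ∀ τ : ℍ, HasSum (fun m => (((r : ℂ) ^ (j₀ + e - 1))⁻¹ *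
        (aG m - ((r : ℂ) ^ j₀ * (-(u : ℂ) * (p' : ℂ)) / ((((q : ℕ) - 1 : ℕ)) : ℂ)) * aB m)) •
        𝕢 (((q : ℕ) * p : ℕ) : ℝ) τ ^ m)
      ((s16i_Hfun r q j₀ e u p' ⇑G ∣[(2 : ℤ)] γ) τ) := by
    intro τ
    rw [s16i_Hfun_slash]
    have h1 := hGsum τ
    have h2 := (hBsum τ).mul_left ((r : ℂ) ^ j₀ * (-(u : ℂ) * (p' : ℂ)) / ((((q : ℕ) - 1 : ℕ)) : ℂ))
    have h3 := (h1.sub h2).mul_left (((r : ℂ) ^ (j₀ + e - 1))⁻¹)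
    have hfun : (fun m => (((r : ℂ) ^ (j₀ + e - 1))⁻¹ *
        (aG m - ((r : ℂ) ^ j₀ * (-(u : ℂ) * (p' : ℂ)) / ((((q : ℕ) - 1 : ℕ)) : ℂ)) * aB m)) •
        𝕢 (((q : ℕ) * p : ℕ) : ℝ) τ ^ m) = fun m => ((r : ℂ) ^ (j₀ + e - 1))⁻¹ *
        (aG m • 𝕢 (((q : ℕ) * p : ℕ) : ℝ) τ ^ m -
          ((r : ℂ) ^ j₀ * (-(u : ℂ) * (p' : ℂ)) / ((((q : ℕ) - 1 : ℕ)) : ℂ)) *
            aB m • 𝕢 (((q : ℕ) * p : ℕ) : ℝ) τ ^ m) := by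
      funext m
      simp only [smul_eq_mul]
      ring
    rw [hfun]
    simpa [smul_eq_mul] using h3
  have hMpos : (0 : ℝ) < (((q : ℕ) * p : ℕ) : ℝ) := by
    exact_mod_cast Nat.mul_pos q.pos hpp.pos
  have hexp := (s16h_qExpansion_of_hasSum hMpos (hmd.slash 2 (mapGL ℝ γ)) hsum).2
  refine ⟨o', ?_, ?_⟩
  · have hexp' : qExpansion (((q : ℕ) * p : ℕ) : ℝ) (s16i_Hfun r q j₀ e u p' ⇑G ∣[(2 : ℤ)] γ) =
        PowerSeries.mk fun m => ((r : ℂ) ^ (j₀ + e - 1))⁻¹ *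
          (aG m - ((r : ℂ) ^ j₀ * (-(u : ℂ) * (p' : ℂ)) / ((((q : ℕ) - 1 : ℕ)) : ℂ)) * aB m) := hexp
    rw [hexp']
    exact hLead
  · intro h1 h2
    rw [← (hQ1 h1).2]
    apply himp
    rw [(hQ1 h1).1, hP2 h2]
    have : (1 : ℤ) + p' * -(p : ℤ) = -((p : ℤ) * p' - 1) := by ring
    rw [this, dvd_neg]
    exact hpp'

end

end Fermat.Agent.Lib.S16
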