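import Mathlib.RingTheory.PowerSeries.Order
import Mathlib.RingTheory.PowerSeries.Basic

/-!
# S16 / package (I): algebraic core of the cusp-count ("A_q norm") trick

Products of power series over an arbitrary commutative ring whose lowest non-zero
coefficient is a unit: orders add up and the leading coefficient stays a unit.
-/

set_option autoImplicit false

open PowerSeries

namespace Fermat.Agent.Lib.S16

/-- `s16i_Lead f o`: all coefficients of `f` below `o` vanish and the coefficient at `o` is a
unit. -/
def s16i_Lead {K : Type*} [CommRing K] (f : PowerSeries K) (o : ℕ) : Prop :=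
  (∀ n < o, coeff n f = 0) ∧ IsUnit (coeff o f)

theorem s16i_Lead_one {K : Type*} [CommRing K] : s16i_Lead (1 : PowerSeries K) 0 := by
  refine ⟨fun n hn => absurd hn (Nat.not_lt_zero n), ?_⟩
  simp

theorem s16i_Lead_mul {K : Type*} [CommRing K] {f g : PowerSeries K} {a b : ℕ}
    (hf : s16i_Lead f a) (hg : s16i_Lead g b) : s16i_Lead (f * g) (a + b) := by
  classical
  constructor
  · intro n hn
    rw [coeff_mul]
    refine Finset.sum_eq_zero fun ij hij => ?_
    rw [Finset.mem_antidiagonal] at hij
    by_cases hi : ij.1 < a
    · rw [hf.1 _ hi, zero_mul]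
    · have hj : ij.2 < b := by omega
      rw [hg.1 _ hj, mul_zero]
  · rw [coeff_mul]
    rw [Finset.sum_eq_single (a, b)]
    · exact hf.2.mul hg.2
    · intro ij hij hne
      rw [Finset.mem_antidiagonal] at hij
      by_cases hi : ij.1 < a
      · rw [hf.1 _ hi, zero_mul]
      · by_cases hj : ij.2 < b
        · rw [hg.1 _ hj, mul_zero]
        · exfalso
          apply hne
          have h1 : ij.1 = a := by omega
          have h2 : ij.2 = b := by omega
          exact Prod.ext h1 h2
    · intro h
      exact absurd (Finset.mem_antidiagonal.mpr (rfl : (a, b).1 + (a, b).2 = a + b)) h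

theorem s16i_Lead_prod {K : Type*} [CommRing K] {ι : Type*} (s : Finset ι)
    (f : ι → PowerSeries K) (o : ι → ℕ) (h : ∀ i ∈ s, s16i_Lead (f i) (o i)) :
    s16i_Lead (∏ i ∈ s, f i) (∑ i ∈ s, o i) := by
  classical
  induction s using Finset.induction_on with
  | empty => simpa using s16i_Lead_one
  | insert a s ha ih =>
    rw [Finset.prod_insert ha, Finset.sum_insert ha]
    exact s16i_Lead_mul (h a (Finset.mem_insert_self a s))
      (ih fun i hi => h i (Finset.mem_insert_of_mem hi))

/-- A series with a unit leading coefficient at order `o` has a non-zero coefficient at `o`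
(over a non-trivial ring). -/
theorem s16i_Lead_coeff_ne_zero {K : Type*} [CommRing K] [Nontrivial K] {f : PowerSeries K}
    {o : ℕ} (hf : s16i_Lead f o) : coeff o f ≠ 0 :=
  hf.2.ne_zero

/-- The abstract contradiction: a product of series with unit leading coefficients whose total
order exceeds a bound `B` cannot have all coefficients `0` as soon as those up to `B` are `0`. -/
theorem s16i_core {K : Type*} [CommRing K] [Nontrivial K] {ι : Type*} (s : Finset ι)
    (f : ι → PowerSeries K) (o : ι → ℕ) (h : ∀ i ∈ s, s16i_Lead (f i) (o i)) (B : ℕ)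
    (hB : B < ∑ i ∈ s, o i)
    (hbound : (∀ n ≤ B, coeff n (∏ i ∈ s, f i) = 0) → ∏ i ∈ s, f i = 0) : False := by
  have hL := s16i_Lead_prod s f o h
  have h0 : ∏ i ∈ s, f i = 0 := hbound fun n hn => hL.1 n (lt_of_le_of_lt hn hB)
  have := s16i_Lead_coeff_ne_zero hL
  rw [h0] at this
  simp at this

end Fermat.Agent.Lib.S16
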