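import Fermat.Agent.Lib.S16.IExpG
import Fermat.Agent.Lib.S16.HEisSlash
import Fermat.Agent.Lib.M2.TrW

/-!
# S16 / package (I): the conjugation kit `s16i_KitConj p` from helper1's `m2t_slash_ST`
-/

set_option autoImplicit false

namespace Fermat.Agent.Lib.S16

open UpperHalfPlane ModularForm CongruenceSubgroup Matrix.SpecialLinearGroup ModularGroup
open scoped MatrixGroups Manifold

/-- Every `γ ∉ Γ₀(p)` lies in `Γ₀(p) · S T^j` for some `0 ≤ j < p`. -/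
theorem s16i_exists_rep (p : ℕ) [hp : Fact p.Prime] (γ : SL(2, ℤ)) (h : ¬ (p : ℤ) ∣ γ 1 0) :
    ∃ j : ℕ, j < p ∧ γ * (S * T ^ j)⁻¹ ∈ Gamma0 p := by
  obtain ⟨j, hj0, hjp, hdvd⟩ := s16h_exists_j ⟨p, hp.out.pos⟩ hp.out γ h
  refine ⟨j.toNat, ?_, ?_⟩
  · have : ((j.toNat : ℕ) : ℤ) < (p : ℤ) := by
      rw [Int.toNat_of_nonneg hj0]
      exact hjp
    exact_mod_cast this
  · rw [Gamma0_mem]
    have hST := Fermat.Agent.Lib.M2.Tr.m2t_ST_entries j.toNat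
    have hjj : ((j.toNat : ℕ) : ℤ) = j := Int.toNat_of_nonneg hj0
    have hentry : (γ * (S * T ^ j.toNat)⁻¹) 1 0 = γ 1 0 * j - γ 1 1 := by
      generalize hσ : (S * T ^ j.toNat : SL(2, ℤ)) = σ at hST
      have h00 : (σ⁻¹ : SL(2, ℤ)) 0 0 = σ 1 1 := by
        rw [Matrix.SpecialLinearGroup.SL2_inv_expl]; rfl
      have h10 : (σ⁻¹ : SL(2, ℤ)) 1 0 = -σ 1 0 := by
        rw [Matrix.SpecialLinearGroup.SL2_inv_expl]; rfl
      have hmul : (γ * σ⁻¹) 1 0 = γ 1 0 * (σ⁻¹ : SL(2, ℤ)) 0 0 + γ 1 1 * (σ⁻¹ : SL(2, ℤ)) 1 0 := by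
        rw [Matrix.SpecialLinearGroup.coe_mul, Matrix.mul_apply, Fin.sum_univ_two]
      rw [hmul, h00, h10, hST.2.2.2, hST.2.2.1, hjj]
      ring
    rw [hentry]
    rw [ZMod.intCast_zmod_eq_zero_iff_dvd]
    have : γ 1 0 * j - γ 1 1 = -(γ 1 1 - γ 1 0 * j) := by ring
    rw [this]
    exact (dvd_neg).mpr hdvd

/-- The conjugation kit, from `G ∣ (S T^j) = -(U_p G) ∣ (1 j; 0 p)`. -/
theorem s16i_kitConj (p : ℕ) [hp : Fact p.Prime] : s16i_KitConj p := by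
  intro G γ hγ
  obtain ⟨j, hjp, hmem⟩ := s16i_exists_rep p γ hγ
  refine ⟨j, hjp, ?_⟩
  have hsplit : γ = (γ * (S * T ^ j)⁻¹) * (S * T ^ j) := by
    rw [inv_mul_cancel_right]
  have hinv : ⇑G ∣[(2 : ℤ)] (γ * (S * T ^ j)⁻¹) = ⇑G := by
    rw [ModularForm.SL_slash]
    exact SlashInvariantFormClass.slash_action_eq G _ (Subgroup.mem_map_of_mem _ hmem)
  rw [hsplit, SlashAction.slash_mul, hinv]
  exact Fermat.Agent.Lib.M2.Tr.m2t_slash_ST p G j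

end Fermat.Agent.Lib.S16
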