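import Fermat.Agent.Lib.S16.IMain
import Fermat.Agent.Lib.S16.IKit
import Fermat.Agent.Lib.S16.HCosets

/-!
# S16 / package (I): `N4` and `N6`, unconditionally
-/

set_option autoImplicit false

namespace Fermat.Agent.Lib.S16

open CongruenceSubgroup

theorem s16i_cosetData (q p : ℕ) (hq : q.Prime) (hp : p.Prime) (hqp : q ≠ p) :
    s16i_CosetData q p :=
  ⟨fun H c => s16h_quotientFunc_eq H c, s16h_special q p hq hp hqp, s16h_card_Q q p hq hp hqp⟩

/-- **N4**: for a prime `p ≥ 7` with `p ≡ 2 (mod 3)`, `s16_NoG p 3 2`. -/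
theorem s16i_N4 (p : ℕ) [Fact p.Prime] (h7 : 7 ≤ p) (h : p % 3 = 2) : s16_NoG p 3 2 :=
  s16i_N4_of p h7 (s16i_kitConj p)
    (s16i_cosetData 2 p Nat.prime_two Fact.out (by omega)) h

/-- **N6**: for a prime `p ≥ 7` with `p ≡ 3 (mod 4)`, `s16_NoG p 2 3`. -/
theorem s16i_N6 (p : ℕ) [Fact p.Prime] (h7 : 7 ≤ p) (h : p % 4 = 3) : s16_NoG p 2 3 :=
  s16i_N6_of p h7 (s16i_kitConj p)
    (s16i_cosetData 3 p Nat.prime_three Fact.out (by omega)) h

end Fermat.Agent.Lib.S16
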