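import Fermat.Agent.Lib.S16.IConj
import Fermat.Agent.Lib.S16.INorm
import Fermat.Agent.Lib.S16.BLevel1b
import Fermat.Agent.Lib.S16.Iface2

/-!
# S16 / package (I): the norm trick — `s16_NoG p 3 2` (`p ≡ 2 mod 3`) and `s16_NoG p 2 3`
(`p ≡ 3 mod 4`)

For `(q, r, e) = (2, 3, 2)` resp. `(3, 2, 3)`: if `G ∈ M₂(Γ₀(p))` had integer coefficients with
`r^j ∥ g₀` and `r^{j+e} ∣ g_n` (`n ≥ 1`), the form `H = r^{-(j+e-1)} (G - ν B_q)` of level `q p`
would have an `r`-integral norm to level one whose reduction modulo `r` is non-zero of order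
`≥ p` in `q`, contradicting the Miller bound `w / 12 < p`.
-/

set_option autoImplicit false

namespace Fermat.Agent.Lib.S16

open UpperHalfPlane hiding I
open ModularForm CongruenceSubgroup Matrix.SpecialLinearGroup Filter Complex Real ModularFormClass
  SlashInvariantForm
open Function
open scoped MatrixGroups Manifold Topology

noncomputable section

/-- The coset input of the norm trick at level `q p`. -/
def s16i_CosetData (q p : ℕ) : Prop :=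
  (∀ (H : ModularForm (Gamma0 (q * p)) 2) (c : s16i_Q (q * p)),
      ∃ γ : SL(2, ℤ), quotientFunc H c = ⇑H ∣[(2 : ℤ)] γ) ∧
  (∃ (c : Fin p → s16i_Q (q * p)) (γ : Fin p → SL(2, ℤ)), Function.Injective c ∧
      ∀ i, (q : ℤ) ∣ (γ i) 1 0 ∧ ¬ (p : ℤ) ∣ (γ i) 1 0 ∧
        ∀ (H : ModularForm (Gamma0 (q * p)) 2), quotientFunc H (c i) = ⇑H ∣[(2 : ℤ)] (γ i)) ∧
  Nat.card (s16i_Q (q * p)) = (q + 1) * (p + 1)

variable (r : ℕ) [Fact r.Prime]

/-- `r 𝒪_(r)` as an additive subgroup of `ℂ`. -/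
def s16i_rJ : AddSubgroup ℂ where
  carrier := {x | ∃ y ∈ s16i_O r, x = (r : ℂ) * y}
  add_mem' := by
    rintro a b ⟨y, hy, rfl⟩ ⟨z, hz, rfl⟩
    exact ⟨y + z, (s16i_O r).add_mem hy hz, by ring⟩
  zero_mem' := ⟨0, (s16i_O r).zero_mem, by ring⟩
  neg_mem' := by
    rintro a ⟨y, hy, rfl⟩
    exact ⟨-y, (s16i_O r).neg_mem hy, by ring⟩

theorem s16i_mem_rJ (x : ℂ) : x ∈ s16i_rJ r ↔ ∃ y ∈ s16i_O r, x = (r : ℂ) * y := Iff.rfl

theorem s16i_Gamma0_le (q p : ℕ) : Gamma0 (q * p) ≤ Gamma0 p := by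
  intro σ hσ
  rw [Gamma0_mem] at hσ ⊢
  rw [ZMod.intCast_zmod_eq_zero_iff_dvd] at hσ ⊢
  exact dvd_trans (by push_cast; exact dvd_mul_left _ _) hσ

/-- Restriction of the level along `Γ₀(q p) ≤ Γ₀(p)`. -/
def s16i_restrict (q p : ℕ) (G : ModularForm (Gamma0 p) 2) : ModularForm (Gamma0 (q * p)) 2 where
  toFun := G
  slash_action_eq' γ hγ :=
    G.slash_action_eq' γ (Subgroup.map_mono (s16i_Gamma0_le q p) hγ)
  holo' := G.holo'
  bdd_at_cusps' hc := G.bdd_at_cusps' (hc.mono (Subgroup.map_mono (s16i_Gamma0_le q p)))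

theorem s16i_coe_restrict (q p : ℕ) (G : ModularForm (Gamma0 p) 2) :
    ⇑(s16i_restrict q p G) = ⇑G := rfl

/-- The norm trick, in general form. -/
theorem s16i_main (p : ℕ) [Fact p.Prime] (q : ℕ+) (hq : (q : ℕ).Prime)
    (hqr : ¬ r ∣ (q : ℕ)) (hpr : ¬ r ∣ p) (e : ℕ) (he : 1 ≤ e) (cc : ℕ)
    (h24 : 24 = ((q : ℕ) - 1) * r ^ (e - 1) * cc) (hcc : ¬ r ∣ cc)
    (hp1 : (r : ℤ) ^ (e - 1) ∣ (p : ℤ) + 1) (hq1 : (r : ℤ) ^ (e - 1) ∣ ((q : ℕ) : ℤ) + 1)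
    (h2 : 2 ∣ ((q : ℕ) + 1) * (p + 1)) (hbound : ((q : ℕ) + 1) * (p + 1) / 6 < p)
    (hkit : s16i_KitConj p) (hcos : s16i_CosetData (q : ℕ) p) : s16_NoG p r e := by
  rintro ⟨G, g, j₀, hg, hj, hnj, hgn⟩
  have hrp : r.Prime := Fact.out
  have hrZ : Prime (r : ℤ) := Nat.prime_iff_prime_int.mp hrp
  have hpp : p.Prime := Fact.out
  have hMpos : 0 < (q : ℕ) * p := Nat.mul_pos q.pos hpp.pos
  have : NeZero ((q : ℕ) * p) := ⟨hMpos.ne'⟩
  obtain ⟨u, hu0⟩ := hj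
  have hu : ¬ (r : ℤ) ∣ u := by
    intro h
    apply hnj
    rw [hu0, pow_succ]
    exact mul_dvd_mul_left _ h
  -- inverse of `p` modulo `r ^ e`
  obtain ⟨p', hpp'⟩ : ∃ p' : ℤ, (r : ℤ) ^ e ∣ (p : ℤ) * p' - 1 := by
    have hcop : IsCoprime (p : ℤ) ((r : ℤ) ^ e) := by
      apply IsCoprime.pow_right
      rw [Int.isCoprime_iff_gcd_eq_one, Int.gcd_natCast_natCast]
      exact (Nat.coprime_comm.mp ((Nat.Prime.coprime_iff_not_dvd hrp).mpr hpr))
    obtain ⟨a, b, hab⟩ := hcop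
    refine ⟨a, ⟨-b, ?_⟩⟩
    linear_combination hab
  -- the form `H`
  set H : ModularForm (Gamma0 ((q : ℕ) * p)) 2 :=
    (((r : ℂ) ^ (j₀ + e - 1))⁻¹ : ℂ) • (s16i_restrict (q : ℕ) p G -
      (((r : ℂ) ^ j₀ * (-(u : ℂ) * (p' : ℂ)) / (((q : ℕ) - 1 : ℕ) : ℂ)) : ℂ) •
        s16h_B ((q : ℕ) * p) q hq (dvd_mul_right _ _)) with hH
  have hHfun : ⇑H = s16i_Hfun r q j₀ e u p' ⇑G := by
    ext τ
    simp [hH, s16i_Hfun, s16i_coe_restrict, coe_s16h_B]
  have hmd : MDiff (s16i_Hfun r q j₀ e u p' ⇑G) := hHfun ▸ H.holo'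
  have hconj := s16i_conj_leadC r p q hq hqr hpr e j₀ he cc h24 hcc hp1 hq1 hkit G g hg u p' hu hu0
    hpp' hgn hmd
  obtain ⟨hrep, ⟨c, γs, hcinj, hcs⟩, hcard⟩ := hcos
  -- orders at every coset
  have hper : ∀ x : s16i_Q ((q : ℕ) * p), ∃ o,
      s16i_LeadC r (qExpansion (((q : ℕ) * p : ℕ) : ℝ) (quotientFunc H x)) o ∧
        ((∃ i, x = c i) → o = (q : ℕ) * p) := by
    intro x
    by_cases hx : ∃ i, x = c i
    · obtain ⟨i, rfl⟩ := hx
      obtain ⟨h1, h2, h3⟩ := hcs i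
      obtain ⟨o', ho', himp⟩ := hconj (γs i)
      refine ⟨o', ?_, fun _ => himp h1 h2⟩
      rw [h3 H, hHfun]
      exact ho'
    · obtain ⟨γ, hγ⟩ := hrep H x
      obtain ⟨o', ho', -⟩ := hconj γ
      refine ⟨o', ?_, fun h => absurd h hx⟩
      rw [hγ, hHfun]
      exact ho'
  choose o ho using hper
  -- the total order
  have hsum : p * ((q : ℕ) * p) ≤ ∑ x : s16i_Q ((q : ℕ) * p), o x := by
    classical
    calc p * ((q : ℕ) * p) = ∑ _i : Fin p, (q : ℕ) * p := by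
          rw [Finset.sum_const, Finset.card_univ, Fintype.card_fin, smul_eq_mul]
      _ = ∑ i : Fin p, o (c i) := by
          refine Finset.sum_congr rfl fun i _ => ?_
          exact ((ho (c i)).2 ⟨i, rfl⟩).symm
      _ = ∑ x ∈ Finset.univ.image c, o x := by
          rw [Finset.sum_image]
          intro a _ b _ hab
          exact hcinj hab
      _ ≤ ∑ x : s16i_Q ((q : ℕ) * p), o x :=
          Finset.sum_le_sum_of_subset (Finset.subset_univ _)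
  -- the norm
  have hL : s16i_LeadC r (qExpansion (((q : ℕ) * p : ℕ) : ℝ) (ModularForm.norm 𝒮ℒ H))
      (∑ x : s16i_Q ((q : ℕ) * p), o x) := by
    rw [s16i_qExpansion_norm]
    exact s16i_LeadC_prod r Finset.univ _ o fun x _ => (ho x).1
  -- the Miller bound
  have hw4 : (4 : ℤ) ∣ (2 : ℤ) * ((Nat.card (s16i_Q ((q : ℕ) * p)) : ℕ) : ℤ) := by
    rw [hcard]
    obtain ⟨t, ht⟩ := h2
    rw [ht]
    exact ⟨t, by push_cast; ring⟩
  have hmill := s16b_miller_period (s16i_rJ r) hw4 hMpos (ModularForm.norm 𝒮ℒ H) (by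
    intro n hn
    rw [s16i_mem_rJ]
    apply s16i_LeadC_low r hL n
    have hw : ((2 : ℤ) * ((Nat.card (s16i_Q ((q : ℕ) * p)) : ℕ) : ℤ)).toNat / 12 =
        ((q : ℕ) + 1) * (p + 1) / 6 := by
      rw [hcard]
      have : ((2 : ℤ) * ((((q : ℕ) + 1) * (p + 1) : ℕ) : ℤ)).toNat =
          2 * (((q : ℕ) + 1) * (p + 1)) := by
        have : (2 : ℤ) * ((((q : ℕ) + 1) * (p + 1) : ℕ) : ℤ) =
            ((2 * (((q : ℕ) + 1) * (p + 1)) : ℕ) : ℤ) := by push_cast; ring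
        rw [this, Int.toNat_natCast]
      rw [this]
      omega
    rw [hw] at hn
    calc n ≤ (q : ℕ) * p * (((q : ℕ) + 1) * (p + 1) / 6) := hn
      _ < (q : ℕ) * p * p := Nat.mul_lt_mul_of_pos_left hbound hMpos
      _ = p * ((q : ℕ) * p) := by ring
      _ ≤ _ := hsum) (∑ x : s16i_Q ((q : ℕ) * p), o x)
  exact s16i_LeadC_not_all r hL ((s16i_mem_rJ r _).mp hmill)

end

/-- **N4**: no `G ≡ const (mod 9)`-type form for `p ≡ 2 (mod 3)`. -/
theorem s16i_N4_of (p : ℕ) [Fact p.Prime] (h7 : 7 ≤ p) (hkit : s16i_KitConj p)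
    (hcos : s16i_CosetData 2 p) (h : p % 3 = 2) : s16_NoG p 3 2 := by
  have hpp : p.Prime := Fact.out
  have hodd : p % 2 = 1 := by
    rcases hpp.eq_two_or_odd with h2 | h2
    · omega
    · exact h2
  refine s16i_main 3 p ⟨2, by norm_num⟩ Nat.prime_two (by norm_num) ?_ 2 (by norm_num) 8
    (by norm_num) (by norm_num) ?_ (by norm_num) ?_ ?_ hkit hcos
  · intro h3
    have := Nat.mod_eq_zero_of_dvd h3
    omega
  · have : ((p : ℤ) + 1) % 3 = 0 := by omega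
    simpa using Int.dvd_of_emod_eq_zero this
  · show 2 ∣ (2 + 1) * (p + 1)
    exact Nat.dvd_of_mod_eq_zero (by omega)
  · show (2 + 1) * (p + 1) / 6 < p
    omega

/-- **N6**: no `G ≡ const (mod 8)`-type form for `p ≡ 3 (mod 4)`. -/
theorem s16i_N6_of (p : ℕ) [Fact p.Prime] (h7 : 7 ≤ p) (hkit : s16i_KitConj p)
    (hcos : s16i_CosetData 3 p) (h : p % 4 = 3) : s16_NoG p 2 3 := by
  refine s16i_main 2 p ⟨3, by norm_num⟩ Nat.prime_three (by norm_num) ?_ 3 (by norm_num) 3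
    (by norm_num) (by norm_num) ?_ (by norm_num) ?_ ?_ hkit hcos
  · intro h3
    have := Nat.mod_eq_zero_of_dvd h3
    omega
  · have : ((p : ℤ) + 1) % 4 = 0 := by omega
    have h4 := Int.dvd_of_emod_eq_zero this
    norm_num
    exact h4
  · show 2 ∣ (3 + 1) * (p + 1)
    exact Nat.dvd_of_mod_eq_zero (by omega)
  · show (3 + 1) * (p + 1) / 6 < p
    omega

end Fermat.Agent.Lib.S16
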