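import Fermat.Agent.Lib.S16.ICore
import Fermat.Agent.Lib.S16.IOr

/-!
# S16 / package (I): reduction modulo `r` of complex power series with `r`-integral coefficients

`s16i_LeadC r F o`: the complex power series `F` has coefficients in `𝒪_(r)` and its reduction
modulo `r 𝒪_(r)` has a unit leading coefficient at order `o`.
-/

set_option autoImplicit false

open PowerSeries

namespace Fermat.Agent.Lib.S16

variable (r : ℕ) [Fact r.Prime]

/-- The ideal `r 𝒪_(r)`. -/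
def s16i_rI : Ideal (s16i_O r) := Ideal.span {((r : ℕ) : s16i_O r)}

theorem s16i_mem_rI_iff (x : s16i_O r) :
    x ∈ s16i_rI r ↔ ∃ y ∈ s16i_O r, (x : ℂ) = (r : ℂ) * y := by
  rw [s16i_rI, Ideal.mem_span_singleton']
  constructor
  · rintro ⟨a, ha⟩
    refine ⟨a, a.2, ?_⟩
    rw [← ha]
    push_cast
    ring
  · rintro ⟨y, hy, hxy⟩
    refine ⟨⟨y, hy⟩, ?_⟩
    apply Subtype.ext
    push_cast
    rw [hxy]
    ring

theorem s16i_rI_ne_top : s16i_rI r ≠ ⊤ := by
  intro h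
  have h1 : (1 : s16i_O r) ∈ s16i_rI r := by rw [h]; trivial
  obtain ⟨y, hy, h1y⟩ := (s16i_mem_rI_iff r 1).mp h1
  exact s16i_one_not_mem r y hy (by rw [← h1y]; simp)

instance s16i_nontrivial_quot : Nontrivial (s16i_O r ⧸ s16i_rI r) :=
  Ideal.Quotient.nontrivial_iff.mpr (s16i_rI_ne_top r)

/-- `F` has `r`-integral coefficients and its reduction modulo `r` has a unit leading coefficient
at order `o`. -/
def s16i_LeadC (F : PowerSeries ℂ) (o : ℕ) : Prop :=
  ∃ P : PowerSeries (s16i_O r), P.map (s16i_O r).subtype = F ∧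
    s16i_Lead (P.map (Ideal.Quotient.mk (s16i_rI r))) o

theorem s16i_LeadC_int {F : PowerSeries ℂ} {o : ℕ} (h : s16i_LeadC r F o) (n : ℕ) :
    coeff n F ∈ s16i_O r := by
  obtain ⟨P, hP, -⟩ := h
  rw [← hP, coeff_map]
  exact (coeff n P).2

theorem s16i_LeadC_low {F : PowerSeries ℂ} {o : ℕ} (h : s16i_LeadC r F o) (n : ℕ) (hn : n < o) :
    ∃ y ∈ s16i_O r, coeff n F = (r : ℂ) * y := by
  obtain ⟨P, hP, hL⟩ := h
  have h0 := hL.1 n hn
  rw [coeff_map, Ideal.Quotient.eq_zero_iff_mem, s16i_mem_rI_iff] at h0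
  obtain ⟨y, hy, hxy⟩ := h0
  refine ⟨y, hy, ?_⟩
  rw [← hP, coeff_map]
  exact hxy

theorem s16i_LeadC_prod {ι : Type*} (s : Finset ι) (F : ι → PowerSeries ℂ) (o : ι → ℕ)
    (h : ∀ i ∈ s, s16i_LeadC r (F i) (o i)) :
    s16i_LeadC r (∏ i ∈ s, F i) (∑ i ∈ s, o i) := by
  classical
  have h' : ∀ i : ι, ∃ P : PowerSeries (s16i_O r), i ∈ s →
      (P.map (s16i_O r).subtype = F i ∧
        s16i_Lead (P.map (Ideal.Quotient.mk (s16i_rI r))) (o i)) := by
    intro i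
    by_cases hi : i ∈ s
    · obtain ⟨P, hP⟩ := h i hi
      exact ⟨P, fun _ => hP⟩
    · exact ⟨0, fun hi' => absurd hi' hi⟩
  choose P hP using h'
  refine ⟨∏ i ∈ s, P i, ?_, ?_⟩
  · rw [map_prod]
    exact Finset.prod_congr rfl fun i hi => (hP i hi).1
  · rw [map_prod]
    exact s16i_Lead_prod s _ o fun i hi => (hP i hi).2

/-- A series with a unit leading coefficient modulo `r` cannot have all its coefficients in
`r 𝒪_(r)`. -/
theorem s16i_LeadC_not_all {F : PowerSeries ℂ} {o : ℕ} (h : s16i_LeadC r F o)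
    (hall : ∃ y ∈ s16i_O r, coeff o F = (r : ℂ) * y) : False := by
  obtain ⟨P, hP, hL⟩ := h
  have hne := s16i_Lead_coeff_ne_zero hL
  apply hne
  rw [coeff_map, Ideal.Quotient.eq_zero_iff_mem, s16i_mem_rI_iff]
  obtain ⟨y, hy, hxy⟩ := hall
  refine ⟨y, hy, ?_⟩
  rw [← hP, coeff_map] at hxy
  exact hxy

/-- Units of `𝒪_(r)` stay units modulo `r`. -/
theorem s16i_isUnit_mk {x : s16i_O r} (hx : ∃ v ∈ s16i_O r, v * (x : ℂ) = 1) :
    IsUnit (Ideal.Quotient.mk (s16i_rI r) x) := by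
  obtain ⟨v, hv, hvx⟩ := hx
  have : (⟨v, hv⟩ : s16i_O r) * x = 1 := by
    apply Subtype.ext
    push_cast
    exact hvx
  exact IsUnit.of_mul_eq_one (Ideal.Quotient.mk (s16i_rI r) ⟨v, hv⟩) (by
    rw [mul_comm, ← map_mul, this, map_one])

/-- The constructor: a series `c₀ + b + r h` with `b` of exact order `o` (unit leading coefficient)
and `c₀` either a unit or a multiple of `r`. -/
theorem s16i_LeadC_of_decomp (F : PowerSeries ℂ) (c₀ : ℂ) (b h : ℕ → ℂ) (o : ℕ)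
    (hF : ∀ m, coeff m F = (if m = 0 then c₀ else 0) + b m + (r : ℂ) * h m)
    (hh : ∀ m, h m ∈ s16i_O r) (hb : ∀ m, b m ∈ s16i_O r) (hb0 : ∀ m < o, b m = 0) (ho : 0 < o)
    (hbo : ∃ v ∈ s16i_O r, v * b o = 1)
    (hc : (c₀ ∈ s16i_O r ∧ ∃ v ∈ s16i_O r, v * c₀ = 1) ∨ (∃ y ∈ s16i_O r, c₀ = (r : ℂ) * y)) :
    ∃ o', s16i_LeadC r F o' ∧ ((∃ y ∈ s16i_O r, c₀ = (r : ℂ) * y) → o' = o) := by
  have hc0 : c₀ ∈ s16i_O r := by
    rcases hc with hc | ⟨y, hy, rfl⟩
    · exact hc.1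
    · exact (s16i_O r).mul_mem (s16i_natCast_mem_O r r) hy
  have hmem : ∀ m, coeff m F ∈ s16i_O r := by
    intro m
    rw [hF m]
    refine (s16i_O r).add_mem ((s16i_O r).add_mem ?_ (hb m))
      ((s16i_O r).mul_mem (s16i_natCast_mem_O r r) (hh m))
    split_ifs
    · exact hc0
    · exact (s16i_O r).zero_mem
  set P : PowerSeries (s16i_O r) := PowerSeries.mk fun m => ⟨coeff m F, hmem m⟩ with hPdef
  have hP : P.map (s16i_O r).subtype = F := by
    ext m
    rw [coeff_map, hPdef, coeff_mk]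
    rfl
  have hcoeff : ∀ m, ((coeff m P : s16i_O r) : ℂ) = coeff m F := by
    intro m
    rw [hPdef, coeff_mk]
  have hrh : ∀ m, (⟨(r : ℂ) * h m, (s16i_O r).mul_mem (s16i_natCast_mem_O r r) (hh m)⟩ :
      s16i_O r) ∈ s16i_rI r := by
    intro m
    rw [s16i_mem_rI_iff]
    exact ⟨h m, hh m, rfl⟩
  by_cases hcr : ∃ y ∈ s16i_O r, c₀ = (r : ℂ) * y
  · -- order `o`
    refine ⟨o, ⟨P, hP, ?_, ?_⟩, fun _ => rfl⟩
    · intro m hm
      rw [coeff_map, Ideal.Quotient.eq_zero_iff_mem, s16i_mem_rI_iff, hcoeff, hF, hb0 m hm]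
      obtain ⟨y, hy, hcy⟩ := hcr
      by_cases hm0 : m = 0
      · refine ⟨y + h m, (s16i_O r).add_mem hy (hh m), ?_⟩
        rw [if_pos hm0, hcy]
        ring
      · refine ⟨h m, hh m, ?_⟩
        rw [if_neg hm0]
        ring
    · rw [coeff_map]
      have hsplit : coeff o P = ⟨b o, hb o⟩ +
          ⟨(r : ℂ) * h o, (s16i_O r).mul_mem (s16i_natCast_mem_O r r) (hh o)⟩ := by
        apply Subtype.ext
        push_cast
        rw [hcoeff, hF, if_neg ho.ne']
        ring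
      rw [hsplit, map_add, Ideal.Quotient.eq_zero_iff_mem.mpr (hrh o), add_zero]
      exact s16i_isUnit_mk r hbo
  · -- order `0`
    have hcu : c₀ ∈ s16i_O r ∧ ∃ v ∈ s16i_O r, v * c₀ = 1 := by
      rcases hc with hc | hc
      · exact hc
      · exact absurd hc hcr
    refine ⟨0, ⟨P, hP, ?_, ?_⟩, fun h' => absurd h' hcr⟩
    · intro m hm
      exact absurd hm (Nat.not_lt_zero m)
    · rw [coeff_map]
      have hsplit : coeff 0 P = ⟨c₀, hc0⟩ +
          ⟨(r : ℂ) * h 0, (s16i_O r).mul_mem (s16i_natCast_mem_O r r) (hh 0)⟩ := by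
        apply Subtype.ext
        push_cast
        rw [hcoeff, hF, if_pos rfl, hb0 0 ho]
        ring
      rw [hsplit, map_add, Ideal.Quotient.eq_zero_iff_mem.mpr (hrh 0), add_zero]
      exact s16i_isUnit_mk r hcu.2

end Fermat.Agent.Lib.S16
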